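/-
Project S36, model cell [M2], leaf **[C-REG]**, abstract half, part 2 (helper5).  Prefix `s36cr_`.

THE LOCAL EQUATION `z = W₂(G) - G` OF THE COMPONENT OF MULTIPLICITY `q - 1` HAS NO HORIZONTAL
ZEROS.

`S` = local ring of the MIDDLE chart (level `N'`) at an ordinary point, `C1` = its integral closure
in the function field `E1` of level `N' q`, free over `S` with power basis `1, G, …, G^q`
(`[ORD-G]`), `F` the characteristic polynomial of `G`, `θ = F'(G)`; `C2` = the integral closure of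
`C1` in the function field `E2` of level `N' q²`; `z ∈ C2` with `N_{E2/E1}(z) = unit · θ`.

* `s36cr_dvd_of_norm`  : `z ∣ θ` in `C2` (`Algebra.dvd_algebraMap_intNorm_self`);
* `s36cr_dvd_pi_pow`   : if the discriminant of the power basis lies in no height-one prime of `S`
  other than `(π)` (characteristic-zero unramifiedness, `ssm_thu_hH`), then `z ∣ π ^ k` in `C2`:
  every prime of `C2` containing `z` contains `π`  (`s36cr_pi_mem_of_mem`);
* `s36cr_deriv_assoc`  : two generators `x, y` of the same order `A[x] = A[y]` have associated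
  `f_x'(x)`, `f_y'(y)` (`traceForm_dualSubmodule_adjoin`): comparison of `θ_G` with `θ_λ` at the
  generic point of the component.
-/
import Mathlib
import Fermat.Agent.SS.Model.ThickDiscr

set_option autoImplicit false
set_option linter.unusedSectionVars false
set_option linter.unusedVariables false
set_option linter.style.haveILetI false

namespace Fermat.Agent.S36

open Fermat.Agent.SS Polynomial Module

section Norm

variable {C1 C2 E1 E2 : Type*} [CommRing C1] [IsDomain C1] [IsIntegrallyClosed C1]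
  [CommRing C2] [IsDomain C2] [IsIntegrallyClosed C2] [Algebra C1 C2] [Module.Finite C1 C2]
  [IsTorsionFree C1 C2]
  [Field E1] [Field E2] [Algebra C1 E1] [IsFractionRing C1 E1] [Algebra C2 E2]
  [Algebra E1 E2] [Algebra C1 E2] [IsScalarTower C1 E1 E2] [IsScalarTower C1 C2 E2]
  [IsIntegralClosure C2 C1 E2] [FiniteDimensional E1 E2]

/-- **`z` divides its norm**: if `N_{E2/E1}(z) = u θ` with `u` a unit of `C1`, then `z ∣ θ` in
`C2`. -/
theorem s36cr_dvd_of_norm (z : C2) (θ u : C1) (hu : IsUnit u)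
    (hN : Algebra.norm E1 (algebraMap C2 E2 z) = algebraMap C1 E1 (u * θ)) :
    z ∣ algebraMap C1 C2 θ := by
  have h1 : algebraMap C1 E1 (Algebra.intNorm C1 C2 z) = algebraMap C1 E1 (u * θ) := by
    rw [Algebra.algebraMap_intNorm (A := C1) (K := E1) (L := E2) (B := C2) z, hN]
  have h2 : Algebra.intNorm C1 C2 z = u * θ := IsFractionRing.injective C1 E1 h1
  have h3 : z ∣ algebraMap C1 C2 (u * θ) := h2 ▸ Algebra.dvd_algebraMap_intNorm_self C1 C2 z
  rw [map_mul] at h3
  exact (IsUnit.dvd_mul_left (hu.map (algebraMap C1 C2))).1 h3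

end Norm

section Horiz

variable {S C1 C2 : Type*} [CommRing S] [IsDomain S] [CharZero S] [IsNoetherianRing S]
  [IsIntegrallyClosed S] [CommRing C1] [IsDomain C1] [Algebra S C1]
  [CommRing C2] [Algebra C1 C2] [Algebra S C2] [IsScalarTower S C1 C2]

/-- **[C-REG] (c)**: `z ∣ π ^ k` in `C2`. -/
theorem s36cr_dvd_pi_pow (n : ℕ) (b : Basis (Fin n) S C1) (G : C1) (hb : ∀ i, b i = G ^ (i : ℕ))
    (F : S[X]) (hF : F.Monic) (hdeg : F.natDegree = n) (hFG : aeval G F = 0)
    (π : S) (hπ : Prime π)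
    (hunr : ∀ 𝔭 : Ideal S, 𝔭.IsPrime → 𝔭.height = 1 → π ∉ 𝔭 → Algebra.discr S b ∉ 𝔭)
    (z : C2) (hz : z ∣ algebraMap C1 C2 (aeval G (derivative F))) :
    ∃ k : ℕ, z ∣ algebraMap S C2 π ^ k := by
  obtain ⟨k, hk⟩ := ssm_thd_T4 n b G hb F hF hdeg hFG π hπ hunr
  refine ⟨k, ?_⟩
  rw [Ideal.mem_span_singleton] at hk
  obtain ⟨c, hc⟩ := hk
  have h1 : algebraMap S C2 π ^ k = algebraMap C1 C2 (algebraMap S C1 π ^ k) := by
    rw [map_pow, ← IsScalarTower.algebraMap_apply]
  rw [h1, hc, map_mul]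
  exact Dvd.dvd.mul_right hz _

/-- every prime of `C2` containing `z` contains `π`. -/
theorem s36cr_pi_mem_of_mem {ϖ z : C2} (k : ℕ) (hk : z ∣ ϖ ^ k) (𝔮 : Ideal C2) [h𝔮 : 𝔮.IsPrime]
    (hz : z ∈ 𝔮) : ϖ ∈ 𝔮 := by
  obtain ⟨c, hc⟩ := hk
  have : ϖ ^ k ∈ 𝔮 := by rw [hc]; exact Ideal.mul_mem_right _ _ hz
  exact h𝔮.mem_of_pow_mem k this

end Horiz

section Assoc

variable {A K L : Type*} [CommRing A] [IsDomain A] [IsIntegrallyClosed A] [Field K] [Field L]
  [Algebra A K] [IsFractionRing A K] [Algebra K L] [Algebra A L] [IsScalarTower A K L]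
  [FiniteDimensional K L] [Algebra.IsSeparable K L]

open Pointwise in
/-- **comparison of two generators**: if `A[x] = A[y]` (both integral over `A` and generating
`L / K`) then `f_x'(x) = b · f_y'(y)` with `b` a unit of the order `A[x]`. -/
theorem s36cr_deriv_assoc (x y : L) (hx : IsIntegral A x) (hy : IsIntegral A y)
    (hKx : Algebra.adjoin K {x} = ⊤) (hKy : Algebra.adjoin K {y} = ⊤)
    (hxy : Algebra.adjoin A {x} = Algebra.adjoin A {y}) :
    ∃ b ∈ Algebra.adjoin A {x}, ∃ b' ∈ Algebra.adjoin A {x}, b * b' = 1 ∧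
      aeval x (derivative (minpoly K x)) = b * aeval y (derivative (minpoly K y)) := by
  obtain ⟨dx, hdx⟩ : ∃ d : L, d = aeval x (derivative (minpoly K x)) := ⟨_, rfl⟩
  obtain ⟨dy, hdy⟩ : ∃ d : L, d = aeval y (derivative (minpoly K y)) := ⟨_, rfl⟩
  have hdx0 : dx ≠ 0 := by
    rw [hdx]
    exact (Algebra.IsSeparable.isSeparable K x).aeval_derivative_ne_zero (minpoly.aeval K x)
  have hdy0 : dy ≠ 0 := by
    rw [hdy]
    exact (Algebra.IsSeparable.isSeparable K y).aeval_derivative_ne_zero (minpoly.aeval K y)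
  have e1 := traceForm_dualSubmodule_adjoin A K hKx hx
  have e2 := traceForm_dualSubmodule_adjoin A K hKy hy
  rw [← hxy] at e2
  rw [e1, ← hdx, ← hdy] at e2
  -- `dx⁻¹ • B = dy⁻¹ • B`, `B = A[x]`
  have h1B : (1 : L) ∈ Subalgebra.toSubmodule (Algebra.adjoin A {x}) :=
    (Algebra.adjoin A {x}).one_mem
  have m1 : dx⁻¹ ∈ dy⁻¹ • Subalgebra.toSubmodule (Algebra.adjoin A {x}) := by
    rw [← e2]
    exact ⟨1, h1B, by simp⟩
  have m2 : dy⁻¹ ∈ dx⁻¹ • Subalgebra.toSubmodule (Algebra.adjoin A {x}) := by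
    rw [e2]
    exact ⟨1, h1B, by simp⟩
  obtain ⟨b', hb', hb'eq⟩ := m1
  obtain ⟨b, hb, hbeq⟩ := m2
  have hb'eq' : dy⁻¹ * b' = dx⁻¹ := by simpa using hb'eq
  have hbeq' : dx⁻¹ * b = dy⁻¹ := by simpa using hbeq
  refine ⟨b, hb, b', hb', ?_, ?_⟩
  · have : dx⁻¹ * (b * b') = dx⁻¹ * 1 := by
      rw [mul_one, ← mul_assoc, hbeq', hb'eq']
    exact mul_left_cancel₀ (inv_ne_zero hdx0) this
  · rw [← hdx, ← hdy]
    have h : dx⁻¹ * b * dy = 1 := by rw [hbeq', inv_mul_cancel₀ hdy0]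
    have h2 : dx * (dx⁻¹ * b * dy) = dx * 1 := by rw [h]
    rw [mul_one, ← mul_assoc, ← mul_assoc, mul_inv_cancel₀ hdx0, one_mul] at h2
    exact h2.symm

end Assoc

section Mono

variable {A B : Type*} [CommRing A] [CommRing B] [Algebra A B] [Module.Finite A B]

/-- **monogenicity by CRT + Nakayama**: `π` in the Jacobson radical of `A`, `P1 ∩ P2 ⊆ π B`,
`B = A + P1`, `B = A[x] + P2`, and an element `e ∈ A[x]` with `e ∈ P2`, `1 - e ∈ P1`:
then `B = A[x]`. -/
theorem s36cr_adjoin_eq_top (π : A) (hπ : π ∈ (⊥ : Ideal A).jacobson) (x : B) (P1 P2 : Ideal B)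
    (hcap : ∀ b ∈ P1 ⊓ P2, ∃ c : B, b = algebraMap A B π * c)
    (h1 : ∀ b : B, ∃ a : A, b - algebraMap A B a ∈ P1)
    (h2 : ∀ b : B, ∃ p ∈ Algebra.adjoin A {x}, b - p ∈ P2)
    (he : ∃ e ∈ Algebra.adjoin A {x}, e ∈ P2 ∧ 1 - e ∈ P1) :
    Algebra.adjoin A {x} = ⊤ := by
  obtain ⟨e, heA, he2, he1⟩ := he
  set N : Submodule A B := Subalgebra.toSubmodule (Algebra.adjoin A {x}) with hN
  have hfg : (⊤ : Submodule A B).FG := Module.Finite.fg_top
  have hle : (⊤ : Submodule A B) ≤ N ⊔ (Ideal.span {π} : Ideal A) • (⊤ : Submodule A B) := by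
    intro b _
    obtain ⟨a, ha⟩ := h1 b
    obtain ⟨p, hp, hpb⟩ := h2 b
    set b' : B := p * (1 - e) + algebraMap A B a * e with hb'
    have hb'N : b' ∈ N := by
      have h1e : (1 - e) ∈ Algebra.adjoin A {x} := Subalgebra.sub_mem _ (Subalgebra.one_mem _) heA
      exact Subalgebra.add_mem _ (Subalgebra.mul_mem _ hp h1e)
        (Subalgebra.mul_mem _ (Subalgebra.algebraMap_mem _ a) heA)
    have hd2 : b - b' ∈ P2 := by
      have : b - b' = (b - p) + (p - algebraMap A B a) * e := by rw [hb']; ring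
      rw [this]
      exact Ideal.add_mem _ hpb (Ideal.mul_mem_left _ _ he2)
    have hd1 : b - b' ∈ P1 := by
      have : b - b' = (b - algebraMap A B a) + (algebraMap A B a - p) * (1 - e) := by
        rw [hb']; ring
      rw [this]
      exact Ideal.add_mem _ ha (Ideal.mul_mem_left _ _ he1)
    obtain ⟨c, hc⟩ := hcap (b - b') ⟨hd1, hd2⟩
    have hb : b = b' + π • c := by
      rw [Algebra.smul_def, ← hc]; ring
    rw [hb]
    refine Submodule.add_mem_sup hb'N ?_
    exact Submodule.smul_mem_smul (Ideal.mem_span_singleton_self π) Submodule.mem_top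
  have hjac : (Ideal.span {π} : Ideal A) ≤ (⊥ : Ideal A).jacobson := by
    rw [Ideal.span_singleton_le_iff_mem]; exact hπ
  have hNtop : (⊤ : Submodule A B) ≤ N :=
    Submodule.le_of_le_smul_of_le_jacobson_bot hfg hjac hle
  rw [eq_top_iff]
  intro b _
  exact hNtop (Submodule.mem_top : b ∈ (⊤ : Submodule A B))

end Mono

end Fermat.Agent.S36
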