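/-
Project S36, model cell [M2], leaf **[C-REG-INST] (H)**, generic part (helper2).  Prefix `s36ch_`.

THE HORIZONTAL INPUT `hunr` OF `s36cr_dvd_pi_pow` FROM CHARACTERISTIC-ZERO UNRAMIFIEDNESS.

`S` a noetherian integrally closed domain with fraction field `K ⊇ K0` (`K / K0` finite, `K0` the
"small" field, e.g. `L(λ)`), `E / K` finite, `C1 := integralClosure S E`.

* `s36ch_discr_notMem` : if `E` is unramified over the discrete valuation rings `S_𝔭 ∩ K0`
  (`𝔭` of height one, `π ∉ 𝔭`), then the discriminant of ANY basis of `C1` over `S` lies in no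
  height-one prime of `S` other than those containing `π`  (= `hunr` of `s36cr_dvd_pi_pow`
  verbatim, `C1 := integralClosure S E`).
* `s36ch_discr_notMem_of_T` : the same from the pair `(hH, hT)` of S34 (`ssm_thc_hunr`): `E` is
  unramified over every discrete valuation ring of `K0` containing a set `T`, and the elements of
  `T` become regular on `Spec S[1/π]`.
* `s36ch_unram_transport` : transport of `jt_Unram` along a compatible pair of ring isomorphisms
  `S ≃+* S'`, `E ≃+* E'`; `s36ch_unramAt_of_equiv` : two embeddings `K0 → E` differing by an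
  automorphism of `E` (e.g. `α` and `β = W_q ∘ α`) have the same `jt_UnramAt`.
* `s36ch_dvd_pi_pow` : packaged with `s36cr_dvd_pi_pow`: for a power basis `1, G, …` of `C1`,
  `F` monic of degree `n` killing `G`, and `z ∣ F'(G)` in a `C1`-algebra `C2`: `z ∣ π ^ k`.
-/
import Mathlib
import Fermat.Agent.SS.Model.ThickUnram
import Fermat.Agent.SS.Model.ThickCover
import Fermat.Agent.S36.CReg.Horiz

set_option autoImplicit false
set_option linter.unusedSectionVars false
set_option linter.unusedVariables false
set_option linter.style.haveILetI false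

namespace Fermat.Agent.S36

open Fermat.Agent.JT3 Fermat.Agent.SS Polynomial Module

section Generic

variable {S : Type*} [CommRing S] [IsDomain S] [IsNoetherianRing S] [IsIntegrallyClosed S]
  (K0 K E : Type*) [Field K0] [CharZero K0] [Field K] [Field E] [Algebra K0 K] [Algebra K E]
  [Algebra K0 E] [IsScalarTower K0 K E] [FiniteDimensional K0 K]
  [Algebra S K] [IsFractionRing S K] [Algebra S E] [IsScalarTower S K E] [FiniteDimensional K E]

/-- **`hunr` from unramifiedness over the discrete valuation rings of the small field.** -/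
theorem s36ch_discr_notMem (π : S)
    (hunr : ∀ (p : Ideal S) [p.IsPrime], p.height = 1 → π ∉ p →
      jt_UnramAt (ti_under K0 (el_bd_loc K p).toSubring) E)
    (n : ℕ) (b : Basis (Fin n) S (integralClosure S E)) :
    ∀ 𝔭 : Ideal S, 𝔭.IsPrime → 𝔭.height = 1 → π ∉ 𝔭 → Algebra.discr S b ∉ 𝔭 := by
  haveI : CharZero K := charZero_of_injective_algebraMap (algebraMap K0 K).injective
  haveI : Algebra.IsSeparable K E := inferInstance
  haveI : Module.Finite S (integralClosure S E) := IsIntegralClosure.finite S K E _
  haveI : IsIntegrallyClosed (integralClosure S E) :=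
    integralClosure.isIntegrallyClosedOfFiniteExtension K
  haveI := el_sm_isTorsionFree (R := S) K E
  haveI := el_sm_isSeparable (R := S) K E
  intro 𝔭 h𝔭 h1 hq𝔭
  haveI := h𝔭
  refine el_discr_notMem_of_isUnramifiedAt b 𝔭 h1 ?_
  intro P hP hPp
  haveI := hP
  have hP0 : P ≠ ⊥ := by
    intro h0
    have hne : 𝔭 ≠ ⊥ := Ideal.ne_bot_of_height_eq_one h1
    apply hne
    rw [← hPp, h0]
    ext x
    simp only [Ideal.under, Ideal.mem_comap, Ideal.mem_bot]
    constructor
    · intro hx
      exact (el_sm_algebraMap_injective (R := S) K E) (by rw [hx, map_zero])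
    · intro hx
      rw [hx, map_zero]
  exact ssm_thu_hH K0 K E 𝔭 h1 (hunr 𝔭 h1 hq𝔭) P hP0 hPp

/-- **`hunr` from `(hH, hT)`** (the S34 pair): `E` unramified over every discrete valuation ring of
`K0` containing `T`; every element of `T` is regular on `Spec S[1/q₀]`. -/
theorem s36ch_discr_notMem_of_T (q₀ : ℕ) (T : Set K0)
    (hH : ∀ (V2 : Subring K0) [IsDiscreteValuationRing V2] [IsFractionRing V2 K0],
      (∀ z ∈ T, z ∈ V2) → jt_UnramAt V2 E)
    (hT : ∀ z ∈ T, ∃ (k : ℕ) (s : S), algebraMap K0 K z * algebraMap S K (q₀ : S) ^ k =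
      algebraMap S K s)
    (n : ℕ) (b : Basis (Fin n) S (integralClosure S E)) :
    ∀ 𝔭 : Ideal S, 𝔭.IsPrime → 𝔭.height = 1 → (q₀ : S) ∉ 𝔭 → Algebra.discr S b ∉ 𝔭 :=
  s36ch_discr_notMem K0 K E (q₀ : S)
    (fun p _ hp hq => ssm_thc_hunr K0 K E T hH hT p hp hq) n b

/-- **Packaged**: `z ∣ F'(G)` in a `C1`-algebra `C2` (`C1 = integralClosure S E = S[G]`)
gives `z ∣ q₀ ^ k`. -/
theorem s36ch_dvd_pi_pow (q₀ : ℕ) (hq : Prime (q₀ : S)) (T : Set K0)
    (hH : ∀ (V2 : Subring K0) [IsDiscreteValuationRing V2] [IsFractionRing V2 K0],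
      (∀ z ∈ T, z ∈ V2) → jt_UnramAt V2 E)
    (hT : ∀ z ∈ T, ∃ (k : ℕ) (s : S), algebraMap K0 K z * algebraMap S K (q₀ : S) ^ k =
      algebraMap S K s)
    {C2 : Type*} [CommRing C2] [Algebra (integralClosure S E) C2] [Algebra S C2]
    [IsScalarTower S (integralClosure S E) C2]
    (n : ℕ) (b : Basis (Fin n) S (integralClosure S E)) (G : integralClosure S E)
    (hb : ∀ i, b i = G ^ (i : ℕ)) (F : S[X]) (hF : F.Monic) (hdeg : F.natDegree = n)
    (hFG : aeval G F = 0) (z : C2)
    (hz : z ∣ algebraMap (integralClosure S E) C2 (aeval G (derivative F))) :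
    ∃ k : ℕ, z ∣ algebraMap S C2 (q₀ : S) ^ k := by
  haveI : CharZero K := charZero_of_injective_algebraMap (algebraMap K0 K).injective
  haveI : CharZero S := RingHom.charZero (algebraMap S K)
  exact s36cr_dvd_pi_pow n b G hb F hF hdeg hFG (q₀ : S) hq
    (s36ch_discr_notMem_of_T K0 K E q₀ T hH hT n b) z hz

end Generic

section Transport

variable {S S' E E' : Type*} [CommRing S] [CommRing S'] [Field E] [Field E'] [Algebra S E]
  [Algebra S' E']

theorem s36ch_isIntegral_map (s : S →+* S') (W : E →+* E')
    (hW : ∀ x : S, W (algebraMap S E x) = algebraMap S' E' (s x)) {x : E} (hx : IsIntegral S x) :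
    IsIntegral S' (W x) := by
  obtain ⟨p, hp, hpx⟩ := hx
  refine ⟨p.map s, hp.map _, ?_⟩
  rw [Polynomial.eval₂_map]
  have e : (algebraMap S' E').comp s = W.comp (algebraMap S E) := by
    ext x
    simp [hW]
  rw [e, ← Polynomial.hom_eval₂, hpx, map_zero]

/-- the induced isomorphism of integral closures -/
noncomputable def s36ch_icEquiv (s : S ≃+* S') (W : E ≃+* E')
    (hW : ∀ x : S, W (algebraMap S E x) = algebraMap S' E' (s x)) :
    integralClosure S E ≃+* integralClosure S' E' where
  toFun x := ⟨W x, s36ch_isIntegral_map (s : S →+* S') (W : E →+* E') hW x.2⟩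
  invFun y := ⟨W.symm y, s36ch_isIntegral_map (s.symm : S' →+* S) (W.symm : E' →+* E)
    (fun x => by
      have h := hW (s.symm x)
      rw [RingEquiv.apply_symm_apply] at h
      simp only [RingEquiv.coe_toRingHom]
      rw [← h, RingEquiv.symm_apply_apply]) y.2⟩
  left_inv x := Subtype.ext (W.symm_apply_apply _)
  right_inv y := Subtype.ext (W.apply_symm_apply _)
  map_mul' x y := Subtype.ext (map_mul W _ _)
  map_add' x y := Subtype.ext (map_add W _ _)

theorem s36ch_icEquiv_coe (s : S ≃+* S') (W : E ≃+* E')
    (hW : ∀ x : S, W (algebraMap S E x) = algebraMap S' E' (s x)) (x : integralClosure S E) :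
    ((s36ch_icEquiv s W hW x : integralClosure S' E') : E') = W (x : E) := rfl

theorem s36ch_icEquiv_algebraMap (s : S ≃+* S') (W : E ≃+* E')
    (hW : ∀ x : S, W (algebraMap S E x) = algebraMap S' E' (s x)) (x : S) :
    s36ch_icEquiv s W hW (algebraMap S (integralClosure S E) x) =
      algebraMap S' (integralClosure S' E') (s x) :=
  Subtype.ext (hW x)

/-- **Transport of the ramification seam** along a compatible pair of ring isomorphisms. -/
theorem s36ch_unram_transport (s : S ≃+* S') (W : E ≃+* E')
    (hW : ∀ x : S, W (algebraMap S E x) = algebraMap S' E' (s x)) (h : jt_Unram S E) :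
    jt_Unram S' E' := by
  intro P' hP' hP'0
  let ψ := s36ch_icEquiv s W hW
  let P : Ideal (integralClosure S E) := P'.comap (ψ : integralClosure S E →+* integralClosure S' E')
  haveI hP : P.IsPrime := Ideal.comap_isPrime _ P'
  have hP0 : P ≠ ⊥ := by
    intro h0
    apply hP'0
    rw [eq_bot_iff]
    intro y hy
    have : ψ.symm y ∈ P := by
      change ψ (ψ.symm y) ∈ P'
      rw [RingEquiv.apply_symm_apply]
      exact hy
    rw [h0, Ideal.mem_bot] at this
    have h2 := congrArg ψ this
    rw [RingEquiv.apply_symm_apply, map_zero] at h2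
    rw [Ideal.mem_bot, h2]
  have hU : Algebra.IsUnramifiedAt S P := h P hP0
  have hmap : P.primeCompl.map (ψ : integralClosure S E ≃+* integralClosure S' E').toMonoidHom =
      P'.primeCompl := by
    ext y
    constructor
    · rintro ⟨x, hx, rfl⟩
      exact hx
    · intro hy
      refine ⟨ψ.symm y, ?_, ψ.apply_symm_apply y⟩
      intro hmem
      apply hy
      have : ψ (ψ.symm y) ∈ P' := hmem
      rwa [RingEquiv.apply_symm_apply] at this
  let Λ : Localization.AtPrime P ≃+* Localization.AtPrime P' :=
    IsLocalization.ringEquivOfRingEquiv (Localization.AtPrime P) (Localization.AtPrime P') ψ hmap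
  letI aSS' : Algebra S S' := (s : S →+* S').toAlgebra
  letI aSA' : Algebra S (Localization.AtPrime P') :=
    ((algebraMap S' (Localization.AtPrime P')).comp (s : S →+* S')).toAlgebra
  haveI : IsScalarTower S S' (Localization.AtPrime P') := IsScalarTower.of_algebraMap_eq fun x => rfl
  let ΛA : Localization.AtPrime P ≃ₐ[S] Localization.AtPrime P' :=
    { Λ with
      commutes' := by
        intro x
        change Λ (algebraMap S (Localization.AtPrime P) x) =
          algebraMap S' (Localization.AtPrime P') (s x)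
        rw [IsScalarTower.algebraMap_apply S (integralClosure S E) (Localization.AtPrime P),
          IsLocalization.ringEquivOfRingEquiv_eq,
          IsScalarTower.algebraMap_apply S' (integralClosure S' E') (Localization.AtPrime P')]
        congr 1
        exact s36ch_icEquiv_algebraMap s W hW x }
  haveI : Algebra.FormallyUnramified S (Localization.AtPrime P) := hU
  haveI : Algebra.FormallyUnramified S (Localization.AtPrime P') :=
    Algebra.FormallyUnramified.of_equiv ΛA
  exact Algebra.FormallyUnramified.of_restrictScalars (R := S) (A := S')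
    (B := Localization.AtPrime P')

end Transport

section TwoAlgebras

variable {K0 E : Type*} [Field K0] [Field E]

/-- **Change of embedding.** Two `K0`-algebra structures `a1, a2` on the same field `E` which differ
by a ring automorphism `W` of `E` (`W ∘ a1 = a2`) have the same ramification seam over every
subring of `K0`. -/
theorem s36ch_unramAt_of_equiv (a1 a2 : Algebra K0 E) (W : E ≃+* E)
    (hW : ∀ x : K0, W (@algebraMap K0 E _ _ a1 x) = @algebraMap K0 E _ _ a2 x) (V2 : Subring K0)
    (h : @jt_UnramAt K0 _ V2 E _ a1) : @jt_UnramAt K0 _ V2 E _ a2 := by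
  have h1 : @jt_Unram ↥V2 E _ _ (@Algebra.ofSubsemiring K0 E _ _ a1 _ _ _ V2) := h
  have h2 : @jt_Unram ↥V2 E _ _ (@Algebra.ofSubsemiring K0 E _ _ a2 _ _ _ V2) :=
    @s36ch_unram_transport ↥V2 ↥V2 E E _ _ _ _ (@Algebra.ofSubsemiring K0 E _ _ a1 _ _ _ V2)
      (@Algebra.ofSubsemiring K0 E _ _ a2 _ _ _ V2) (RingEquiv.refl _) W (fun x => hW (x : K0)) h1
  exact h2

end TwoAlgebras

end Fermat.Agent.S36
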