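/-
Project S36, model cell [M2], leaf **[C-REG-INST] (H)**, Legendre tower (helper2).
Prefix `s36ch_`.

THE MIDDLE EMBEDDING.  `β : lg_E L N' → lg_E L (N' q)`, `f(X) ↦ f(X^q)` (`s36mc_beta`), makes
`E1 = lg_E L (N' q)` an algebra over `K = lg_E L N'` and over `K0 = lg_K L = L(λ)` in a SECOND way
(the first is the inclusion).  Since `β = W_q ∘ (inclusion)` (`ssm_al_coe_WE_of_mem`), the
ramification of `E1` over the discrete valuation rings of `K0` is the same for both embeddings.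

* `s36ch_algBeta`, `s36ch_algBetaK`, `s36ch_towerBeta` : the `β`-algebra structures and the tower
  `K0 → K → E1` (with the STANDARD `lgh_algKE : K0 → K`);
* `s36ch_leg_hH` : `hH` of `ssm_thc_hunr` / `s36ch_discr_notMem_of_T` for the `β`-structure, from
  `lg_RamHyp (N' q) (lgh_lamK L)` (`T = ssm_thi_T L`, helper8);
* `s36ch_leg_hunr` : the `hunr` hypothesis of `s36cr_dvd_pi_pow` for `S` = any presentation of the
  local ring of a level-`N'` chart `B'` at a prime `y0` with `λ, λ - 1 ∉ y0`, `E1` an `S`-algebra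
  THROUGH `β`, `C1 := integralClosure S E1`.
-/
import Mathlib
import Fermat.Agent.S36.CReg.HorizInst
import Fermat.Agent.SS.Model.ThickInst
import Fermat.Agent.S36.Model.Cusps2

set_option autoImplicit false
set_option linter.unusedSectionVars false
set_option linter.unusedVariables false
set_option linter.style.haveILetI false

noncomputable section

namespace Fermat.Agent.S36

open Fermat.Agent.JT3 Fermat.Agent.SS IsLocalRing ModularCurve

section Leg

variable (L : Type*) [Field L] [CharZero L] [Algebra L (AlgebraicClosure ℚ)]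
  (N' q : ℕ) [NeZero N'] [NeZero q]

attribute [local instance] lgh_algKE

/-- `E1 = lg_E L (N' q)` as an algebra over `K = lg_E L N'` through `β` (`f(X) ↦ f(X^q)`). -/
@[reducible] def s36ch_algBeta (hq2 : ¬ 2 ∣ q) : Algebra ↥(lg_E L N') ↥(lg_E L (N' * q)) :=
  (s36mc_beta L N' q hq2).toRingHom.toAlgebra

/-- `E1 = lg_E L (N' q)` as an algebra over `K0 = L(λ)` through `β`. -/
@[reducible] def s36ch_algBetaK (hq2 : ¬ 2 ∣ q) : Algebra ↥(lg_K L) ↥(lg_E L (N' * q)) :=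
  ((s36mc_beta L N' q hq2).toRingHom.comp (algebraMap ↥(lg_K L) ↥(lg_E L N'))).toAlgebra

theorem s36ch_algBeta_apply (hq2 : ¬ 2 ∣ q) (x : ↥(lg_E L N')) :
    @algebraMap ↥(lg_E L N') ↥(lg_E L (N' * q)) _ _ (s36ch_algBeta L N' q hq2) x =
      s36mc_beta L N' q hq2 x := rfl

theorem s36ch_algBetaK_apply (hq2 : ¬ 2 ∣ q) (x : ↥(lg_K L)) :
    @algebraMap ↥(lg_K L) ↥(lg_E L (N' * q)) _ _ (s36ch_algBetaK L N' q hq2) x =
      s36mc_beta L N' q hq2 (algebraMap ↥(lg_K L) ↥(lg_E L N') x) := rfl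

/-- the tower `L(λ) → lg_E L N' → lg_E L (N' q)` through `β`. -/
theorem s36ch_towerBeta (hq2 : ¬ 2 ∣ q) :
    @IsScalarTower ↥(lg_K L) ↥(lg_E L N') ↥(lg_E L (N' * q)) _
      (s36ch_algBeta L N' q hq2).toSMul (s36ch_algBetaK L N' q hq2).toSMul :=
  letI := s36ch_algBeta L N' q hq2
  letI := s36ch_algBetaK L N' q hq2
  IsScalarTower.of_algebraMap_eq fun _ => rfl

/-- **`hH` through `β`**: `E1` is unramified, for the `β`-structure, over every discrete valuation
ring of `L(λ)` containing `T = L ∪ {λ, λ⁻¹, (λ - 1)⁻¹}`. -/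
theorem s36ch_leg_hH (hq : q.Prime) (hq2 : ¬ 2 ∣ q) (hqN' : ¬ q ∣ N')
    (hram : lg_RamHyp (N' * q) (lgh_lamK L))
    (V2 : Subring (lg_K L)) [IsDiscreteValuationRing V2] [IsFractionRing V2 (lg_K L)]
    (h : ∀ z ∈ ssm_thi_T L, z ∈ V2) :
    @jt_UnramAt ↥(lg_K L) _ V2 ↥(lg_E L (N' * q)) _ (s36ch_algBetaK L N' q hq2) := by
  have h1 : jt_UnramAt V2 ↥(lg_E L (N' * q)) := ssm_thi_hH (N' * q) hram V2 h
  refine s36ch_unramAt_of_equiv (lgh_algKE L (N' * q)) (s36ch_algBetaK L N' q hq2)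
    (ssm_al_WE L N' q hq hq2 hqN').toRingEquiv ?_ V2 h1
  intro x
  apply Subtype.ext
  rw [s36ch_algBetaK_apply, s36mc_coe_beta]
  exact ssm_al_coe_WE_of_mem L N' q hq hq2 hqN' (lg_K_le_E L N' x.2) _

/-- `β (lg_E L N')` as an intermediate field of `lg_E L (N' q) / L`. -/
abbrev s36ch_subBeta : IntermediateField L ↥(lg_E L (N' * q)) :=
  ((lg_E L N').map (qExpandAlgHomC L q)).comap (lg_E L (N' * q)).val

/-- `β : lg_E L N' ≃ β (lg_E L N')`. -/
def s36ch_betaEquiv (hq2 : ¬ 2 ∣ q) : ↥(lg_E L N') ≃+* ↥(s36ch_subBeta L N' q) :=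
  RingEquiv.ofBijective
    ((s36mc_beta L N' q hq2).toRingHom.codRestrict (s36ch_subBeta L N' q)
      (fun x => ⟨(x : LaurentSeries L), x.2, rfl⟩))
    ⟨fun x y hxy => (s36mc_beta L N' q hq2).toRingHom.injective (congrArg Subtype.val hxy),
      fun y => by
        obtain ⟨z, hz, hzy⟩ := y.2
        exact ⟨⟨z, hz⟩, Subtype.ext (Subtype.ext hzy)⟩⟩

theorem s36ch_betaEquiv_coe (hq2 : ¬ 2 ∣ q) (x : ↥(lg_E L N')) :
    ((s36ch_betaEquiv L N' q hq2 x : ↥(s36ch_subBeta L N' q)) : ↥(lg_E L (N' * q))) =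
      s36mc_beta L N' q hq2 x := rfl

/-- `[lg_E L (N' q) : lg_E L N'] = q + 1` through `β`. -/
theorem s36ch_finrank_beta (hq : q.Prime) (hq2 : ¬ 2 ∣ q) (hqN' : ¬ q ∣ N') :
    @Module.finrank ↥(lg_E L N') ↥(lg_E L (N' * q)) _ _ (s36ch_algBeta L N' q hq2).toModule =
      q + 1 := by
  letI := s36ch_algBeta L N' q hq2
  have h1 : Module.finrank ↥(lg_E L N') ↥(lg_E L (N' * q)) =
      Module.finrank ↥(s36ch_subBeta L N' q) ↥(lg_E L (N' * q)) :=
    Algebra.finrank_eq_of_equiv_equiv (s36ch_betaEquiv L N' q hq2) (RingEquiv.refl _)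
      (by ext x; rfl)
  rw [h1, s36ch_subBeta, IntermediateField.finrank_comap, IntermediateField.fieldRange_val,
    ssm_al_E_eq L N' q hq2, ssm_f4 L N']
  exact ssm_al_relfinrank_beta L (ssm_f4_level N') q hq (ssm_al_not_dvd_level N' q hq hq2 hqN')

theorem s36ch_finiteDimensional_beta (hq : q.Prime) (hq2 : ¬ 2 ∣ q) (hqN' : ¬ q ∣ N') :
    @Module.Finite ↥(lg_E L N') ↥(lg_E L (N' * q)) _ _ (s36ch_algBeta L N' q hq2).toModule :=
  letI := s36ch_algBeta L N' q hq2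
  Module.finite_of_finrank_pos (by rw [s36ch_finrank_beta L N' q hq hq2 hqN']; omega)

/-- **`hunr` through `β`** (the hypothesis `hunr` of `s36cr_dvd_pi_pow`, Legendre tower): `O` a
discrete valuation ring of `L` with uniformiser `q`, `B'` a chart of level `N'` containing `λ`,
`y0` a prime of `B'` with `λ, λ - 1 ∉ y0`, `S` any presentation of the local ring of `B'` at `y0`;
`E1 = lg_E L (N' q)` is an `S`-algebra THROUGH `β`.  Then the discriminant of any `S`-basis of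
`integralClosure S E1` lies in no height-one prime of `S` not containing `q`. -/
theorem s36ch_leg_hunr (O : ValuationSubring L) [IsDiscreteValuationRing O] (hq : q.Prime)
    (hq2 : ¬ 2 ∣ q) (hqN' : ¬ q ∣ N') (hπ : Irreducible ((q : ℕ) : O))
    (hram : lg_RamHyp (N' * q) (lgh_lamK L))
    {B' : Subalgebra ↥O ↥(lg_E L N')} {y0 : Ideal B'} [y0.IsPrime]
    {S : Type*} [CommRing S] [IsDomain S] [IsNoetherianRing S] [IsIntegrallyClosed S]
    [Algebra B' S] [IsLocalization.AtPrime S y0]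
    [Algebra S ↥(lg_E L N')] [IsScalarTower B' S ↥(lg_E L N')] [IsFractionRing S ↥(lg_E L N')]
    (lam' : B') (hlam : (lam' : ↥(lg_E L N')) = lg_lamE N') (h0 : lam' ∉ y0)
    (h1 : lam' - 1 ∉ y0) :
    letI := s36ch_algBeta L N' q hq2
    ∀ [Algebra S ↥(lg_E L (N' * q))] [IsScalarTower S ↥(lg_E L N') ↥(lg_E L (N' * q))]
      (n : ℕ) (b : Module.Basis (Fin n) S (integralClosure S ↥(lg_E L (N' * q)))),
      ∀ 𝔭 : Ideal S, 𝔭.IsPrime → 𝔭.height = 1 → (q : S) ∉ 𝔭 → Algebra.discr S b ∉ 𝔭 := by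
  letI := s36ch_algBeta L N' q hq2
  intro _ _ n b
  letI := s36ch_algBetaK L N' q hq2
  haveI := s36ch_towerBeta L N' q hq2
  haveI := ssm_thi_charZero L
  haveI : FiniteDimensional ↥(lg_K L) ↥(lg_E L N') := lgf_tower_finite_K_E L N'
  haveI : FiniteDimensional ↥(lg_E L N') ↥(lg_E L (N' * q)) :=
    s36ch_finiteDimensional_beta L N' q hq hq2 hqN'
  exact s36ch_discr_notMem_of_T ↥(lg_K L) ↥(lg_E L N') ↥(lg_E L (N' * q)) q (ssm_thi_T L)
    (fun V2 _ _ h => s36ch_leg_hH L N' q hq hq2 hqN' hram V2 h)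
    (ssm_thi_hT O q N' hπ lam' hlam h0 h1) n b

end Leg

end Fermat.Agent.S36
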