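/-
Project S36 (Carayol), [M2] leaf [ORD-G], abstract half (helper16; prefix `s36og_`; Mathlib only).

Semilocal twin of `ssm_tha_mono` (SS/Model/ThickAbs.lean) at an ORDINARY point: `S` a local ring with
maximal ideal `(π, t)` (the local ring of the level-`N'` model at an ordinary closed point `y`),
`C ⊇ S` finite (the semilocal ring of the level-`N' q` model over `y`), `P1`, `P2` the two vertical
primes of `C`, which do NOT meet over `y` (`P1 ⊔ P2 = ⊤`), `P1 ⊓ P2 ⊆ π C`,
`C = S + P1` (first component isomorphic), and on the second (purely inseparable) component a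
uniformiser `u` with `u ^ q ≡ a t` and residue field `S / 𝔪`.

* `s36og_adjoin` : there is `G ∈ C` with `G ≡ 1 mod P1`, `G ≡ u mod P2` and `C = S[G]`;
* `s36og_powerBasis` : for `S` an integrally closed domain and `C` a torsion-free domain, `C` has the
  `S`-power basis `1, G, …` with generator `G`.
-/
import Mathlib

set_option autoImplicit false
set_option linter.unusedSectionVars false
set_option linter.unusedVariables false

namespace Fermat.Agent.S36

open IsLocalRing Polynomial

section OrdG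

variable {S D : Type*} [CommRing S] [CommRing D] [Algebra S D]

/-- `aeval G f - aeval u f ∈ span {G - u}`. -/
theorem s36og_aeval_sub_mem (G u : D) (f : S[X]) :
    aeval G f - aeval u f ∈ Ideal.span ({G - u} : Set D) := by
  rw [Ideal.mem_span_singleton]
  have h := Polynomial.sub_dvd_eval_sub G u (f.map (algebraMap S D))
  rwa [Polynomial.eval_map_algebraMap, Polynomial.eval_map_algebraMap] at h

/-- iterating `D = S + P2 + u D`: every `c` is a polynomial in `u` modulo `P2 + u^k D`. -/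
theorem s36og_expand (P2 : Ideal D) (u : D)
    (hres : ∀ c : D, ∃ s : S, c - algebraMap S D s ∈ P2 ⊔ Ideal.span {u}) (k : ℕ) :
    ∀ c : D, ∃ f : S[X], c - aeval u f ∈ P2 ⊔ Ideal.span {u ^ k} := by
  induction k with
  | zero =>
    intro c
    refine ⟨0, ?_⟩
    rw [pow_zero, Ideal.span_singleton_one, sup_top_eq]
    trivial
  | succ k ih =>
    intro c
    obtain ⟨f, hf⟩ := ih c
    obtain ⟨p, hp, y, hy, hpy⟩ := Submodule.mem_sup.1 hf
    obtain ⟨c', rfl⟩ := Ideal.mem_span_singleton'.1 hy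
    obtain ⟨s, hs⟩ := hres c'
    obtain ⟨p', hp', y', hy', hpy'⟩ := Submodule.mem_sup.1 hs
    obtain ⟨c'', rfl⟩ := Ideal.mem_span_singleton'.1 hy'
    refine ⟨f + Polynomial.C s * X ^ k, ?_⟩
    have e : c - aeval u (f + Polynomial.C s * X ^ k) = (p + u ^ k * p') + c'' * u ^ (k + 1) := by
      have h1 : c - aeval u f = p + c' * u ^ k := hpy.symm
      have h2 : c' - algebraMap S D s = p' + c'' * u := hpy'.symm
      have h3 : c' = algebraMap S D s + p' + c'' * u := by
        rw [← sub_eq_iff_eq_add'] at h2 ⊢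
        rw [← h2]; ring
      rw [map_add, map_mul, aeval_C, map_pow, aeval_X]
      have h4 : c = aeval u f + p + c' * u ^ k := by
        rw [← sub_eq_iff_eq_add'] at h1 ⊢
        rw [← h1]; ring
      rw [h4, h3]
      ring
    rw [e]
    exact Submodule.add_mem_sup (Ideal.add_mem _ hp (Ideal.mul_mem_left _ _ hp'))
      (Ideal.mul_mem_left _ _ (Ideal.subset_span rfl))

variable [IsLocalRing S] [Module.Finite S D]

/-- **[ORD-G], abstract.** -/
theorem s36og_adjoin (q : ℕ) (π t : S) (hm : maximalIdeal S = Ideal.span {π, t})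
    (P1 P2 : Ideal D) (hcap : P1 ⊓ P2 ≤ Ideal.span {algebraMap S D π})
    (hcomax : P1 ⊔ P2 = ⊤)
    (hiso : ∀ c : D, ∃ s : S, c - algebraMap S D s ∈ P1)
    (u : D) (a : S) (hu : u ^ q - algebraMap S D (a * t) ∈ P2)
    (hres : ∀ c : D, ∃ s : S, c - algebraMap S D s ∈ P2 ⊔ Ideal.span {u}) :
    ∃ G : D, G - 1 ∈ P1 ∧ G - u ∈ P2 ∧ Algebra.adjoin S {G} = ⊤ := by
  classical
  -- the idempotent-like element
  have h1 : (1 : D) ∈ P1 ⊔ P2 := by rw [hcomax]; trivial
  obtain ⟨e', he', e, he, hee⟩ := Submodule.mem_sup.1 h1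
  -- `e ∈ P2`, `e' = 1 - e ∈ P1`
  have he1 : 1 - e ∈ P1 := by
    have : 1 - e = e' := by rw [← hee]; ring
    rw [this]; exact he'
  set G : D := e + (1 - e) * u with hG
  have hG1 : G - 1 ∈ P1 := by
    have : G - 1 = (1 - e) * (u - 1) := by rw [hG]; ring
    rw [this]; exact Ideal.mul_mem_right _ _ he1
  have hG2 : G - u ∈ P2 := by
    have : G - u = e * (1 - u) := by rw [hG]; ring
    rw [this]; exact Ideal.mul_mem_right _ _ he
  refine ⟨G, hG1, hG2, ?_⟩
  -- the ideal `𝔪 D`
  set J : Ideal D := (maximalIdeal S).map (algebraMap S D) with hJ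
  have hπJ : algebraMap S D π ∈ J :=
    Ideal.mem_map_of_mem _ (by rw [hm]; exact Ideal.subset_span (by simp))
  have htJ : algebraMap S D t ∈ J :=
    Ideal.mem_map_of_mem _ (by rw [hm]; exact Ideal.subset_span (by simp))
  have hcapJ : ∀ x : D, x ∈ P1 → x ∈ P2 → x ∈ J := by
    intro x hx1 hx2
    have := hcap (Submodule.mem_inf.2 ⟨hx1, hx2⟩)
    obtain ⟨y, rfl⟩ := Ideal.mem_span_singleton'.1 this
    exact Ideal.mul_mem_left _ _ hπJ
  have hprodJ : ∀ x y : D, x ∈ P1 → y ∈ P2 → x * y ∈ J := fun x y hx hy =>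
    hcapJ _ (Ideal.mul_mem_right _ _ hx) (Ideal.mul_mem_left _ _ hy)
  set A : Subalgebra S D := Algebra.adjoin S {G} with hA
  have hGA : G ∈ A := Algebra.subset_adjoin rfl
  -- the subalgebra `A + J`
  let T : Subalgebra S D :=
    { carrier := {c | ∃ b ∈ A, c - b ∈ J}
      mul_mem' := by
        rintro c c' ⟨b, hb, hcb⟩ ⟨b', hb', hcb'⟩
        refine ⟨b * b', A.mul_mem hb hb', ?_⟩
        have : c * c' - b * b' = c * (c' - b') + b' * (c - b) := by ring
        rw [this]
        exact Ideal.add_mem _ (Ideal.mul_mem_left _ _ hcb') (Ideal.mul_mem_left _ _ hcb)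
      add_mem' := by
        rintro c c' ⟨b, hb, hcb⟩ ⟨b', hb', hcb'⟩
        refine ⟨b + b', A.add_mem hb hb', ?_⟩
        have : c + c' - (b + b') = (c - b) + (c' - b') := by ring
        rw [this]
        exact Ideal.add_mem _ hcb hcb'
      algebraMap_mem' := fun s => ⟨algebraMap S D s, A.algebraMap_mem s, by
        rw [sub_self]; exact J.zero_mem⟩ }
  have hT : ∀ c : D, c ∈ T ↔ ∃ b ∈ A, c - b ∈ J := fun c => Iff.rfl
  have hAT : ∀ c ∈ A, c ∈ T := fun c hc => (hT c).2 ⟨c, hc, by rw [sub_self]; exact J.zero_mem⟩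
  have hJT : ∀ c ∈ J, c ∈ T := fun c hc => (hT c).2 ⟨0, A.zero_mem, by rwa [sub_zero]⟩
  have hcongr : ∀ c c' : D, c - c' ∈ J → c' ∈ T → c ∈ T := by
    intro c c' h hc'
    have : c = (c - c') + c' := by ring
    rw [this]
    exact T.add_mem (hJT _ h) hc'
  -- (1) `e ≡ G ^ q`
  have hGq1 : G ^ q - 1 ∈ P1 := by
    have h := sub_dvd_pow_sub_pow G 1 q
    rw [one_pow] at h
    obtain ⟨y, hy⟩ := h
    rw [hy]; exact Ideal.mul_mem_right _ _ hG1
  have hGq2 : G ^ q - u ^ q ∈ P2 := by
    obtain ⟨y, hy⟩ := sub_dvd_pow_sub_pow G u q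
    rw [hy]; exact Ideal.mul_mem_right _ _ hG2
  have heT : e ∈ T := by
    refine hcongr e (G ^ q) ?_ (hAT _ (A.pow_mem hGA q))
    -- `w := G^q - e - a t (1 - e) ∈ P1 ⊓ P2`
    set w : D := G ^ q - e - algebraMap S D (a * t) * (1 - e) with hw
    have hw1 : w ∈ P1 := by
      have : w = (G ^ q - 1) + (1 - e) - algebraMap S D (a * t) * (1 - e) := by rw [hw]; ring
      rw [this]
      exact Ideal.sub_mem _ (Ideal.add_mem _ hGq1 he1) (Ideal.mul_mem_left _ _ he1)
    have hw2 : w ∈ P2 := by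
      have : w = (G ^ q - u ^ q) + (u ^ q - algebraMap S D (a * t))
          + algebraMap S D (a * t) * e - e := by rw [hw]; ring
      rw [this]
      exact Ideal.sub_mem _ (Ideal.add_mem _ (Ideal.add_mem _ hGq2 hu)
        (Ideal.mul_mem_left _ _ he)) he
    have hwJ : w ∈ J := hcapJ w hw1 hw2
    have hatJ : algebraMap S D (a * t) * (1 - e) ∈ J := by
      rw [map_mul, mul_assoc]
      exact Ideal.mul_mem_left _ _ (Ideal.mul_mem_right _ _ htJ)
    have : e - G ^ q = -(w + algebraMap S D (a * t) * (1 - e)) := by rw [hw]; ring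
    rw [this]
    exact J.neg_mem (Ideal.add_mem _ hwJ hatJ)
  -- (2) `e c ∈ T`
  have h2 : ∀ c : D, e * c ∈ T := by
    intro c
    obtain ⟨s, hs⟩ := hiso c
    refine hcongr (e * c) (e * algebraMap S D s) ?_ (T.mul_mem heT (T.algebraMap_mem s))
    have : e * c - e * algebraMap S D s = (c - algebraMap S D s) * e := by ring
    rw [this]
    exact hprodJ _ _ hs he
  -- (3) `(1 - e) c ∈ T`
  have h3 : ∀ c : D, (1 - e) * c ∈ T := by
    intro c
    obtain ⟨f, hf⟩ := s36og_expand P2 u hres q c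
    obtain ⟨p, hp, y, hy, hpy⟩ := Submodule.mem_sup.1 hf
    obtain ⟨c', rfl⟩ := Ideal.mem_span_singleton'.1 hy
    have h1eT : (1 - e) ∈ T := T.sub_mem T.one_mem heT
    have hfT : aeval G f ∈ T := hAT _ (by
      rw [hA]
      exact Polynomial.aeval_mem_adjoin_singleton S G)
    refine hcongr ((1 - e) * c) ((1 - e) * aeval G f) ?_ (T.mul_mem h1eT hfT)
    -- `c = aeval u f + p + c' u^q`
    have hc : c = aeval u f + p + c' * u ^ q := by
      have h1 : c - aeval u f = p + c' * u ^ q := hpy.symm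
      rw [← sub_eq_iff_eq_add'] at h1 ⊢
      rw [← h1]; ring
    have e1 : (1 - e) * c - (1 - e) * aeval G f =
        (1 - e) * p - (1 - e) * (aeval G f - aeval u f)
          + (1 - e) * (c' * (u ^ q - algebraMap S D (a * t)))
          + algebraMap S D t * (algebraMap S D a * ((1 - e) * c')) := by
      rw [hc, map_mul]; ring
    rw [e1]
    have hd : aeval G f - aeval u f ∈ P2 := by
      have := s36og_aeval_sub_mem G u f
      obtain ⟨y, hy⟩ := Ideal.mem_span_singleton'.1 this
      rw [← hy]; exact Ideal.mul_mem_left _ _ hG2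
    exact Ideal.add_mem _ (Ideal.add_mem _ (Ideal.sub_mem _ (hprodJ _ _ he1 hp)
      (hprodJ _ _ he1 hd)) (hprodJ _ _ he1 (Ideal.mul_mem_left _ _ hu)))
      (Ideal.mul_mem_right _ _ htJ)
  have hall : ∀ c : D, c ∈ T := by
    intro c
    have : c = e * c + (1 - e) * c := by ring
    rw [this]
    exact T.add_mem (h2 c) (h3 c)
  -- Nakayama
  have hfg : (⊤ : Submodule S D).FG := Module.Finite.fg_top
  have hjac : maximalIdeal S ≤ Ideal.jacobson ⊥ := by
    rw [IsLocalRing.jacobson_eq_maximalIdeal ⊥ bot_ne_top]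
  have hle : (⊤ : Submodule S D) ≤ Subalgebra.toSubmodule A ⊔ maximalIdeal S • ⊤ := by
    intro c _
    obtain ⟨b, hb, hcb⟩ := (hT c).1 (hall c)
    have : c = b + (c - b) := by ring
    rw [this]
    refine Submodule.add_mem_sup hb ?_
    rw [Ideal.smul_top_eq_map]
    exact hcb
  have := Submodule.le_of_le_smul_of_le_jacobson_bot hfg hjac hle
  rw [eq_top_iff]
  intro c _
  exact this (Submodule.mem_top)

/-- **[ORD-G], power basis form**: for `S` an integrally closed domain and `D` a torsion-free domain,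
`D` has an `S`-power basis with generator `G ≡ 1 mod P1`, `G ≡ u mod P2`, of dimension the degree of
the minimal polynomial of `G`. -/
theorem s36og_powerBasis [IsDomain S] [IsIntegrallyClosed S] [IsDomain D]
    [Module.IsTorsionFree S D] (q : ℕ) (π t : S)
    (hm : maximalIdeal S = Ideal.span {π, t})
    (P1 P2 : Ideal D) (hcap : P1 ⊓ P2 ≤ Ideal.span {algebraMap S D π})
    (hcomax : P1 ⊔ P2 = ⊤)
    (hiso : ∀ c : D, ∃ s : S, c - algebraMap S D s ∈ P1)
    (u : D) (a : S) (hu : u ^ q - algebraMap S D (a * t) ∈ P2)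
    (hres : ∀ c : D, ∃ s : S, c - algebraMap S D s ∈ P2 ⊔ Ideal.span {u}) :
    ∃ (G : D) (pb : PowerBasis S D), G - 1 ∈ P1 ∧ G - u ∈ P2 ∧ pb.gen = G ∧
      pb.dim = (minpoly S G).natDegree ∧ Algebra.adjoin S {G} = ⊤ := by
  obtain ⟨G, hG1, hG2, hadj⟩ := s36og_adjoin q π t hm P1 P2 hcap hcomax hiso u a hu hres
  have hint : IsIntegral S G := Algebra.IsIntegral.isIntegral G
  exact ⟨G, PowerBasis.ofAdjoinEqTop' hint hadj, hG1, hG2,
    PowerBasis.ofAdjoinEqTop'_gen hint hadj, PowerBasis.ofAdjoinEqTop'_dim hint hadj, hadj⟩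

end OrdG

end Fermat.Agent.S36
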