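/-
Project S36 (Carayol), [M2] leaf [ORD-G], abstract half, part 2 (helper16; prefix `s36og_`; Mathlib
only): the BASIS form of `s36og_adjoin` / `s36og_powerBasis` requested by the consumer
`s36cr_dvd_pi_pow` (S36/CReg/Horiz.lean).

* `s36og_basis_of_adjoin` : `S` an integrally closed domain, `D` a torsion-free domain of
  `S`-rank `n`, `G` integral with `S[G] = D`: the powers `1, G, …, G^(n-1)` form an `S`-basis of `D`,
  and `F := minpoly S G` is monic of degree `n` with `F(G) = 0`;
* `s36og_basis` : the same for the `G` of `s36og_adjoin`.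
-/
import Mathlib
import Fermat.Agent.S36.CReg.OrdG

set_option autoImplicit false
set_option linter.unusedSectionVars false
set_option linter.unusedVariables false

namespace Fermat.Agent.S36

open IsLocalRing Polynomial

section Basis

variable {S D : Type*} [CommRing S] [CommRing D] [Algebra S D]
  [IsDomain S] [IsIntegrallyClosed S] [IsDomain D] [Module.IsTorsionFree S D]

/-- the power basis of `D = S[G]` in basis form. -/
theorem s36og_basis_of_adjoin (G : D) (hint : IsIntegral S G) (hadj : Algebra.adjoin S {G} = ⊤)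
    (n : ℕ) (hrank : Module.finrank S D = n) :
    ∃ (b : Module.Basis (Fin n) S D) (F : S[X]), (∀ i, b i = G ^ (i : ℕ)) ∧ F.Monic ∧
      F.natDegree = n ∧ aeval G F = 0 := by
  set pb : PowerBasis S D := PowerBasis.ofAdjoinEqTop' hint hadj with hpb
  have hgen : pb.gen = G := PowerBasis.ofAdjoinEqTop'_gen hint hadj
  have hdim : pb.dim = (minpoly S G).natDegree := PowerBasis.ofAdjoinEqTop'_dim hint hadj
  have hn : pb.dim = n := by rw [← hrank]; exact pb.finrank.symm
  refine ⟨pb.basis.reindex (finCongr hn), minpoly S G, fun i => ?_, minpoly.monic hint, ?_,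
    minpoly.aeval S G⟩
  · rw [Module.Basis.reindex_apply, PowerBasis.basis_eq_pow, hgen]
    rfl
  · rw [← hdim, hn]

variable [IsLocalRing S] [Module.Finite S D]

/-- **[ORD-G], basis form.** -/
theorem s36og_basis (q : ℕ) (π t : S)
    (hm : maximalIdeal S = Ideal.span {π, t})
    (P1 P2 : Ideal D) (hcap : P1 ⊓ P2 ≤ Ideal.span {algebraMap S D π})
    (hcomax : P1 ⊔ P2 = ⊤)
    (hiso : ∀ c : D, ∃ s : S, c - algebraMap S D s ∈ P1)
    (u : D) (a : S) (hu : u ^ q - algebraMap S D (a * t) ∈ P2)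
    (hres : ∀ c : D, ∃ s : S, c - algebraMap S D s ∈ P2 ⊔ Ideal.span {u})
    (n : ℕ) (hrank : Module.finrank S D = n) :
    ∃ (G : D) (b : Module.Basis (Fin n) S D) (F : S[X]), G - 1 ∈ P1 ∧ G - u ∈ P2 ∧
      Algebra.adjoin S {G} = ⊤ ∧ (∀ i, b i = G ^ (i : ℕ)) ∧ F.Monic ∧ F.natDegree = n ∧
      aeval G F = 0 := by
  obtain ⟨G, hG1, hG2, hadj⟩ := s36og_adjoin q π t hm P1 P2 hcap hcomax hiso u a hu hres
  have hint : IsIntegral S G := Algebra.IsIntegral.isIntegral G
  obtain ⟨b, F, hb, hF, hdeg, hFG⟩ := s36og_basis_of_adjoin G hint hadj n hrank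
  exact ⟨G, b, F, hG1, hG2, hadj, hb, hF, hdeg, hFG⟩

end Basis

end Fermat.Agent.S36
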