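/-
Project S36 (Carayol), [M2] leaf [ORD-G-INST], abstract part (helper16; prefix `s36og_`;
Mathlib only).

`S` a noetherian local ring with maximal ideal `(π, t)`, `D ⊇ S` finite, `P2` a prime of `D`
(the purely inseparable vertical component over an ordinary point).  The two awkward hypotheses
`hu`, `hres` of `s36og_adjoin` (a uniformiser `u` of `D / P2` with `u ^ q = a t`, residue field
`S / 𝔪`) are derived from hypotheses which the S34 model provides directly:

* `hpow`  : `D ^ q ⊆ S + P2`                (`ssm_cpi_pow`);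
* `hperf` : the residue field of `S` is perfect (`q`-th roots);
* `hgen`  : the SMOOTH clause at the points of the component `P2`: the GIVEN `u0` generates every
            maximal ideal `M ⊇ P2` locally modulo `P2`;
* `hne`   : `D ≠ S + P2`.

Main results: `s36og_unif` and (with `s36og_adjoin`) `s36og_adjoin_of_pow`;
`s36og_span_pair` : if `D = S + P1 = S + P2` then `D` is generated by two elements.
-/
import Mathlib
import Fermat.Agent.S36.CReg.OrdG

set_option autoImplicit false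
set_option linter.unusedSectionVars false
set_option linter.unusedVariables false
set_option linter.style.haveILetI false

namespace Fermat.Agent.S36

open IsLocalRing Polynomial

section Unif

variable {S D : Type*} [CommRing S] [CommRing D] [Algebra S D] [IsLocalRing S]
  [Module.Finite S D]

/-- a maximal ideal of `D` contracts to the maximal ideal of `S`. -/
theorem s36og_comap_maximal (M : Ideal D) [M.IsMaximal] :
    M.comap (algebraMap S D) = maximalIdeal S := by
  haveI : Algebra.IsIntegral S D := Algebra.IsIntegral.of_finite S D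
  haveI : (M.comap (algebraMap S D)).IsMaximal :=
    Ideal.isMaximal_comap_of_isIntegral_of_isMaximal M
  exact IsLocalRing.eq_maximalIdeal inferInstance

theorem s36og_map_mem_maximal (M : Ideal D) [M.IsMaximal] {s : S} (hs : s ∈ maximalIdeal S) :
    algebraMap S D s ∈ M := by
  have : s ∈ M.comap (algebraMap S D) := by rw [s36og_comap_maximal M]; exact hs
  exact this

theorem s36og_mem_maximal_of_map (M : Ideal D) [M.IsMaximal] {s : S}
    (hs : algebraMap S D s ∈ M) : s ∈ maximalIdeal S := by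
  rw [← s36og_comap_maximal M]
  exact hs

/-- the residue field of a maximal ideal `M ⊇ P2` is `S / 𝔪`. -/
theorem s36og_residue (q : ℕ) (hq : q.Prime) (P2 : Ideal D) (hq2 : (q : D) ∈ P2)
    (hpow : ∀ c : D, ∃ s : S, c ^ q - algebraMap S D s ∈ P2)
    (hperf : ∀ s : S, ∃ z : S, s - z ^ q ∈ maximalIdeal S)
    (M : Ideal D) [M.IsMaximal] (hM : P2 ≤ M) (c : D) :
    ∃ z : S, c - algebraMap S D z ∈ M := by
  obtain ⟨s, hs⟩ := hpow c
  obtain ⟨z, hz⟩ := hperf s
  refine ⟨z, ?_⟩
  obtain ⟨r, hr⟩ := exists_add_pow_prime_eq hq (c - algebraMap S D z) (algebraMap S D z)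
  rw [sub_add_cancel] at hr
  have h1 : (c - algebraMap S D z) ^ q = (c ^ q - algebraMap S D s)
      + algebraMap S D (s - z ^ q)
      - (q : D) * ((c - algebraMap S D z) * algebraMap S D z * r) := by
    rw [map_sub, map_pow]
    linear_combination (-1 : D) * hr
  have h2 : (c - algebraMap S D z) ^ q ∈ M := by
    rw [h1]
    refine M.sub_mem (M.add_mem (hM hs) (s36og_map_mem_maximal M hz)) ?_
    exact M.mul_mem_right _ (hM hq2)
  exact Ideal.IsPrime.mem_of_pow_mem inferInstance q h2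

/-- uniqueness of the maximal ideal over `P2`. -/
theorem s36og_maximal_unique (q : ℕ) (hq : 0 < q) (P2 : Ideal D)
    (hpow : ∀ c : D, ∃ s : S, c ^ q - algebraMap S D s ∈ P2)
    (M M' : Ideal D) [M.IsMaximal] [M'.IsMaximal] (hM : P2 ≤ M) (hM' : P2 ≤ M') : M' = M := by
  have hle : M' ≤ M := by
    intro x hx
    obtain ⟨s, hs⟩ := hpow x
    have h1 : algebraMap S D s ∈ M' := by
      have : algebraMap S D s = x ^ q - (x ^ q - algebraMap S D s) := by ring
      rw [this]
      exact M'.sub_mem (Ideal.pow_mem_of_mem _ hx q hq) (hM' hs)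
    have h2 : algebraMap S D s ∈ M :=
      s36og_map_mem_maximal M (s36og_mem_maximal_of_map M' h1)
    have h3 : x ^ q ∈ M := by
      have : x ^ q = algebraMap S D s + (x ^ q - algebraMap S D s) := by ring
      rw [this]
      exact M.add_mem h2 (hM hs)
    exact Ideal.IsPrime.mem_of_pow_mem inferInstance q h3
  exact (Ideal.IsMaximal.eq_of_le inferInstance (Ideal.IsMaximal.ne_top inferInstance) hle)

/-- the smooth clause makes the maximal ideal over `P2` equal to `P2 + (u0)`. -/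
theorem s36og_maximal_eq (q : ℕ) (hq : 0 < q) (P2 : Ideal D)
    (hpow : ∀ c : D, ∃ s : S, c ^ q - algebraMap S D s ∈ P2)
    (u0 : D) (M : Ideal D) [M.IsMaximal] (hM : P2 ≤ M) (hu0 : u0 ∈ M)
    (hgen : ∀ x ∈ M, ∃ s : D, s ∉ M ∧ s * x ∈ P2 ⊔ Ideal.span {u0}) :
    M = P2 ⊔ Ideal.span {u0} := by
  apply le_antisymm
  · intro x hx
    obtain ⟨s, hs, hsx⟩ := hgen x hx
    set I : Ideal D := P2 ⊔ Ideal.span {u0} with hI
    -- `s` is a unit modulo `I`: otherwise `(s) + I` lies in a maximal ideal, which must be `M`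
    have htop : Ideal.span {s} ⊔ I = ⊤ := by
      by_contra hne
      obtain ⟨M', hM'max, hJM'⟩ := Ideal.exists_le_maximal _ hne
      haveI := hM'max
      have hP2M' : P2 ≤ M' := le_trans (le_trans le_sup_left le_sup_right) hJM'
      have : M' = M := s36og_maximal_unique q hq P2 hpow M M' hM hP2M'
      exact hs (this ▸ hJM' (Ideal.mem_sup_left (Ideal.subset_span rfl)))
    have h1 : (1 : D) ∈ Ideal.span {s} ⊔ I := by rw [htop]; trivial
    obtain ⟨y, hy, i, hi, hyi⟩ := Submodule.mem_sup.1 h1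
    obtain ⟨a, rfl⟩ := Ideal.mem_span_singleton'.1 hy
    have e : x = a * (s * x) + i * x := by linear_combination (-x) * hyi
    rw [e]
    exact I.add_mem (I.mul_mem_left _ hsx) (I.mul_mem_right _ hi)
  · exact sup_le hM ((Ideal.span_singleton_le_iff_mem _).2 hu0)

/-- Nakayama: `D = S + P2 + 𝔪 D` implies `D = S + P2`. -/
theorem s36og_nakayama (P2 : Ideal D)
    (h : ∀ c : D, ∃ s : S, c - algebraMap S D s ∈
      P2 ⊔ (maximalIdeal S).map (algebraMap S D)) (c : D) :
    ∃ s : S, c - algebraMap S D s ∈ P2 := by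
  set N : Submodule S D := P2.restrictScalars S ⊔ Submodule.span S {(1 : D)} with hN
  have hfg : (⊤ : Submodule S D).FG := Module.Finite.fg_top
  have hjac : maximalIdeal S ≤ Ideal.jacobson ⊥ := by
    rw [IsLocalRing.jacobson_eq_maximalIdeal ⊥ bot_ne_top]
  have hle : (⊤ : Submodule S D) ≤ N ⊔ maximalIdeal S • ⊤ := by
    intro c _
    obtain ⟨s, hs⟩ := h c
    obtain ⟨p, hp, y, hy, hpy⟩ := Submodule.mem_sup.1 hs
    have e : c = (p + s • (1 : D)) + y := by
      rw [Algebra.smul_def, mul_one]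
      linear_combination (-1 : D) * hpy
    rw [e]
    refine Submodule.add_mem_sup ?_ ?_
    · exact Submodule.add_mem_sup (show p ∈ P2.restrictScalars S from hp)
        (Submodule.smul_mem _ _ (Submodule.subset_span rfl))
    · rw [Ideal.smul_top_eq_map]
      exact hy
  have hall := Submodule.le_of_le_smul_of_le_jacobson_bot hfg hjac hle
  have hc : c ∈ N := hall Submodule.mem_top
  obtain ⟨p, hp, y, hy, hpy⟩ := Submodule.mem_sup.1 hc
  obtain ⟨s, rfl⟩ := Submodule.mem_span_singleton.1 hy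
  refine ⟨s, ?_⟩
  have : c - algebraMap S D s = p := by
    rw [← hpy, Algebra.smul_def, mul_one]; ring
  rw [this]
  exact hp

section DVR

variable {R : Type*} [CommRing R] [IsDomain R] [IsDiscreteValuationRing R]

/-- peeling powers of `τ` off the image of an element of `S` in a discrete valuation ring. -/
theorem s36og_peel (f : S →+* R) (π t : S) (hm : maximalIdeal S = Ideal.span {π, t})
    (hfπ : f π = 0) (ϖ : R) (hϖ : Irreducible ϖ) (e : ℕ) (he : 0 < e) (εt : Rˣ)
    (hτ : f t = εt * ϖ ^ e) :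
    ∀ (n : ℕ) (β : S), f β ≠ 0 → (∃ ε : Rˣ, f β = ε * ϖ ^ n) →
      ∃ (i : ℕ) (a : S), IsUnit a ∧ f β = f a * f t ^ i := by
  intro n
  induction n using Nat.strong_induction_on with
  | _ n ih =>
    intro β hβ0 hβ
    by_cases hu : IsUnit β
    · exact ⟨0, β, hu, by rw [pow_zero, mul_one]⟩
    · have hβm : β ∈ maximalIdeal S := (IsLocalRing.mem_maximalIdeal β).2 hu
      rw [hm] at hβm
      obtain ⟨x, y, hxy⟩ := Ideal.mem_span_pair.1 hβm
      have h1 : f β = f y * f t := by
        rw [← hxy, map_add, map_mul, map_mul, hfπ, mul_zero, zero_add]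
      have hy0 : f y ≠ 0 := by
        intro h0
        apply hβ0
        rw [h1, h0, zero_mul]
      obtain ⟨n', ε', hn'⟩ := IsDiscreteValuationRing.eq_unit_mul_pow_irreducible hy0 hϖ
      obtain ⟨ε, hε⟩ := hβ
      have h2 : ((ε' * εt : Rˣ) : R) * ϖ ^ (n' + e) = ε * ϖ ^ n := by
        rw [← hε, h1, hn', hτ, Units.val_mul, pow_add]
        ring
      have h3 : n' + e = n := IsDiscreteValuationRing.unit_mul_pow_congr_pow hϖ hϖ _ _ _ _ h2
      obtain ⟨i, a, ha, hia⟩ := ih n' (by omega) y hy0 ⟨ε', hn'⟩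
      exact ⟨i + 1, a, ha, by rw [h1, hia, pow_succ, mul_assoc]⟩

end DVR

/-- **[ORD-G-INST], abstract**: a uniformiser `u` of `D / P2` with `u ^ q = a t` (`a` a unit of `S`)
and residue field `S / 𝔪`, from `hpow`, `hperf`, the smooth clause `hgen` and `hne`. -/
theorem s36og_unif [IsNoetherianRing S] (q : ℕ) (hq : q.Prime) (π t : S)
    (hm : maximalIdeal S = Ideal.span {π, t})
    (P2 : Ideal D) [P2.IsPrime] (hπ2 : algebraMap S D π ∈ P2) (hq2 : (q : D) ∈ P2)
    (hpow : ∀ c : D, ∃ s : S, c ^ q - algebraMap S D s ∈ P2)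
    (hperf : ∀ s : S, ∃ z : S, s - z ^ q ∈ maximalIdeal S)
    (u0 : D) (hu0 : ∀ M : Ideal D, M.IsMaximal → P2 ≤ M →
      u0 ∈ M ∧ ∀ x ∈ M, ∃ s : D, s ∉ M ∧ s * x ∈ P2 ⊔ Ideal.span {u0})
    (hne : ∃ c : D, ∀ s : S, c - algebraMap S D s ∉ P2) :
    ∃ a : S, IsUnit a ∧ u0 ^ q - algebraMap S D (a * t) ∈ P2 ∧
      ∀ c : D, ∃ s : S, c - algebraMap S D s ∈ P2 ⊔ Ideal.span {u0} := by
  classical
  obtain ⟨M, hMmax, hP2M⟩ := Ideal.exists_le_maximal P2 (Ideal.IsPrime.ne_top inferInstance)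
  haveI := hMmax
  have hMeq : M = P2 ⊔ Ideal.span {u0} :=
    s36og_maximal_eq q hq.pos P2 hpow u0 M hP2M (hu0 M hMmax hP2M).1 (hu0 M hMmax hP2M).2
  have hres : ∀ c : D, ∃ s : S, c - algebraMap S D s ∈ P2 ⊔ Ideal.span {u0} := by
    intro c
    obtain ⟨z, hz⟩ := s36og_residue q hq P2 hq2 hpow hperf M hP2M c
    exact ⟨z, hMeq ▸ hz⟩
  -- the quotient `R = D / P2`
  haveI : IsNoetherianRing D := IsNoetherianRing.of_finite S D
  set mk : D →+* D ⧸ P2 := Ideal.Quotient.mk P2 with hmk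
  have hmks : Function.Surjective mk := Ideal.Quotient.mk_surjective
  set f : S →+* D ⧸ P2 := mk.comp (algebraMap S D) with hf
  have hfπ : f π = 0 := by
    rw [hf, RingHom.comp_apply, hmk, Ideal.Quotient.eq_zero_iff_mem]
    exact hπ2
  -- `t ∉ P2`
  have htP2 : algebraMap S D t ∉ P2 := by
    intro htP2
    -- then `P2` lies over `𝔪`, hence is maximal, hence `D = S + P2`
    obtain ⟨c, hc⟩ := hne
    have hcomap : P2.comap (algebraMap S D) = maximalIdeal S := by
      apply le_antisymm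
      · exact IsLocalRing.le_maximalIdeal (Ideal.IsPrime.ne_top inferInstance)
      · rw [hm, Ideal.span_le]
        rintro x (rfl | rfl)
        · exact hπ2
        · exact htP2
    haveI : Algebra.IsIntegral S D := Algebra.IsIntegral.of_finite S D
    have hmax : (P2.comap (algebraMap S D)).IsMaximal := by
      rw [hcomap]; exact IsLocalRing.maximalIdeal.isMaximal S
    have hP2max : P2.IsMaximal := Ideal.isMaximal_of_isIntegral_of_isMaximal_comap P2 hmax
    have hMP2 : M = P2 := (hP2max.eq_of_le hMmax.ne_top hP2M).symm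
    obtain ⟨z, hz⟩ := s36og_residue q hq P2 hq2 hpow hperf M hP2M c
    exact hc z (hMP2 ▸ hz)
  have hft : f t ≠ 0 := by
    rw [hf, RingHom.comp_apply, hmk, Ne, Ideal.Quotient.eq_zero_iff_mem]
    exact htP2
  -- the maximal ideal of `R`
  have hmapM : M.map mk = Ideal.span {mk u0} := by
    rw [hMeq, Ideal.map_sup, Ideal.map_span, Set.image_singleton, hmk, Ideal.map_quotient_self,
      bot_sup_eq]
  have hmaxR : (M.map mk).IsMaximal :=
    Ideal.IsMaximal.map_of_surjective_of_ker_le hmks (by rw [hmk, Ideal.mk_ker]; exact hP2M)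
  haveI : IsLocalRing (D ⧸ P2) := by
    apply IsLocalRing.of_unique_max_ideal
    refine ⟨M.map mk, hmaxR, fun N hN => ?_⟩
    haveI := hN
    haveI : (N.comap mk).IsMaximal := Ideal.comap_isMaximal_of_surjective mk hmks
    have h1 : P2 ≤ N.comap mk := by
      intro x hx
      rw [Ideal.mem_comap, hmk, Ideal.Quotient.eq_zero_iff_mem.2 hx]
      exact N.zero_mem
    have h2 : N.comap mk = M := s36og_maximal_unique q hq.pos P2 hpow M (N.comap mk) hP2M h1
    rw [← h2, Ideal.map_comap_of_surjective mk hmks]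
  have hmaxeq : maximalIdeal (D ⧸ P2) = Ideal.span {mk u0} := by
    rw [← hmapM]
    exact (IsLocalRing.eq_maximalIdeal hmaxR).symm
  -- `R` is not a field: `f t` is a nonzero nonunit
  have hftm : f t ∈ maximalIdeal (D ⧸ P2) := by
    rw [← IsLocalRing.eq_maximalIdeal hmaxR]
    exact Ideal.mem_map_of_mem _ (s36og_map_mem_maximal M (by
      rw [hm]; exact Ideal.subset_span (by simp)))
  have hnf : ¬ IsField (D ⧸ P2) := by
    intro h
    have := (IsLocalRing.isField_iff_maximalIdeal_eq.1 h)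
    rw [this] at hftm
    exact hft hftm
  haveI : IsDiscreteValuationRing (D ⧸ P2) :=
    ((IsDiscreteValuationRing.TFAE (D ⧸ P2) hnf).out 0 4).2
      (⟨⟨mk u0, hmaxeq⟩⟩ : Submodule.IsPrincipal (maximalIdeal (D ⧸ P2)))
  have hϖ : Irreducible (mk u0) :=
    (IsDiscreteValuationRing.irreducible_iff_uniformizer _).2 hmaxeq
  -- `f t = εt ϖ^e`, `e ≥ 1`
  obtain ⟨e, εt, hτ⟩ := IsDiscreteValuationRing.eq_unit_mul_pow_irreducible hft hϖ
  have he : 0 < e := by
    rcases Nat.eq_zero_or_pos e with h0 | h0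
    · exfalso
      rw [h0, pow_zero, mul_one] at hτ
      have : IsUnit (f t) := hτ ▸ εt.isUnit
      exact (IsLocalRing.mem_maximalIdeal _).1 hftm this
    · exact h0
  -- `u0 ^ q ≡ s0`
  obtain ⟨s0, hs0⟩ := hpow u0
  have hfs0 : f s0 = mk u0 ^ q := by
    rw [hf, RingHom.comp_apply, ← map_pow, eq_comm, ← sub_eq_zero, ← map_sub, hmk,
      Ideal.Quotient.eq_zero_iff_mem]
    exact hs0
  have hfs00 : f s0 ≠ 0 := by
    rw [hfs0]
    exact pow_ne_zero _ hϖ.ne_zero
  obtain ⟨i, a, ha, hia⟩ := s36og_peel f π t hm hfπ (mk u0) hϖ e he εt hτ q s0 hfs00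
    ⟨1, by rw [Units.val_one, one_mul, hfs0]⟩
  -- `q = e * i`
  have hfa : IsUnit (f a) := ha.map f
  obtain ⟨εa, hεa⟩ := hfa
  have h2 : ((1 : (D ⧸ P2)ˣ) : D ⧸ P2) * mk u0 ^ q = ((εa * εt ^ i : (D ⧸ P2)ˣ) : D ⧸ P2) *
      mk u0 ^ (e * i) := by
    rw [Units.val_one, one_mul, ← hfs0, hia, hτ, Units.val_mul, Units.val_pow_eq_pow_val, hεa,
      mul_pow, ← pow_mul]
    ring
  have hqei : q = e * i := IsDiscreteValuationRing.unit_mul_pow_congr_pow hϖ hϖ _ _ _ _ h2
  rcases (Nat.dvd_prime hq).1 ⟨i, hqei⟩ with he1 | heq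
  · -- `e = 1`: impossible by Nakayama
    exfalso
    obtain ⟨c, hc⟩ := hne
    have hall : ∀ c : D, ∃ s : S, c - algebraMap S D s ∈
        P2 ⊔ (maximalIdeal S).map (algebraMap S D) := by
      intro c
      obtain ⟨z, hz⟩ := hres c
      refine ⟨z, ?_⟩
      obtain ⟨p, hp, y, hy, hpy⟩ := Submodule.mem_sup.1 hz
      obtain ⟨d, rfl⟩ := Ideal.mem_span_singleton'.1 hy
      -- `u0 ≡ εt⁻¹ t` modulo `P2`
      obtain ⟨w, hw⟩ := hmks ((εt⁻¹ : (D ⧸ P2)ˣ) : D ⧸ P2)
      have h3 : u0 - w * algebraMap S D t ∈ P2 := by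
        rw [← Ideal.Quotient.eq_zero_iff_mem, ← hmk, map_sub, map_mul, hw]
        have : mk (algebraMap S D t) = f t := rfl
        rw [this, hτ, he1, pow_one, ← mul_assoc, Units.inv_mul, one_mul, sub_self]
      have e1 : c - algebraMap S D z = (p + d * (u0 - w * algebraMap S D t))
          + d * w * algebraMap S D t := by
        rw [← hpy]; ring
      rw [e1]
      refine Submodule.add_mem_sup (P2.add_mem hp (P2.mul_mem_left _ h3)) ?_
      exact Ideal.mul_mem_left _ _ (Ideal.mem_map_of_mem _ (by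
        rw [hm]; exact Ideal.subset_span (by simp)))
    obtain ⟨s, hs⟩ := s36og_nakayama P2 hall c
    exact hc s hs
  · -- `e = q`, `i = 1`
    have hi1 : i = 1 := by
      have hq0 := hq.pos
      have : e * i = e * 1 := by rw [mul_one, ← hqei, heq]
      exact Nat.eq_of_mul_eq_mul_left (heq ▸ hq0) this
    refine ⟨a, ha, ?_, hres⟩
    rw [← Ideal.Quotient.eq_zero_iff_mem, ← hmk, map_sub, map_pow, ← hfs0, hia, hi1, pow_one,
      sub_eq_zero, map_mul]
    rfl

/-- **[ORD-G] from the model hypotheses**: `s36og_adjoin` with `hu`, `hres` discharged by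
`s36og_unif`. -/
theorem s36og_adjoin_of_pow [IsNoetherianRing S] (q : ℕ) (hq : q.Prime) (π t : S)
    (hm : maximalIdeal S = Ideal.span {π, t})
    (P1 P2 : Ideal D) [P2.IsPrime] (hcap : P1 ⊓ P2 ≤ Ideal.span {algebraMap S D π})
    (hcomax : P1 ⊔ P2 = ⊤) (hiso : ∀ c : D, ∃ s : S, c - algebraMap S D s ∈ P1)
    (hπ2 : algebraMap S D π ∈ P2) (hq2 : (q : D) ∈ P2)
    (hpow : ∀ c : D, ∃ s : S, c ^ q - algebraMap S D s ∈ P2)
    (hperf : ∀ s : S, ∃ z : S, s - z ^ q ∈ maximalIdeal S)
    (u : D) (hgen : ∀ M : Ideal D, M.IsMaximal → P2 ≤ M →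
      u ∈ M ∧ ∀ x ∈ M, ∃ s : D, s ∉ M ∧ s * x ∈ P2 ⊔ Ideal.span {u})
    (hne : ∃ c : D, ∀ s : S, c - algebraMap S D s ∉ P2) :
    ∃ (G : D) (a : S), IsUnit a ∧ G - 1 ∈ P1 ∧ G - u ∈ P2 ∧
      u ^ q - algebraMap S D (a * t) ∈ P2 ∧ G ^ q - algebraMap S D (a * t) ∈ P2 ∧
      (∀ M : Ideal D, M.IsMaximal → P2 ≤ M → G ∈ M) ∧ Algebra.adjoin S {G} = ⊤ := by
  obtain ⟨a, ha, hu, hres⟩ :=
    s36og_unif q hq π t hm P2 hπ2 hq2 hpow hperf u hgen hne
  obtain ⟨G, hG1, hG2, hadj⟩ := s36og_adjoin q π t hm P1 P2 hcap hcomax hiso u a hu hres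
  refine ⟨G, a, ha, hG1, hG2, hu, ?_, fun M hM hP2M => ?_, hadj⟩
  · obtain ⟨y, hy⟩ := sub_dvd_pow_sub_pow G u q
    have : G ^ q - algebraMap S D (a * t) = (G - u) * y + (u ^ q - algebraMap S D (a * t)) := by
      rw [← hy]; ring
    rw [this]
    exact P2.add_mem (P2.mul_mem_right _ hG2) hu
  · have : G = (G - u) + u := by ring
    rw [this]
    exact M.add_mem (hP2M hG2) (hgen M hM hP2M).1

/-- if both components are isomorphic to the base (`D = S + P1 = S + P2`), then `D` is generated by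
two elements as an `S`-module (so its rank is at most `2`). -/
theorem s36og_span_pair (π t : S) (hm : maximalIdeal S = Ideal.span {π, t})
    (P1 P2 : Ideal D) (hcap : P1 ⊓ P2 ≤ Ideal.span {algebraMap S D π})
    (hcomax : P1 ⊔ P2 = ⊤) (hiso1 : ∀ c : D, ∃ s : S, c - algebraMap S D s ∈ P1)
    (hiso2 : ∀ c : D, ∃ s : S, c - algebraMap S D s ∈ P2) :
    ∃ e : D, Submodule.span S {(1 : D), e} = ⊤ := by
  have h1 : (1 : D) ∈ P1 ⊔ P2 := by rw [hcomax]; trivial
  obtain ⟨e', he', e, he, hee⟩ := Submodule.mem_sup.1 h1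
  have he1 : 1 - e ∈ P1 := by
    have : 1 - e = e' := by rw [← hee]; ring
    rw [this]; exact he'
  refine ⟨e, ?_⟩
  set J : Ideal D := (maximalIdeal S).map (algebraMap S D) with hJ
  have hπJ : algebraMap S D π ∈ J :=
    Ideal.mem_map_of_mem _ (by rw [hm]; exact Ideal.subset_span (by simp))
  have hprodJ : ∀ x y : D, x ∈ P1 → y ∈ P2 → x * y ∈ J := by
    intro x y hx hy
    have := hcap (Submodule.mem_inf.2 ⟨Ideal.mul_mem_right _ _ hx, Ideal.mul_mem_left _ _ hy⟩)
    obtain ⟨z, hz⟩ := Ideal.mem_span_singleton'.1 this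
    rw [← hz]
    exact Ideal.mul_mem_left _ _ hπJ
  have hfg : (⊤ : Submodule S D).FG := Module.Finite.fg_top
  have hjac : maximalIdeal S ≤ Ideal.jacobson ⊥ := by
    rw [IsLocalRing.jacobson_eq_maximalIdeal ⊥ bot_ne_top]
  have hle : (⊤ : Submodule S D) ≤ Submodule.span S {(1 : D), e} ⊔ maximalIdeal S • ⊤ := by
    intro c _
    obtain ⟨s1, hs1⟩ := hiso1 c
    obtain ⟨s2, hs2⟩ := hiso2 c
    have e1 : c = (s2 • (1 : D) + (s1 - s2) • e)
        + ((c - algebraMap S D s1) * e + (1 - e) * (c - algebraMap S D s2)) := by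
      rw [Algebra.smul_def, Algebra.smul_def, map_sub]; ring
    rw [e1]
    refine Submodule.add_mem_sup ?_ ?_
    · exact Submodule.add_mem _ (Submodule.smul_mem _ _ (Submodule.subset_span (by simp)))
        (Submodule.smul_mem _ _ (Submodule.subset_span (by simp)))
    · rw [Ideal.smul_top_eq_map]
      exact J.add_mem (hprodJ _ _ hs1 he) (hprodJ _ _ he1 hs2)
  have := Submodule.le_of_le_smul_of_le_jacobson_bot hfg hjac hle
  exact eq_top_iff.2 this

/-- the hypothesis `hperf` from finiteness of the residue field. -/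
theorem s36og_hperf_of_finite (q : ℕ) (hq : q.Prime) [Finite (ResidueField S)]
    (hqS : (q : S) ∈ maximalIdeal S) (s : S) : ∃ z : S, s - z ^ q ∈ maximalIdeal S := by
  haveI : Fact q.Prime := ⟨hq⟩
  have h0 : ((q : ℕ) : ResidueField S) = 0 := by
    have : residue S (q : S) = 0 := (IsLocalRing.residue_eq_zero_iff _).2 hqS
    rwa [map_natCast] at this
  haveI : CharP (ResidueField S) q := (CharP.charP_iff_prime_eq_zero hq).2 h0
  obtain ⟨w, hw⟩ := surjective_frobenius (ResidueField S) q (residue S s)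
  obtain ⟨z, rfl⟩ := IsLocalRing.residue_surjective w
  refine ⟨z, ?_⟩
  rw [← IsLocalRing.residue_eq_zero_iff, map_sub, map_pow, ← hw, frobenius_def, sub_self]

end Unif

end Fermat.Agent.S36
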