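/-
Project S36 (Carayol), [M2] leaf [ORD-G-INST] (helper16; prefix `s36oc_`): the adapted generator `G`
of [ORD-G] in the COVER-RING CONTEXT of `SS/Model/ThickCover.lean`, at an ORDINARY point.

`K ⊆ E` fields, `B' ⊆ K`, `B ⊆ E` charts of the two levels, `φ : B' →+* B` the (integral) chart map,
`y0` a maximal ideal of `B'`, `S` the local ring of `B'` at `y0` (any presentation:
`[Algebra B' S] [IsLocalization.AtPrime S y0]`), `C := integralClosure S E` (the semilocal ring of
`B` over `y0`).  `P1`, `P2` the two vertical primes of `B`: `P1` the `φ`-isomorphic one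
(`B = φ B' + P1`), `P2` the purely inseparable one (`B^q ⊆ φ B' + P2`); `y0` ORDINARY: no prime of
`B` over `y0` contains both; `u : B` a local parameter of the component `P2` at its point over `y0`
(the S34 SMOOTH clause `tq_GenBy`).

* `s36oc_Hyp`  : the chart-level hypotheses (twin of `ssm_thc_Hyp` without crossing data);
* `s36oc_main` : `∃ G ∈ C`, `G ≡ 1 mod P1 C`, `G ≡ u mod P2 C`, `u^q ≡ a t` (`a ∈ Sˣ`), `S[G] = C`,
  with the basis `(G^i)_{i ≤ q}` and the monic polynomial `F` of degree `q + 1` killing `G`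
  (= the inputs of `s36cr_dvd_pi_pow` / `s36cr_point`).
-/
import Mathlib
import Fermat.Agent.SS.Model.ThickCover
import Fermat.Agent.S36.CReg.OrdGUnif
import Fermat.Agent.S36.CReg.OrdGBasis

set_option autoImplicit false
set_option linter.unusedSectionVars false
set_option linter.unusedVariables false
set_option linter.style.haveILetI false

namespace Fermat.Agent.S36

open Fermat.Agent.JT3 Fermat.Agent.SS Polynomial IsLocalRing

section Cover

variable {A0 : Type*} [CommRing A0] {K E : Type*} [Field K] [Field E] [Algebra K E]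
  [Algebra A0 K] [Algebra A0 E]
  {B' : Subalgebra A0 K} {B : Subalgebra A0 E}

/-- **The hypotheses of [ORD-G-INST]** at an ordinary maximal ideal `y0` of `B'`. -/
structure s36oc_Hyp (φ : B' →+* B) (y0 : Ideal B') (S : Type*) [CommRing S] [IsLocalRing S]
    [Algebra B' S] (q₀ : ℕ) (P1 P2 : Ideal B) (π' t' : B') (u : B) : Prop where
  hφ : ∀ b' : B', (φ b' : E) = algebraMap K E (b' : K)
  hint : φ.IsIntegral
  hBcl : ∀ z : E, IsIntegral B' z → z ∈ B
  hy0 : y0.IsMaximal
  hq₀ : q₀.Prime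
  hq : (q₀ : B') ∈ Ideal.span {π'}
  hP : Ideal.span {φ π'} = P1 ⊓ P2
  hc1 : P1.comap φ ≤ y0
  hc2 : P2.comap φ ≤ y0
  hadd : ∀ b : B, ∃ b' : B', b - φ b' ∈ P1
  hpow : ∀ b : B, ∃ b' : B', b ^ q₀ - φ b' ∈ P2
  hm : IsLocalRing.maximalIdeal S = Ideal.span {algebraMap B' S π', algebraMap B' S t'}
  hperf : ∀ s : S, ∃ z : S, s - z ^ q₀ ∈ IsLocalRing.maximalIdeal S
  hord : ∀ 𝔫 : Ideal B, 𝔫.IsPrime → 𝔫.comap φ = y0 → ¬ (P1 ≤ 𝔫 ∧ P2 ≤ 𝔫)
  hsm : ∀ 𝔫 : Ideal B, 𝔫.IsMaximal → 𝔫.comap φ = y0 → P2 ≤ 𝔫 → tq_GenBy (φ π') u 𝔫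

variable {φ : B' →+* B} {y0 : Ideal B'} [y0.IsPrime]
  {S : Type*} [CommRing S] [IsLocalRing S] [Algebra B' S] [IsLocalization.AtPrime S y0]
  [Algebra S K] [IsScalarTower B' S K] [Algebra S E] [IsScalarTower S K E]
  {q₀ : ℕ} {P1 P2 : Ideal B} [P1.IsPrime] [P2.IsPrime] {π' t' : B'} {u : B}

namespace s36oc_Hyp

variable (H : s36oc_Hyp φ y0 S q₀ P1 P2 π' t' u)
include H

/-- the inclusion `ι : B → C` -/
noncomputable def iota : B →+* integralClosure S E :=
  ssm_thc_iota B S (ssm_thc_int_chart φ S H.hφ H.hint)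

theorem iota_coe (b : B) : ((H.iota b : integralClosure S E) : E) = b := rfl

theorem iota_phi (b' : B') :
    H.iota (φ b') = algebraMap S (integralClosure S E) (algebraMap B' S b') :=
  ssm_thc_iota_phi φ S H.hφ _ b'

/-- `C` is the localisation of `B` at `φ (B' ∖ y0)` -/
theorem isLoc : @IsLocalization B _ (Submonoid.map φ y0.primeCompl) (integralClosure S E) _
    H.iota.toAlgebra :=
  ssm_thc_isLocalization φ y0 S H.hφ H.hint H.hBcl

theorem pi_mem1 : φ π' ∈ P1 := by
  have : φ π' ∈ P1 ⊓ P2 := H.hP ▸ Ideal.subset_span rfl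
  exact this.1

theorem pi_mem2 : φ π' ∈ P2 := by
  have : φ π' ∈ P1 ⊓ P2 := H.hP ▸ Ideal.subset_span rfl
  exact this.2

theorem q_mem2 : (q₀ : B) ∈ P2 := by
  obtain ⟨c, hc⟩ := Ideal.mem_span_singleton'.1 H.hq
  have : (q₀ : B) = φ c * φ π' := by rw [← map_mul, hc, map_natCast]
  rw [this]
  exact P2.mul_mem_left _ H.pi_mem2

theorem disj1 : Disjoint ((Submonoid.map φ y0.primeCompl : Submonoid B) : Set B) (P1 : Set B) := by
  rw [Set.disjoint_left]
  rintro _ ⟨m, hm, rfl⟩ hmem
  exact hm (H.hc1 hmem)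

theorem disj2 : Disjoint ((Submonoid.map φ y0.primeCompl : Submonoid B) : Set B) (P2 : Set B) := by
  rw [Set.disjoint_left]
  rintro _ ⟨m, hm, rfl⟩ hmem
  exact hm (H.hc2 hmem)

theorem comap_map1 : (Ideal.map H.iota P1).comap H.iota = P1 := by
  letI := H.iota.toAlgebra
  haveI := H.isLoc
  exact IsLocalization.under_map_of_isPrime_disjoint (Submonoid.map φ y0.primeCompl)
    (integralClosure S E) inferInstance H.disj1

theorem comap_map2 : (Ideal.map H.iota P2).comap H.iota = P2 := by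
  letI := H.iota.toAlgebra
  haveI := H.isLoc
  exact IsLocalization.under_map_of_isPrime_disjoint (Submonoid.map φ y0.primeCompl)
    (integralClosure S E) inferInstance H.disj2

theorem isPrime2 : (Ideal.map H.iota P2).IsPrime := by
  letI := H.iota.toAlgebra
  haveI := H.isLoc
  exact IsLocalization.isPrime_of_isPrime_disjoint (Submonoid.map φ y0.primeCompl)
    (integralClosure S E) P2 inferInstance H.disj2

theorem mem_map_iff1 (b : B) : H.iota b ∈ Ideal.map H.iota P1 ↔ b ∈ P1 := by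
  conv_rhs => rw [← H.comap_map1]
  rfl

theorem mem_map_iff2 (b : B) : H.iota b ∈ Ideal.map H.iota P2 ↔ b ∈ P2 := by
  conv_rhs => rw [← H.comap_map2]
  rfl

/-- every element of `C` is a fraction `b / φ m` -/
theorem exists_frac (c : integralClosure S E) :
    ∃ (m : B') (b : B), m ∉ y0 ∧ c * H.iota (φ m) = H.iota b := by
  obtain ⟨m, hm, b, hb⟩ := ssm_thc_surj φ y0 S H.hφ H.hBcl (c : E) c.2
  refine ⟨m, b, hm, ?_⟩
  apply Subtype.ext
  show (c : E) * (φ m : E) = (b : E)
  rw [mul_comm]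
  exact hb

theorem isUnit_iota_phi {m : B'} (hm : m ∉ y0) : IsUnit (H.iota (φ m)) := by
  rw [H.iota_phi]
  exact (IsLocalization.map_units S (⟨m, hm⟩ : y0.primeCompl)).map _

theorem algebraMap_pi :
    algebraMap S (integralClosure S E) (algebraMap B' S π') = H.iota (φ π') :=
  (H.iota_phi π').symm

/-- `P1 C ∩ P2 C ⊆ π C` -/
theorem inf_le : Ideal.map H.iota P1 ⊓ Ideal.map H.iota P2 ≤
    Ideal.span {algebraMap S (integralClosure S E) (algebraMap B' S π')} := by
  rintro c ⟨hc1, hc2⟩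
  obtain ⟨m, b, hm, hcb⟩ := H.exists_frac c
  have hb1 : b ∈ P1 := by
    rw [← H.mem_map_iff1, ← hcb]
    exact Ideal.mul_mem_right _ _ hc1
  have hb2 : b ∈ P2 := by
    rw [← H.mem_map_iff2, ← hcb]
    exact Ideal.mul_mem_right _ _ hc2
  have hb : b ∈ Ideal.span {φ π'} := by
    rw [H.hP]
    exact ⟨hb1, hb2⟩
  obtain ⟨b1, rfl⟩ := Ideal.mem_span_singleton.1 hb
  rw [← Ideal.mul_unit_mem_iff_mem _ (H.isUnit_iota_phi hm), hcb, map_mul, ← H.algebraMap_pi]
  exact Ideal.mul_mem_right _ _ (Ideal.subset_span rfl)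

/-- `C = S + P1 C` -/
theorem add_C (x : integralClosure S E) :
    ∃ s : S, x - algebraMap S (integralClosure S E) s ∈ Ideal.map H.iota P1 := by
  obtain ⟨m, b, hm, hxb⟩ := H.exists_frac x
  obtain ⟨b', hb'⟩ := H.hadd b
  obtain ⟨w, hw⟩ := IsLocalization.map_units S (⟨m, hm⟩ : y0.primeCompl)
  simp only at hw
  refine ⟨algebraMap B' S b' * ((w⁻¹ : Sˣ) : S), ?_⟩
  rw [← Ideal.mul_unit_mem_iff_mem _ (H.isUnit_iota_phi hm)]
  have h1 : (x - algebraMap S (integralClosure S E) (algebraMap B' S b' * ((w⁻¹ : Sˣ) : S))) *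
      H.iota (φ m) = H.iota (b - φ b') := by
    rw [sub_mul, hxb, H.iota_phi m, ← map_mul, map_sub, H.iota_phi b', ← hw, mul_assoc,
      Units.inv_mul, mul_one]
  rw [h1]
  exact Ideal.mem_map_of_mem _ hb'

/-- `C^q ⊆ S + P2 C` -/
theorem pow_C (x : integralClosure S E) :
    ∃ s : S, x ^ q₀ - algebraMap S (integralClosure S E) s ∈ Ideal.map H.iota P2 := by
  obtain ⟨m, b, hm, hxb⟩ := H.exists_frac x
  obtain ⟨b', hb'⟩ := H.hpow b
  obtain ⟨w, hw⟩ := IsLocalization.map_units S (⟨m, hm⟩ : y0.primeCompl)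
  simp only at hw
  refine ⟨algebraMap B' S b' * ((w⁻¹ : Sˣ) : S) ^ q₀, ?_⟩
  rw [← Ideal.mul_unit_mem_iff_mem _ ((H.isUnit_iota_phi hm).pow q₀)]
  have h1 : (x ^ q₀ - algebraMap S (integralClosure S E)
      (algebraMap B' S b' * ((w⁻¹ : Sˣ) : S) ^ q₀)) * H.iota (φ m) ^ q₀ =
      H.iota (b ^ q₀ - φ b') := by
    rw [sub_mul, ← mul_pow, hxb, H.iota_phi m, ← map_pow (algebraMap S (integralClosure S E)),
      ← map_mul, map_sub, map_pow, H.iota_phi b', ← hw, mul_assoc, ← mul_pow,
      Units.inv_mul, one_pow, mul_one]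
  rw [h1]
  exact Ideal.mem_map_of_mem _ hb'

/-- a prime of `C` lying over `𝔪_S` contracts to a prime of `B` over `y0` -/
theorem comap_comap (M : Ideal (integralClosure S E)) [M.IsMaximal] :
    (M.comap H.iota).comap φ = y0 := by
  haveI : IsLocalRing S := inferInstance
  have ha : M.comap (algebraMap S (integralClosure S E)) = IsLocalRing.maximalIdeal S := by
    haveI : (M.comap (algebraMap S (integralClosure S E))).IsMaximal :=
      Ideal.isMaximal_comap_of_isIntegral_of_isMaximal M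
    exact IsLocalRing.eq_maximalIdeal this
  rw [Ideal.comap_comap]
  have h1 : H.iota.comp φ = (algebraMap S (integralClosure S E)).comp (algebraMap B' S) :=
    RingHom.ext H.iota_phi
  rw [h1, ← Ideal.comap_comap, ha]
  exact IsLocalization.AtPrime.under_maximalIdeal S y0

/-- ORDINARY: `P1 C + P2 C = C` -/
theorem sup_eq_top : Ideal.map H.iota P1 ⊔ Ideal.map H.iota P2 = ⊤ := by
  by_contra hne
  obtain ⟨M, hM, hle⟩ := Ideal.exists_le_maximal _ hne
  haveI := hM
  have h1 : P1 ≤ M.comap H.iota := by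
    intro x hx
    exact hle (Ideal.mem_sup_left (Ideal.mem_map_of_mem _ hx))
  have h2 : P2 ≤ M.comap H.iota := by
    intro x hx
    exact hle (Ideal.mem_sup_right (Ideal.mem_map_of_mem _ hx))
  exact H.hord _ (Ideal.comap_isPrime _ _) (H.comap_comap M) ⟨h1, h2⟩

/-- the SMOOTH clause in `C` -/
theorem gen_C (M : Ideal (integralClosure S E)) (hM : M.IsMaximal)
    (hP2M : Ideal.map H.iota P2 ≤ M) :
    H.iota u ∈ M ∧ ∀ x ∈ M, ∃ s : integralClosure S E, s ∉ M ∧
      s * x ∈ Ideal.map H.iota P2 ⊔ Ideal.span {H.iota u} := by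
  haveI := hM
  haveI := H.hy0
  set 𝔫 : Ideal B := M.comap H.iota with h𝔫
  haveI : 𝔫.IsPrime := Ideal.comap_isPrime _ _
  have h𝔫y : 𝔫.comap φ = y0 := H.comap_comap M
  have h𝔫max : 𝔫.IsMaximal := ssm_cp_isMaximal_of_comap φ H.hint 𝔫 (h𝔫y ▸ H.hy0)
  have hP2𝔫 : P2 ≤ 𝔫 := fun x hx => hP2M (Ideal.mem_map_of_mem _ hx)
  obtain ⟨-, hu𝔫, hgen⟩ := H.hsm 𝔫 h𝔫max h𝔫y hP2𝔫
  refine ⟨hu𝔫, fun x hx => ?_⟩
  obtain ⟨m, b, hm, hxb⟩ := H.exists_frac x
  have hb𝔫 : b ∈ 𝔫 := by
    show H.iota b ∈ M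
    rw [← hxb]
    exact M.mul_mem_right _ hx
  obtain ⟨s, hs, hsb⟩ := hgen b hb𝔫
  refine ⟨H.iota s * H.iota (φ m), ?_, ?_⟩
  · intro hmem
    rcases Ideal.IsPrime.mem_or_mem inferInstance hmem with h | h
    · exact hs h
    · exact (Ideal.IsMaximal.ne_top hM) (Ideal.eq_top_of_isUnit_mem _ h (H.isUnit_iota_phi hm))
  · have e : H.iota s * H.iota (φ m) * x = H.iota (s * b) := by
      rw [map_mul, ← hxb]; ring
    rw [e]
    obtain ⟨a1, a2, ha⟩ := Ideal.mem_span_pair.1 hsb
    rw [← ha, map_add, map_mul, map_mul]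
    refine Submodule.add_mem_sup ?_ ?_
    · exact Ideal.mul_mem_left _ _ (Ideal.mem_map_of_mem _ H.pi_mem2)
    · exact Ideal.mul_mem_left _ _ (Ideal.subset_span rfl)

end s36oc_Hyp

end Cover

section Rank

variable {S K E : Type*} [CommRing S] [IsDomain S] [Field K] [Field E] [Algebra S K]
  [IsFractionRing S K] [Algebra K E] [Algebra S E] [IsScalarTower S K E] [FiniteDimensional K E]

/-- if `C = integralClosure S E` is generated by two elements over `S` then `[E : K] ≤ 2`. -/
theorem s36oc_finrank_le_two (e : integralClosure S E)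
    (h : Submodule.span S {(1 : integralClosure S E), e} = ⊤) : Module.finrank K E ≤ 2 := by
  classical
  have htop : Submodule.span K ((({(1 : E), (e : E)} : Finset E)) : Set E) = ⊤ := by
    rw [eq_top_iff]
    intro x _
    obtain ⟨m, hm⟩ := IsIntegral.exists_multiple_integral_of_isLocalization (nonZeroDivisors S) x
      (Algebra.IsIntegral.isIntegral (R := K) x)
    have hc : (⟨m • x, hm⟩ : integralClosure S E) ∈
        Submodule.span S {(1 : integralClosure S E), e} := by rw [h]; trivial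
    obtain ⟨s1, s2, hs⟩ := Submodule.mem_span_pair.1 hc
    have hs' : algebraMap S E s1 + algebraMap S E s2 * (e : E) = algebraMap S E (m : S) * x := by
      have := congrArg (fun z : integralClosure S E => (z : E)) hs
      simp only [Subalgebra.coe_add, Subalgebra.coe_smul, Subalgebra.coe_one] at this
      rw [Algebra.smul_def, Algebra.smul_def, mul_one] at this
      rw [this, Submonoid.smul_def, Algebra.smul_def]
    have hm0 : algebraMap S K (m : S) ≠ 0 :=
      IsFractionRing.to_map_ne_zero_of_mem_nonZeroDivisors m.2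
    have hx : x = ((algebraMap S K (m : S))⁻¹ * algebraMap S K s1) • (1 : E)
        + ((algebraMap S K (m : S))⁻¹ * algebraMap S K s2) • (e : E) := by
      rw [Algebra.smul_def, Algebra.smul_def, mul_one, map_mul, map_mul, map_inv₀,
        ← IsScalarTower.algebraMap_apply S K E, ← IsScalarTower.algebraMap_apply S K E,
        ← IsScalarTower.algebraMap_apply S K E, mul_assoc, ← mul_add, hs', ← mul_assoc,
        inv_mul_cancel₀, one_mul]
      rw [IsScalarTower.algebraMap_apply S K E]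
      exact (_root_.map_ne_zero _).2 hm0
    rw [hx]
    refine Submodule.add_mem _ (Submodule.smul_mem _ _ (Submodule.subset_span ?_))
      (Submodule.smul_mem _ _ (Submodule.subset_span ?_))
    · simp
    · simp
  calc Module.finrank K E = Module.finrank K (⊤ : Submodule K E) := (finrank_top K E).symm
    _ = Module.finrank K (Submodule.span K ((({(1 : E), (e : E)} : Finset E)) : Set E)) := by
        rw [htop]
    _ ≤ ({(1 : E), (e : E)} : Finset E).card := finrank_span_finset_le_card _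
    _ ≤ 2 := Finset.card_le_two

/-- `rank_S C = [E : K]` when `C = integralClosure S E` is monogenic over `S`. -/
theorem s36oc_finrank_eq [IsIntegrallyClosed S] (G : integralClosure S E)
    (hadj : Algebra.adjoin S {G} = ⊤) :
    Module.finrank S (integralClosure S E) = Module.finrank K E := by
  have hint : IsIntegral S G := Algebra.IsIntegral.isIntegral G
  haveI : Algebra.IsAlgebraic K E := Algebra.IsAlgebraic.of_finite K E
  haveI : Module.IsTorsionFree S (integralClosure S E) := el_sm_isTorsionFree (R := S) K E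
  haveI : IsLocalization (Algebra.algebraMapSubmonoid (integralClosure S E) (nonZeroDivisors S)) E :=
    IsIntegralClosure.isLocalization S K E (integralClosure S E)
  set pb : PowerBasis S (integralClosure S E) := PowerBasis.ofAdjoinEqTop' hint hadj with hpb
  have bK : Module.Basis (Fin pb.dim) K E :=
    pb.basis.localizationLocalization K (nonZeroDivisors S) E
  rw [pb.finrank, Module.finrank_eq_card_basis bK, Fintype.card_fin]

end Rank

section Main

variable {A0 : Type*} [CommRing A0] {K E : Type*} [Field K] [Field E] [Algebra K E]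
  [FiniteDimensional K E] [Algebra.IsSeparable K E] [Algebra A0 K] [Algebra A0 E]
  {B' : Subalgebra A0 K} {B : Subalgebra A0 E}
  {φ : B' →+* B} {y0 : Ideal B'} [y0.IsPrime]
  {S : Type*} [CommRing S] [IsDomain S] [IsLocalRing S] [IsNoetherianRing S]
  [IsIntegrallyClosed S] [Algebra B' S] [IsLocalization.AtPrime S y0]
  [Algebra S K] [IsScalarTower B' S K] [IsFractionRing S K] [Algebra S E] [IsScalarTower S K E]
  {q₀ : ℕ} {P1 P2 : Ideal B} [P1.IsPrime] [P2.IsPrime] {π' t' : B'} {u : B}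

/-- **[ORD-G-INST], adjoin form.** -/
theorem s36oc_adjoin (H : s36oc_Hyp φ y0 S q₀ P1 P2 π' t' u)
    (hrank : 3 ≤ Module.finrank K E) :
    ∃ (G : integralClosure S E) (a : S), IsUnit a ∧
      G - 1 ∈ Ideal.map H.iota P1 ∧ G - H.iota u ∈ Ideal.map H.iota P2 ∧
      H.iota u ^ q₀ - algebraMap S (integralClosure S E) (a * algebraMap B' S t') ∈
        Ideal.map H.iota P2 ∧
      G ^ q₀ - algebraMap S (integralClosure S E) (a * algebraMap B' S t') ∈
        Ideal.map H.iota P2 ∧
      (∀ M : Ideal (integralClosure S E), M.IsMaximal → Ideal.map H.iota P2 ≤ M → G ∈ M) ∧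
      Algebra.adjoin S {G} = ⊤ := by
  haveI : Module.Finite S (integralClosure S E) := IsIntegralClosure.finite S K E _
  haveI := H.isPrime2
  have hπ2 : algebraMap S (integralClosure S E) (algebraMap B' S π') ∈ Ideal.map H.iota P2 := by
    rw [H.algebraMap_pi]
    exact Ideal.mem_map_of_mem _ H.pi_mem2
  have hq2 : ((q₀ : ℕ) : integralClosure S E) ∈ Ideal.map H.iota P2 := by
    have : ((q₀ : ℕ) : integralClosure S E) = H.iota (q₀ : B) := (map_natCast H.iota q₀).symm
    rw [this]
    exact Ideal.mem_map_of_mem _ H.q_mem2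
  have hne : ∃ c : integralClosure S E, ∀ s : S,
      c - algebraMap S (integralClosure S E) s ∉ Ideal.map H.iota P2 := by
    by_contra hcon
    push Not at hcon
    obtain ⟨e, he⟩ := s36og_span_pair (algebraMap B' S π') (algebraMap B' S t') H.hm
      (Ideal.map H.iota P1) (Ideal.map H.iota P2) H.inf_le H.sup_eq_top H.add_C hcon
    have := s36oc_finrank_le_two (K := K) e he
    omega
  exact s36og_adjoin_of_pow q₀ H.hq₀ (algebraMap B' S π') (algebraMap B' S t') H.hm
    (Ideal.map H.iota P1) (Ideal.map H.iota P2) H.inf_le H.sup_eq_top H.add_C hπ2 hq2 H.pow_C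
    H.hperf (H.iota u) H.gen_C hne

/-- **[ORD-G-INST], basis form** = the inputs `(n, b, G, hb, F, hF, hdeg, hFG)` of
`s36cr_dvd_pi_pow` / `s36cr_point` with `C1 := integralClosure S E`, `n := [E : K]`. -/
theorem s36oc_main (H : s36oc_Hyp φ y0 S q₀ P1 P2 π' t' u) (n : ℕ)
    (hrank : Module.finrank K E = n) (hn : 3 ≤ n) :
    ∃ (G : integralClosure S E) (b : Module.Basis (Fin n) S (integralClosure S E)) (F : S[X])
      (a : S), IsUnit a ∧
      G - 1 ∈ Ideal.map H.iota P1 ∧ G - H.iota u ∈ Ideal.map H.iota P2 ∧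
      H.iota u ^ q₀ - algebraMap S (integralClosure S E) (a * algebraMap B' S t') ∈
        Ideal.map H.iota P2 ∧
      G ^ q₀ - algebraMap S (integralClosure S E) (a * algebraMap B' S t') ∈
        Ideal.map H.iota P2 ∧
      (∀ M : Ideal (integralClosure S E), M.IsMaximal → Ideal.map H.iota P2 ≤ M → G ∈ M) ∧
      Algebra.adjoin S {G} = ⊤ ∧ (∀ i, b i = G ^ (i : ℕ)) ∧ F.Monic ∧ F.natDegree = n ∧
      aeval G F = 0 := by
  obtain ⟨G, a, ha, hG1, hG2, hu, hGq, hGM, hadj⟩ := s36oc_adjoin H (hrank ▸ hn)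
  haveI : Module.IsTorsionFree S (integralClosure S E) := el_sm_isTorsionFree (R := S) K E
  have hint : IsIntegral S G := Algebra.IsIntegral.isIntegral G
  have hfr : Module.finrank S (integralClosure S E) = n := by
    rw [s36oc_finrank_eq (K := K) G hadj, hrank]
  obtain ⟨b, F, hb, hF, hdeg, hFG⟩ := s36og_basis_of_adjoin G hint hadj n hfr
  exact ⟨G, b, F, a, ha, hG1, hG2, hu, hGq, hGM, hadj, hb, hF, hdeg, hFG⟩

end Main

end Fermat.Agent.S36
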