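/-
Project S36 (Carayol), [M2] leaf [L3b], [ORD-G-INST] (helper16; prefix `s36ol_`): ABSTRACT HALF of
the Legendre instance of `s36oc_Hyp` THROUGH THE MIDDLE EMBEDDING `β`.

* `s36ol_exists_poly` : a separable equation `G ∈ A0[X]` for a coordinate `x` at a closed point `y`
  (`G(x) ∈ y`, `G'(x) ∉ y`), `A0` local with perfect residue field, `B ⧸ y` finite;
* `s36ol_hyp_abs`     : `s36oc_Hyp (W ∘ φ) y0 S q PV PF π' t' u` from the level-`N' q` package for the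
  STANDARD chart map `φ` (`PF` the `φ`-isomorphic vertical prime, `PV` the purely inseparable one),
  the chart involution `W` (exchanging `PF` and `PV`), a local parameter `t'` at `y0`, `hperf`,
  ordinarity and the smooth clause with parameter `u` at the point of `PF` over `y0`.  The algebra
  structure `K → E` of the statement is the one through `β = W ∘ (inclusion)` (`hφβ`).
-/
import Mathlib
import Fermat.Agent.S36.CReg.OrdGCover
import Fermat.Agent.JT3.Model.TameBridge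

set_option autoImplicit false
set_option linter.unusedSectionVars false
set_option linter.unusedVariables false
set_option linter.style.haveILetI false

namespace Fermat.Agent.S36

open Fermat.Agent.JT3 Fermat.Agent.SS Polynomial IsLocalRing

/-- **a separable equation for a coordinate at a closed point**: `A0` local with PERFECT residue
field `k`, `B` an `A0`-algebra, `y` a maximal ideal of `B` over `𝔪(A0)` with `B ⧸ y` finite;
then for every `x ∈ B` there is `G ∈ A0[X]` with `G(x) ∈ y`, `G'(x) ∉ y` (a lift of the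
minimal polynomial of `x mod y`). -/
theorem s36ol_exists_poly {A0 B : Type*} [CommRing A0] [IsLocalRing A0]
    [PerfectField (ResidueField A0)] [CommRing B] [Algebra A0 B] (y : Ideal B) [hy : y.IsMaximal]
    [Finite (B ⧸ y)] (hle : maximalIdeal A0 ≤ y.comap (algebraMap A0 B)) (x : B) :
    ∃ G : A0[X], aeval x G ∈ y ∧ aeval x (derivative G) ∉ y := by
  letI := Ideal.Quotient.field y
  -- `κ = B ⧸ y` as an algebra over `k`
  let f : ResidueField A0 →+* B ⧸ y := Ideal.quotientMap y (algebraMap A0 B) hle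
  letI : Algebra (ResidueField A0) (B ⧸ y) := f.toAlgebra
  -- evaluation of a polynomial over `A0`
  have hev : ∀ (p : A0[X]) (b : B), Ideal.Quotient.mk y (aeval b p) =
      aeval (Ideal.Quotient.mk y b) (p.map (residue A0)) := by
    intro p b
    rw [aeval_def, aeval_def, eval₂_map, hom_eval₂]
    congr 1
  set xb : B ⧸ y := Ideal.Quotient.mk y x with hxb
  haveI : Module.Finite (ResidueField A0) (B ⧸ y) := Module.Finite.of_finite
  have hint : IsIntegral (ResidueField A0) xb := Algebra.IsIntegral.isIntegral xb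
  have hsep : (minpoly (ResidueField A0) xb).Separable :=
    PerfectField.separable_of_irreducible (minpoly.irreducible hint)
  obtain ⟨G, hG⟩ := Polynomial.map_surjective (residue A0) residue_surjective
    (minpoly (ResidueField A0) xb)
  refine ⟨G, ?_, ?_⟩
  · rw [← Ideal.Quotient.eq_zero_iff_mem, hev, hG]
    exact minpoly.aeval _ _
  · rw [← Ideal.Quotient.eq_zero_iff_mem, hev, ← derivative_map, hG]
    exact hsep.aeval_derivative_ne_zero (minpoly.aeval _ _)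

section Abs

variable {A0 : Type*} [CommRing A0] {K E : Type*} [Field K] [Field E] [Algebra K E]
  [Algebra A0 K] [Algebra A0 E]
  {B' : Subalgebra A0 K} {B : Subalgebra A0 E}

/-- **[ORD-G-INST] through `β`, abstract packaging.** -/
theorem s36ol_hyp_abs (φ : B' →+* B) (WB : B ≃+* B) (hWW : ∀ x, WB (WB x) = x)
    (hφβ : ∀ b' : B', ((WB (φ b') : B) : E) = algebraMap K E (b' : K))
    (hint : φ.IsIntegral) (hBcl : ∀ z : E, IsIntegral B' z → z ∈ B)
    (π' : B') (PF PV : Ideal B)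
    (hP : Ideal.span {φ π'} = PF ⊓ PV) (hWπ : WB (φ π') = φ π')
    (hW : ∀ x, x ∈ PF ↔ WB x ∈ PV)
    (hcF : PF.comap φ = Ideal.span {π'}) (hcV : PV.comap φ = Ideal.span {π'})
    (hadd : ∀ b : B, ∃ b' : B', b - φ b' ∈ PF) (q : ℕ) (hq : q.Prime)
    (hpow : ∀ b : B, ∃ b' : B', b ^ q - φ b' ∈ PV)
    (hqπ : (q : B') ∈ Ideal.span {π'})
    (y0 : Ideal B') [hy0 : y0.IsMaximal] (hπy : π' ∈ y0)
    (S : Type*) [CommRing S] [IsLocalRing S] [Algebra B' S] [IsLocalization.AtPrime S y0]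
    (t' : B') (ht' : tq_GenBy π' t' y0)
    (hperf : ∀ s : S, ∃ z : S, s - z ^ q ∈ maximalIdeal S)
    (hord : ∀ 𝔫 : Ideal B, 𝔫.IsPrime → 𝔫.comap ((WB : B →+* B).comp φ) = y0 →
      ¬ (PV ≤ 𝔫 ∧ PF ≤ 𝔫))
    (u : B) (hsm : ∀ 𝔫 : Ideal B, 𝔫.IsMaximal → 𝔫.comap ((WB : B →+* B).comp φ) = y0 → PF ≤ 𝔫 →
      tq_GenBy (φ π') u 𝔫) :
    s36oc_Hyp ((WB : B →+* B).comp φ) y0 S q PV PF π' t' u := by
  have hW' : ∀ x, WB x ∈ PF ↔ x ∈ PV := by
    intro x
    rw [hW (WB x), hWW]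
  have hπφ : ((WB : B →+* B).comp φ) π' = φ π' := hWπ
  have hspan_le : Ideal.span {π'} ≤ y0 := by
    rw [Ideal.span_singleton_le_iff_mem]; exact hπy
  refine
    { hφ := hφβ
      hint := ssm_cp_isIntegral_transport φ hint WB
      hBcl := hBcl
      hy0 := hy0
      hq₀ := hq
      hq := hqπ
      hP := by rw [hπφ, hP, inf_comm]
      hc1 := ?_
      hc2 := ?_
      hadd := ?_
      hpow := ?_
      hm := ?_
      hperf := hperf
      hord := hord
      hsm := ?_ }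
  · rw [ssm_cp_comap_transport φ WB PF PV (fun x => (hW x).symm), hcF]
    exact hspan_le
  · rw [ssm_cp_comap_transport φ WB PV PF hW', hcV]
    exact hspan_le
  · have h := ssm_cp_add_transport φ WB PF PV (fun x hx => (hW x).1 hx) 1
      (fun b => by simpa using hadd b)
    intro b
    simpa using h b
  · exact ssm_cp_add_transport φ WB PV PF (fun x hx => (hW' x).2 hx) q hpow
  · have h := tqb_maximalIdeal_eq ht' S
    convert h
  · intro 𝔫 h𝔫 hc hF
    rw [hπφ]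
    exact hsm 𝔫 h𝔫 hc hF

/-- **[ORD-G-INST] through `β`, abstract form with the choice of the parameters**: on top of the
inputs of `s36ol_hyp_abs`, a coordinate `lam'` of `B'` with `lam', lam' − 1 ∉ y0`, the two
Frobenius relations `(W φ lam')^q = w0 · φ lam'`, `(W φ (lam' − 1))^q = w1 · φ (lam' − 1)` in `B`,
the etale-coordinate clause `hEC` on `B'` and the existence `hpoly` of separable equations.  Then
there are `G0 Gp : A0[X]` and the point `𝔫F ⊇ PF` over `y0` (through `W ∘ φ`) such that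
`s36oc_Hyp` holds with `t' := G0(lam')`, `u := φ (Gp(lam'))`, and `Gp'(lam') ∉ φ⁻¹ 𝔫F`. -/
theorem s36ol_hyp_abs2 (φ : B' →+* B) (WB : B ≃+* B) (hWW : ∀ x, WB (WB x) = x)
    (hφβ : ∀ b' : B', ((WB (φ b') : B) : E) = algebraMap K E (b' : K))
    (hint : φ.IsIntegral) (hBcl : ∀ z : E, IsIntegral B' z → z ∈ B)
    (π' : B') (PF PV : Ideal B) [PF.IsPrime]
    (hP : Ideal.span {φ π'} = PF ⊓ PV) (hWπ : WB (φ π') = φ π')
    (hW : ∀ x, x ∈ PF ↔ WB x ∈ PV)
    (hcF : PF.comap φ = Ideal.span {π'}) (hcV : PV.comap φ = Ideal.span {π'})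
    (hadd : ∀ b : B, ∃ b' : B', b - φ b' ∈ PF) (q : ℕ) (hq : q.Prime)
    (hpow : ∀ b : B, ∃ b' : B', b ^ q - φ b' ∈ PV)
    (hqπ : (q : B') ∈ Ideal.span {π'})
    (y0 : Ideal B') [hy0 : y0.IsMaximal] (hπy : π' ∈ y0)
    (S : Type*) [CommRing S] [IsLocalRing S] [Algebra B' S] [IsLocalization.AtPrime S y0]
    (hperf : ∀ s : S, ∃ z : S, s - z ^ q ∈ maximalIdeal S)
    (hord : ∀ 𝔫 : Ideal B, 𝔫.IsPrime → 𝔫.comap ((WB : B →+* B).comp φ) = y0 →
      ¬ (PV ≤ 𝔫 ∧ PF ≤ 𝔫))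
    (lam' : B') (h0 : lam' ∉ y0) (h1 : lam' - 1 ∉ y0) (w0 w1 : B)
    (hw0 : WB (φ lam') ^ q = w0 * φ lam')
    (hw1 : WB (φ (lam' - 1)) ^ q = w1 * φ (lam' - 1))
    (hEC : ∀ y : Ideal B', y.IsMaximal → π' ∈ y → lam' ∉ y → lam' - 1 ∉ y → ∀ G : A0[X],
      aeval lam' G ∈ y → aeval lam' (derivative G) ∉ y → tq_GenBy π' (aeval lam' G) y)
    (hpoly : ∀ y : Ideal B', y.IsMaximal → π' ∈ y →
      ∃ G : A0[X], aeval lam' G ∈ y ∧ aeval lam' (derivative G) ∉ y) :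
    ∃ (G0 Gp : A0[X]) (𝔫F : Ideal B), PF ≤ 𝔫F ∧ aeval lam' (derivative Gp) ∉ 𝔫F.comap φ ∧
      s36oc_Hyp ((WB : B →+* B).comp φ) y0 S q PV PF π' (aeval lam' G0)
        (φ (aeval lam' Gp)) := by
  have hW' : ∀ x, WB x ∈ PF ↔ x ∈ PV := by
    intro x
    rw [hW (WB x), hWW]
  have hintB : ((WB : B →+* B).comp φ).IsIntegral := ssm_cp_isIntegral_transport φ hint WB
  -- the point `𝔫F` of `PF` over `y0`
  have hcF' : PF.comap ((WB : B →+* B).comp φ) ≤ y0 := by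
    rw [ssm_cp_comap_transport φ WB PV PF hW', hcV, Ideal.span_singleton_le_iff_mem]
    exact hπy
  obtain ⟨𝔫F, hF𝔫, h𝔫Fp, h𝔫Fc⟩ := ssm_cp_exists _ hintB PF y0 hcF'
  haveI := h𝔫Fp
  have h𝔫Fm : 𝔫F.IsMaximal := ssm_cp_isMaximal_of_comap _ hintB 𝔫F (h𝔫Fc ▸ hy0)
  have hV𝔫 : ¬ PV ≤ 𝔫F := fun h => hord 𝔫F h𝔫Fp h𝔫Fc ⟨h, hF𝔫⟩
  have hyα : (𝔫F.comap φ).IsMaximal := ssm_cp_comap_isMaximal φ hint 𝔫F h𝔫Fm
  have hπ𝔫 : φ π' ∈ 𝔫F := hF𝔫 (ssm_cp_pi_mem_left φ π' PF PV hP)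
  have hπyα : π' ∈ 𝔫F.comap φ := hπ𝔫
  -- off the cusps at `yα`
  have key : ∀ (a : B') (w : B), WB (φ a) ^ q = w * φ a → a ∉ y0 → a ∉ 𝔫F.comap φ := by
    intro a w hw ha h
    apply ha
    rw [← h𝔫Fc, Ideal.mem_comap, RingHom.comp_apply]
    apply h𝔫Fp.mem_of_pow_mem q
    rw [RingHom.coe_coe, hw]
    exact 𝔫F.mul_mem_left _ h
  have h0α : lam' ∉ 𝔫F.comap φ := key lam' w0 hw0 h0
  have h1α : lam' - 1 ∉ 𝔫F.comap φ := key (lam' - 1) w1 hw1 h1
  -- the two separable equations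
  obtain ⟨G0, hG0, hG0'⟩ := hpoly y0 hy0 hπy
  obtain ⟨Gp, hGp, hGp'⟩ := hpoly (𝔫F.comap φ) hyα hπyα
  have ht0 := hEC y0 hy0 hπy h0 h1 G0 hG0 hG0'
  have htα := hEC (𝔫F.comap φ) hyα hπyα h0α h1α Gp hGp hGp'
  -- the smooth clause at `𝔫F`
  have hsmα := (ssm_cp_smooth φ π' PF PV hP hadd 𝔫F hπ𝔫 hV𝔫
    (aeval lam' Gp) htα (φ (aeval lam' Gp)) (by rw [sub_self]; exact PF.zero_mem)).1
  have hpowβ := ssm_cp_add_transport φ WB PV PF (fun x hx => (hW' x).2 hx) q hpow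
  refine ⟨G0, Gp, 𝔫F, hF𝔫, hGp', ?_⟩
  refine s36ol_hyp_abs φ WB hWW hφβ hint hBcl π' PF PV hP hWπ hW hcF hcV hadd q hq hpow hqπ y0
    hπy S (aeval lam' G0) ht0 hperf hord (φ (aeval lam' Gp)) ?_
  intro 𝔫 h𝔫 hc hF
  haveI := h𝔫.isPrime
  have : 𝔫 = 𝔫F := ssm_cp_unique _ PF q hq.pos hpowβ 𝔫 𝔫F hF hF𝔫 (hc.trans h𝔫Fc.symm)
  rw [this]
  exact hsmα

end Abs

end Fermat.Agent.S36
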