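/-
Project S36 (Carayol), [M2] leaf [L3b], generic piece (helper16; prefix `s36rf_`): FINITENESS OF THE
RESIDUE FIELDS, feeding the hypothesis `hperf` of `s36oc_Hyp` through `s36og_hperf_of_finite`.

* `s36rf_finite_quot`       : `B` of finite type over `A0`, `𝔭` a maximal ideal of `A0` with finite
                              residue field, `y` a maximal ideal of `B` over `𝔭`: `B / y` is finite;
* `s36rf_finite_residue`    : the same for the residue field of the localisation of `B` at `y`;
* `s36rf_chart_finiteType`  : `fc_chart A0 {x}` is of finite type over a DVR `A0` (function field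
                              case);
* `s36rf_finite_residue_numberField` : a proper valuation subring of a number field has a finite
                              residue field;
* `s36rf_chart_residue_finite` : the residue field of (any presentation of) the local ring of the
                              chart `fc_chart A0 {x}` at a maximal ideal containing the uniformiser
                              is finite when the residue field of `A0` is.
-/
import Mathlib
import Fermat.Agent.JT3.FCore.FunField
import Fermat.Agent.JT3.Descent.ConstDVR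
import Fermat.Agent.S36.CReg.OrdGUnif

set_option autoImplicit false
set_option linter.unusedSectionVars false
set_option linter.unusedVariables false
set_option linter.style.haveILetI false

namespace Fermat.Agent.S36

open Fermat.Agent.JT3 IsLocalRing

section Generic

variable {A0 B : Type*} [CommRing A0] [CommRing B] [Algebra A0 B] [Algebra.FiniteType A0 B]

/-- `B / y` is finite for a maximal ideal `y` over a maximal ideal of `A0` with finite quotient. -/
theorem s36rf_finite_quot (𝔭 : Ideal A0) [𝔭.IsMaximal] [Finite (A0 ⧸ 𝔭)] (y : Ideal B)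
    [y.IsMaximal] (h : 𝔭 ≤ y.comap (algebraMap A0 B)) : Finite (B ⧸ y) := by
  letI := Ideal.Quotient.field 𝔭
  letI := Ideal.Quotient.field y
  letI : Algebra (A0 ⧸ 𝔭) (B ⧸ y) := (Ideal.quotientMap y (algebraMap A0 B) h).toAlgebra
  haveI : IsScalarTower A0 (A0 ⧸ 𝔭) (B ⧸ y) := IsScalarTower.of_algebraMap_eq fun a => by
    show algebraMap A0 (B ⧸ y) a = Ideal.quotientMap y (algebraMap A0 B) h (Ideal.Quotient.mk 𝔭 a)
    rw [Ideal.quotientMap_mk]
    rfl
  haveI : Algebra.FiniteType A0 (B ⧸ y) :=
    Algebra.FiniteType.of_surjective (Ideal.Quotient.mkₐ A0 y) Ideal.Quotient.mk_surjective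
  haveI : Algebra.FiniteType (A0 ⧸ 𝔭) (B ⧸ y) :=
    Algebra.FiniteType.of_restrictScalars_finiteType A0 (A0 ⧸ 𝔭) (B ⧸ y)
  haveI : Module.Finite (A0 ⧸ 𝔭) (B ⧸ y) :=
    finite_of_finite_type_of_isJacobsonRing (A0 ⧸ 𝔭) (B ⧸ y)
  exact Module.finite_of_finite (A0 ⧸ 𝔭)

/-- the residue field of the localisation of `B` at `y` is finite. -/
theorem s36rf_finite_residue (𝔭 : Ideal A0) [𝔭.IsMaximal] [Finite (A0 ⧸ 𝔭)] (y : Ideal B)
    [y.IsMaximal] (h : 𝔭 ≤ y.comap (algebraMap A0 B))
    (S : Type*) [CommRing S] [Algebra B S] [IsLocalization.AtPrime S y] [IsLocalRing S] :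
    Finite (ResidueField S) := by
  haveI := s36rf_finite_quot 𝔭 y h
  exact Finite.of_equiv _ (IsLocalization.AtPrime.equivQuotMaximalIdeal y S).toEquiv

end Generic

section NumberField

/-- a proper valuation subring of a number field has a finite residue field. -/
theorem s36rf_finite_residue_numberField (L : Type*) [Field L] [NumberField L]
    (O : ValuationSubring L) (hO : O ≠ ⊤) : Finite (ResidueField ↥O) := by
  obtain ⟨v, hv⟩ := dsc_exists_eq_valuationSubring (NumberField.RingOfIntegers L) L O
    (fun r => dsc_mem_of_isIntegral_of_le O (O := ℤ) (fun n => by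
      rw [eq_intCast]; exact intCast_mem O n) r.2) hO
  rw [← IsDedekindDomain.HeightOneSpectrum.valuationSubringAtPrime_eq_valuationSubring] at hv
  subst hv
  haveI : v.asIdeal.IsMaximal := v.isMaximal
  haveI : Finite (NumberField.RingOfIntegers L ⧸ v.asIdeal) :=
    v.asIdeal.finiteQuotientOfFreeOfNeBot v.ne_bot
  exact Finite.of_equiv _ (IsLocalization.AtPrime.equivQuotMaximalIdeal v.asIdeal
    ↥(IsDedekindDomain.HeightOneSpectrum.valuationSubringAtPrime L v)).toEquiv

end NumberField

section Chart

universe v

variable {A0 L : Type*} {F0 : Type v} [CommRing A0] [IsDomain A0] [IsDiscreteValuationRing A0]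
  [Field L] [CharZero L] [Field F0] [Algebra A0 L] [IsFractionRing A0 L] [Algebra L F0]
  [Algebra A0 F0] [IsScalarTower A0 L F0]

open IntermediateField in
/-- the chart `fc_chart A0 {x}` is an `A0`-algebra of finite type. -/
theorem s36rf_chart_finiteType {x : F0} (hx : Transcendental L x) [FiniteDimensional L⟮x⟯ F0] :
    Algebra.FiniteType A0 (fc_chart A0 ({x} : Set F0)) := by
  have hfin : Module.Finite (Algebra.adjoin A0 ({x} : Set F0))
      (integralClosure (Algebra.adjoin A0 ({x} : Set F0)) F0) := fc_ff_finite (L := L) hx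
  have hFT : Algebra.FiniteType A0 (Algebra.adjoin A0 ({x} : Set F0)) := by
    rw [← Subalgebra.fg_iff_finiteType]
    exact ⟨{x}, by rw [Finset.coe_singleton]⟩
  have h2 : Algebra.FiniteType (Algebra.adjoin A0 ({x} : Set F0))
      (integralClosure (Algebra.adjoin A0 ({x} : Set F0)) F0) := inferInstance
  change Algebra.FiniteType A0 (integralClosure (Algebra.adjoin A0 ({x} : Set F0)) F0)
  exact Algebra.FiniteType.trans hFT h2

open IntermediateField in
/-- **the residue field of the local ring of the chart at a closed point of the special fibre is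
finite** when the residue field of `A0` is; hence (`s36og_hperf_of_finite`) perfect. -/
theorem s36rf_chart_residue_finite [Finite (ResidueField A0)] {x : F0} (hx : Transcendental L x)
    [FiniteDimensional L⟮x⟯ F0] {π : A0} (hπ : Irreducible π)
    (y : Ideal (fc_chart A0 ({x} : Set F0))) [y.IsMaximal]
    (hπy : algebraMap A0 (fc_chart A0 ({x} : Set F0)) π ∈ y)
    (S : Type*) [CommRing S] [Algebra (fc_chart A0 ({x} : Set F0)) S]
    [IsLocalization.AtPrime S y] [IsLocalRing S] : Finite (ResidueField S) := by
  haveI := s36rf_chart_finiteType (A0 := A0) (L := L) hx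
  haveI : Finite (A0 ⧸ maximalIdeal A0) := ‹Finite (ResidueField A0)›
  refine s36rf_finite_residue (maximalIdeal A0) y ?_ S
  rw [hπ.maximalIdeal_eq, Ideal.span_le]
  rintro a (rfl : a = π)
  exact hπy

open IntermediateField in
/-- **`hperf` of `s36oc_Hyp`** for the local ring of the chart at a closed point of the special
fibre: `q`-th roots exist in the residue field. -/
theorem s36rf_chart_hperf [Finite (ResidueField A0)] (q : ℕ) (hq : q.Prime)
    [CharP (ResidueField A0) q] {x : F0} (hx : Transcendental L x)
    [FiniteDimensional L⟮x⟯ F0] {π : A0} (hπ : Irreducible π)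
    (y : Ideal (fc_chart A0 ({x} : Set F0))) [y.IsMaximal]
    (hπy : algebraMap A0 (fc_chart A0 ({x} : Set F0)) π ∈ y)
    (S : Type*) [CommRing S] [Algebra (fc_chart A0 ({x} : Set F0)) S]
    [IsLocalization.AtPrime S y] [IsLocalRing S] (s : S) :
    ∃ z : S, s - z ^ q ∈ maximalIdeal S := by
  haveI := s36rf_chart_residue_finite (L := L) hx hπ y hπy S
  refine s36og_hperf_of_finite q hq ?_ s
  -- `(q : S) ∈ 𝔪_S`
  have h1 : ((q : ℕ) : A0) ∈ maximalIdeal A0 := by
    rw [← IsLocalRing.residue_eq_zero_iff, map_natCast]
    exact CharP.cast_eq_zero _ q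
  rw [hπ.maximalIdeal_eq] at h1
  obtain ⟨c, hc⟩ := Ideal.mem_span_singleton'.1 h1
  have h2 : ((q : ℕ) : fc_chart A0 ({x} : Set F0)) ∈ y := by
    have : ((q : ℕ) : fc_chart A0 ({x} : Set F0)) =
        algebraMap A0 (fc_chart A0 ({x} : Set F0)) c *
          algebraMap A0 (fc_chart A0 ({x} : Set F0)) π := by
      rw [← map_mul, hc, map_natCast]
    rw [this]
    exact y.mul_mem_left _ hπy
  have h3 := (IsLocalization.AtPrime.to_map_mem_maximal_iff S y _).2 h2
  rwa [map_natCast] at h3

end Chart

end Fermat.Agent.S36
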