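/-
Project S36 (Carayol), [M2] leaf [L3b], [ORD-G-INST] (helper16; prefix `s36ol_`): THE LEGENDRE
INSTANCE OF `s36oc_Hyp` THROUGH THE MIDDLE EMBEDDING `β` over a number field ([NF2-CTX]), closed
inputs (the final theorems `s36ol_hyp_of`, `s36ol_hyp` are in `OrdGLegMain.lean`).

`B' = fc_chart O {λ'}` (level `N'`), `B1 = fc_chart O {λ}` (level `N' q`), `β : E0 → E1`,
`f(X) ↦ f(X^q)`.
* `s36ol_phiA` (standard chart map `φ_α`), `s36ol_phiB` (THE CHART MAP THROUGH `β`, with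
  `s36ol_phiB_coe` = `hφ`, `s36ol_phiB_isIntegral` = `hint`, `s36ol_hBcl` = `hBcl`), `s36ol_WB` (the
  involution of `B1`), `s36ol_phiB_eq : φ_β = W ∘ φ_α`;
* `s36ol_cross` (the fields of S34's crossing package), `s36ol_le`, `s36ol_W_P`, `s36ol_w0`,
  `s36ol_w1`, `s36ol_hEC`, `s36ol_hpoly`, `s36ol_hperf`.
-/
import Mathlib
import Fermat.Agent.S36.CReg.OrdGLegAbs
import Fermat.Agent.S36.CReg.ResFinite
import Fermat.Agent.S36.CReg.HorizInstLeg
import Fermat.Agent.SS.Model.NodeLegB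
import Fermat.Agent.SS.Model.EtaleCoordInst

set_option autoImplicit false
set_option linter.unusedSectionVars false
set_option linter.unusedVariables false
set_option linter.style.haveILetI false

noncomputable section

open ModularCurve IntermediateField IsLocalRing Polynomial
open Fermat.Agent.JT3 Fermat.Agent.SS

namespace Fermat.Agent.S36

section Defs

variable (L : Type*) [Field L] [CharZero L] [Algebra L (AlgebraicClosure ℚ)]
  (O : ValuationSubring L) (N' q : ℕ) [NeZero N'] [NeZero q]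

/-- the STANDARD chart map `fc_chart O {λ'} → fc_chart O {λ}` (inclusion `E0 ⊆ E1`). -/
def s36ol_phiA : fc_chart ↥O ({lg_lamE N'} : Set ↥(lg_E L N')) →+*
    fc_chart ↥O ({lg_lamE (N' * q)} : Set ↥(lg_E L (N' * q))) :=
  letI := ssm_gi_algebra (ssm_al_E_le L N' q)
  haveI := ssm_gt_isScalarTower O (ssm_al_E_le L N' q)
  ssm_cpi_phi ↥O ↥(lg_E L (N' * q)) (lg_lamE N')

theorem s36ol_phiA_coe (b' : fc_chart ↥O ({lg_lamE N'} : Set ↥(lg_E L N'))) :
    ((s36ol_phiA L O N' q b' : fc_chart ↥O ({lg_lamE (N' * q)} : Set ↥(lg_E L (N' * q)))) :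
      ↥(lg_E L (N' * q))) = IntermediateField.inclusion (ssm_al_E_le L N' q) (b' : ↥(lg_E L N')) :=
  rfl

theorem s36ol_phiA_algebraMap (a : ↥O) :
    s36ol_phiA L O N' q (algebraMap ↥O (fc_chart ↥O ({lg_lamE N'} : Set ↥(lg_E L N'))) a) =
      algebraMap ↥O (fc_chart ↥O ({lg_lamE (N' * q)} : Set ↥(lg_E L (N' * q)))) a := by
  letI := ssm_gi_algebra (ssm_al_E_le L N' q)
  haveI := ssm_gt_isScalarTower O (ssm_al_E_le L N' q)
  exact ssm_cpi_phi_algebraMap (A0 := ↥O) (E := ↥(lg_E L (N' * q))) (lg_lamE N') a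

/-- `φ_α (G(λ')) = G(λ)` for `G ∈ O[X]`. -/
theorem s36ol_phiA_aeval (lam' : fc_chart ↥O ({lg_lamE N'} : Set ↥(lg_E L N')))
    (hlam : (lam' : ↥(lg_E L N')) = lg_lamE N') (G : (↥O)[X]) :
    ((s36ol_phiA L O N' q (aeval lam' G) :
      fc_chart ↥O ({lg_lamE (N' * q)} : Set ↥(lg_E L (N' * q)))) : ↥(lg_E L (N' * q))) =
      aeval (lg_lamE (N' * q) : ↥(lg_E L (N' * q))) G := by
  have h1 : s36ol_phiA L O N' q (aeval lam' G) = aeval (s36ol_phiA L O N' q lam') G := by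
    rw [aeval_def, aeval_def, hom_eval₂]
    congr 1
  rw [h1, aeval_subalgebra_coe, s36ol_phiA_coe, hlam]
  rfl

/-- **the chart map through `β`**, for any proof that `β` maps the chart into the chart. -/
def s36ol_phi (hq2 : ¬ 2 ∣ q)
    (hmem : ∀ b' : fc_chart ↥O ({lg_lamE N'} : Set ↥(lg_E L N')),
      s36mc_beta L N' q hq2 (b' : ↥(lg_E L N')) ∈
        fc_chart ↥O ({lg_lamE (N' * q)} : Set ↥(lg_E L (N' * q)))) :
    fc_chart ↥O ({lg_lamE N'} : Set ↥(lg_E L N')) →+*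
      fc_chart ↥O ({lg_lamE (N' * q)} : Set ↥(lg_E L (N' * q))) where
  toFun b' := ⟨s36mc_beta L N' q hq2 (b' : ↥(lg_E L N')), hmem b'⟩
  map_one' := Subtype.ext (by simp)
  map_mul' a b := Subtype.ext (by simp)
  map_zero' := Subtype.ext (by simp)
  map_add' a b := Subtype.ext (by simp)

theorem s36ol_phi_coe (hq2 : ¬ 2 ∣ q)
    (hmem : ∀ b' : fc_chart ↥O ({lg_lamE N'} : Set ↥(lg_E L N')),
      s36mc_beta L N' q hq2 (b' : ↥(lg_E L N')) ∈
        fc_chart ↥O ({lg_lamE (N' * q)} : Set ↥(lg_E L (N' * q))))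
    (b' : fc_chart ↥O ({lg_lamE N'} : Set ↥(lg_E L N'))) :
    ((s36ol_phi L O N' q hq2 hmem b' :
      fc_chart ↥O ({lg_lamE (N' * q)} : Set ↥(lg_E L (N' * q)))) : ↥(lg_E L (N' * q))) =
      s36mc_beta L N' q hq2 (b' : ↥(lg_E L N')) := rfl

/-- `β = W ∘ (inclusion)` on `E0`. -/
theorem s36ol_beta_eq_W (hq : q.Prime) (hq2 : ¬ 2 ∣ q) (hqN' : ¬ q ∣ N') (x : ↥(lg_E L N')) :
    s36mc_beta L N' q hq2 x =
      ssm_al_WE L N' q hq hq2 hqN' (IntermediateField.inclusion (ssm_al_E_le L N' q) x) := by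
  apply Subtype.ext
  rw [s36mc_coe_beta]
  exact (ssm_al_coe_WE_of_mem L N' q hq hq2 hqN' x.2 _).symm

end Defs

section NF2

variable (L : Type) [Field L] [NumberField L] [Algebra L (AlgebraicClosure ℚ)]
  (O : ValuationSubring L) [IsDiscreteValuationRing O]
variable (N' q : ℕ) [NeZero N'] [NeZero q] [hq : Fact q.Prime] [CharP (ResidueField O) q]
  (hq2 : ¬ 2 ∣ q) (hqN' : ¬ q ∣ N') (hπ : Irreducible ((q : ℕ) : ↥O))
  (ζ : L) (hζ : IsPrimitiveRoot ζ N')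

include hq2 hqN' hπ hζ in
/-- `q` is prime on the `λ`-chart of level `N'`. -/
theorem s36ol_prime :
    Prime (algebraMap ↥O (fc_chart ↥O ({lg_lamE N'} : Set ↥(lg_E L N'))) ((q : ℕ) : ↥O)) :=
  (ssm_ll_prime L N' hπ q (ssm_fln_q_mem L O q) (ssm_fl_ne_two q hq2) hqN' ζ hζ).1

include hζ in
/-- the [I1] facts at level `N' q`. -/
theorem s36ol_facts :
    ssm_i1_Facts ↥O q (lg_lamE (N' * q) : ↥(lg_E L (N' * q)))
      (ssm_gl_W L N' q hq2 hqN' (lg_lamE (N' * q))) (ssm_gl_V1 O hπ N' q)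
      (ssm_gl_V2 O hπ N' q hq2 hqN') :=
  ssm_fl_facts O hπ N' q hq2 hqN' (s36ol_prime L O N' q hq2 hqN' hπ ζ hζ)

include hπ hζ in
/-- the chart of level `N' q` is stable under `W`. -/
theorem s36ol_W_mem :
    ∀ b ∈ fc_chart ↥O ({lg_lamE (N' * q)} : Set ↥(lg_E L (N' * q))),
      ssm_gl_W L N' q hq2 hqN' b ∈ fc_chart ↥O ({lg_lamE (N' * q)} : Set ↥(lg_E L (N' * q))) :=
  have hWA : ∀ a : ↥O, ssm_gl_W L N' q hq2 hqN' (algebraMap ↥O ↥(lg_E L (N' * q)) a) =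
      algebraMap ↥O ↥(lg_E L (N' * q)) a := fun a =>
    (ssm_al_WE L N' q hq.out hq2 hqN').commutes (a : L)
  (ssm_i1_W_charts (ssm_gl_W L N' q hq2 hqN') hWA rfl
    (s36ol_facts L O N' q hq2 hqN' hπ ζ hζ)).1

include hqN' hπ hζ in
/-- `β` maps the chart of level `N'` into the chart of level `N' q`. -/
theorem s36ol_beta_mem (b' : fc_chart ↥O ({lg_lamE N'} : Set ↥(lg_E L N'))) :
    s36mc_beta L N' q hq2 (b' : ↥(lg_E L N')) ∈
      fc_chart ↥O ({lg_lamE (N' * q)} : Set ↥(lg_E L (N' * q))) := by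
  rw [s36ol_beta_eq_W L N' q hq.out hq2 hqN']
  exact s36ol_W_mem L O N' q hq2 hqN' hπ ζ hζ _ (s36ol_phiA L O N' q b').2

/-- **the chart map through `β`** in [NF2-CTX]. -/
def s36ol_phiB : fc_chart ↥O ({lg_lamE N'} : Set ↥(lg_E L N')) →+*
    fc_chart ↥O ({lg_lamE (N' * q)} : Set ↥(lg_E L (N' * q))) :=
  s36ol_phi L O N' q hq2 (s36ol_beta_mem L O N' q hq2 hqN' hπ ζ hζ)

/-- `hφ` : the chart map through `β` is `β` on underlying elements. -/
theorem s36ol_phiB_coe (b' : fc_chart ↥O ({lg_lamE N'} : Set ↥(lg_E L N'))) :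
    ((s36ol_phiB L O N' q hq2 hqN' hπ ζ hζ b' :
      fc_chart ↥O ({lg_lamE (N' * q)} : Set ↥(lg_E L (N' * q)))) : ↥(lg_E L (N' * q))) =
      s36mc_beta L N' q hq2 (b' : ↥(lg_E L N')) := rfl

/-- the involution of the chart of level `N' q`. -/
def s36ol_WB : fc_chart ↥O ({lg_lamE (N' * q)} : Set ↥(lg_E L (N' * q))) ≃+*
    fc_chart ↥O ({lg_lamE (N' * q)} : Set ↥(lg_E L (N' * q))) :=
  ssm_i1i_equiv (ssm_gl_W L N' q hq2 hqN') (ssm_al_WE_WE L N' q hq.out hq2 hqN') _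
    (s36ol_W_mem L O N' q hq2 hqN' hπ ζ hζ)

theorem s36ol_WB_coe (b : fc_chart ↥O ({lg_lamE (N' * q)} : Set ↥(lg_E L (N' * q)))) :
    ((s36ol_WB L O N' q hq2 hqN' hπ ζ hζ b :
      fc_chart ↥O ({lg_lamE (N' * q)} : Set ↥(lg_E L (N' * q)))) : ↥(lg_E L (N' * q))) =
      ssm_gl_W L N' q hq2 hqN' (b : ↥(lg_E L (N' * q))) := rfl

theorem s36ol_WB_WB (b : fc_chart ↥O ({lg_lamE (N' * q)} : Set ↥(lg_E L (N' * q)))) :
    s36ol_WB L O N' q hq2 hqN' hπ ζ hζ (s36ol_WB L O N' q hq2 hqN' hπ ζ hζ b) = b :=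
  Subtype.ext (ssm_al_WE_WE L N' q hq.out hq2 hqN' _)

/-- `φ_β = W ∘ φ_α`. -/
theorem s36ol_phiB_eq :
    s36ol_phiB L O N' q hq2 hqN' hπ ζ hζ =
      ((s36ol_WB L O N' q hq2 hqN' hπ ζ hζ : _ →+* _)).comp (s36ol_phiA L O N' q) := by
  refine RingHom.ext fun b' => Subtype.ext ?_
  exact s36ol_beta_eq_W L N' q hq.out hq2 hqN' (b' : ↥(lg_E L N'))

include hζ in
set_option synthInstance.maxHeartbeats 400000 in
set_option maxHeartbeats 3200000 in
/-- the fields of the crossing package `ssm_nl_cross` that do not mention the algebra structure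
`E0 → E1` (standard chart map `φ_α`, `P_VF = P_{V1}` the `φ_α`-isomorphic vertical prime,
`P_VV = P_{V2}` the purely inseparable one). -/
theorem s36ol_cross :
    (s36ol_phiA L O N' q).IsIntegral ∧
    (ssm_tp_P (fc_chart ↥O ({lg_lamE (N' * q)} : Set ↥(lg_E L (N' * q))))
      (ssm_gl_V1 O hπ N' q)).IsPrime ∧
    (ssm_tp_P (fc_chart ↥O ({lg_lamE (N' * q)} : Set ↥(lg_E L (N' * q))))
      (ssm_gl_V2 O hπ N' q hq2 hqN')).IsPrime ∧
    Ideal.span {s36ol_phiA L O N' q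
        (algebraMap ↥O (fc_chart ↥O ({lg_lamE N'} : Set ↥(lg_E L N'))) ((q : ℕ) : ↥O))} =
      ssm_tp_P (fc_chart ↥O ({lg_lamE (N' * q)} : Set ↥(lg_E L (N' * q))))
          (ssm_gl_V1 O hπ N' q) ⊓
        ssm_tp_P (fc_chart ↥O ({lg_lamE (N' * q)} : Set ↥(lg_E L (N' * q))))
          (ssm_gl_V2 O hπ N' q hq2 hqN') ∧
    (ssm_tp_P (fc_chart ↥O ({lg_lamE (N' * q)} : Set ↥(lg_E L (N' * q))))
      (ssm_gl_V1 O hπ N' q)).comap (s36ol_phiA L O N' q) =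
      Ideal.span {algebraMap ↥O (fc_chart ↥O ({lg_lamE N'} : Set ↥(lg_E L N')))
        ((q : ℕ) : ↥O)} ∧
    (ssm_tp_P (fc_chart ↥O ({lg_lamE (N' * q)} : Set ↥(lg_E L (N' * q))))
      (ssm_gl_V2 O hπ N' q hq2 hqN')).comap (s36ol_phiA L O N' q) =
      Ideal.span {algebraMap ↥O (fc_chart ↥O ({lg_lamE N'} : Set ↥(lg_E L N')))
        ((q : ℕ) : ↥O)} ∧
    (∀ b : fc_chart ↥O ({lg_lamE (N' * q)} : Set ↥(lg_E L (N' * q))),
      ∃ b' : fc_chart ↥O ({lg_lamE N'} : Set ↥(lg_E L N')), b - s36ol_phiA L O N' q b' ∈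
        ssm_tp_P (fc_chart ↥O ({lg_lamE (N' * q)} : Set ↥(lg_E L (N' * q))))
          (ssm_gl_V1 O hπ N' q)) ∧
    (∀ b : fc_chart ↥O ({lg_lamE (N' * q)} : Set ↥(lg_E L (N' * q))),
      ∃ b' : fc_chart ↥O ({lg_lamE N'} : Set ↥(lg_E L N')), b ^ q - s36ol_phiA L O N' q b' ∈
        ssm_tp_P (fc_chart ↥O ({lg_lamE (N' * q)} : Set ↥(lg_E L (N' * q))))
          (ssm_gl_V2 O hπ N' q hq2 hqN')) := by
  have hqO : ((q : ℕ) : O) ∈ maximalIdeal O := ssm_fln_q_mem L O q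
  have hq2' : q ≠ 2 := ssm_fl_ne_two q hq2
  have hp := ssm_ll_prime L N' hπ q hqO hq2' hqN' ζ hζ
  letI := ssm_gi_algebra (ssm_al_E_le L N' q)
  haveI := ssm_gt_isScalarTower O (ssm_al_E_le L N' q)
  have C := ssm_nl_cross O hπ N' q hq2 hqN' hp.1
    (ssm_ll_ic1 L N' hπ q hqO hq2' hqN' ζ hζ) (ssm_fl_facts O hπ N' q hq2 hqN' hp.1)
    (fun 𝔫' h1 h2 h3 h4 h5 => ssm_ll_EC L N' hπ q hqO hq2' hqN' 𝔫' h1 h2 h3 h4 h5)
  exact ⟨C.hint, C.prime1, C.prime2, C.hP, C.hc1, C.hc2, C.hadd, C.hpow⟩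

include hζ in
/-- the chart of level `N' q` lies in the two Gauss valuation rings. -/
theorem s36ol_le :
    (∀ b ∈ fc_chart ↥O ({lg_lamE (N' * q)} : Set ↥(lg_E L (N' * q))),
      b ∈ ssm_gl_V1 O hπ N' q) ∧
    (∀ b ∈ fc_chart ↥O ({lg_lamE (N' * q)} : Set ↥(lg_E L (N' * q))),
      b ∈ ssm_gl_V2 O hπ N' q hq2 hqN') := by
  have H := ssm_gl_hyp O hπ N' q hq2 hqN' (s36ol_prime L O N' q hq2 hqN' hπ ζ hζ)
  have hx : Transcendental L (lg_lamE (L := L) (N' * q)) :=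
    lgf_lam_transcendental L (N' * q) two_ne_zero
  have hxA : Transcendental ↥O (lg_lamE (L := L) (N' * q)) := fc_ff_transcendental (L := L) hx
  haveI : IsIntegrallyClosed (Algebra.adjoin ↥O
      ({lg_lamE (N' * q)} : Set ↥(lg_E L (N' * q)))) := fc_ff_isIntegrallyClosed hxA
  haveI : FaithfulSMul (Algebra.adjoin ↥O ({lg_lamE (N' * q)} : Set ↥(lg_E L (N' * q))))
      ↥(lg_E L (N' * q)) :=
    (faithfulSMul_iff_algebraMap_injective _ _).2 Subtype.val_injective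
  have hC := ssm_tp_ff_chart (L := L) (A0 := ↥O) hπ hx
  exact ⟨fun b hb => hC.le H.over1 hb, fun b hb => hC.le H.over2 hb⟩

include hζ in
/-- `W` exchanges the two vertical primes of the chart of level `N' q`. -/
theorem s36ol_W_P (x : fc_chart ↥O ({lg_lamE (N' * q)} : Set ↥(lg_E L (N' * q)))) :
    x ∈ ssm_tp_P (fc_chart ↥O ({lg_lamE (N' * q)} : Set ↥(lg_E L (N' * q))))
        (ssm_gl_V1 O hπ N' q) ↔
      s36ol_WB L O N' q hq2 hqN' hπ ζ hζ x ∈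
        ssm_tp_P (fc_chart ↥O ({lg_lamE (N' * q)} : Set ↥(lg_E L (N' * q))))
          (ssm_gl_V2 O hπ N' q hq2 hqN') := by
  obtain ⟨h1, h2⟩ := s36ol_le L O N' q hq2 hqN' hπ ζ hζ
  rw [ssm_tp_mem_P h1, ssm_tp_mem_P h2, ssm_tw_nonunits_comap, s36ol_WB_coe]
  show _ ↔ ssm_gl_W L N' q hq2 hqN' (ssm_gl_W L N' q hq2 hqN' _) ∈ _
  rw [show ssm_gl_W L N' q hq2 hqN' (ssm_gl_W L N' q hq2 hqN'
    (x : ↥(lg_E L (N' * q)))) = x from ssm_al_WE_WE L N' q hq.out hq2 hqN' _]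

include hζ in
/-- **`hint`** : the chart map through `β` is integral. -/
theorem s36ol_phiB_isIntegral : (s36ol_phiB L O N' q hq2 hqN' hπ ζ hζ).IsIntegral := by
  rw [s36ol_phiB_eq]
  exact ssm_cp_isIntegral_transport _ (s36ol_cross L O N' q hq2 hqN' hπ ζ hζ).1 _

include hqN' hπ hζ in
set_option synthInstance.maxHeartbeats 400000 in
set_option maxHeartbeats 1600000 in
/-- **`hBcl`** : the chart of level `N' q` is integrally closed in `E1` over the chart of level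
`N'` THROUGH `β`. -/
theorem s36ol_hBcl :
    letI := s36ch_algBeta L N' q hq2
    ∀ z : ↥(lg_E L (N' * q)), IsIntegral (fc_chart ↥O ({lg_lamE N'} : Set ↥(lg_E L N'))) z →
      z ∈ fc_chart ↥O ({lg_lamE (N' * q)} : Set ↥(lg_E L (N' * q))) := by
  letI := s36ch_algBeta L N' q hq2
  intro z hz
  have h1 : IsIntegral (fc_chart ↥O ({lg_lamE (N' * q)} : Set ↥(lg_E L (N' * q)))) z :=
    IsIntegral.map_of_comp_eq (s36ol_phiB L O N' q hq2 hqN' hπ ζ hζ)
      (RingHom.id ↥(lg_E L (N' * q))) (RingHom.ext fun b => rfl) hz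
  have h2 : IsIntegral (integralClosure (Algebra.adjoin ↥O
      ({lg_lamE (N' * q)} : Set ↥(lg_E L (N' * q)))) ↥(lg_E L (N' * q))) z := h1
  rw [fc_mem_chart]
  exact isIntegral_trans (A := integralClosure (Algebra.adjoin ↥O
    ({lg_lamE (N' * q)} : Set ↥(lg_E L (N' * q)))) ↥(lg_E L (N' * q))) z h2

include hζ in
/-- the Frobenius relation at the cusp `0`: `(W φ_α λ')^q = w0' · φ_α λ'`. -/
theorem s36ol_w0 (lam' : fc_chart ↥O ({lg_lamE N'} : Set ↥(lg_E L N')))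
    (hlam : (lam' : ↥(lg_E L N')) = lg_lamE N') :
    ∃ w : fc_chart ↥O ({lg_lamE (N' * q)} : Set ↥(lg_E L (N' * q))),
      s36ol_WB L O N' q hq2 hqN' hπ ζ hζ (s36ol_phiA L O N' q lam') ^ q =
        w * s36ol_phiA L O N' q lam' := by
  have hF := s36ol_facts L O N' q hq2 hqN' hπ ζ hζ
  have hx : Transcendental L (lg_lamE (L := L) (N' * q)) :=
    lgf_lam_transcendental L (N' * q) two_ne_zero
  have hl0 : (lg_lamE (N' * q) : ↥(lg_E L (N' * q))) ≠ 0 := fun h => hx (h ▸ isAlgebraic_zero)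
  have hAl : ((s36ol_phiA L O N' q lam' : fc_chart ↥O ({lg_lamE (N' * q)} :
      Set ↥(lg_E L (N' * q)))) : ↥(lg_E L (N' * q))) = lg_lamE (N' * q) := by
    rw [s36ol_phiA_coe, hlam]; rfl
  refine ⟨⟨_, hF.w0'⟩, Subtype.ext ?_⟩
  rw [SubmonoidClass.coe_pow, MulMemClass.coe_mul, s36ol_WB_coe, hAl, div_mul_cancel₀ _ hl0]

include hζ in
/-- the Frobenius relation at the cusp `1`: `(W φ_α (λ' − 1))^q = w1' · φ_α (λ' − 1)`. -/
theorem s36ol_w1 (lam' : fc_chart ↥O ({lg_lamE N'} : Set ↥(lg_E L N')))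
    (hlam : (lam' : ↥(lg_E L N')) = lg_lamE N') :
    ∃ w : fc_chart ↥O ({lg_lamE (N' * q)} : Set ↥(lg_E L (N' * q))),
      s36ol_WB L O N' q hq2 hqN' hπ ζ hζ (s36ol_phiA L O N' q (lam' - 1)) ^ q =
        w * s36ol_phiA L O N' q (lam' - 1) := by
  have hF := s36ol_facts L O N' q hq2 hqN' hπ ζ hζ
  have hx : Transcendental L (lg_lamE (L := L) (N' * q)) :=
    lgf_lam_transcendental L (N' * q) two_ne_zero
  have hl1 : (lg_lamE (N' * q) : ↥(lg_E L (N' * q))) - 1 ≠ 0 := fun h =>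
    hx ((sub_eq_zero.1 h) ▸ isAlgebraic_one)
  have hAl : ((s36ol_phiA L O N' q lam' : fc_chart ↥O ({lg_lamE (N' * q)} :
      Set ↥(lg_E L (N' * q)))) : ↥(lg_E L (N' * q))) = lg_lamE (N' * q) := by
    rw [s36ol_phiA_coe, hlam]; rfl
  refine ⟨⟨_, hF.w1'⟩, Subtype.ext ?_⟩
  rw [SubmonoidClass.coe_pow, MulMemClass.coe_mul, s36ol_WB_coe, map_sub, map_one,
    AddSubgroupClass.coe_sub, OneMemClass.coe_one, hAl, map_sub, map_one,
    div_mul_cancel₀ _ hl1]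

include hq2 hqN' hπ in
/-- **[EC] on the chart of level `N'`** in the shape consumed by `s36ol_hyp_abs2`. -/
theorem s36ol_hEC (lam' : fc_chart ↥O ({lg_lamE N'} : Set ↥(lg_E L N')))
    (hlam : (lam' : ↥(lg_E L N')) = lg_lamE N')
    (y : Ideal (fc_chart ↥O ({lg_lamE N'} : Set ↥(lg_E L N')))) (hy : y.IsMaximal)
    (hπy' : ((q : ℕ) : fc_chart ↥O ({lg_lamE N'} : Set ↥(lg_E L N'))) ∈ y)
    (h0' : lam' ∉ y) (h1' : lam' - 1 ∉ y) (G : (↥O)[X]) (hG : aeval lam' G ∈ y)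
    (hG' : aeval lam' (derivative G) ∉ y) :
    tq_GenBy ((q : ℕ) : fc_chart ↥O ({lg_lamE N'} : Set ↥(lg_E L N'))) (aeval lam' G) y := by
  have hqO : ((q : ℕ) : O) ∈ maximalIdeal O := ssm_fln_q_mem L O q
  have hq2' : q ≠ 2 := ssm_fl_ne_two q hq2
  have hπ' : algebraMap ↥O (fc_chart ↥O ({lg_lamE N'} : Set ↥(lg_E L N'))) ((q : ℕ) : ↥O) =
      ((q : ℕ) : fc_chart ↥O ({lg_lamE N'} : Set ↥(lg_E L N'))) := map_natCast _ q
  have hram' : lg_RamHyp N' (lgh_lamK L) := (lgr_hram N' L).1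
  have hcoe : ∀ G : (↥O)[X], ((aeval lam' G : fc_chart ↥O ({lg_lamE N'} : Set ↥(lg_E L N'))) :
      ↥(lg_E L N')) = aeval (lg_lamE N' : ↥(lg_E L N')) G := by
    intro G
    rw [aeval_subalgebra_coe, hlam]
  haveI := hy
  rw [← hπ'] at hπy' ⊢
  refine ssm_ec_lam O N' hπ q hqO hq2' hqN' hram' y hπy' ?_ ?_ G (aeval lam' G) (hcoe G) hG ?_
  · intro z hz hzy
    have : z = lam' := Subtype.ext (hz.trans hlam.symm)
    exact h0' (this ▸ hzy)
  · intro z hz hzy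
    have : z = lam' - 1 := Subtype.ext (by
      rw [hz, AddSubgroupClass.coe_sub, OneMemClass.coe_one, hlam])
    exact h1' (this ▸ hzy)
  · intro z hz hzy
    have : z = aeval lam' (derivative G) := Subtype.ext (hz.trans (hcoe _).symm)
    exact hG' (this ▸ hzy)

include hπ in
/-- `O` is a proper valuation subring. -/
theorem s36ol_O_ne_top : O ≠ ⊤ := by
  intro h
  apply hπ.not_isUnit
  have hq0 : ((q : ℕ) : L) ≠ 0 := Nat.cast_ne_zero.mpr hq.out.ne_zero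
  have hinv : ((q : ℕ) : L)⁻¹ ∈ O := by rw [h]; exact ValuationSubring.mem_top _
  refine isUnit_iff_exists_inv.2 ⟨⟨_, hinv⟩, Subtype.ext ?_⟩
  show (((q : ℕ) : ↥O) : L) * ((q : ℕ) : L)⁻¹ = 1
  rw [show (((q : ℕ) : ↥O) : L) = ((q : ℕ) : L) by simp]
  exact mul_inv_cancel₀ hq0

include hπ in
/-- the maximal ideal of `O` lies under every prime of the chart containing `q`. -/
theorem s36ol_max_le (y : Ideal (fc_chart ↥O ({lg_lamE N'} : Set ↥(lg_E L N'))))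
    (hy : ((q : ℕ) : fc_chart ↥O ({lg_lamE N'} : Set ↥(lg_E L N'))) ∈ y) :
    maximalIdeal ↥O ≤ y.comap (algebraMap ↥O _) := by
  rw [hπ.maximalIdeal_eq, Ideal.span_le]
  rintro a (rfl : a = _)
  rw [SetLike.mem_coe, Ideal.mem_comap, map_natCast]
  exact hy

include hπ in
/-- **separable equations** for `λ'` at the closed points of the special fibre. -/
theorem s36ol_hpoly (lam' : fc_chart ↥O ({lg_lamE N'} : Set ↥(lg_E L N')))
    (y : Ideal (fc_chart ↥O ({lg_lamE N'} : Set ↥(lg_E L N')))) (hy : y.IsMaximal)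
    (hπy' : ((q : ℕ) : fc_chart ↥O ({lg_lamE N'} : Set ↥(lg_E L N'))) ∈ y) :
    ∃ G : (↥O)[X], aeval lam' G ∈ y ∧ aeval lam' (derivative G) ∉ y := by
  haveI : Finite (ResidueField ↥O) :=
    s36rf_finite_residue_numberField L O (s36ol_O_ne_top L O q hπ)
  haveI : Finite (↥O ⧸ maximalIdeal ↥O) := ‹Finite (ResidueField ↥O)›
  have hx' : Transcendental L (lg_lamE (L := L) N') := lgf_lam_transcendental L N' two_ne_zero
  haveI := lgf_finite L N'
  haveI := ssm_ll_isScalarTower L O N'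
  haveI := s36rf_chart_finiteType (A0 := ↥O) (L := L) hx'
  haveI := hy
  haveI : Finite (fc_chart ↥O ({lg_lamE N'} : Set ↥(lg_E L N')) ⧸ y) :=
    s36rf_finite_quot (maximalIdeal ↥O) y (s36ol_max_le L O N' q hπ y hπy')
  exact s36ol_exists_poly y (s36ol_max_le L O N' q hπ y hπy') lam'

include hπ in
/-- **`hperf`** at the closed points of the special fibre. -/
theorem s36ol_hperf (y0 : Ideal (fc_chart ↥O ({lg_lamE N'} : Set ↥(lg_E L N'))))
    [hy0 : y0.IsMaximal]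
    (hqy : ((q : ℕ) : fc_chart ↥O ({lg_lamE N'} : Set ↥(lg_E L N'))) ∈ y0)
    (S : Type*) [CommRing S] [IsLocalRing S]
    [Algebra (fc_chart ↥O ({lg_lamE N'} : Set ↥(lg_E L N'))) S] [IsLocalization.AtPrime S y0]
    (s : S) : ∃ z : S, s - z ^ q ∈ maximalIdeal S := by
  haveI : Finite (ResidueField ↥O) :=
    s36rf_finite_residue_numberField L O (s36ol_O_ne_top L O q hπ)
  have hx' : Transcendental L (lg_lamE (L := L) N') := lgf_lam_transcendental L N' two_ne_zero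
  haveI := lgf_finite L N'
  haveI := ssm_ll_isScalarTower L O N'
  refine s36rf_chart_hperf (L := L) q hq.out hx' hπ y0 ?_ S s
  rw [map_natCast]
  exact hqy

end NF2

end Fermat.Agent.S36
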