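/-
Project S36 (Carayol), [M2] leaf [L3b], [ORD-G-INST] (helper16; prefix `s36ol_`): THE LEGENDRE
INSTANCE OF `s36oc_Hyp` THROUGH THE MIDDLE EMBEDDING `β` over a number field ([NF2-CTX]), final
theorems `s36ol_hyp_comp`, `s36ol_hyp_of`, `s36ol_hyp`.
-/
import Mathlib
import Fermat.Agent.S36.CReg.OrdGLeg

set_option autoImplicit false
set_option linter.unusedSectionVars false
set_option linter.unusedVariables false
set_option linter.style.haveILetI false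

noncomputable section

open ModularCurve IntermediateField IsLocalRing Polynomial
open Fermat.Agent.JT3 Fermat.Agent.SS

namespace Fermat.Agent.S36

section NF2

variable (L : Type) [Field L] [NumberField L] [Algebra L (AlgebraicClosure ℚ)]
  (O : ValuationSubring L) [IsDiscreteValuationRing O]
variable (N' q : ℕ) [NeZero N'] [NeZero q] [hq : Fact q.Prime] [CharP (ResidueField O) q]
  (hq2 : ¬ 2 ∣ q) (hqN' : ¬ q ∣ N') (hπ : Irreducible ((q : ℕ) : ↥O))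
  (ζ : L) (hζ : IsPrimitiveRoot ζ N')

include hζ in
set_option synthInstance.maxHeartbeats 400000 in
set_option maxHeartbeats 1600000 in
/-- **[ORD-G-INST] for the Legendre tower THROUGH `β`**, for the composite `W ∘ φ_α`. -/
theorem s36ol_hyp_comp
    (y0 : Ideal (fc_chart ↥O ({lg_lamE N'} : Set ↥(lg_E L N')))) [hy0 : y0.IsMaximal]
    (hqy : ((q : ℕ) : fc_chart ↥O ({lg_lamE N'} : Set ↥(lg_E L N'))) ∈ y0)
    (lam' : fc_chart ↥O ({lg_lamE N'} : Set ↥(lg_E L N')))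
    (hlam : (lam' : ↥(lg_E L N')) = lg_lamE N') (h0 : lam' ∉ y0) (h1 : lam' - 1 ∉ y0)
    (hord : ∀ 𝔫 : Ideal (fc_chart ↥O ({lg_lamE (N' * q)} : Set ↥(lg_E L (N' * q)))),
      𝔫.IsPrime →
      𝔫.comap (((s36ol_WB L O N' q hq2 hqN' hπ ζ hζ : _ →+* _)).comp (s36ol_phiA L O N' q)) =
        y0 →
      ¬ (ssm_tp_P (fc_chart ↥O ({lg_lamE (N' * q)} : Set ↥(lg_E L (N' * q))))
            (ssm_gl_V2 O hπ N' q hq2 hqN') ≤ 𝔫 ∧
          ssm_tp_P (fc_chart ↥O ({lg_lamE (N' * q)} : Set ↥(lg_E L (N' * q))))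
            (ssm_gl_V1 O hπ N' q) ≤ 𝔫))
    (S : Type*) [CommRing S] [IsLocalRing S]
    [Algebra (fc_chart ↥O ({lg_lamE N'} : Set ↥(lg_E L N'))) S] [IsLocalization.AtPrime S y0] :
    letI := s36ch_algBeta L N' q hq2
    ∃ (t' : fc_chart ↥O ({lg_lamE N'} : Set ↥(lg_E L N')))
      (u : fc_chart ↥O ({lg_lamE (N' * q)} : Set ↥(lg_E L (N' * q)))) (Gp : (↥O)[X]),
      s36oc_Hyp (((s36ol_WB L O N' q hq2 hqN' hπ ζ hζ : _ →+* _)).comp (s36ol_phiA L O N' q))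
        y0 S q
        (ssm_tp_P (fc_chart ↥O ({lg_lamE (N' * q)} : Set ↥(lg_E L (N' * q))))
          (ssm_gl_V2 O hπ N' q hq2 hqN'))
        (ssm_tp_P (fc_chart ↥O ({lg_lamE (N' * q)} : Set ↥(lg_E L (N' * q))))
          (ssm_gl_V1 O hπ N' q))
        ((q : ℕ) : fc_chart ↥O ({lg_lamE N'} : Set ↥(lg_E L N'))) t' u ∧
      (u : ↥(lg_E L (N' * q))) = aeval (lg_lamE (N' * q) : ↥(lg_E L (N' * q))) Gp ∧
      aeval (lg_lamE (N' * q) : ↥(lg_E L (N' * q))) (derivative Gp) ∉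
        (ssm_gl_V1 O hπ N' q).nonunits := by
  letI := s36ch_algBeta L N' q hq2
  obtain ⟨hintA, hpr1, hpr2, hP, hc1, hc2, hadd, hpow⟩ := s36ol_cross L O N' q hq2 hqN' hπ ζ hζ
  haveI := hpr1
  have hπ' : algebraMap ↥O (fc_chart ↥O ({lg_lamE N'} : Set ↥(lg_E L N'))) ((q : ℕ) : ↥O) =
      ((q : ℕ) : fc_chart ↥O ({lg_lamE N'} : Set ↥(lg_E L N'))) := map_natCast _ q
  rw [hπ'] at hP hc1 hc2
  obtain ⟨hle1, -⟩ := s36ol_le L O N' q hq2 hqN' hπ ζ hζ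
  obtain ⟨w0, hw0⟩ := s36ol_w0 L O N' q hq2 hqN' hπ ζ hζ lam' hlam
  obtain ⟨w1, hw1⟩ := s36ol_w1 L O N' q hq2 hqN' hπ ζ hζ lam' hlam
  obtain ⟨G0, Gp, 𝔫F, hF𝔫, hGp', H⟩ := s36ol_hyp_abs2 (s36ol_phiA L O N' q)
    (s36ol_WB L O N' q hq2 hqN' hπ ζ hζ) (s36ol_WB_WB L O N' q hq2 hqN' hπ ζ hζ)
    (fun b' => (s36ol_beta_eq_W L N' q hq.out hq2 hqN' (b' : ↥(lg_E L N'))).symm)
    hintA (s36ol_hBcl L O N' q hq2 hqN' hπ ζ hζ)
    ((q : ℕ) : fc_chart ↥O ({lg_lamE N'} : Set ↥(lg_E L N')))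
    (ssm_tp_P (fc_chart ↥O ({lg_lamE (N' * q)} : Set ↥(lg_E L (N' * q))))
      (ssm_gl_V1 O hπ N' q))
    (ssm_tp_P (fc_chart ↥O ({lg_lamE (N' * q)} : Set ↥(lg_E L (N' * q))))
      (ssm_gl_V2 O hπ N' q hq2 hqN')) hP
    (by rw [map_natCast, map_natCast]) (s36ol_W_P L O N' q hq2 hqN' hπ ζ hζ) hc1 hc2 hadd q
    hq.out hpow (Ideal.subset_span rfl) y0 hqy S (s36ol_hperf L O N' q hπ y0 hqy S) hord
    lam' h0 h1 w0 w1 hw0 hw1 (s36ol_hEC L O N' q hq2 hqN' hπ lam' hlam)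
    (s36ol_hpoly L O N' q hπ lam')
  refine ⟨aeval lam' G0, s36ol_phiA L O N' q (aeval lam' Gp), Gp, H,
    s36ol_phiA_aeval L O N' q lam' hlam Gp, ?_⟩
  intro h
  have e := s36ol_phiA_aeval L O N' q lam' hlam (derivative Gp)
  have h2 : ((s36ol_phiA L O N' q (aeval lam' (derivative Gp)) :
      fc_chart ↥O ({lg_lamE (N' * q)} : Set ↥(lg_E L (N' * q)))) : ↥(lg_E L (N' * q))) ∈
        (ssm_gl_V1 O hπ N' q).nonunits := by
    rw [e]
    exact h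
  have h3 : s36ol_phiA L O N' q (aeval lam' (derivative Gp)) ∈
      ssm_tp_P (fc_chart ↥O ({lg_lamE (N' * q)} : Set ↥(lg_E L (N' * q))))
        (ssm_gl_V1 O hπ N' q) := (ssm_tp_mem_P hle1).2 h2
  have h4 : s36ol_phiA L O N' q (aeval lam' (derivative Gp)) ∈ 𝔫F := hF𝔫 h3
  exact hGp' (Ideal.mem_comap.2 h4)

include hζ in
set_option synthInstance.maxHeartbeats 400000 in
set_option maxHeartbeats 1600000 in
/-- **[ORD-G-INST] for the Legendre tower THROUGH `β`** ([NF2-CTX]), for ANY chart map `φ1` with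
`(φ1 b' : E1) = β b'`: `y0` a closed point of the special fibre of the chart of level `N'`, off the
cusps (`λ', λ' − 1 ∉ y0`) and ORDINARY (`hord`: no prime of the chart of level `N' q` over `y0`
through `φ1` contains both vertical primes); `S` any presentation of the local ring at `y0`.  Then
there are a local parameter `t'` at `y0`, a polynomial `Gp ∈ O[X]` and `u = Gp(λ)` such that
`s36oc_Hyp` holds for `φ1` with `P1 := P_VV = P_{V2}` (the `β`-isomorphic vertical prime),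
`P2 := P_VF = P_{V1}` (the Gauss prime, purely inseparable through `β`), `π' := q`; and `Gp'(λ)` is
a unit of the Gauss valuation ring. -/
theorem s36ol_hyp_of
    (φ1 : fc_chart ↥O ({lg_lamE N'} : Set ↥(lg_E L N')) →+*
      fc_chart ↥O ({lg_lamE (N' * q)} : Set ↥(lg_E L (N' * q))))
    (hφ1 : ∀ b' : fc_chart ↥O ({lg_lamE N'} : Set ↥(lg_E L N')),
      ((φ1 b' : fc_chart ↥O ({lg_lamE (N' * q)} : Set ↥(lg_E L (N' * q)))) :
        ↥(lg_E L (N' * q))) = s36mc_beta L N' q hq2 (b' : ↥(lg_E L N')))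
    (y0 : Ideal (fc_chart ↥O ({lg_lamE N'} : Set ↥(lg_E L N')))) [hy0 : y0.IsMaximal]
    (hqy : ((q : ℕ) : fc_chart ↥O ({lg_lamE N'} : Set ↥(lg_E L N'))) ∈ y0)
    (lam' : fc_chart ↥O ({lg_lamE N'} : Set ↥(lg_E L N')))
    (hlam : (lam' : ↥(lg_E L N')) = lg_lamE N') (h0 : lam' ∉ y0) (h1 : lam' - 1 ∉ y0)
    (hord : ∀ 𝔫 : Ideal (fc_chart ↥O ({lg_lamE (N' * q)} : Set ↥(lg_E L (N' * q)))),
      𝔫.IsPrime → 𝔫.comap φ1 = y0 →
      ¬ (ssm_tp_P (fc_chart ↥O ({lg_lamE (N' * q)} : Set ↥(lg_E L (N' * q))))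
            (ssm_gl_V2 O hπ N' q hq2 hqN') ≤ 𝔫 ∧
          ssm_tp_P (fc_chart ↥O ({lg_lamE (N' * q)} : Set ↥(lg_E L (N' * q))))
            (ssm_gl_V1 O hπ N' q) ≤ 𝔫))
    (S : Type*) [CommRing S] [IsLocalRing S]
    [Algebra (fc_chart ↥O ({lg_lamE N'} : Set ↥(lg_E L N'))) S] [IsLocalization.AtPrime S y0] :
    letI := s36ch_algBeta L N' q hq2
    ∃ (t' : fc_chart ↥O ({lg_lamE N'} : Set ↥(lg_E L N')))
      (u : fc_chart ↥O ({lg_lamE (N' * q)} : Set ↥(lg_E L (N' * q)))) (Gp : (↥O)[X]),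
      s36oc_Hyp φ1 y0 S q
        (ssm_tp_P (fc_chart ↥O ({lg_lamE (N' * q)} : Set ↥(lg_E L (N' * q))))
          (ssm_gl_V2 O hπ N' q hq2 hqN'))
        (ssm_tp_P (fc_chart ↥O ({lg_lamE (N' * q)} : Set ↥(lg_E L (N' * q))))
          (ssm_gl_V1 O hπ N' q))
        ((q : ℕ) : fc_chart ↥O ({lg_lamE N'} : Set ↥(lg_E L N'))) t' u ∧
      (u : ↥(lg_E L (N' * q))) = aeval (lg_lamE (N' * q) : ↥(lg_E L (N' * q))) Gp ∧
      aeval (lg_lamE (N' * q) : ↥(lg_E L (N' * q))) (derivative Gp) ∉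
        (ssm_gl_V1 O hπ N' q).nonunits := by
  have e : φ1 = ((s36ol_WB L O N' q hq2 hqN' hπ ζ hζ : _ →+* _)).comp (s36ol_phiA L O N' q) :=
    RingHom.ext fun b' => Subtype.ext
      ((hφ1 b').trans (s36ol_beta_eq_W L N' q hq.out hq2 hqN' (b' : ↥(lg_E L N'))))
  subst e
  exact s36ol_hyp_comp L O N' q hq2 hqN' hπ ζ hζ y0 hqy lam' hlam h0 h1 hord S

include hζ in
set_option synthInstance.maxHeartbeats 400000 in
set_option maxHeartbeats 1600000 in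
/-- **[ORD-G-INST] for the Legendre tower THROUGH `β`**, for the named chart map `s36ol_phiB`. -/
theorem s36ol_hyp
    (y0 : Ideal (fc_chart ↥O ({lg_lamE N'} : Set ↥(lg_E L N')))) [hy0 : y0.IsMaximal]
    (hqy : ((q : ℕ) : fc_chart ↥O ({lg_lamE N'} : Set ↥(lg_E L N'))) ∈ y0)
    (lam' : fc_chart ↥O ({lg_lamE N'} : Set ↥(lg_E L N')))
    (hlam : (lam' : ↥(lg_E L N')) = lg_lamE N') (h0 : lam' ∉ y0) (h1 : lam' - 1 ∉ y0)
    (hord : ∀ 𝔫 : Ideal (fc_chart ↥O ({lg_lamE (N' * q)} : Set ↥(lg_E L (N' * q)))),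
      𝔫.IsPrime → 𝔫.comap (s36ol_phiB L O N' q hq2 hqN' hπ ζ hζ) = y0 →
      ¬ (ssm_tp_P (fc_chart ↥O ({lg_lamE (N' * q)} : Set ↥(lg_E L (N' * q))))
            (ssm_gl_V2 O hπ N' q hq2 hqN') ≤ 𝔫 ∧
          ssm_tp_P (fc_chart ↥O ({lg_lamE (N' * q)} : Set ↥(lg_E L (N' * q))))
            (ssm_gl_V1 O hπ N' q) ≤ 𝔫))
    (S : Type*) [CommRing S] [IsLocalRing S]
    [Algebra (fc_chart ↥O ({lg_lamE N'} : Set ↥(lg_E L N'))) S] [IsLocalization.AtPrime S y0] :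
    letI := s36ch_algBeta L N' q hq2
    ∃ (t' : fc_chart ↥O ({lg_lamE N'} : Set ↥(lg_E L N')))
      (u : fc_chart ↥O ({lg_lamE (N' * q)} : Set ↥(lg_E L (N' * q)))) (Gp : (↥O)[X]),
      s36oc_Hyp (s36ol_phiB L O N' q hq2 hqN' hπ ζ hζ) y0 S q
        (ssm_tp_P (fc_chart ↥O ({lg_lamE (N' * q)} : Set ↥(lg_E L (N' * q))))
          (ssm_gl_V2 O hπ N' q hq2 hqN'))
        (ssm_tp_P (fc_chart ↥O ({lg_lamE (N' * q)} : Set ↥(lg_E L (N' * q))))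
          (ssm_gl_V1 O hπ N' q))
        ((q : ℕ) : fc_chart ↥O ({lg_lamE N'} : Set ↥(lg_E L N'))) t' u ∧
      (u : ↥(lg_E L (N' * q))) = aeval (lg_lamE (N' * q) : ↥(lg_E L (N' * q))) Gp ∧
      aeval (lg_lamE (N' * q) : ↥(lg_E L (N' * q))) (derivative Gp) ∉
        (ssm_gl_V1 O hπ N' q).nonunits :=
  s36ol_hyp_of L O N' q hq2 hqN' hπ ζ hζ (s36ol_phiB L O N' q hq2 hqN' hπ ζ hζ)
    (s36ol_phiB_coe L O N' q hq2 hqN' hπ ζ hζ) y0 hqy lam' hlam h0 h1 hord S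

end NF2

end Fermat.Agent.S36
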