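/-
Project S36, model cell [M2], leaf **[C-CUSP-EIS]**, inputs of the instance, LAYER B (helper27).
Prefix `s36cel_`.

THE LEGENDRE-TOWER INPUTS OF THE CUSP INSTANCE, as closed facts on the named objects
`B1 := fc_chart O {λ₁}`, `B2 := fc_chart O {λ₂}` (`λ₁ = lg_lamE (N' q)`, `λ₂ = lg_lamE (N' q q)`),
`ι := s36tn_leg_iota O N' q : B1 →+* B2`, `VF := ssm_gl_V1`, `VV := ssm_gl_V2 (= s36i_VV)`.

* `s36cel_yF_abs` : (i1), abstract: a maximal ideal `𝔫` of `B2` on the component `C` (`VC ∩ E1 = VF`)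
  containing `ι μ`, where no crossing point of `B1` contains `μ`, contracts to a maximal ideal of
  `B1` on `VF` ONLY;
* `s36cel_noCross0`, `s36cel_noCross1`, `s36cel_noCrossInf` : no crossing point of the level-`N' q`
  charts contains `λ₁`, `λ₁ - 1`, resp. `λ₁⁻¹` (S34: `ssm_inf_noCrossing` + `ssm_fl_facts`);
* `s36cel_yF0`, `s36cel_yF1`, `s36cel_yFInf` : (i1) at the three kinds of cusps.
-/
import Mathlib
import Fermat.Agent.S36.Tri.MapInst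
import Fermat.Agent.S36.Tri.MapInstHes
import Fermat.Agent.SS.Model.FinalLeg
import Fermat.Agent.SS.Model.PointsInf
import Fermat.Agent.S36.Ins1.ThirdLeg

set_option autoImplicit false
set_option linter.unusedSectionVars false
set_option linter.unusedVariables false
set_option linter.style.haveILetI false

noncomputable section

namespace Fermat.Agent.S36

open Fermat.Agent.SS Fermat.Agent.JT3 IsLocalRing ModularCurve IntermediateField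

section Abs

variable {A0 : Type*} [CommRing A0] {E1 E2 : Type*} [Field E1] [Field E2] [Algebra A0 E1]
  [Algebra A0 E2] {B1 : Subalgebra A0 E1} {B2 : Subalgebra A0 E2}

/-- **(i1), abstract.** -/
theorem s36cel_yF_abs (ι : B1 →+* B2) (j : E1 →+* E2)
    (hcomm : ∀ b : B1, ((ι b : B2) : E2) = j (b : E1)) (hint : ι.IsIntegral)
    {VF VV : ValuationSubring E1} {VC : ValuationSubring E2}
    (hleF : ∀ b ∈ B1, b ∈ VF) (hleC : ∀ b ∈ B2, b ∈ VC) (hCF : ∀ y : E1, j y ∈ VC ↔ y ∈ VF)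
    (μ : B1)
    (hnc : ∀ 𝔞 : Ideal B1, 𝔞 ≠ ⊤ → μ ∈ 𝔞 → ¬ (ssm_tp_P B1 VF ≤ 𝔞 ∧ ssm_tp_P B1 VV ≤ 𝔞))
    (𝔫 : Ideal B2) (h𝔫 : 𝔫.IsMaximal) (hC : ssm_tp_P B2 VC ≤ 𝔫) (hμ : ι μ ∈ 𝔫) :
    (𝔫.comap ι).IsMaximal ∧ ssm_tp_P B1 VF ≤ 𝔫.comap ι ∧ ¬ ssm_tp_P B1 VV ≤ 𝔫.comap ι ∧
      μ ∈ 𝔫.comap ι := by
  have hmax : (𝔫.comap ι).IsMaximal := ssm_cp_comap_isMaximal ι hint 𝔫 h𝔫
  have hV : ∀ y : E1, j y ∈ VC.nonunits ↔ y ∈ VF.nonunits := by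
    intro y
    rw [ValuationSubring.mem_nonunits_iff_or, ValuationSubring.mem_nonunits_iff_or, ← map_inv₀, hCF,
      map_eq_zero]
  have hcomap : (ssm_tp_P B2 VC).comap ι = ssm_tp_P B1 VF :=
    s36tn_comap_P ι j hcomm hleF hleC hV
  have hF : ssm_tp_P B1 VF ≤ 𝔫.comap ι := by
    rw [← hcomap]
    exact Ideal.comap_mono hC
  have hμ' : μ ∈ 𝔫.comap ι := hμ
  exact ⟨hmax, hF, fun hVV => hnc _ hmax.ne_top hμ' ⟨hF, hVV⟩, hμ'⟩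

/-- a chart whose coordinate and constants lie in a valuation ring lies in it. -/
theorem s36cel_chart_le_val {E : Type*} [Field E] [Algebra A0 E] (V : ValuationSubring E)
    (hA : ∀ a : A0, algebraMap A0 E a ∈ V) {x : E} (hx : x ∈ V) :
    ∀ b ∈ fc_chart A0 ({x} : Set E), b ∈ V := by
  intro b hb
  rw [fc_mem_chart] at hb
  refine ssm_tp_mem_of_isIntegral V ?_ hb
  intro a
  let S : Subalgebra A0 E := { V.toSubring with algebraMap_mem' := hA }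
  have hle : Algebra.adjoin A0 ({x} : Set E) ≤ S := Algebra.adjoin_le (by
    intro y hy
    rw [Set.mem_singleton_iff] at hy
    subst hy
    exact hx)
  exact hle a.2

/-- **(i4), abstract**: `μ, μ_q ∈ B ⊆ V1 ⊓ V2`, `μ` a unit of `V1`, `μ^q / μ_q ≡ 1` at `V1`,
`e' := μ_q^q / μ ∈ B`, `e' ≡ 1` at `V2`.  Then `e' μ = μ_q^q`, `e' - 1 ∈ P2`,
`e' - μ^(q² - 1) ∈ P1`; in particular `e'` lies in every ideal containing `P1` and `μ`. -/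
theorem s36cel_e_abs {E : Type*} [Field E] [Algebra A0 E] (B : Subalgebra A0 E)
    {V1 V2 : ValuationSubring E} (le1 : ∀ b ∈ B, b ∈ V1) (le2 : ∀ b ∈ B, b ∈ V2) {q : ℕ}
    (hq : 2 ≤ q) {μ μq : E} (hμB : μ ∈ B) (hμqB : μq ∈ B) (hμ1 : μ ∉ V1.nonunits)
    (hsub : μ ^ q / μq - 1 ∈ V1.nonunits) (hw' : μq ^ q / μ ∈ B)
    (hsub' : μq ^ q / μ - 1 ∈ V2.nonunits) :
    (⟨μq ^ q / μ, hw'⟩ : B) * ⟨μ, hμB⟩ = ⟨μq, hμqB⟩ ^ q ∧
    (⟨μq ^ q / μ, hw'⟩ : B) - 1 ∈ ssm_tp_P B V2 ∧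
    (⟨μq ^ q / μ, hw'⟩ : B) - ⟨μ, hμB⟩ ^ (q ^ 2 - 1) ∈ ssm_tp_P B V1 ∧
    ∀ 𝔞 : Ideal B, ssm_tp_P B V1 ≤ 𝔞 → (⟨μ, hμB⟩ : B) ∈ 𝔞 → (⟨μq ^ q / μ, hw'⟩ : B) ∈ 𝔞 := by
  have hμ0 : μ ≠ 0 := ssm_tp_ne_zero V1 hμ1
  have hμinv : μ⁻¹ ∈ V1 := ssm_tp_inv_mem V1 hμ1
  have hμV : μ ∈ V1 := le1 _ hμB
  have hμqV : μq ∈ V1 := le1 _ hμqB
  have hμq0 : μq ≠ 0 := by
    rintro rfl
    rw [div_zero, zero_sub] at hsub
    exact ssm_tp_one_not_mem_nonunits V1 (by simpa using ssm_tp_nonunits_neg V1 hsub)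
  -- Frobenius at `V1`
  have hfrob : μ ^ q - μq ∈ V1.nonunits := by
    have h1 : μ ^ q - μq = (μ ^ q / μq - 1) * μq := by
      field_simp
    rw [h1]
    exact ssm_tp_nonunits_mul V1 hsub hμqV
  have h1 : (⟨μq ^ q / μ, hw'⟩ : B) * ⟨μ, hμB⟩ = ⟨μq, hμqB⟩ ^ q := by
    apply Subtype.ext
    rw [MulMemClass.coe_mul, SubmonoidClass.coe_pow]
    exact div_mul_cancel₀ _ hμ0
  have h2 : (⟨μq ^ q / μ, hw'⟩ : B) - 1 ∈ ssm_tp_P B V2 := by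
    rw [ssm_tp_mem_P le2]
    exact hsub'
  have h3 : (⟨μq ^ q / μ, hw'⟩ : B) - ⟨μ, hμB⟩ ^ (q ^ 2 - 1) ∈ ssm_tp_P B V1 := by
    rw [ssm_tp_mem_P le1]
    show μq ^ q / μ - μ ^ (q ^ 2 - 1) ∈ V1.nonunits
    have hq2 : q ^ 2 = (q ^ 2 - 1) + 1 := by
      have : 1 ≤ q ^ 2 := Nat.one_le_pow _ _ (by omega)
      omega
    have h4 : μq ^ q / μ - μ ^ (q ^ 2 - 1) = -((μ ^ q) ^ q - μq ^ q) * μ⁻¹ := by
      have h5 : (μ ^ q) ^ q = μ ^ (q ^ 2 - 1) * μ := by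
        rw [← pow_mul, ← pow_two, ← pow_succ, ← hq2]
      rw [h5]
      field_simp
      ring
    rw [h4]
    have hgs : (μ ^ q) ^ q - μq ^ q = (∑ i ∈ Finset.range q,
        (μ ^ q) ^ i * μq ^ (q - 1 - i)) * (μ ^ q - μq) :=
      ((Commute.all (μ ^ q) μq).geom_sum₂_mul q).symm
    have hcV : (∑ i ∈ Finset.range q, (μ ^ q) ^ i * μq ^ (q - 1 - i)) ∈ V1 :=
      V1.toSubring.sum_mem fun i _ =>
        V1.mul_mem _ _ (V1.pow_mem (V1.pow_mem hμV q) i) (V1.pow_mem hμqV _)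
    rw [hgs, mul_comm (∑ i ∈ Finset.range q, (μ ^ q) ^ i * μq ^ (q - 1 - i))]
    exact ssm_tp_nonunits_mul V1 (ssm_tp_nonunits_neg V1
      (ssm_tp_nonunits_mul V1 hfrob hcV)) hμinv
  refine ⟨h1, h2, h3, ?_⟩
  intro 𝔞 hP hμ𝔞
  have h5 : (⟨μq ^ q / μ, hw'⟩ : B) =
      ((⟨μq ^ q / μ, hw'⟩ : B) - ⟨μ, hμB⟩ ^ (q ^ 2 - 1)) + ⟨μ, hμB⟩ ^ (q ^ 2 - 1) := by ring
  rw [h5]
  refine 𝔞.add_mem (hP h3) (Ideal.pow_mem_of_mem 𝔞 hμ𝔞 _ ?_)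
  have : 4 ≤ q ^ 2 := by nlinarith
  omega

end Abs

section Leg

variable {L : Type*} [Field L] [CharZero L] [Algebra L (AlgebraicClosure ℚ)]
  (O : ValuationSubring L) [IsDiscreteValuationRing O] {π : O} (hπ : Irreducible π)
variable (N' q : ℕ) [NeZero N'] [NeZero q] [hq : Fact q.Prime] [CharP (ResidueField O) q]
  (hq2 : ¬ 2 ∣ q) (hqN' : ¬ q ∣ N')

/-- the chart `B_λ` of level `N' q` lies in `VF` and in `VV`. -/
theorem s36cel_chart_le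
    (hprime : Prime (algebraMap ↥O (fc_chart ↥O ({lg_lamE N'} : Set ↥(lg_E L N'))) π)) :
    (∀ b ∈ fc_chart ↥O ({lg_lamE (N' * q)} : Set ↥(lg_E L (N' * q))),
      b ∈ ssm_gl_V1 O hπ N' q) ∧
    (∀ b ∈ fc_chart ↥O ({lg_lamE (N' * q)} : Set ↥(lg_E L (N' * q))),
      b ∈ ssm_gl_V2 O hπ N' q hq2 hqN') := by
  haveI := ssm_go_isScalarTower O (lg_E L (N' * q))
  have H := ssm_gl_hyp O hπ N' q hq2 hqN' hprime
  have hx : Transcendental L (lg_lamE (L := L) (N' * q)) :=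
    lgf_lam_transcendental L (N' * q) two_ne_zero
  have hxA : Transcendental ↥O (lg_lamE (L := L) (N' * q)) := fc_ff_transcendental (L := L) hx
  haveI : IsIntegrallyClosed (Algebra.adjoin ↥O ({lg_lamE (N' * q)} : Set ↥(lg_E L (N' * q)))) :=
    fc_ff_isIntegrallyClosed hxA
  haveI : FaithfulSMul (Algebra.adjoin ↥O ({lg_lamE (N' * q)} : Set ↥(lg_E L (N' * q))))
      ↥(lg_E L (N' * q)) :=
    (faithfulSMul_iff_algebraMap_injective _ _).2 Subtype.val_injective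
  have hC := ssm_tp_ff_chart (L := L) (A0 := ↥O) hπ hx
  exact ⟨fun b hb => hC.le H.over1 hb, fun b hb => hC.le H.over2 hb⟩

set_option synthInstance.maxHeartbeats 200000 in
/-- **no crossing point of `B_λ` (level `N' q`) contains `λ`.** -/
theorem s36cel_noCross0
    (hprime : Prime (algebraMap ↥O (fc_chart ↥O ({lg_lamE N'} : Set ↥(lg_E L N'))) π))
    (𝔞 : Ideal (fc_chart ↥O ({lg_lamE (N' * q)} : Set ↥(lg_E L (N' * q))))) (h𝔞 : 𝔞 ≠ ⊤)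
    (hμ : (⟨lg_lamE (N' * q), fc_x_mem_chart _⟩ :
      fc_chart ↥O ({lg_lamE (N' * q)} : Set ↥(lg_E L (N' * q)))) ∈ 𝔞) :
    ¬ (ssm_tp_P (fc_chart ↥O ({lg_lamE (N' * q)} : Set ↥(lg_E L (N' * q))))
        (ssm_gl_V1 O hπ N' q) ≤ 𝔞 ∧
      ssm_tp_P (fc_chart ↥O ({lg_lamE (N' * q)} : Set ↥(lg_E L (N' * q))))
        (ssm_gl_V2 O hπ N' q hq2 hqN') ≤ 𝔞) := by
  haveI := ssm_go_isScalarTower O (lg_E L (N' * q))
  have H := ssm_gl_hyp O hπ N' q hq2 hqN' hprime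
  have F := ssm_fl_facts O hπ N' q hq2 hqN' hprime
  have hx : Transcendental L (lg_lamE (L := L) (N' * q)) :=
    lgf_lam_transcendental L (N' * q) two_ne_zero
  have hxA : Transcendental ↥O (lg_lamE (L := L) (N' * q)) := fc_ff_transcendental (L := L) hx
  obtain ⟨le1, le2⟩ := s36cel_chart_le O hπ N' q hq2 hqN' hprime
  have hWO : ∀ a : ↥O, ssm_gl_W L N' q hq2 hqN' (algebraMap ↥O ↥(lg_E L (N' * q)) a) =
      algebraMap ↥O ↥(lg_E L (N' * q)) a :=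
    fun a => (ssm_al_WE L N' q hq.out hq2 hqN').commutes (a : L)
  obtain ⟨hWB1, -, -⟩ := ssm_i1_W_charts (ssm_gl_W L N' q hq2 hqN') hWO rfl F
  have hμ1 : lg_lamE (L := L) (N' * q) ∉ (ssm_gl_V1 O hπ N' q).nonunits := by
    have h := (ssm_i1_linear_not_mem hπ hxA H.over1 0).2
    rwa [map_zero, sub_zero] at h
  exact ssm_inf_noCrossing _ le1 le2 (ssm_gl_W L N' q hq2 hqN')
    (ssm_al_WE_WE L N' q hq.out hq2 hqN') (fun z => Iff.rfl) hWB1 hq.out.two_le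
    (fc_x_mem_chart _) hμ1 F.w0 F.w0' F.w0_sub 𝔞 h𝔞 hμ

set_option synthInstance.maxHeartbeats 200000 in
/-- **no crossing point of `B_λ` (level `N' q`) contains `λ - 1`.** -/
theorem s36cel_noCross1
    (hprime : Prime (algebraMap ↥O (fc_chart ↥O ({lg_lamE N'} : Set ↥(lg_E L N'))) π))
    (𝔞 : Ideal (fc_chart ↥O ({lg_lamE (N' * q)} : Set ↥(lg_E L (N' * q))))) (h𝔞 : 𝔞 ≠ ⊤)
    (hμ : (⟨lg_lamE (N' * q), fc_x_mem_chart _⟩ :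
      fc_chart ↥O ({lg_lamE (N' * q)} : Set ↥(lg_E L (N' * q)))) - 1 ∈ 𝔞) :
    ¬ (ssm_tp_P (fc_chart ↥O ({lg_lamE (N' * q)} : Set ↥(lg_E L (N' * q))))
        (ssm_gl_V1 O hπ N' q) ≤ 𝔞 ∧
      ssm_tp_P (fc_chart ↥O ({lg_lamE (N' * q)} : Set ↥(lg_E L (N' * q))))
        (ssm_gl_V2 O hπ N' q hq2 hqN') ≤ 𝔞) := by
  haveI := ssm_go_isScalarTower O (lg_E L (N' * q))
  have H := ssm_gl_hyp O hπ N' q hq2 hqN' hprime
  have F := ssm_fl_facts O hπ N' q hq2 hqN' hprime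
  have hx : Transcendental L (lg_lamE (L := L) (N' * q)) :=
    lgf_lam_transcendental L (N' * q) two_ne_zero
  have hxA : Transcendental ↥O (lg_lamE (L := L) (N' * q)) := fc_ff_transcendental (L := L) hx
  obtain ⟨le1, le2⟩ := s36cel_chart_le O hπ N' q hq2 hqN' hprime
  have hWO : ∀ a : ↥O, ssm_gl_W L N' q hq2 hqN' (algebraMap ↥O ↥(lg_E L (N' * q)) a) =
      algebraMap ↥O ↥(lg_E L (N' * q)) a :=
    fun a => (ssm_al_WE L N' q hq.out hq2 hqN').commutes (a : L)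
  obtain ⟨hWB1, -, -⟩ := ssm_i1_W_charts (ssm_gl_W L N' q hq2 hqN') hWO rfl F
  have hμ1 : lg_lamE (L := L) (N' * q) - 1 ∉ (ssm_gl_V1 O hπ N' q).nonunits := by
    have h := (ssm_i1_linear_not_mem hπ hxA H.over1 1).2
    rwa [map_one] at h
  have hW1 : ssm_gl_W L N' q hq2 hqN' (lg_lamE (N' * q) - 1) =
      ssm_gl_W L N' q hq2 hqN' (lg_lamE (N' * q)) - 1 := by
    rw [map_sub, map_one]
  have hμB : lg_lamE (L := L) (N' * q) - 1 ∈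
      fc_chart ↥O ({lg_lamE (N' * q)} : Set ↥(lg_E L (N' * q))) :=
    Subalgebra.sub_mem _ (fc_x_mem_chart _) (Subalgebra.one_mem _)
  exact ssm_inf_noCrossing _ le1 le2 (ssm_gl_W L N' q hq2 hqN')
    (ssm_al_WE_WE L N' q hq.out hq2 hqN') (fun z => Iff.rfl) hWB1 hq.out.two_le
    hμB hμ1 (by rw [hW1]; exact F.w1) (by rw [hW1]; exact F.w1') (by rw [hW1]; exact F.w1_sub)
    𝔞 h𝔞 hμ

set_option synthInstance.maxHeartbeats 200000 in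
/-- **no crossing point of `B_{λ⁻¹}` (level `N' q`) contains `λ⁻¹`.** -/
theorem s36cel_noCrossInf
    (hprime : Prime (algebraMap ↥O (fc_chart ↥O ({lg_lamE N'} : Set ↥(lg_E L N'))) π))
    (𝔞 : Ideal (fc_chart ↥O ({(lg_lamE (N' * q))⁻¹} : Set ↥(lg_E L (N' * q))))) (h𝔞 : 𝔞 ≠ ⊤)
    (hμ : (⟨(lg_lamE (N' * q))⁻¹, fc_x_mem_chart _⟩ :
      fc_chart ↥O ({(lg_lamE (N' * q))⁻¹} : Set ↥(lg_E L (N' * q)))) ∈ 𝔞) :
    ¬ (ssm_tp_P (fc_chart ↥O ({(lg_lamE (N' * q))⁻¹} : Set ↥(lg_E L (N' * q))))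
        (ssm_gl_V1 O hπ N' q) ≤ 𝔞 ∧
      ssm_tp_P (fc_chart ↥O ({(lg_lamE (N' * q))⁻¹} : Set ↥(lg_E L (N' * q))))
        (ssm_gl_V2 O hπ N' q hq2 hqN') ≤ 𝔞) := by
  haveI := ssm_go_isScalarTower O (lg_E L (N' * q))
  haveI : FiniteDimensional L⟮(lg_lamE (N' * q) : lg_E L (N' * q))⟯ ↥(lg_E L (N' * q)) :=
    lgf_finite L (N' * q)
  have H := ssm_gl_hyp O hπ N' q hq2 hqN' hprime
  have F := ssm_fl_facts O hπ N' q hq2 hqN' hprime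
  have hx : Transcendental L (lg_lamE (L := L) (N' * q)) :=
    lgf_lam_transcendental L (N' * q) two_ne_zero
  have hWO : ∀ a : ↥O, ssm_gl_W L N' q hq2 hqN' (algebraMap ↥O ↥(lg_E L (N' * q)) a) =
      algebraMap ↥O ↥(lg_E L (N' * q)) a :=
    fun a => (ssm_al_WE L N' q hq.out hq2 hqN').commutes (a : L)
  obtain ⟨hWB, hw, hw', hsub⟩ := ssm_inf_of_facts (ssm_gl_W L N' q hq2 hqN') hWO F
  exact ssm_inf_ff_noCrossing (L := L) hπ hx H (ssm_gl_W L N' q hq2 hqN')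
    (ssm_al_WE_WE L N' q hq.out hq2 hqN') (fun z => Iff.rfl) hWB hq.out.two_le hw hw' hsub
    𝔞 h𝔞 hμ

include hq2 hqN' in
/-- the top chart `B_λ` (level `N' q q`) lies in every valuation ring over `VF`. -/
theorem s36cel_chart2_le
    (hprime : Prime (algebraMap ↥O (fc_chart ↥O ({lg_lamE N'} : Set ↥(lg_E L N'))) π))
    (VC : ValuationSubring ↥(lg_E L (N' * q * q)))
    (hVC :
      letI := ssm_gi_algebra (ssm_al_E_le L (N' * q) q)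
      letI := ssm_gi_algebraV (ssm_al_E_le L (N' * q) q) (ssm_gl_V1 O hπ N' q)
      ssm_tw_Over ↥(lg_E L (N' * q)) ↥(ssm_gl_V1 O hπ N' q) VC) :
    (∀ y : ↥(lg_E L (N' * q)),
      IntermediateField.inclusion (s36w_E_le1 L N' q) y ∈ VC ↔ y ∈ ssm_gl_V1 O hπ N' q) ∧
    (∀ b ∈ fc_chart ↥O ({lg_lamE (N' * q * q)} : Set ↥(lg_E L (N' * q * q))), b ∈ VC) ∧
    (∀ b ∈ fc_chart ↥O ({(lg_lamE (N' * q * q))⁻¹} : Set ↥(lg_E L (N' * q * q))), b ∈ VC) := by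
  letI := ssm_gi_algebra (ssm_al_E_le L (N' * q) q)
  letI := ssm_gi_algebraV (ssm_al_E_le L (N' * q) q) (ssm_gl_V1 O hπ N' q)
  have hCF : ∀ y : ↥(lg_E L (N' * q)),
      IntermediateField.inclusion (s36w_E_le1 L N' q) y ∈ VC ↔ y ∈ ssm_gl_V1 O hπ N' q := by
    intro y
    have h := hVC y
    constructor
    · intro hy
      obtain ⟨r, hr⟩ := h.1 hy
      rw [← hr]
      exact r.2
    · intro hy
      exact h.2 ⟨⟨y, hy⟩, rfl⟩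
  obtain ⟨le1, -⟩ := s36cel_chart_le O hπ N' q hq2 hqN' hprime
  have hO : ∀ a : ↥O, algebraMap ↥O ↥(lg_E L (N' * q * q)) a ∈ VC := by
    intro a
    have h1 : algebraMap ↥O ↥(lg_E L (N' * q)) a ∈ ssm_gl_V1 O hπ N' q :=
      le1 _ (Subalgebra.algebraMap_mem _ a)
    exact (hCF _).2 h1
  have hlam : lg_lamE (L := L) (N' * q * q) ∈ VC :=
    (hCF (lg_lamE (N' * q))).2 (le1 _ (fc_x_mem_chart _))
  have hlam' : (lg_lamE (L := L) (N' * q * q))⁻¹ ∈ VC := by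
    haveI := ssm_go_isScalarTower O (lg_E L (N' * q))
    have H := ssm_gl_hyp O hπ N' q hq2 hqN' hprime
    have hx : Transcendental L (lg_lamE (L := L) (N' * q)) :=
      lgf_lam_transcendental L (N' * q) two_ne_zero
    have hxA : Transcendental ↥O (lg_lamE (L := L) (N' * q)) := fc_ff_transcendental (L := L) hx
    have h := (ssm_i1_linear_not_mem hπ hxA H.over1 0).2
    rw [map_zero, sub_zero] at h
    have h2 : (lg_lamE (L := L) (N' * q))⁻¹ ∈ ssm_gl_V1 O hπ N' q := ssm_tp_inv_mem _ h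
    have h3 := (hCF _).2 h2
    rwa [map_inv₀] at h3
  exact ⟨hCF, s36cel_chart_le_val VC hO hlam, s36cel_chart_le_val VC hO hlam'⟩

/-- **(i1) at a cusp `λ = 0` of the component `C`**: `𝔫 ∩ B1` is a closed point of the level-`N' q`
chart on `VF` only. -/
theorem s36cel_yF0
    (hprime : Prime (algebraMap ↥O (fc_chart ↥O ({lg_lamE N'} : Set ↥(lg_E L N'))) π))
    (VC : ValuationSubring ↥(lg_E L (N' * q * q)))
    (hVC :
      letI := ssm_gi_algebra (ssm_al_E_le L (N' * q) q)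
      letI := ssm_gi_algebraV (ssm_al_E_le L (N' * q) q) (ssm_gl_V1 O hπ N' q)
      ssm_tw_Over ↥(lg_E L (N' * q)) ↥(ssm_gl_V1 O hπ N' q) VC)
    (𝔫 : Ideal (fc_chart ↥O ({lg_lamE (N' * q * q)} : Set ↥(lg_E L (N' * q * q)))))
    (h𝔫 : 𝔫.IsMaximal)
    (hC : ssm_tp_P (fc_chart ↥O ({lg_lamE (N' * q * q)} : Set ↥(lg_E L (N' * q * q)))) VC ≤ 𝔫)
    (hμ : (⟨lg_lamE (N' * q * q), fc_x_mem_chart _⟩ :
      fc_chart ↥O ({lg_lamE (N' * q * q)} : Set ↥(lg_E L (N' * q * q)))) ∈ 𝔫) :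
    (𝔫.comap (s36tn_leg_iota O N' q)).IsMaximal ∧
    ssm_tp_P (fc_chart ↥O ({lg_lamE (N' * q)} : Set ↥(lg_E L (N' * q))))
      (ssm_gl_V1 O hπ N' q) ≤ 𝔫.comap (s36tn_leg_iota O N' q) ∧
    ¬ ssm_tp_P (fc_chart ↥O ({lg_lamE (N' * q)} : Set ↥(lg_E L (N' * q))))
      (ssm_gl_V2 O hπ N' q hq2 hqN') ≤ 𝔫.comap (s36tn_leg_iota O N' q) ∧
    (⟨lg_lamE (N' * q), fc_x_mem_chart _⟩ :
      fc_chart ↥O ({lg_lamE (N' * q)} : Set ↥(lg_E L (N' * q)))) ∈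
        𝔫.comap (s36tn_leg_iota O N' q) := by
  obtain ⟨hCF, hleC, -⟩ := s36cel_chart2_le O hπ N' q hq2 hqN' hprime VC hVC
  obtain ⟨le1, -⟩ := s36cel_chart_le O hπ N' q hq2 hqN' hprime
  refine s36cel_yF_abs (s36tn_leg_iota O N' q)
    (IntermediateField.inclusion (s36w_E_le1 L N' q)).toRingHom
    (fun b => s36tn_leg_iota_coe O N' q b) (s36tn_leg_iota_isIntegral O N' q) le1 hleC hCF
    ⟨lg_lamE (N' * q), fc_x_mem_chart _⟩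
    (fun 𝔞 h𝔞 hμ𝔞 => s36cel_noCross0 O hπ N' q hq2 hqN' hprime 𝔞 h𝔞 hμ𝔞) 𝔫 h𝔫 hC ?_
  rw [s36tn_leg_iota_lam]
  exact hμ

/-- **(i1) at a cusp `λ = 1` of the component `C`.** -/
theorem s36cel_yF1
    (hprime : Prime (algebraMap ↥O (fc_chart ↥O ({lg_lamE N'} : Set ↥(lg_E L N'))) π))
    (VC : ValuationSubring ↥(lg_E L (N' * q * q)))
    (hVC :
      letI := ssm_gi_algebra (ssm_al_E_le L (N' * q) q)
      letI := ssm_gi_algebraV (ssm_al_E_le L (N' * q) q) (ssm_gl_V1 O hπ N' q)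
      ssm_tw_Over ↥(lg_E L (N' * q)) ↥(ssm_gl_V1 O hπ N' q) VC)
    (𝔫 : Ideal (fc_chart ↥O ({lg_lamE (N' * q * q)} : Set ↥(lg_E L (N' * q * q)))))
    (h𝔫 : 𝔫.IsMaximal)
    (hC : ssm_tp_P (fc_chart ↥O ({lg_lamE (N' * q * q)} : Set ↥(lg_E L (N' * q * q)))) VC ≤ 𝔫)
    (hμ : (⟨lg_lamE (N' * q * q), fc_x_mem_chart _⟩ :
      fc_chart ↥O ({lg_lamE (N' * q * q)} : Set ↥(lg_E L (N' * q * q)))) - 1 ∈ 𝔫) :
    (𝔫.comap (s36tn_leg_iota O N' q)).IsMaximal ∧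
    ssm_tp_P (fc_chart ↥O ({lg_lamE (N' * q)} : Set ↥(lg_E L (N' * q))))
      (ssm_gl_V1 O hπ N' q) ≤ 𝔫.comap (s36tn_leg_iota O N' q) ∧
    ¬ ssm_tp_P (fc_chart ↥O ({lg_lamE (N' * q)} : Set ↥(lg_E L (N' * q))))
      (ssm_gl_V2 O hπ N' q hq2 hqN') ≤ 𝔫.comap (s36tn_leg_iota O N' q) ∧
    (⟨lg_lamE (N' * q), fc_x_mem_chart _⟩ :
      fc_chart ↥O ({lg_lamE (N' * q)} : Set ↥(lg_E L (N' * q)))) - 1 ∈
        𝔫.comap (s36tn_leg_iota O N' q) := by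
  obtain ⟨hCF, hleC, -⟩ := s36cel_chart2_le O hπ N' q hq2 hqN' hprime VC hVC
  obtain ⟨le1, -⟩ := s36cel_chart_le O hπ N' q hq2 hqN' hprime
  refine s36cel_yF_abs (s36tn_leg_iota O N' q)
    (IntermediateField.inclusion (s36w_E_le1 L N' q)).toRingHom
    (fun b => s36tn_leg_iota_coe O N' q b) (s36tn_leg_iota_isIntegral O N' q) le1 hleC hCF
    (⟨lg_lamE (N' * q), fc_x_mem_chart _⟩ - 1)
    (fun 𝔞 h𝔞 hμ𝔞 => s36cel_noCross1 O hπ N' q hq2 hqN' hprime 𝔞 h𝔞 hμ𝔞) 𝔫 h𝔫 hC ?_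
  rw [map_sub, map_one, s36tn_leg_iota_lam]
  exact hμ

/-- `λ₁⁻¹ ↦ λ₂⁻¹` under `E₁ ⊆ E₂`. -/
theorem s36cel_incl_inv :
    letI := ssm_gi_algebra (s36w_E_le1 L N' q)
    algebraMap ↥(lg_E L (N' * q)) ↥(lg_E L (N' * q * q)) (lg_lamE (N' * q))⁻¹ =
      (lg_lamE (N' * q * q))⁻¹ := by
  letI := ssm_gi_algebra (s36w_E_le1 L N' q)
  rw [map_inv₀]
  congr 1

/-- **the chart map at infinity** `B_{λ⁻¹}(N' q) →+* B_{λ⁻¹}(N' q q)` induced by `E₁ ⊆ E₂`. -/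
def s36cel_iotaInv :
    fc_chart ↥O ({(lg_lamE (N' * q))⁻¹} : Set ↥(lg_E L (N' * q))) →+*
      fc_chart ↥O ({(lg_lamE (N' * q * q))⁻¹} : Set ↥(lg_E L (N' * q * q))) :=
  letI := ssm_gi_algebra (s36w_E_le1 L N' q)
  haveI := ssm_gt_isScalarTower O (s36w_E_le1 L N' q)
  s36tnh_iota_gen ↥O ↥(lg_E L (N' * q * q)) (lg_lamE (N' * q))⁻¹ (lg_lamE (N' * q * q))⁻¹
    (s36cel_incl_inv N' q)

theorem s36cel_iotaInv_coe
    (b : fc_chart ↥O ({(lg_lamE (N' * q))⁻¹} : Set ↥(lg_E L (N' * q)))) :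
    ((s36cel_iotaInv O N' q b : fc_chart ↥O ({(lg_lamE (N' * q * q))⁻¹} :
      Set ↥(lg_E L (N' * q * q)))) : ↥(lg_E L (N' * q * q))) =
      IntermediateField.inclusion (s36w_E_le1 L N' q) (b : ↥(lg_E L (N' * q))) := rfl

theorem s36cel_iotaInv_isIntegral : (s36cel_iotaInv O N' q).IsIntegral := by
  letI := ssm_gi_algebra (s36w_E_le1 L N' q)
  haveI := ssm_gt_isScalarTower O (s36w_E_le1 L N' q)
  exact s36tnh_iota_gen_isIntegral (A0 := ↥O) (E := ↥(lg_E L (N' * q * q)))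
    (lg_lamE (N' * q))⁻¹ (lg_lamE (N' * q * q))⁻¹ (s36cel_incl_inv N' q)

theorem s36cel_iotaInv_algebraMap (a : ↥O) :
    s36cel_iotaInv O N' q
        (algebraMap ↥O (fc_chart ↥O ({(lg_lamE (N' * q))⁻¹} : Set ↥(lg_E L (N' * q)))) a) =
      algebraMap ↥O
        (fc_chart ↥O ({(lg_lamE (N' * q * q))⁻¹} : Set ↥(lg_E L (N' * q * q)))) a := by
  letI := ssm_gi_algebra (s36w_E_le1 L N' q)
  haveI := ssm_gt_isScalarTower O (s36w_E_le1 L N' q)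
  exact s36tnh_iota_gen_algebraMap (A0 := ↥O) (E := ↥(lg_E L (N' * q * q)))
    (lg_lamE (N' * q))⁻¹ (lg_lamE (N' * q * q))⁻¹ (s36cel_incl_inv N' q) a

theorem s36cel_iotaInv_lam :
    s36cel_iotaInv O N' q ⟨(lg_lamE (N' * q))⁻¹, fc_x_mem_chart _⟩ =
      ⟨(lg_lamE (N' * q * q))⁻¹, fc_x_mem_chart _⟩ := by
  apply Subtype.ext
  rw [s36cel_iotaInv_coe]
  exact s36cel_incl_inv N' q

set_option synthInstance.maxHeartbeats 200000 in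
/-- **(i1) at a cusp `λ = ∞` of the component `C`** (charts `B_{λ⁻¹}`). -/
theorem s36cel_yFInf
    (hprime : Prime (algebraMap ↥O (fc_chart ↥O ({lg_lamE N'} : Set ↥(lg_E L N'))) π))
    (VC : ValuationSubring ↥(lg_E L (N' * q * q)))
    (hVC :
      letI := ssm_gi_algebra (ssm_al_E_le L (N' * q) q)
      letI := ssm_gi_algebraV (ssm_al_E_le L (N' * q) q) (ssm_gl_V1 O hπ N' q)
      ssm_tw_Over ↥(lg_E L (N' * q)) ↥(ssm_gl_V1 O hπ N' q) VC)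
    (𝔫 : Ideal (fc_chart ↥O ({(lg_lamE (N' * q * q))⁻¹} : Set ↥(lg_E L (N' * q * q)))))
    (h𝔫 : 𝔫.IsMaximal)
    (hC : ssm_tp_P (fc_chart ↥O ({(lg_lamE (N' * q * q))⁻¹} : Set ↥(lg_E L (N' * q * q)))) VC ≤ 𝔫)
    (hμ : (⟨(lg_lamE (N' * q * q))⁻¹, fc_x_mem_chart _⟩ :
      fc_chart ↥O ({(lg_lamE (N' * q * q))⁻¹} : Set ↥(lg_E L (N' * q * q)))) ∈ 𝔫) :
    (𝔫.comap (s36cel_iotaInv O N' q)).IsMaximal ∧
    ssm_tp_P (fc_chart ↥O ({(lg_lamE (N' * q))⁻¹} : Set ↥(lg_E L (N' * q))))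
      (ssm_gl_V1 O hπ N' q) ≤ 𝔫.comap (s36cel_iotaInv O N' q) ∧
    ¬ ssm_tp_P (fc_chart ↥O ({(lg_lamE (N' * q))⁻¹} : Set ↥(lg_E L (N' * q))))
      (ssm_gl_V2 O hπ N' q hq2 hqN') ≤ 𝔫.comap (s36cel_iotaInv O N' q) ∧
    (⟨(lg_lamE (N' * q))⁻¹, fc_x_mem_chart _⟩ :
      fc_chart ↥O ({(lg_lamE (N' * q))⁻¹} : Set ↥(lg_E L (N' * q)))) ∈
        𝔫.comap (s36cel_iotaInv O N' q) := by
  obtain ⟨hCF, -, hleC⟩ := s36cel_chart2_le O hπ N' q hq2 hqN' hprime VC hVC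
  haveI := ssm_go_isScalarTower O (lg_E L (N' * q))
  haveI : FiniteDimensional L⟮(lg_lamE (N' * q) : lg_E L (N' * q))⟯ ↥(lg_E L (N' * q)) :=
    lgf_finite L (N' * q)
  have H := ssm_gl_hyp O hπ N' q hq2 hqN' hprime
  have hx : Transcendental L (lg_lamE (L := L) (N' * q)) :=
    lgf_lam_transcendental L (N' * q) two_ne_zero
  obtain ⟨le1, -, -⟩ := ssm_inf_ff_le (L := L) hπ hx H
  refine s36cel_yF_abs (s36cel_iotaInv O N' q)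
    (IntermediateField.inclusion (s36w_E_le1 L N' q)).toRingHom
    (fun b => s36cel_iotaInv_coe O N' q b) (s36cel_iotaInv_isIntegral O N' q) le1 hleC hCF
    ⟨(lg_lamE (N' * q))⁻¹, fc_x_mem_chart _⟩
    (fun 𝔞 h𝔞 hμ𝔞 => s36cel_noCrossInf O hπ N' q hq2 hqN' hprime 𝔞 h𝔞 hμ𝔞) 𝔫 h𝔫 hC ?_
  rw [s36cel_iotaInv_lam]
  exact hμ

set_option synthInstance.maxHeartbeats 200000 in
/-- **(i4) at `λ = 0`**: `x₁ := W λ = λ(X^q)` and `e' := x₁^q / λ` in `B_λ` (level `N' q`):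
`e' λ = x₁^q`, `e' ≡ 1` on `VV`, `e' ≡ λ^(q²-1)` on `VF`, `e' ∈ 𝔞` for `𝔞 ⊇ P_VF + (λ)`. -/
theorem s36cel_e0
    (hprime : Prime (algebraMap ↥O (fc_chart ↥O ({lg_lamE N'} : Set ↥(lg_E L N'))) π)) :
    ∃ x1 e' : fc_chart ↥O ({lg_lamE (N' * q)} : Set ↥(lg_E L (N' * q))),
      (x1 : ↥(lg_E L (N' * q))) = ssm_gl_W L N' q hq2 hqN' (lg_lamE (N' * q)) ∧
      e' * ⟨lg_lamE (N' * q), fc_x_mem_chart _⟩ = x1 ^ q ∧
      e' - 1 ∈ ssm_tp_P (fc_chart ↥O ({lg_lamE (N' * q)} : Set ↥(lg_E L (N' * q))))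
        (ssm_gl_V2 O hπ N' q hq2 hqN') ∧
      e' - ⟨lg_lamE (N' * q), fc_x_mem_chart _⟩ ^ (q ^ 2 - 1) ∈
        ssm_tp_P (fc_chart ↥O ({lg_lamE (N' * q)} : Set ↥(lg_E L (N' * q))))
          (ssm_gl_V1 O hπ N' q) ∧
      ∀ 𝔞 : Ideal (fc_chart ↥O ({lg_lamE (N' * q)} : Set ↥(lg_E L (N' * q)))),
        ssm_tp_P (fc_chart ↥O ({lg_lamE (N' * q)} : Set ↥(lg_E L (N' * q))))
          (ssm_gl_V1 O hπ N' q) ≤ 𝔞 →
        (⟨lg_lamE (N' * q), fc_x_mem_chart _⟩ :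
          fc_chart ↥O ({lg_lamE (N' * q)} : Set ↥(lg_E L (N' * q)))) ∈ 𝔞 → e' ∈ 𝔞 := by
  haveI := ssm_go_isScalarTower O (lg_E L (N' * q))
  have H := ssm_gl_hyp O hπ N' q hq2 hqN' hprime
  have F := ssm_fl_facts O hπ N' q hq2 hqN' hprime
  have hx : Transcendental L (lg_lamE (L := L) (N' * q)) :=
    lgf_lam_transcendental L (N' * q) two_ne_zero
  have hxA : Transcendental ↥O (lg_lamE (L := L) (N' * q)) := fc_ff_transcendental (L := L) hx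
  obtain ⟨le1, le2⟩ := s36cel_chart_le O hπ N' q hq2 hqN' hprime
  have hμ1 : lg_lamE (L := L) (N' * q) ∉ (ssm_gl_V1 O hπ N' q).nonunits := by
    have h := (ssm_i1_linear_not_mem hπ hxA H.over1 0).2
    rwa [map_zero, sub_zero] at h
  obtain ⟨h1, h2, h3, h4⟩ := s36cel_e_abs _ le1 le2 hq.out.two_le (fc_x_mem_chart _) F.lamq_mem
    hμ1 F.w0_sub F.w0' F.w0'_sub
  exact ⟨⟨_, F.lamq_mem⟩, ⟨_, F.w0'⟩, rfl, h1, h2, h3, h4⟩

set_option synthInstance.maxHeartbeats 200000 in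
/-- **(i4) at `λ = 1`**: `x₁ := W λ - 1` and `e' := x₁^q / (λ - 1)`. -/
theorem s36cel_e1
    (hprime : Prime (algebraMap ↥O (fc_chart ↥O ({lg_lamE N'} : Set ↥(lg_E L N'))) π)) :
    ∃ x1 e' : fc_chart ↥O ({lg_lamE (N' * q)} : Set ↥(lg_E L (N' * q))),
      (x1 : ↥(lg_E L (N' * q))) = ssm_gl_W L N' q hq2 hqN' (lg_lamE (N' * q)) - 1 ∧
      e' * (⟨lg_lamE (N' * q), fc_x_mem_chart _⟩ - 1) = x1 ^ q ∧
      e' - 1 ∈ ssm_tp_P (fc_chart ↥O ({lg_lamE (N' * q)} : Set ↥(lg_E L (N' * q))))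
        (ssm_gl_V2 O hπ N' q hq2 hqN') ∧
      e' - (⟨lg_lamE (N' * q), fc_x_mem_chart _⟩ - 1) ^ (q ^ 2 - 1) ∈
        ssm_tp_P (fc_chart ↥O ({lg_lamE (N' * q)} : Set ↥(lg_E L (N' * q))))
          (ssm_gl_V1 O hπ N' q) ∧
      ∀ 𝔞 : Ideal (fc_chart ↥O ({lg_lamE (N' * q)} : Set ↥(lg_E L (N' * q)))),
        ssm_tp_P (fc_chart ↥O ({lg_lamE (N' * q)} : Set ↥(lg_E L (N' * q))))
          (ssm_gl_V1 O hπ N' q) ≤ 𝔞 →
        (⟨lg_lamE (N' * q), fc_x_mem_chart _⟩ :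
          fc_chart ↥O ({lg_lamE (N' * q)} : Set ↥(lg_E L (N' * q)))) - 1 ∈ 𝔞 → e' ∈ 𝔞 := by
  haveI := ssm_go_isScalarTower O (lg_E L (N' * q))
  have H := ssm_gl_hyp O hπ N' q hq2 hqN' hprime
  have F := ssm_fl_facts O hπ N' q hq2 hqN' hprime
  have hx : Transcendental L (lg_lamE (L := L) (N' * q)) :=
    lgf_lam_transcendental L (N' * q) two_ne_zero
  have hxA : Transcendental ↥O (lg_lamE (L := L) (N' * q)) := fc_ff_transcendental (L := L) hx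
  obtain ⟨le1, le2⟩ := s36cel_chart_le O hπ N' q hq2 hqN' hprime
  have hμ1 : lg_lamE (L := L) (N' * q) - 1 ∉ (ssm_gl_V1 O hπ N' q).nonunits := by
    have h := (ssm_i1_linear_not_mem hπ hxA H.over1 1).2
    rwa [map_one] at h
  have hμB : lg_lamE (L := L) (N' * q) - 1 ∈
      fc_chart ↥O ({lg_lamE (N' * q)} : Set ↥(lg_E L (N' * q))) :=
    Subalgebra.sub_mem _ (fc_x_mem_chart _) (Subalgebra.one_mem _)
  have hμqB : ssm_gl_W L N' q hq2 hqN' (lg_lamE (N' * q)) - 1 ∈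
      fc_chart ↥O ({lg_lamE (N' * q)} : Set ↥(lg_E L (N' * q))) :=
    Subalgebra.sub_mem _ F.lamq_mem (Subalgebra.one_mem _)
  obtain ⟨h1, h2, h3, h4⟩ := s36cel_e_abs _ le1 le2 hq.out.two_le hμB hμqB
    hμ1 F.w1_sub F.w1' F.w1'_sub
  exact ⟨⟨_, hμqB⟩, ⟨_, F.w1'⟩, rfl, h1, h2, h3, h4⟩

set_option synthInstance.maxHeartbeats 200000 in
/-- **(i4) at `λ = ∞`** (chart `B_{λ⁻¹}`): `x₁ := (W λ)⁻¹` and `e' := x₁^q / λ⁻¹`. -/
theorem s36cel_eInf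
    (hprime : Prime (algebraMap ↥O (fc_chart ↥O ({lg_lamE N'} : Set ↥(lg_E L N'))) π)) :
    ∃ x1 e' : fc_chart ↥O ({(lg_lamE (N' * q))⁻¹} : Set ↥(lg_E L (N' * q))),
      (x1 : ↥(lg_E L (N' * q))) = (ssm_gl_W L N' q hq2 hqN' (lg_lamE (N' * q)))⁻¹ ∧
      e' * ⟨(lg_lamE (N' * q))⁻¹, fc_x_mem_chart _⟩ = x1 ^ q ∧
      e' - 1 ∈ ssm_tp_P (fc_chart ↥O ({(lg_lamE (N' * q))⁻¹} : Set ↥(lg_E L (N' * q))))
        (ssm_gl_V2 O hπ N' q hq2 hqN') ∧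
      e' - ⟨(lg_lamE (N' * q))⁻¹, fc_x_mem_chart _⟩ ^ (q ^ 2 - 1) ∈
        ssm_tp_P (fc_chart ↥O ({(lg_lamE (N' * q))⁻¹} : Set ↥(lg_E L (N' * q))))
          (ssm_gl_V1 O hπ N' q) ∧
      ∀ 𝔞 : Ideal (fc_chart ↥O ({(lg_lamE (N' * q))⁻¹} : Set ↥(lg_E L (N' * q)))),
        ssm_tp_P (fc_chart ↥O ({(lg_lamE (N' * q))⁻¹} : Set ↥(lg_E L (N' * q))))
          (ssm_gl_V1 O hπ N' q) ≤ 𝔞 →
        (⟨(lg_lamE (N' * q))⁻¹, fc_x_mem_chart _⟩ :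
          fc_chart ↥O ({(lg_lamE (N' * q))⁻¹} : Set ↥(lg_E L (N' * q)))) ∈ 𝔞 → e' ∈ 𝔞 := by
  haveI := ssm_go_isScalarTower O (lg_E L (N' * q))
  haveI : FiniteDimensional L⟮(lg_lamE (N' * q) : lg_E L (N' * q))⟯ ↥(lg_E L (N' * q)) :=
    lgf_finite L (N' * q)
  have H := ssm_gl_hyp O hπ N' q hq2 hqN' hprime
  have F := ssm_fl_facts O hπ N' q hq2 hqN' hprime
  have hx : Transcendental L (lg_lamE (L := L) (N' * q)) :=
    lgf_lam_transcendental L (N' * q) two_ne_zero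
  obtain ⟨le1, le2, hμ1⟩ := ssm_inf_ff_le (L := L) hπ hx H
  obtain ⟨h1, h2, h3, h4⟩ := s36cel_e_abs _ le1 le2 hq.out.two_le (fc_x_mem_chart _)
    F.lamq_inv_mem hμ1 F.winf_sub F.winf' F.winf'_sub
  exact ⟨⟨_, F.lamq_inv_mem⟩, ⟨_, F.winf'⟩, rfl, h1, h2, h3, h4⟩

end Leg

end Fermat.Agent.S36
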