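/-
Project S36, model cell [M2], leaf **[C-CUSP-EIS]** / [L3c], NOTE 7 (G3) (helper27).
Prefix `s36cb_`.

THE `β`-SIDE CHART MAP OF THE LEGENDRE TOWER, as closed terms.

`B0 := fc_chart O {λ₀}` (`λ₀ = lg_lamE N'`, level `N'`), `B1 := fc_chart O {λ₁}` (`λ₁ = lg_lamE (N' q)`),
`W := ssm_gl_W L N' q hq2 hqN'` the Atkin–Lehner involution of `E1 = lg_E L (N' q)`,
`incl := IntermediateField.inclusion (ssm_al_E_le L N' q) : E0 → E1`.

* `s36cb_phiA`  : the `α`-side chart map `B0 →+* B1` (`= ssm_cpi_phi`), `(φA b : E1) = incl b`;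
* `s36cb_WB`    : the ring automorphism of `B1` induced by `W` (`= ssm_inf_equiv`);
* `s36cb_phiB`  : the `β`-side chart map `φB := WB ∘ φA`, `(φB b : E1) = W (incl b) = β b`
  (`β = s36mc_beta`, the algebra structure `s36ch_algBeta`);
* integrality (`B1` is integral over `φB B0`), compatibility with the base, `φB λ₀ = W λ₁`,
  `hBcl` through `β`, the exchange `P_VF ↔ P_VV` under `WB`, uniqueness of `φB`;
* the same for the charts at infinity `fc_chart O {λ₀⁻¹} → fc_chart O {λ₁⁻¹}` (suffix `Inv`).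

Only level-`N'` input: `hprime : Prime (π in B0)` (through `ssm_fl_facts`: `W` preserves the charts).
-/
import Mathlib
import Fermat.Agent.S36.Tri.MapInstHes
import Fermat.Agent.SS.Model.FinalLeg
import Fermat.Agent.SS.Model.PointsInf
import Fermat.Agent.SS.Model.SmoothInst
import Fermat.Agent.S36.CReg.HorizInstLeg
import Fermat.Agent.S36.CReg.CuspEisInputsLeg

set_option autoImplicit false
set_option linter.unusedSectionVars false
set_option linter.unusedVariables false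
set_option linter.style.haveILetI false

noncomputable section

namespace Fermat.Agent.S36

open Fermat.Agent.SS Fermat.Agent.JT3 IsLocalRing ModularCurve IntermediateField

section Abs

universe v

variable {A0 : Type*} [CommRing A0] {F0 : Type v} [Field F0] [Algebra A0 F0]

/-- **a chart is integrally closed in its field, ring-hom form**: an element of `F0` integral over
a ring mapping to the chart lies in the chart. -/
theorem s36cb_mem_chart_of_isIntegralElem (S : Set F0) {R : Type*} [CommRing R]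
    (φ : R →+* fc_chart A0 S) (z : F0)
    (hz : ((fc_chart A0 S).val.toRingHom.comp φ).IsIntegralElem z) : z ∈ fc_chart A0 S := by
  obtain ⟨p, hp, hpz⟩ := hz
  have h1 : IsIntegral (fc_chart A0 S) z := by
    refine ⟨p.map φ, hp.map φ, ?_⟩
    rw [Polynomial.eval₂_map]
    exact hpz
  have h2 : IsIntegral (integralClosure (Algebra.adjoin A0 S) F0) z := h1
  rw [fc_mem_chart]
  exact isIntegral_trans (A := integralClosure (Algebra.adjoin A0 S) F0) z h2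

variable {K : Type*} [Field K] [Algebra A0 K] {B' : Subalgebra A0 K} {B : Subalgebra A0 F0}

/-- the mirror `WB ∘ φ` of a chart map under the automorphism of the chart induced by an involution
`W` of the ambient field. -/
def s36cb_mirror (W : F0 ≃+* F0) (hWW : ∀ z, W (W z) = z) (hWB : ∀ b ∈ B, W b ∈ B)
    (φ : B' →+* B) : B' →+* B :=
  ((ssm_inf_equiv W hWW B hWB : B ≃+* B) : B →+* B).comp φ

theorem s36cb_mirror_coe (W : F0 ≃+* F0) (hWW : ∀ z, W (W z) = z) (hWB : ∀ b ∈ B, W b ∈ B)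
    (φ : B' →+* B) (b : B') :
    ((s36cb_mirror W hWW hWB φ b : B) : F0) = W ((φ b : B) : F0) := rfl

theorem s36cb_mirror_apply (W : F0 ≃+* F0) (hWW : ∀ z, W (W z) = z) (hWB : ∀ b ∈ B, W b ∈ B)
    (φ : B' →+* B) (b : B') :
    s36cb_mirror W hWW hWB φ b = ssm_inf_equiv W hWW B hWB (φ b) := rfl

theorem s36cb_mirror_isIntegral (W : F0 ≃+* F0) (hWW : ∀ z, W (W z) = z)
    (hWB : ∀ b ∈ B, W b ∈ B) (φ : B' →+* B) (hint : φ.IsIntegral) :
    (s36cb_mirror W hWW hWB φ).IsIntegral :=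
  RingHom.IsIntegral.trans _ _ hint
    (RingHom.isIntegral_of_surjective _ (ssm_inf_equiv W hWW B hWB).surjective)

/-- the comap of an ideal along the mirror map. -/
theorem s36cb_mirror_comap (W : F0 ≃+* F0) (hWW : ∀ z, W (W z) = z) (hWB : ∀ b ∈ B, W b ∈ B)
    (φ : B' →+* B) (𝔫 : Ideal B) :
    𝔫.comap (s36cb_mirror W hWW hWB φ) =
      (𝔫.comap ((ssm_inf_equiv W hWW B hWB : B ≃+* B) : B →+* B)).comap φ := rfl

end Abs

section Leg

variable {L : Type*} [Field L] [CharZero L] [Algebra L (AlgebraicClosure ℚ)]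
  (O : ValuationSubring L) [IsDiscreteValuationRing O] {π : O} (hπ : Irreducible π)
variable (N' q : ℕ) [NeZero N'] [NeZero q] [hq : Fact q.Prime] [CharP (ResidueField O) q]
  (hq2 : ¬ 2 ∣ q) (hqN' : ¬ q ∣ N')

/-! ### the `α`-side chart maps -/

/-- **the `α`-side chart map** `B_λ(N') →+* B_λ(N' q)` induced by `E₀ ⊆ E₁`. -/
def s36cb_phiA :
    fc_chart ↥O ({lg_lamE N'} : Set ↥(lg_E L N')) →+*
      fc_chart ↥O ({lg_lamE (N' * q)} : Set ↥(lg_E L (N' * q))) :=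
  letI := ssm_gi_algebra (ssm_al_E_le L N' q)
  haveI := ssm_gt_isScalarTower O (ssm_al_E_le L N' q)
  ssm_cpi_phi ↥O ↥(lg_E L (N' * q)) (lg_lamE N')

theorem s36cb_phiA_coe (b : fc_chart ↥O ({lg_lamE N'} : Set ↥(lg_E L N'))) :
    ((s36cb_phiA O N' q b : fc_chart ↥O ({lg_lamE (N' * q)} : Set ↥(lg_E L (N' * q)))) :
      ↥(lg_E L (N' * q))) =
      IntermediateField.inclusion (ssm_al_E_le L N' q) (b : ↥(lg_E L N')) := rfl

theorem s36cb_phiA_eq :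
    letI := ssm_gi_algebra (ssm_al_E_le L N' q)
    haveI := ssm_gt_isScalarTower O (ssm_al_E_le L N' q)
    s36cb_phiA O N' q = ssm_cpi_phi ↥O ↥(lg_E L (N' * q)) (lg_lamE N') := rfl

theorem s36cb_phiA_isIntegral : (s36cb_phiA O N' q).IsIntegral := by
  letI := ssm_gi_algebra (ssm_al_E_le L N' q)
  haveI := ssm_gt_isScalarTower O (ssm_al_E_le L N' q)
  exact ssm_cpi_phi_isIntegral (A0 := ↥O) (E := ↥(lg_E L (N' * q))) (lg_lamE N')

theorem s36cb_phiA_algebraMap (a : ↥O) :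
    s36cb_phiA O N' q (algebraMap ↥O (fc_chart ↥O ({lg_lamE N'} : Set ↥(lg_E L N'))) a) =
      algebraMap ↥O (fc_chart ↥O ({lg_lamE (N' * q)} : Set ↥(lg_E L (N' * q)))) a := by
  letI := ssm_gi_algebra (ssm_al_E_le L N' q)
  haveI := ssm_gt_isScalarTower O (ssm_al_E_le L N' q)
  exact ssm_cpi_phi_algebraMap (A0 := ↥O) (E := ↥(lg_E L (N' * q))) (lg_lamE N') a

theorem s36cb_phiA_lam :
    s36cb_phiA O N' q ⟨lg_lamE N', fc_x_mem_chart _⟩ =
      ⟨lg_lamE (N' * q), fc_x_mem_chart _⟩ := by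
  apply Subtype.ext
  apply Subtype.ext
  rfl

theorem s36cb_phiA_injective : Function.Injective (s36cb_phiA O N' q) := by
  intro a b hab
  have h1 := s36cb_phiA_coe O N' q a
  have h2 := s36cb_phiA_coe O N' q b
  rw [hab] at h1
  exact Subtype.ext ((IntermediateField.inclusion (ssm_al_E_le L N' q)).injective
    (h1.symm.trans h2))

/-- `λ₀⁻¹ ↦ λ₁⁻¹` under `E₀ ⊆ E₁`. -/
theorem s36cb_incl_inv :
    letI := ssm_gi_algebra (ssm_al_E_le L N' q)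
    algebraMap ↥(lg_E L N') ↥(lg_E L (N' * q)) (lg_lamE N')⁻¹ = (lg_lamE (N' * q))⁻¹ := by
  letI := ssm_gi_algebra (ssm_al_E_le L N' q)
  rw [map_inv₀]
  congr 1

/-- **the `α`-side chart map at infinity** `B_{λ⁻¹}(N') →+* B_{λ⁻¹}(N' q)`. -/
def s36cb_phiAInv :
    fc_chart ↥O ({(lg_lamE N')⁻¹} : Set ↥(lg_E L N')) →+*
      fc_chart ↥O ({(lg_lamE (N' * q))⁻¹} : Set ↥(lg_E L (N' * q))) :=
  letI := ssm_gi_algebra (ssm_al_E_le L N' q)
  haveI := ssm_gt_isScalarTower O (ssm_al_E_le L N' q)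
  s36tnh_iota_gen ↥O ↥(lg_E L (N' * q)) (lg_lamE N')⁻¹ (lg_lamE (N' * q))⁻¹
    (s36cb_incl_inv N' q)

theorem s36cb_phiAInv_coe (b : fc_chart ↥O ({(lg_lamE N')⁻¹} : Set ↥(lg_E L N'))) :
    ((s36cb_phiAInv O N' q b : fc_chart ↥O ({(lg_lamE (N' * q))⁻¹} :
      Set ↥(lg_E L (N' * q)))) : ↥(lg_E L (N' * q))) =
      IntermediateField.inclusion (ssm_al_E_le L N' q) (b : ↥(lg_E L N')) := rfl

theorem s36cb_phiAInv_isIntegral : (s36cb_phiAInv O N' q).IsIntegral := by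
  letI := ssm_gi_algebra (ssm_al_E_le L N' q)
  haveI := ssm_gt_isScalarTower O (ssm_al_E_le L N' q)
  exact s36tnh_iota_gen_isIntegral (A0 := ↥O) (E := ↥(lg_E L (N' * q)))
    (lg_lamE N')⁻¹ (lg_lamE (N' * q))⁻¹ (s36cb_incl_inv N' q)

theorem s36cb_phiAInv_algebraMap (a : ↥O) :
    s36cb_phiAInv O N' q
        (algebraMap ↥O (fc_chart ↥O ({(lg_lamE N')⁻¹} : Set ↥(lg_E L N'))) a) =
      algebraMap ↥O (fc_chart ↥O ({(lg_lamE (N' * q))⁻¹} : Set ↥(lg_E L (N' * q)))) a := by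
  letI := ssm_gi_algebra (ssm_al_E_le L N' q)
  haveI := ssm_gt_isScalarTower O (ssm_al_E_le L N' q)
  exact s36tnh_iota_gen_algebraMap (A0 := ↥O) (E := ↥(lg_E L (N' * q)))
    (lg_lamE N')⁻¹ (lg_lamE (N' * q))⁻¹ (s36cb_incl_inv N' q) a

theorem s36cb_phiAInv_lam :
    s36cb_phiAInv O N' q ⟨(lg_lamE N')⁻¹, fc_x_mem_chart _⟩ =
      ⟨(lg_lamE (N' * q))⁻¹, fc_x_mem_chart _⟩ := by
  apply Subtype.ext
  rw [s36cb_phiAInv_coe]
  exact s36cb_incl_inv N' q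

theorem s36cb_phiAInv_injective : Function.Injective (s36cb_phiAInv O N' q) := by
  intro a b hab
  have h1 := s36cb_phiAInv_coe O N' q a
  have h2 := s36cb_phiAInv_coe O N' q b
  rw [hab] at h1
  exact Subtype.ext ((IntermediateField.inclusion (ssm_al_E_le L N' q)).injective
    (h1.symm.trans h2))

/-! ### `W` preserves the charts of level `N' q` -/

include hπ in
set_option synthInstance.maxHeartbeats 200000 in
/-- `W` preserves the two charts `B_λ`, `B_{λ⁻¹}` of level `N' q`. -/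
theorem s36cb_hWB
    (hprime : Prime (algebraMap ↥O (fc_chart ↥O ({lg_lamE N'} : Set ↥(lg_E L N'))) π)) :
    (∀ b ∈ fc_chart ↥O ({lg_lamE (N' * q)} : Set ↥(lg_E L (N' * q))),
      ssm_gl_W L N' q hq2 hqN' b ∈ fc_chart ↥O ({lg_lamE (N' * q)} : Set ↥(lg_E L (N' * q)))) ∧
    (∀ b ∈ fc_chart ↥O ({(lg_lamE (N' * q))⁻¹} : Set ↥(lg_E L (N' * q))),
      ssm_gl_W L N' q hq2 hqN' b ∈
        fc_chart ↥O ({(lg_lamE (N' * q))⁻¹} : Set ↥(lg_E L (N' * q)))) := by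
  have F := ssm_fl_facts O hπ N' q hq2 hqN' hprime
  obtain ⟨h1, h2, -⟩ := ssm_i1_W_charts (ssm_gl_W L N' q hq2 hqN')
    (ssm_si_W_algebraMap O N' q hq2 hqN') rfl F
  exact ⟨h1, h2⟩

/-- **the automorphism of `B_λ` (level `N' q`) induced by `W`.** -/
def s36cb_WB
    (hprime : Prime (algebraMap ↥O (fc_chart ↥O ({lg_lamE N'} : Set ↥(lg_E L N'))) π)) :
    fc_chart ↥O ({lg_lamE (N' * q)} : Set ↥(lg_E L (N' * q))) ≃+*
      fc_chart ↥O ({lg_lamE (N' * q)} : Set ↥(lg_E L (N' * q))) :=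
  ssm_inf_equiv (ssm_gl_W L N' q hq2 hqN') (ssm_al_WE_WE L N' q hq.out hq2 hqN') _
    (s36cb_hWB O hπ N' q hq2 hqN' hprime).1

theorem s36cb_WB_coe
    (hprime : Prime (algebraMap ↥O (fc_chart ↥O ({lg_lamE N'} : Set ↥(lg_E L N'))) π))
    (b : fc_chart ↥O ({lg_lamE (N' * q)} : Set ↥(lg_E L (N' * q)))) :
    ((s36cb_WB O hπ N' q hq2 hqN' hprime b :
      fc_chart ↥O ({lg_lamE (N' * q)} : Set ↥(lg_E L (N' * q)))) : ↥(lg_E L (N' * q))) =
      ssm_gl_W L N' q hq2 hqN' (b : ↥(lg_E L (N' * q))) := rfl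

theorem s36cb_WB_WB
    (hprime : Prime (algebraMap ↥O (fc_chart ↥O ({lg_lamE N'} : Set ↥(lg_E L N'))) π))
    (b : fc_chart ↥O ({lg_lamE (N' * q)} : Set ↥(lg_E L (N' * q)))) :
    s36cb_WB O hπ N' q hq2 hqN' hprime (s36cb_WB O hπ N' q hq2 hqN' hprime b) = b :=
  Subtype.ext (ssm_al_WE_WE L N' q hq.out hq2 hqN' _)

theorem s36cb_WB_algebraMap
    (hprime : Prime (algebraMap ↥O (fc_chart ↥O ({lg_lamE N'} : Set ↥(lg_E L N'))) π)) (a : ↥O) :
    s36cb_WB O hπ N' q hq2 hqN' hprime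
        (algebraMap ↥O (fc_chart ↥O ({lg_lamE (N' * q)} : Set ↥(lg_E L (N' * q)))) a) =
      algebraMap ↥O (fc_chart ↥O ({lg_lamE (N' * q)} : Set ↥(lg_E L (N' * q)))) a :=
  Subtype.ext (ssm_si_W_algebraMap O N' q hq2 hqN' a)

/-- **the automorphism of `B_{λ⁻¹}` (level `N' q`) induced by `W`.** -/
def s36cb_WBInv
    (hprime : Prime (algebraMap ↥O (fc_chart ↥O ({lg_lamE N'} : Set ↥(lg_E L N'))) π)) :
    fc_chart ↥O ({(lg_lamE (N' * q))⁻¹} : Set ↥(lg_E L (N' * q))) ≃+*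
      fc_chart ↥O ({(lg_lamE (N' * q))⁻¹} : Set ↥(lg_E L (N' * q))) :=
  ssm_inf_equiv (ssm_gl_W L N' q hq2 hqN') (ssm_al_WE_WE L N' q hq.out hq2 hqN') _
    (s36cb_hWB O hπ N' q hq2 hqN' hprime).2

theorem s36cb_WBInv_coe
    (hprime : Prime (algebraMap ↥O (fc_chart ↥O ({lg_lamE N'} : Set ↥(lg_E L N'))) π))
    (b : fc_chart ↥O ({(lg_lamE (N' * q))⁻¹} : Set ↥(lg_E L (N' * q)))) :
    ((s36cb_WBInv O hπ N' q hq2 hqN' hprime b :
      fc_chart ↥O ({(lg_lamE (N' * q))⁻¹} : Set ↥(lg_E L (N' * q)))) : ↥(lg_E L (N' * q))) =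
      ssm_gl_W L N' q hq2 hqN' (b : ↥(lg_E L (N' * q))) := rfl

theorem s36cb_WBInv_WBInv
    (hprime : Prime (algebraMap ↥O (fc_chart ↥O ({lg_lamE N'} : Set ↥(lg_E L N'))) π))
    (b : fc_chart ↥O ({(lg_lamE (N' * q))⁻¹} : Set ↥(lg_E L (N' * q)))) :
    s36cb_WBInv O hπ N' q hq2 hqN' hprime (s36cb_WBInv O hπ N' q hq2 hqN' hprime b) = b :=
  Subtype.ext (ssm_al_WE_WE L N' q hq.out hq2 hqN' _)

theorem s36cb_WBInv_algebraMap
    (hprime : Prime (algebraMap ↥O (fc_chart ↥O ({lg_lamE N'} : Set ↥(lg_E L N'))) π)) (a : ↥O) :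
    s36cb_WBInv O hπ N' q hq2 hqN' hprime
        (algebraMap ↥O (fc_chart ↥O ({(lg_lamE (N' * q))⁻¹} : Set ↥(lg_E L (N' * q)))) a) =
      algebraMap ↥O (fc_chart ↥O ({(lg_lamE (N' * q))⁻¹} : Set ↥(lg_E L (N' * q)))) a :=
  Subtype.ext (ssm_si_W_algebraMap O N' q hq2 hqN' a)

/-- the chart `B_{λ⁻¹}` of level `N' q` lies in `VF` and in `VV`. -/
theorem s36cb_chartInv_le
    (hprime : Prime (algebraMap ↥O (fc_chart ↥O ({lg_lamE N'} : Set ↥(lg_E L N'))) π)) :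
    (∀ b ∈ fc_chart ↥O ({(lg_lamE (N' * q))⁻¹} : Set ↥(lg_E L (N' * q))),
      b ∈ ssm_gl_V1 O hπ N' q) ∧
    (∀ b ∈ fc_chart ↥O ({(lg_lamE (N' * q))⁻¹} : Set ↥(lg_E L (N' * q))),
      b ∈ ssm_gl_V2 O hπ N' q hq2 hqN') := by
  haveI := ssm_go_isScalarTower O (lg_E L (N' * q))
  haveI : FiniteDimensional L⟮(lg_lamE (N' * q) : lg_E L (N' * q))⟯ ↥(lg_E L (N' * q)) :=
    lgf_finite L (N' * q)
  have H := ssm_gl_hyp O hπ N' q hq2 hqN' hprime
  have hx : Transcendental L (lg_lamE (L := L) (N' * q)) :=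
    lgf_lam_transcendental L (N' * q) two_ne_zero
  obtain ⟨le1, le2, -⟩ := ssm_inf_ff_le (L := L) hπ hx H
  exact ⟨le1, le2⟩

/-- **`WB` exchanges the two vertical primes of `B_λ`** (`hW12` of `s36ct_hyp_beta`). -/
theorem s36cb_W12
    (hprime : Prime (algebraMap ↥O (fc_chart ↥O ({lg_lamE N'} : Set ↥(lg_E L N'))) π))
    (b : fc_chart ↥O ({lg_lamE (N' * q)} : Set ↥(lg_E L (N' * q)))) :
    b ∈ ssm_tp_P (fc_chart ↥O ({lg_lamE (N' * q)} : Set ↥(lg_E L (N' * q))))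
        (ssm_gl_V1 O hπ N' q) ↔
      s36cb_WB O hπ N' q hq2 hqN' hprime b ∈
        ssm_tp_P (fc_chart ↥O ({lg_lamE (N' * q)} : Set ↥(lg_E L (N' * q))))
          (ssm_gl_V2 O hπ N' q hq2 hqN') := by
  obtain ⟨le1, le2⟩ := s36cel_chart_le O hπ N' q hq2 hqN' hprime
  rw [ssm_tp_mem_P le1, ssm_tp_mem_P le2, s36cb_WB_coe,
    ssm_i1_nonunits_comap (V1 := ssm_gl_V1 O hπ N' q) (V2 := ssm_gl_V2 O hπ N' q hq2 hqN')
      (ssm_gl_W L N' q hq2 hqN') (fun z => ValuationSubring.mem_comap),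
    show ssm_gl_W L N' q hq2 hqN' (ssm_gl_W L N' q hq2 hqN' (b : ↥(lg_E L (N' * q)))) =
      (b : ↥(lg_E L (N' * q))) from ssm_al_WE_WE L N' q hq.out hq2 hqN' _]

theorem s36cb_W21
    (hprime : Prime (algebraMap ↥O (fc_chart ↥O ({lg_lamE N'} : Set ↥(lg_E L N'))) π))
    (b : fc_chart ↥O ({lg_lamE (N' * q)} : Set ↥(lg_E L (N' * q)))) :
    b ∈ ssm_tp_P (fc_chart ↥O ({lg_lamE (N' * q)} : Set ↥(lg_E L (N' * q))))
        (ssm_gl_V2 O hπ N' q hq2 hqN') ↔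
      s36cb_WB O hπ N' q hq2 hqN' hprime b ∈
        ssm_tp_P (fc_chart ↥O ({lg_lamE (N' * q)} : Set ↥(lg_E L (N' * q))))
          (ssm_gl_V1 O hπ N' q) := by
  rw [s36cb_W12 O hπ N' q hq2 hqN' hprime (s36cb_WB O hπ N' q hq2 hqN' hprime b),
    s36cb_WB_WB]

/-- **`WBInv` exchanges the two vertical primes of `B_{λ⁻¹}`.** -/
theorem s36cb_W12Inv
    (hprime : Prime (algebraMap ↥O (fc_chart ↥O ({lg_lamE N'} : Set ↥(lg_E L N'))) π))
    (b : fc_chart ↥O ({(lg_lamE (N' * q))⁻¹} : Set ↥(lg_E L (N' * q)))) :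
    b ∈ ssm_tp_P (fc_chart ↥O ({(lg_lamE (N' * q))⁻¹} : Set ↥(lg_E L (N' * q))))
        (ssm_gl_V1 O hπ N' q) ↔
      s36cb_WBInv O hπ N' q hq2 hqN' hprime b ∈
        ssm_tp_P (fc_chart ↥O ({(lg_lamE (N' * q))⁻¹} : Set ↥(lg_E L (N' * q))))
          (ssm_gl_V2 O hπ N' q hq2 hqN') := by
  obtain ⟨le1, le2⟩ := s36cb_chartInv_le O hπ N' q hq2 hqN' hprime
  rw [ssm_tp_mem_P le1, ssm_tp_mem_P le2, s36cb_WBInv_coe,
    ssm_i1_nonunits_comap (V1 := ssm_gl_V1 O hπ N' q) (V2 := ssm_gl_V2 O hπ N' q hq2 hqN')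
      (ssm_gl_W L N' q hq2 hqN') (fun z => ValuationSubring.mem_comap),
    show ssm_gl_W L N' q hq2 hqN' (ssm_gl_W L N' q hq2 hqN' (b : ↥(lg_E L (N' * q)))) =
      (b : ↥(lg_E L (N' * q))) from ssm_al_WE_WE L N' q hq.out hq2 hqN' _]

theorem s36cb_W21Inv
    (hprime : Prime (algebraMap ↥O (fc_chart ↥O ({lg_lamE N'} : Set ↥(lg_E L N'))) π))
    (b : fc_chart ↥O ({(lg_lamE (N' * q))⁻¹} : Set ↥(lg_E L (N' * q)))) :
    b ∈ ssm_tp_P (fc_chart ↥O ({(lg_lamE (N' * q))⁻¹} : Set ↥(lg_E L (N' * q))))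
        (ssm_gl_V2 O hπ N' q hq2 hqN') ↔
      s36cb_WBInv O hπ N' q hq2 hqN' hprime b ∈
        ssm_tp_P (fc_chart ↥O ({(lg_lamE (N' * q))⁻¹} : Set ↥(lg_E L (N' * q))))
          (ssm_gl_V1 O hπ N' q) := by
  rw [s36cb_W12Inv O hπ N' q hq2 hqN' hprime (s36cb_WBInv O hπ N' q hq2 hqN' hprime b),
    s36cb_WBInv_WBInv]

/-! ### the `β`-side chart maps -/

/-- **the `β`-side chart map** `B_λ(N') →+* B_λ(N' q)`, `b ↦ W (incl b) = b(X^q)`. -/
def s36cb_phiB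
    (hprime : Prime (algebraMap ↥O (fc_chart ↥O ({lg_lamE N'} : Set ↥(lg_E L N'))) π)) :
    fc_chart ↥O ({lg_lamE N'} : Set ↥(lg_E L N')) →+*
      fc_chart ↥O ({lg_lamE (N' * q)} : Set ↥(lg_E L (N' * q))) :=
  ((s36cb_WB O hπ N' q hq2 hqN' hprime :
      fc_chart ↥O ({lg_lamE (N' * q)} : Set ↥(lg_E L (N' * q))) ≃+*
        fc_chart ↥O ({lg_lamE (N' * q)} : Set ↥(lg_E L (N' * q)))) :
    fc_chart ↥O ({lg_lamE (N' * q)} : Set ↥(lg_E L (N' * q))) →+*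
      fc_chart ↥O ({lg_lamE (N' * q)} : Set ↥(lg_E L (N' * q)))).comp (s36cb_phiA O N' q)

/-- `hφB` of `s36ct_si_r2` / `s36ctr_leg_r2`. -/
theorem s36cb_phiB_coe
    (hprime : Prime (algebraMap ↥O (fc_chart ↥O ({lg_lamE N'} : Set ↥(lg_E L N'))) π))
    (b : fc_chart ↥O ({lg_lamE N'} : Set ↥(lg_E L N'))) :
    ((s36cb_phiB O hπ N' q hq2 hqN' hprime b :
      fc_chart ↥O ({lg_lamE (N' * q)} : Set ↥(lg_E L (N' * q)))) : ↥(lg_E L (N' * q))) =
      ssm_gl_W L N' q hq2 hqN'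
        (IntermediateField.inclusion (ssm_al_E_le L N' q) (b : ↥(lg_E L N'))) := rfl

/-- `hAB` of `s36ct_hyp_beta`. -/
theorem s36cb_phiB_apply
    (hprime : Prime (algebraMap ↥O (fc_chart ↥O ({lg_lamE N'} : Set ↥(lg_E L N'))) π))
    (b : fc_chart ↥O ({lg_lamE N'} : Set ↥(lg_E L N'))) :
    s36cb_phiB O hπ N' q hq2 hqN' hprime b =
      s36cb_WB O hπ N' q hq2 hqN' hprime (s36cb_phiA O N' q b) := rfl

/-- `φB b = β b = b(X^q)`. -/
theorem s36cb_phiB_beta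
    (hprime : Prime (algebraMap ↥O (fc_chart ↥O ({lg_lamE N'} : Set ↥(lg_E L N'))) π))
    (b : fc_chart ↥O ({lg_lamE N'} : Set ↥(lg_E L N'))) :
    ((s36cb_phiB O hπ N' q hq2 hqN' hprime b :
      fc_chart ↥O ({lg_lamE (N' * q)} : Set ↥(lg_E L (N' * q)))) : ↥(lg_E L (N' * q))) =
      s36mc_beta L N' q hq2 (b : ↥(lg_E L N')) := by
  rw [s36cb_phiB_coe]
  exact Subtype.ext (ssm_al_coe_WE_of_mem L N' q hq.out hq2 hqN' (b : ↥(lg_E L N')).2 _)

/-- **`hφ` of `s36oc_Hyp` for the `β`-structure** `s36ch_algBeta`. -/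
theorem s36cb_phiB_algBeta
    (hprime : Prime (algebraMap ↥O (fc_chart ↥O ({lg_lamE N'} : Set ↥(lg_E L N'))) π))
    (b : fc_chart ↥O ({lg_lamE N'} : Set ↥(lg_E L N'))) :
    ((s36cb_phiB O hπ N' q hq2 hqN' hprime b :
      fc_chart ↥O ({lg_lamE (N' * q)} : Set ↥(lg_E L (N' * q)))) : ↥(lg_E L (N' * q))) =
      @algebraMap ↥(lg_E L N') ↥(lg_E L (N' * q)) _ _ (s36ch_algBeta L N' q hq2)
        (b : ↥(lg_E L N')) :=
  s36cb_phiB_beta O hπ N' q hq2 hqN' hprime b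

/-- **`B_λ(N' q)` is integral over `φB (B_λ(N'))`** (`hint` of `s36oc_Hyp`). -/
theorem s36cb_phiB_isIntegral
    (hprime : Prime (algebraMap ↥O (fc_chart ↥O ({lg_lamE N'} : Set ↥(lg_E L N'))) π)) :
    (s36cb_phiB O hπ N' q hq2 hqN' hprime).IsIntegral :=
  RingHom.IsIntegral.trans _ _ (s36cb_phiA_isIntegral O N' q)
    (RingHom.isIntegral_of_surjective _ (s36cb_WB O hπ N' q hq2 hqN' hprime).surjective)

theorem s36cb_phiB_algebraMap
    (hprime : Prime (algebraMap ↥O (fc_chart ↥O ({lg_lamE N'} : Set ↥(lg_E L N'))) π)) (a : ↥O) :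
    s36cb_phiB O hπ N' q hq2 hqN' hprime
        (algebraMap ↥O (fc_chart ↥O ({lg_lamE N'} : Set ↥(lg_E L N'))) a) =
      algebraMap ↥O (fc_chart ↥O ({lg_lamE (N' * q)} : Set ↥(lg_E L (N' * q)))) a := by
  rw [s36cb_phiB_apply, s36cb_phiA_algebraMap, s36cb_WB_algebraMap]

/-- `hWπ` of `s36ct_hyp_beta`: `φB π = φA π`. -/
theorem s36cb_phiB_eq_phiA_algebraMap
    (hprime : Prime (algebraMap ↥O (fc_chart ↥O ({lg_lamE N'} : Set ↥(lg_E L N'))) π)) (a : ↥O) :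
    s36cb_phiB O hπ N' q hq2 hqN' hprime
        (algebraMap ↥O (fc_chart ↥O ({lg_lamE N'} : Set ↥(lg_E L N'))) a) =
      s36cb_phiA O N' q (algebraMap ↥O (fc_chart ↥O ({lg_lamE N'} : Set ↥(lg_E L N'))) a) := by
  rw [s36cb_phiB_algebraMap, s36cb_phiA_algebraMap]

/-- `φB λ₀ = W λ₁ = λ(X^q)` (the element `x1` of `s36cel_e0`). -/
theorem s36cb_phiB_lam
    (hprime : Prime (algebraMap ↥O (fc_chart ↥O ({lg_lamE N'} : Set ↥(lg_E L N'))) π)) :
    ((s36cb_phiB O hπ N' q hq2 hqN' hprime ⟨lg_lamE N', fc_x_mem_chart _⟩ :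
      fc_chart ↥O ({lg_lamE (N' * q)} : Set ↥(lg_E L (N' * q)))) : ↥(lg_E L (N' * q))) =
      ssm_gl_W L N' q hq2 hqN' (lg_lamE (N' * q)) := by
  rw [s36cb_phiB_apply, s36cb_phiA_lam]
  rfl

theorem s36cb_phiB_injective
    (hprime : Prime (algebraMap ↥O (fc_chart ↥O ({lg_lamE N'} : Set ↥(lg_E L N'))) π)) :
    Function.Injective (s36cb_phiB O hπ N' q hq2 hqN' hprime) := fun a b hab =>
  s36cb_phiA_injective O N' q ((s36cb_WB O hπ N' q hq2 hqN' hprime).injective hab)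

/-- **uniqueness**: any chart map with the coordinates of `φB` is `φB`. -/
theorem s36cb_phiB_unique
    (hprime : Prime (algebraMap ↥O (fc_chart ↥O ({lg_lamE N'} : Set ↥(lg_E L N'))) π))
    (φ : fc_chart ↥O ({lg_lamE N'} : Set ↥(lg_E L N')) →+*
      fc_chart ↥O ({lg_lamE (N' * q)} : Set ↥(lg_E L (N' * q))))
    (hφ : ∀ b : fc_chart ↥O ({lg_lamE N'} : Set ↥(lg_E L N')),
      ((φ b : fc_chart ↥O ({lg_lamE (N' * q)} : Set ↥(lg_E L (N' * q)))) : ↥(lg_E L (N' * q))) =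
        ssm_gl_W L N' q hq2 hqN'
          (IntermediateField.inclusion (ssm_al_E_le L N' q) (b : ↥(lg_E L N')))) :
    φ = s36cb_phiB O hπ N' q hq2 hqN' hprime :=
  RingHom.ext fun b => Subtype.ext (hφ b)

/-- uniqueness, `β`-form. -/
theorem s36cb_phiB_unique_beta
    (hprime : Prime (algebraMap ↥O (fc_chart ↥O ({lg_lamE N'} : Set ↥(lg_E L N'))) π))
    (φ : fc_chart ↥O ({lg_lamE N'} : Set ↥(lg_E L N')) →+*
      fc_chart ↥O ({lg_lamE (N' * q)} : Set ↥(lg_E L (N' * q))))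
    (hφ : ∀ b : fc_chart ↥O ({lg_lamE N'} : Set ↥(lg_E L N')),
      ((φ b : fc_chart ↥O ({lg_lamE (N' * q)} : Set ↥(lg_E L (N' * q)))) : ↥(lg_E L (N' * q))) =
        s36mc_beta L N' q hq2 (b : ↥(lg_E L N'))) :
    φ = s36cb_phiB O hπ N' q hq2 hqN' hprime :=
  RingHom.ext fun b => Subtype.ext ((hφ b).trans
    (s36cb_phiB_beta O hπ N' q hq2 hqN' hprime b).symm)

include hπ hqN' in
/-- **`hBcl` through `β`**: an element of `E₁` integral over `B_λ(N')` through `β` lies in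
`B_λ(N' q)`. -/
theorem s36cb_hBcl
    (hprime : Prime (algebraMap ↥O (fc_chart ↥O ({lg_lamE N'} : Set ↥(lg_E L N'))) π)) :
    letI := s36ch_algBeta L N' q hq2
    ∀ z : ↥(lg_E L (N' * q)), IsIntegral (fc_chart ↥O ({lg_lamE N'} : Set ↥(lg_E L N'))) z →
      z ∈ fc_chart ↥O ({lg_lamE (N' * q)} : Set ↥(lg_E L (N' * q))) := by
  letI := s36ch_algBeta L N' q hq2
  intro z hz
  refine s36cb_mem_chart_of_isIntegralElem _ (s36cb_phiB O hπ N' q hq2 hqN' hprime) z ?_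
  have e : (fc_chart ↥O ({lg_lamE (N' * q)} : Set ↥(lg_E L (N' * q)))).val.toRingHom.comp
      (s36cb_phiB O hπ N' q hq2 hqN' hprime) =
      algebraMap (fc_chart ↥O ({lg_lamE N'} : Set ↥(lg_E L N'))) ↥(lg_E L (N' * q)) := by
    refine RingHom.ext fun b => ?_
    exact s36cb_phiB_beta O hπ N' q hq2 hqN' hprime b
  rw [e]
  exact hz

/-- `hBcl` through `α` (S34's `ssm_nx_hBcl` on the named charts). -/
theorem s36cb_hBclA :
    letI := ssm_gi_algebra (ssm_al_E_le L N' q)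
    ∀ z : ↥(lg_E L (N' * q)), IsIntegral (fc_chart ↥O ({lg_lamE N'} : Set ↥(lg_E L N'))) z →
      z ∈ fc_chart ↥O ({lg_lamE (N' * q)} : Set ↥(lg_E L (N' * q))) := by
  letI := ssm_gi_algebra (ssm_al_E_le L N' q)
  intro z hz
  refine s36cb_mem_chart_of_isIntegralElem _ (s36cb_phiA O N' q) z ?_
  have e : (fc_chart ↥O ({lg_lamE (N' * q)} : Set ↥(lg_E L (N' * q)))).val.toRingHom.comp
      (s36cb_phiA O N' q) =
      algebraMap (fc_chart ↥O ({lg_lamE N'} : Set ↥(lg_E L N'))) ↥(lg_E L (N' * q)) := by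
    refine RingHom.ext fun b => ?_
    rfl
  rw [e]
  exact hz

/-! ### the `β`-side chart map at infinity -/

/-- **the `β`-side chart map at infinity** `B_{λ⁻¹}(N') →+* B_{λ⁻¹}(N' q)`. -/
def s36cb_phiBInv
    (hprime : Prime (algebraMap ↥O (fc_chart ↥O ({lg_lamE N'} : Set ↥(lg_E L N'))) π)) :
    fc_chart ↥O ({(lg_lamE N')⁻¹} : Set ↥(lg_E L N')) →+*
      fc_chart ↥O ({(lg_lamE (N' * q))⁻¹} : Set ↥(lg_E L (N' * q))) :=
  ((s36cb_WBInv O hπ N' q hq2 hqN' hprime :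
      fc_chart ↥O ({(lg_lamE (N' * q))⁻¹} : Set ↥(lg_E L (N' * q))) ≃+*
        fc_chart ↥O ({(lg_lamE (N' * q))⁻¹} : Set ↥(lg_E L (N' * q)))) :
    fc_chart ↥O ({(lg_lamE (N' * q))⁻¹} : Set ↥(lg_E L (N' * q))) →+*
      fc_chart ↥O ({(lg_lamE (N' * q))⁻¹} : Set ↥(lg_E L (N' * q)))).comp
    (s36cb_phiAInv O N' q)

theorem s36cb_phiBInv_coe
    (hprime : Prime (algebraMap ↥O (fc_chart ↥O ({lg_lamE N'} : Set ↥(lg_E L N'))) π))
    (b : fc_chart ↥O ({(lg_lamE N')⁻¹} : Set ↥(lg_E L N'))) :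
    ((s36cb_phiBInv O hπ N' q hq2 hqN' hprime b :
      fc_chart ↥O ({(lg_lamE (N' * q))⁻¹} : Set ↥(lg_E L (N' * q)))) : ↥(lg_E L (N' * q))) =
      ssm_gl_W L N' q hq2 hqN'
        (IntermediateField.inclusion (ssm_al_E_le L N' q) (b : ↥(lg_E L N'))) := rfl

theorem s36cb_phiBInv_apply
    (hprime : Prime (algebraMap ↥O (fc_chart ↥O ({lg_lamE N'} : Set ↥(lg_E L N'))) π))
    (b : fc_chart ↥O ({(lg_lamE N')⁻¹} : Set ↥(lg_E L N'))) :
    s36cb_phiBInv O hπ N' q hq2 hqN' hprime b =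
      s36cb_WBInv O hπ N' q hq2 hqN' hprime (s36cb_phiAInv O N' q b) := rfl

theorem s36cb_phiBInv_beta
    (hprime : Prime (algebraMap ↥O (fc_chart ↥O ({lg_lamE N'} : Set ↥(lg_E L N'))) π))
    (b : fc_chart ↥O ({(lg_lamE N')⁻¹} : Set ↥(lg_E L N'))) :
    ((s36cb_phiBInv O hπ N' q hq2 hqN' hprime b :
      fc_chart ↥O ({(lg_lamE (N' * q))⁻¹} : Set ↥(lg_E L (N' * q)))) : ↥(lg_E L (N' * q))) =
      s36mc_beta L N' q hq2 (b : ↥(lg_E L N')) := by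
  rw [s36cb_phiBInv_coe]
  exact Subtype.ext (ssm_al_coe_WE_of_mem L N' q hq.out hq2 hqN' (b : ↥(lg_E L N')).2 _)

theorem s36cb_phiBInv_algBeta
    (hprime : Prime (algebraMap ↥O (fc_chart ↥O ({lg_lamE N'} : Set ↥(lg_E L N'))) π))
    (b : fc_chart ↥O ({(lg_lamE N')⁻¹} : Set ↥(lg_E L N'))) :
    ((s36cb_phiBInv O hπ N' q hq2 hqN' hprime b :
      fc_chart ↥O ({(lg_lamE (N' * q))⁻¹} : Set ↥(lg_E L (N' * q)))) : ↥(lg_E L (N' * q))) =
      @algebraMap ↥(lg_E L N') ↥(lg_E L (N' * q)) _ _ (s36ch_algBeta L N' q hq2)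
        (b : ↥(lg_E L N')) :=
  s36cb_phiBInv_beta O hπ N' q hq2 hqN' hprime b

theorem s36cb_phiBInv_isIntegral
    (hprime : Prime (algebraMap ↥O (fc_chart ↥O ({lg_lamE N'} : Set ↥(lg_E L N'))) π)) :
    (s36cb_phiBInv O hπ N' q hq2 hqN' hprime).IsIntegral :=
  RingHom.IsIntegral.trans _ _ (s36cb_phiAInv_isIntegral O N' q)
    (RingHom.isIntegral_of_surjective _ (s36cb_WBInv O hπ N' q hq2 hqN' hprime).surjective)

theorem s36cb_phiBInv_algebraMap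
    (hprime : Prime (algebraMap ↥O (fc_chart ↥O ({lg_lamE N'} : Set ↥(lg_E L N'))) π)) (a : ↥O) :
    s36cb_phiBInv O hπ N' q hq2 hqN' hprime
        (algebraMap ↥O (fc_chart ↥O ({(lg_lamE N')⁻¹} : Set ↥(lg_E L N'))) a) =
      algebraMap ↥O (fc_chart ↥O ({(lg_lamE (N' * q))⁻¹} : Set ↥(lg_E L (N' * q)))) a := by
  rw [s36cb_phiBInv_apply, s36cb_phiAInv_algebraMap, s36cb_WBInv_algebraMap]

theorem s36cb_phiBInv_eq_phiAInv_algebraMap
    (hprime : Prime (algebraMap ↥O (fc_chart ↥O ({lg_lamE N'} : Set ↥(lg_E L N'))) π)) (a : ↥O) :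
    s36cb_phiBInv O hπ N' q hq2 hqN' hprime
        (algebraMap ↥O (fc_chart ↥O ({(lg_lamE N')⁻¹} : Set ↥(lg_E L N'))) a) =
      s36cb_phiAInv O N' q
        (algebraMap ↥O (fc_chart ↥O ({(lg_lamE N')⁻¹} : Set ↥(lg_E L N'))) a) := by
  rw [s36cb_phiBInv_algebraMap, s36cb_phiAInv_algebraMap]

/-- `φBInv λ₀⁻¹ = (W λ₁)⁻¹` (the element `x1` of `s36cel_eInf`). -/
theorem s36cb_phiBInv_lam
    (hprime : Prime (algebraMap ↥O (fc_chart ↥O ({lg_lamE N'} : Set ↥(lg_E L N'))) π)) :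
    ((s36cb_phiBInv O hπ N' q hq2 hqN' hprime ⟨(lg_lamE N')⁻¹, fc_x_mem_chart _⟩ :
      fc_chart ↥O ({(lg_lamE (N' * q))⁻¹} : Set ↥(lg_E L (N' * q)))) : ↥(lg_E L (N' * q))) =
      (ssm_gl_W L N' q hq2 hqN' (lg_lamE (N' * q)))⁻¹ := by
  rw [s36cb_phiBInv_apply, s36cb_phiAInv_lam, s36cb_WBInv_coe]
  exact map_inv₀ _ _

theorem s36cb_phiBInv_injective
    (hprime : Prime (algebraMap ↥O (fc_chart ↥O ({lg_lamE N'} : Set ↥(lg_E L N'))) π)) :
    Function.Injective (s36cb_phiBInv O hπ N' q hq2 hqN' hprime) := fun a b hab =>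
  s36cb_phiAInv_injective O N' q ((s36cb_WBInv O hπ N' q hq2 hqN' hprime).injective hab)

theorem s36cb_phiBInv_unique
    (hprime : Prime (algebraMap ↥O (fc_chart ↥O ({lg_lamE N'} : Set ↥(lg_E L N'))) π))
    (φ : fc_chart ↥O ({(lg_lamE N')⁻¹} : Set ↥(lg_E L N')) →+*
      fc_chart ↥O ({(lg_lamE (N' * q))⁻¹} : Set ↥(lg_E L (N' * q))))
    (hφ : ∀ b : fc_chart ↥O ({(lg_lamE N')⁻¹} : Set ↥(lg_E L N')),
      ((φ b : fc_chart ↥O ({(lg_lamE (N' * q))⁻¹} : Set ↥(lg_E L (N' * q)))) :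
        ↥(lg_E L (N' * q))) =
        ssm_gl_W L N' q hq2 hqN'
          (IntermediateField.inclusion (ssm_al_E_le L N' q) (b : ↥(lg_E L N')))) :
    φ = s36cb_phiBInv O hπ N' q hq2 hqN' hprime :=
  RingHom.ext fun b => Subtype.ext (hφ b)

theorem s36cb_phiBInv_unique_beta
    (hprime : Prime (algebraMap ↥O (fc_chart ↥O ({lg_lamE N'} : Set ↥(lg_E L N'))) π))
    (φ : fc_chart ↥O ({(lg_lamE N')⁻¹} : Set ↥(lg_E L N')) →+*
      fc_chart ↥O ({(lg_lamE (N' * q))⁻¹} : Set ↥(lg_E L (N' * q))))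
    (hφ : ∀ b : fc_chart ↥O ({(lg_lamE N')⁻¹} : Set ↥(lg_E L N')),
      ((φ b : fc_chart ↥O ({(lg_lamE (N' * q))⁻¹} : Set ↥(lg_E L (N' * q)))) :
        ↥(lg_E L (N' * q))) = s36mc_beta L N' q hq2 (b : ↥(lg_E L N'))) :
    φ = s36cb_phiBInv O hπ N' q hq2 hqN' hprime :=
  RingHom.ext fun b => Subtype.ext ((hφ b).trans
    (s36cb_phiBInv_beta O hπ N' q hq2 hqN' hprime b).symm)

include hπ hqN' in
/-- **`hBcl` through `β` at infinity.** -/
theorem s36cb_hBclInv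
    (hprime : Prime (algebraMap ↥O (fc_chart ↥O ({lg_lamE N'} : Set ↥(lg_E L N'))) π)) :
    letI := s36ch_algBeta L N' q hq2
    ∀ z : ↥(lg_E L (N' * q)),
      IsIntegral (fc_chart ↥O ({(lg_lamE N')⁻¹} : Set ↥(lg_E L N'))) z →
      z ∈ fc_chart ↥O ({(lg_lamE (N' * q))⁻¹} : Set ↥(lg_E L (N' * q))) := by
  letI := s36ch_algBeta L N' q hq2
  intro z hz
  refine s36cb_mem_chart_of_isIntegralElem _ (s36cb_phiBInv O hπ N' q hq2 hqN' hprime) z ?_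
  have e : (fc_chart ↥O ({(lg_lamE (N' * q))⁻¹} : Set ↥(lg_E L (N' * q)))).val.toRingHom.comp
      (s36cb_phiBInv O hπ N' q hq2 hqN' hprime) =
      algebraMap (fc_chart ↥O ({(lg_lamE N')⁻¹} : Set ↥(lg_E L N'))) ↥(lg_E L (N' * q)) := by
    refine RingHom.ext fun b => ?_
    exact s36cb_phiBInv_beta O hπ N' q hq2 hqN' hprime b
  rw [e]
  exact hz

/-- `hBcl` through `α` at infinity. -/
theorem s36cb_hBclAInv :
    letI := ssm_gi_algebra (ssm_al_E_le L N' q)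
    ∀ z : ↥(lg_E L (N' * q)),
      IsIntegral (fc_chart ↥O ({(lg_lamE N')⁻¹} : Set ↥(lg_E L N'))) z →
      z ∈ fc_chart ↥O ({(lg_lamE (N' * q))⁻¹} : Set ↥(lg_E L (N' * q))) := by
  letI := ssm_gi_algebra (ssm_al_E_le L N' q)
  intro z hz
  refine s36cb_mem_chart_of_isIntegralElem _ (s36cb_phiAInv O N' q) z ?_
  have e : (fc_chart ↥O ({(lg_lamE (N' * q))⁻¹} : Set ↥(lg_E L (N' * q)))).val.toRingHom.comp
      (s36cb_phiAInv O N' q) =
      algebraMap (fc_chart ↥O ({(lg_lamE N')⁻¹} : Set ↥(lg_E L N'))) ↥(lg_E L (N' * q)) := by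
    refine RingHom.ext fun b => ?_
    rfl
  rw [e]
  exact hz

end Leg

end Fermat.Agent.S36
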