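/-
Project S36, model cell [M2], leaf **[C-CUSP-EIS]** = [L3c], input (7) of helper5's numbered list
(helper8).  Prefix `s36cpw_`.

THE S34 CLAUSES `hadd` / `hpow` / `hc1` / `hc2` THROUGH `β = W ∘ α`, as closed facts on the charts of a
tower `E' ≤ E ≤ Quot(O((X)))` and on the Legendre tower (`B' = fc_chart O {λ'}`,
`B1 = fc_chart O {λ₁}`, `λ' = lg_lamE N'`, `λ₁ = lg_lamE (N' q)`; and the twins on the charts
`{λ'⁻¹}`, `{λ₁⁻¹}`), for ANY ring hom `φ1 : B' →+* B1` with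
`((φ1 b' : B1) : E1) = W (inclusion (b' : E0))` (helper27's `s36cb_phiB_coe` spelling), resp.
`= algebraMap E0 E1 (b' : E0)` under `letI := s36ch_algBeta L N' q hq2` (the spelling `hφ` of
`s36cf_oneBranch_fin3`).

* `s36cpw_gen`      : generic tower, one chart;
* `s36cpw_leg`, `s36cpw_legInv`   : Legendre tower, chart `{λ}` / `{λ⁻¹}`, [LEG-CTX], general `π`;
  inputs = `hprime`, `hic` of level `N'` only;
* `s36cpw_leg_beta`, `s36cpw_legInv_beta` : the same in the `β`-algebra spelling;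
* `s36cpw_nf`, `s36cpw_nfInv` : [NF2-CTX] closed terms (number field base).

With `VF := ssm_gl_V1 O hπ N' q`, `VV := ssm_gl_V2 O hπ N' q hq2 hqN'`, each gives
`(∀ b, ∃ b', b ^ q - φ1 b' ∈ P_VF) ∧ (∀ b, ∃ b', b - φ1 b' ∈ P_VV) ∧ P_VF.comap φ1 = (π) ∧
P_VV.comap φ1 = (π)`.
-/
import Mathlib
import Fermat.Agent.S36.CuspTrans.T2Beta
import Fermat.Agent.S36.CuspTrans.T2Hyp
import Fermat.Agent.S36.CReg.HorizInstLeg
import Fermat.Agent.SS.Model.FinalLeg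
import Fermat.Agent.SS.Model.PointsInf
import Fermat.Agent.SS.Model.LegLevel
import Fermat.Agent.SS.Model.FinalLegNF

set_option autoImplicit false
set_option linter.unusedSectionVars false
set_option linter.unusedVariables false
set_option linter.style.haveILetI false

noncomputable section

open ModularCurve IntermediateField IsLocalRing Polynomial
open Fermat.Agent.JT3 Fermat.Agent.SS

namespace Fermat.Agent.S36

section Generic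

variable {L : Type*} [Field L] [CharZero L] (O : ValuationSubring L)
  [IsDiscreteValuationRing O] {π : O} (hπ : Irreducible π)
variable (q : ℕ) [NeZero q] [hq : Fact q.Prime] [CharP (ResidueField O) q]
variable (E' E : IntermediateField L (LaurentSeries L)) (hle : E' ≤ E)
  (hE : E ≤ gq_quotField O L)

set_option synthInstance.maxHeartbeats 200000 in
set_option maxHeartbeats 800000 in
/-- **the S34 clauses through `β = W ∘ α` on one chart of a tower.** -/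
theorem s36cpw_gen (W : ↥E ≃+* ↥E) (hWW : ∀ x, W (W x) = x)
    (hW : ∀ z : ↥E', ((W (IntermediateField.inclusion hle z) : ↥E) : LaurentSeries L) =
      qExpand L q (z : LaurentSeries L))
    (hrank : IntermediateField.relfinrank E' E = q + 1)
    (ys : LaurentSeries O) (hyF : ssm_ga_FrobFixed q ys) (n : ℤ) (hn : ¬ (q : ℤ) ∣ n)
    (hyn : residue O (ys.coeff n) ≠ 0) (lam' : ↥E')
    (hlam : (lam' : LaurentSeries L) = coeffMap (algebraMap O L) ys)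
    (y : ↥E') (yE : ↥E) (hyE : IntermediateField.inclusion hle y = yE)
    (hy : Transcendental L y) [FiniteDimensional L⟮y⟯ ↥E'] (hyEt : Transcendental L yE)
    (hover : ssm_tp_Over (algebraMap ↥O (Algebra.adjoin ↥O ({y} : Set ↥E')) π)
      (gq_valSubOf π hπ.ne_zero hπ.maximalIdeal_eq E' (hle.trans hE)))
    (H : ssm_tp_Hyp (algebraMap ↥O (Algebra.adjoin ↥O ({yE} : Set ↥E)) π)
      (gq_valSubOf π hπ.ne_zero hπ.maximalIdeal_eq E hE)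
      ((gq_valSubOf π hπ.ne_zero hπ.maximalIdeal_eq E hE).comap (W : ↥E →+* ↥E)))
    (hprime : Prime (algebraMap ↥O (fc_chart ↥O ({y} : Set ↥E')) π))
    (hic : IsIntegrallyClosed (fc_chart ↥O ({y} : Set ↥E') ⧸
      (Ideal.span {algebraMap ↥O (fc_chart ↥O ({y} : Set ↥E')) π} :
        Ideal (fc_chart ↥O ({y} : Set ↥E')))))
    (hWB : ∀ b ∈ fc_chart ↥O ({yE} : Set ↥E), W b ∈ fc_chart ↥O ({yE} : Set ↥E))
    (φB : fc_chart ↥O ({y} : Set ↥E') →+* fc_chart ↥O ({yE} : Set ↥E))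
    (hφB : ∀ b : fc_chart ↥O ({y} : Set ↥E'), ((φB b : fc_chart ↥O ({yE} : Set ↥E)) : ↥E) =
      W (IntermediateField.inclusion hle (b : ↥E'))) :
    (∀ b : fc_chart ↥O ({yE} : Set ↥E), ∃ b' : fc_chart ↥O ({y} : Set ↥E'),
      b ^ q - φB b' ∈ ssm_tp_P (fc_chart ↥O ({yE} : Set ↥E))
        (gq_valSubOf π hπ.ne_zero hπ.maximalIdeal_eq E hE)) ∧
    (∀ b : fc_chart ↥O ({yE} : Set ↥E), ∃ b' : fc_chart ↥O ({y} : Set ↥E'),
      b - φB b' ∈ ssm_tp_P (fc_chart ↥O ({yE} : Set ↥E))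
        ((gq_valSubOf π hπ.ne_zero hπ.maximalIdeal_eq E hE).comap (W : ↥E →+* ↥E))) ∧
    (ssm_tp_P (fc_chart ↥O ({yE} : Set ↥E))
      (gq_valSubOf π hπ.ne_zero hπ.maximalIdeal_eq E hE)).comap φB =
      Ideal.span {algebraMap ↥O (fc_chart ↥O ({y} : Set ↥E')) π} ∧
    (ssm_tp_P (fc_chart ↥O ({yE} : Set ↥E))
      ((gq_valSubOf π hπ.ne_zero hπ.maximalIdeal_eq E hE).comap (W : ↥E →+* ↥E))).comap φB =
      Ideal.span {algebraMap ↥O (fc_chart ↥O ({y} : Set ↥E')) π} := by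
  subst hyE
  letI := ssm_gi_algebra hle
  haveI := ssm_go_isScalarTower O E
  haveI := ssm_go_isScalarTower O E'
  haveI := ssm_gt_isScalarTower O hle
  obtain ⟨hintA, hBclβ, hPA, hc1, hc2, hadd, hpow, hW12, hP1p, hP2p⟩ :=
    s36ct_si_facts O hπ q E' E hle hE W hWW hW hrank ys hyF n hn hyn lam' hlam y
      (IntermediateField.inclusion hle y) rfl hy hyEt hover H hprime hic hWB
      (ssm_cpi_phi ↥O ↥E y) (fun b => rfl)
  have hAB : ∀ b', φB b' = ssm_inf_equiv W hWW _ hWB (ssm_cpi_phi ↥O ↥E y b') := by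
    intro b'
    apply Subtype.ext
    rw [hφB, ssm_inf_equiv_coe]
    rfl
  have hWW' : ∀ b, ssm_inf_equiv W hWW _ hWB (ssm_inf_equiv W hWW _ hWB b) = b :=
    fun b => Subtype.ext (hWW b)
  refine ⟨s36ct_pow_beta (ssm_cpi_phi ↥O ↥E y) φB (ssm_inf_equiv W hWW _ hWB) hWW' hAB _ _ hW12
    hpow, s36ct_add_beta (ssm_cpi_phi ↥O ↥E y) φB (ssm_inf_equiv W hWW _ hWB) hWW' hAB _ _ hW12
    hadd, ?_, ?_⟩
  · rw [s36ct_comap_beta1 (ssm_cpi_phi ↥O ↥E y) φB (ssm_inf_equiv W hWW _ hWB) hWW' hAB _ _ hW12]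
    exact hc2
  · rw [s36ct_comap_beta2 (ssm_cpi_phi ↥O ↥E y) φB (ssm_inf_equiv W hWW _ hWB) hWW' hAB _ _ hW12]
    exact hc1

end Generic

section Leg

variable {L : Type*} [Field L] [CharZero L] [Algebra L (AlgebraicClosure ℚ)]
  (O : ValuationSubring L) [IsDiscreteValuationRing O] {π : O} (hπ : Irreducible π)
variable (N' q : ℕ) [NeZero N'] [NeZero q] [hq : Fact q.Prime] [CharP (ResidueField O) q]
  (hq2 : ¬ 2 ∣ q) (hqN' : ¬ q ∣ N')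

set_option synthInstance.maxHeartbeats 200000 in
set_option maxHeartbeats 800000 in
/-- **[L3c] (7), chart `{λ}` of the Legendre tower**: `hpow`, `hadd`, `hc1`, `hc2` through `β`, for any
chart map `φ1` with `φ1 b' = W (b')` in `E1`. -/
theorem s36cpw_leg
    (hprime : Prime (algebraMap ↥O (fc_chart ↥O ({lg_lamE N'} : Set ↥(lg_E L N'))) π))
    (hic : IsIntegrallyClosed (fc_chart ↥O ({lg_lamE N'} : Set ↥(lg_E L N')) ⧸
      (Ideal.span {algebraMap ↥O (fc_chart ↥O ({lg_lamE N'} : Set ↥(lg_E L N'))) π} :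
        Ideal (fc_chart ↥O ({lg_lamE N'} : Set ↥(lg_E L N'))))))
    (φ1 : fc_chart ↥O ({lg_lamE N'} : Set ↥(lg_E L N')) →+*
      fc_chart ↥O ({lg_lamE (N' * q)} : Set ↥(lg_E L (N' * q))))
    (hφ : ∀ b' : fc_chart ↥O ({lg_lamE N'} : Set ↥(lg_E L N')),
      ((φ1 b' : fc_chart ↥O ({lg_lamE (N' * q)} : Set ↥(lg_E L (N' * q)))) : ↥(lg_E L (N' * q))) =
        ssm_gl_W L N' q hq2 hqN'
          (IntermediateField.inclusion (ssm_al_E_le L N' q) (b' : ↥(lg_E L N')))) :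
    (∀ b : fc_chart ↥O ({lg_lamE (N' * q)} : Set ↥(lg_E L (N' * q))),
      ∃ b' : fc_chart ↥O ({lg_lamE N'} : Set ↥(lg_E L N')),
        b ^ q - φ1 b' ∈ ssm_tp_P (fc_chart ↥O ({lg_lamE (N' * q)} : Set ↥(lg_E L (N' * q))))
          (ssm_gl_V1 O hπ N' q)) ∧
    (∀ b : fc_chart ↥O ({lg_lamE (N' * q)} : Set ↥(lg_E L (N' * q))),
      ∃ b' : fc_chart ↥O ({lg_lamE N'} : Set ↥(lg_E L N')),
        b - φ1 b' ∈ ssm_tp_P (fc_chart ↥O ({lg_lamE (N' * q)} : Set ↥(lg_E L (N' * q))))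
          (ssm_gl_V2 O hπ N' q hq2 hqN')) ∧
    (ssm_tp_P (fc_chart ↥O ({lg_lamE (N' * q)} : Set ↥(lg_E L (N' * q))))
      (ssm_gl_V1 O hπ N' q)).comap φ1 =
      Ideal.span {algebraMap ↥O (fc_chart ↥O ({lg_lamE N'} : Set ↥(lg_E L N'))) π} ∧
    (ssm_tp_P (fc_chart ↥O ({lg_lamE (N' * q)} : Set ↥(lg_E L (N' * q))))
      (ssm_gl_V2 O hπ N' q hq2 hqN')).comap φ1 =
      Ideal.span {algebraMap ↥O (fc_chart ↥O ({lg_lamE N'} : Set ↥(lg_E L N'))) π} := by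
  haveI := lgf_finite L N'
  haveI := ssm_go_isScalarTower O (lg_E L (N' * q))
  haveI := ssm_go_isScalarTower O (lg_E L N')
  have H := ssm_gl_hyp O hπ N' q hq2 hqN' hprime
  have F := ssm_fl_facts O hπ N' q hq2 hqN' hprime
  have hWO : ∀ a : ↥O, ssm_gl_W L N' q hq2 hqN' (algebraMap ↥O ↥(lg_E L (N' * q)) a) =
      algebraMap ↥O ↥(lg_E L (N' * q)) a :=
    fun a => (ssm_al_WE L N' q hq.out hq2 hqN').commutes (a : L)
  obtain ⟨hWB1, -, -⟩ := ssm_i1_W_charts (ssm_gl_W L N' q hq2 hqN') hWO rfl F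
  have hover := ssm_go_over O (lg_E L N') (hm_lam O) (lg_lamE N') (hm_coeffMap_lam _).symm hπ
    ((ssm_al_E_le L N' q).trans (ssm_ga_E_le_quotField O (N' * q))) one_ne_zero
    (ssm_ga_lam_coeff_one O (ssm_gl_two_ne_zero O q hq2))
  exact s36cpw_gen O hπ q (lg_E L N') (lg_E L (N' * q)) (ssm_al_E_le L N' q)
    (ssm_ga_E_le_quotField O (N' * q)) (ssm_gl_W L N' q hq2 hqN')
    (ssm_al_WE_WE L N' q hq.out hq2 hqN')
    (fun z => ssm_al_coe_WE_of_mem L N' q hq.out hq2 hqN' z.2 _)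
    (ssm_al_relfinrank_E L N' q hq.out hq2 hqN') (hm_lam O) (ssm_ga_lam_frobFixed O q) 1
    (ssm_gl_not_dvd_one q) (ssm_ga_lam_coeff_one O (ssm_gl_two_ne_zero O q hq2)) (lg_lamE N')
    (hm_coeffMap_lam _).symm (lg_lamE N') (lg_lamE (N' * q)) rfl
    (lgf_lam_transcendental L N' two_ne_zero) (lgf_lam_transcendental L (N' * q) two_ne_zero)
    hover H hprime hic hWB1 φ1 hφ

set_option synthInstance.maxHeartbeats 200000 in
set_option maxHeartbeats 800000 in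
/-- **[L3c] (7), chart `{λ⁻¹}` of the Legendre tower.** -/
theorem s36cpw_legInv
    (hprime : Prime (algebraMap ↥O (fc_chart ↥O ({lg_lamE N'} : Set ↥(lg_E L N'))) π))
    (hprime2 : Prime (algebraMap ↥O (fc_chart ↥O ({(lg_lamE N')⁻¹} : Set ↥(lg_E L N'))) π))
    (hic2 : IsIntegrallyClosed (fc_chart ↥O ({(lg_lamE N')⁻¹} : Set ↥(lg_E L N')) ⧸
      (Ideal.span {algebraMap ↥O (fc_chart ↥O ({(lg_lamE N')⁻¹} : Set ↥(lg_E L N'))) π} :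
        Ideal (fc_chart ↥O ({(lg_lamE N')⁻¹} : Set ↥(lg_E L N'))))))
    (φ1 : fc_chart ↥O ({(lg_lamE N')⁻¹} : Set ↥(lg_E L N')) →+*
      fc_chart ↥O ({(lg_lamE (N' * q))⁻¹} : Set ↥(lg_E L (N' * q))))
    (hφ : ∀ b' : fc_chart ↥O ({(lg_lamE N')⁻¹} : Set ↥(lg_E L N')),
      ((φ1 b' : fc_chart ↥O ({(lg_lamE (N' * q))⁻¹} : Set ↥(lg_E L (N' * q)))) :
          ↥(lg_E L (N' * q))) =
        ssm_gl_W L N' q hq2 hqN'
          (IntermediateField.inclusion (ssm_al_E_le L N' q) (b' : ↥(lg_E L N')))) :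
    (∀ b : fc_chart ↥O ({(lg_lamE (N' * q))⁻¹} : Set ↥(lg_E L (N' * q))),
      ∃ b' : fc_chart ↥O ({(lg_lamE N')⁻¹} : Set ↥(lg_E L N')),
        b ^ q - φ1 b' ∈ ssm_tp_P (fc_chart ↥O ({(lg_lamE (N' * q))⁻¹} : Set ↥(lg_E L (N' * q))))
          (ssm_gl_V1 O hπ N' q)) ∧
    (∀ b : fc_chart ↥O ({(lg_lamE (N' * q))⁻¹} : Set ↥(lg_E L (N' * q))),
      ∃ b' : fc_chart ↥O ({(lg_lamE N')⁻¹} : Set ↥(lg_E L N')),
        b - φ1 b' ∈ ssm_tp_P (fc_chart ↥O ({(lg_lamE (N' * q))⁻¹} : Set ↥(lg_E L (N' * q))))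
          (ssm_gl_V2 O hπ N' q hq2 hqN')) ∧
    (ssm_tp_P (fc_chart ↥O ({(lg_lamE (N' * q))⁻¹} : Set ↥(lg_E L (N' * q))))
      (ssm_gl_V1 O hπ N' q)).comap φ1 =
      Ideal.span {algebraMap ↥O (fc_chart ↥O ({(lg_lamE N')⁻¹} : Set ↥(lg_E L N'))) π} ∧
    (ssm_tp_P (fc_chart ↥O ({(lg_lamE (N' * q))⁻¹} : Set ↥(lg_E L (N' * q))))
      (ssm_gl_V2 O hπ N' q hq2 hqN')).comap φ1 =
      Ideal.span {algebraMap ↥O (fc_chart ↥O ({(lg_lamE N')⁻¹} : Set ↥(lg_E L N'))) π} := by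
  haveI := lgf_finite L N'
  haveI : FiniteDimensional L⟮(lg_lamE (N' * q) : lg_E L (N' * q))⟯ ↥(lg_E L (N' * q)) :=
    lgf_finite L (N' * q)
  haveI := ssm_go_isScalarTower O (lg_E L (N' * q))
  haveI := ssm_go_isScalarTower O (lg_E L N')
  have H := ssm_gl_hyp O hπ N' q hq2 hqN' hprime
  have F := ssm_fl_facts O hπ N' q hq2 hqN' hprime
  have hWO : ∀ a : ↥O, ssm_gl_W L N' q hq2 hqN' (algebraMap ↥O ↥(lg_E L (N' * q)) a) =
      algebraMap ↥O ↥(lg_E L (N' * q)) a :=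
    fun a => (ssm_al_WE L N' q hq.out hq2 hqN').commutes (a : L)
  obtain ⟨-, hWB2, -⟩ := ssm_i1_W_charts (ssm_gl_W L N' q hq2 hqN') hWO rfl F
  have hx : Transcendental L (lg_lamE (L := L) N') := lgf_lam_transcendental L N' two_ne_zero
  have hxE : Transcendental L (lg_lamE (L := L) (N' * q)) :=
    lgf_lam_transcendental L (N' * q) two_ne_zero
  have hxi : Transcendental L (lg_lamE (L := L) N')⁻¹ := fun h => hx (IsAlgebraic.inv_iff.mp h)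
  have hxEi : Transcendental L (lg_lamE (L := L) (N' * q))⁻¹ :=
    fun h => hxE (IsAlgebraic.inv_iff.mp h)
  have hover := ssm_go_over O (lg_E L N') (hm_lam O) (lg_lamE N') (hm_coeffMap_lam _).symm hπ
    ((ssm_al_E_le L N' q).trans (ssm_ga_E_le_quotField O (N' * q))) one_ne_zero
    (ssm_ga_lam_coeff_one O (ssm_gl_two_ne_zero O q hq2))
  have hover' := ssm_tp_over_inv (fc_ff_transcendental (L := L) hx)
    (fc_ff_transcendental (L := L) hxi) hπ.not_isUnit hover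
  have H' := ssm_tp_ff_hyp_inv (L := L) hπ hxE H
  haveI : FiniteDimensional L⟮(lg_lamE (L := L) N')⁻¹⟯ ↥(lg_E L N') := by
    rw [rt_adjoin_inv]; infer_instance
  exact s36cpw_gen O hπ q (lg_E L N') (lg_E L (N' * q)) (ssm_al_E_le L N' q)
    (ssm_ga_E_le_quotField O (N' * q)) (ssm_gl_W L N' q hq2 hqN')
    (ssm_al_WE_WE L N' q hq.out hq2 hqN')
    (fun z => ssm_al_coe_WE_of_mem L N' q hq.out hq2 hqN' z.2 _)
    (ssm_al_relfinrank_E L N' q hq.out hq2 hqN') (hm_lam O) (ssm_ga_lam_frobFixed O q) 1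
    (ssm_gl_not_dvd_one q) (ssm_ga_lam_coeff_one O (ssm_gl_two_ne_zero O q hq2)) (lg_lamE N')
    (hm_coeffMap_lam _).symm (lg_lamE N')⁻¹ (lg_lamE (N' * q))⁻¹
    (map_inv₀ (IntermediateField.inclusion (ssm_al_E_le L N' q)) (lg_lamE N'))
    hxi hxEi hover' H' hprime2 hic2 hWB2 φ1 hφ

/-- `β = W ∘ α` on the Legendre tower. -/
theorem s36cpw_beta_eq_W (x : ↥(lg_E L N')) :
    s36mc_beta L N' q hq2 x =
      ssm_gl_W L N' q hq2 hqN' (IntermediateField.inclusion (ssm_al_E_le L N' q) x) := by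
  apply Subtype.ext
  rw [s36mc_coe_beta]
  exact (ssm_al_coe_WE_of_mem L N' q hq.out hq2 hqN' x.2 _).symm

/-- `algebraMap = W ∘ α` for the `β`-structure `s36ch_algBeta`. -/
theorem s36cpw_algBeta_eq_W (x : ↥(lg_E L N')) :
    @algebraMap ↥(lg_E L N') ↥(lg_E L (N' * q)) _ _ (s36ch_algBeta L N' q hq2) x =
      ssm_gl_W L N' q hq2 hqN' (IntermediateField.inclusion (ssm_al_E_le L N' q) x) :=
  s36cpw_beta_eq_W N' q hq2 hqN' x

/-- **[L3c] (7), chart `{λ}`, `β`-spelling** (`hφ` = the hypothesis `hφ` of `s36cf_oneBranch_fin3`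
under `letI := s36ch_algBeta L N' q hq2`). -/
theorem s36cpw_leg_beta
    (hprime : Prime (algebraMap ↥O (fc_chart ↥O ({lg_lamE N'} : Set ↥(lg_E L N'))) π))
    (hic : IsIntegrallyClosed (fc_chart ↥O ({lg_lamE N'} : Set ↥(lg_E L N')) ⧸
      (Ideal.span {algebraMap ↥O (fc_chart ↥O ({lg_lamE N'} : Set ↥(lg_E L N'))) π} :
        Ideal (fc_chart ↥O ({lg_lamE N'} : Set ↥(lg_E L N'))))))
    (φ1 : fc_chart ↥O ({lg_lamE N'} : Set ↥(lg_E L N')) →+*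
      fc_chart ↥O ({lg_lamE (N' * q)} : Set ↥(lg_E L (N' * q))))
    (hφ : letI := s36ch_algBeta L N' q hq2
      ∀ b' : fc_chart ↥O ({lg_lamE N'} : Set ↥(lg_E L N')),
      ((φ1 b' : fc_chart ↥O ({lg_lamE (N' * q)} : Set ↥(lg_E L (N' * q)))) : ↥(lg_E L (N' * q))) =
        algebraMap ↥(lg_E L N') ↥(lg_E L (N' * q)) (b' : ↥(lg_E L N'))) :
    (∀ b : fc_chart ↥O ({lg_lamE (N' * q)} : Set ↥(lg_E L (N' * q))),
      ∃ b' : fc_chart ↥O ({lg_lamE N'} : Set ↥(lg_E L N')),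
        b ^ q - φ1 b' ∈ ssm_tp_P (fc_chart ↥O ({lg_lamE (N' * q)} : Set ↥(lg_E L (N' * q))))
          (ssm_gl_V1 O hπ N' q)) ∧
    (∀ b : fc_chart ↥O ({lg_lamE (N' * q)} : Set ↥(lg_E L (N' * q))),
      ∃ b' : fc_chart ↥O ({lg_lamE N'} : Set ↥(lg_E L N')),
        b - φ1 b' ∈ ssm_tp_P (fc_chart ↥O ({lg_lamE (N' * q)} : Set ↥(lg_E L (N' * q))))
          (ssm_gl_V2 O hπ N' q hq2 hqN')) ∧
    (ssm_tp_P (fc_chart ↥O ({lg_lamE (N' * q)} : Set ↥(lg_E L (N' * q))))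
      (ssm_gl_V1 O hπ N' q)).comap φ1 =
      Ideal.span {algebraMap ↥O (fc_chart ↥O ({lg_lamE N'} : Set ↥(lg_E L N'))) π} ∧
    (ssm_tp_P (fc_chart ↥O ({lg_lamE (N' * q)} : Set ↥(lg_E L (N' * q))))
      (ssm_gl_V2 O hπ N' q hq2 hqN')).comap φ1 =
      Ideal.span {algebraMap ↥O (fc_chart ↥O ({lg_lamE N'} : Set ↥(lg_E L N'))) π} :=
  s36cpw_leg O hπ N' q hq2 hqN' hprime hic φ1
    (fun b' => (hφ b').trans (s36cpw_algBeta_eq_W N' q hq2 hqN' _))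

/-- **[L3c] (7), chart `{λ⁻¹}`, `β`-spelling.** -/
theorem s36cpw_legInv_beta
    (hprime : Prime (algebraMap ↥O (fc_chart ↥O ({lg_lamE N'} : Set ↥(lg_E L N'))) π))
    (hprime2 : Prime (algebraMap ↥O (fc_chart ↥O ({(lg_lamE N')⁻¹} : Set ↥(lg_E L N'))) π))
    (hic2 : IsIntegrallyClosed (fc_chart ↥O ({(lg_lamE N')⁻¹} : Set ↥(lg_E L N')) ⧸
      (Ideal.span {algebraMap ↥O (fc_chart ↥O ({(lg_lamE N')⁻¹} : Set ↥(lg_E L N'))) π} :
        Ideal (fc_chart ↥O ({(lg_lamE N')⁻¹} : Set ↥(lg_E L N'))))))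
    (φ1 : fc_chart ↥O ({(lg_lamE N')⁻¹} : Set ↥(lg_E L N')) →+*
      fc_chart ↥O ({(lg_lamE (N' * q))⁻¹} : Set ↥(lg_E L (N' * q))))
    (hφ : letI := s36ch_algBeta L N' q hq2
      ∀ b' : fc_chart ↥O ({(lg_lamE N')⁻¹} : Set ↥(lg_E L N')),
      ((φ1 b' : fc_chart ↥O ({(lg_lamE (N' * q))⁻¹} : Set ↥(lg_E L (N' * q)))) :
          ↥(lg_E L (N' * q))) =
        algebraMap ↥(lg_E L N') ↥(lg_E L (N' * q)) (b' : ↥(lg_E L N'))) :
    (∀ b : fc_chart ↥O ({(lg_lamE (N' * q))⁻¹} : Set ↥(lg_E L (N' * q))),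
      ∃ b' : fc_chart ↥O ({(lg_lamE N')⁻¹} : Set ↥(lg_E L N')),
        b ^ q - φ1 b' ∈ ssm_tp_P (fc_chart ↥O ({(lg_lamE (N' * q))⁻¹} : Set ↥(lg_E L (N' * q))))
          (ssm_gl_V1 O hπ N' q)) ∧
    (∀ b : fc_chart ↥O ({(lg_lamE (N' * q))⁻¹} : Set ↥(lg_E L (N' * q))),
      ∃ b' : fc_chart ↥O ({(lg_lamE N')⁻¹} : Set ↥(lg_E L N')),
        b - φ1 b' ∈ ssm_tp_P (fc_chart ↥O ({(lg_lamE (N' * q))⁻¹} : Set ↥(lg_E L (N' * q))))
          (ssm_gl_V2 O hπ N' q hq2 hqN')) ∧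
    (ssm_tp_P (fc_chart ↥O ({(lg_lamE (N' * q))⁻¹} : Set ↥(lg_E L (N' * q))))
      (ssm_gl_V1 O hπ N' q)).comap φ1 =
      Ideal.span {algebraMap ↥O (fc_chart ↥O ({(lg_lamE N')⁻¹} : Set ↥(lg_E L N'))) π} ∧
    (ssm_tp_P (fc_chart ↥O ({(lg_lamE (N' * q))⁻¹} : Set ↥(lg_E L (N' * q))))
      (ssm_gl_V2 O hπ N' q hq2 hqN')).comap φ1 =
      Ideal.span {algebraMap ↥O (fc_chart ↥O ({(lg_lamE N')⁻¹} : Set ↥(lg_E L N'))) π} :=
  s36cpw_legInv O hπ N' q hq2 hqN' hprime hprime2 hic2 φ1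
    (fun b' => (hφ b').trans (s36cpw_algBeta_eq_W N' q hq2 hqN' _))

end Leg

section NF

variable (L : Type) [Field L] [NumberField L] [Algebra L (AlgebraicClosure ℚ)]
  (O : ValuationSubring L) [IsDiscreteValuationRing O] {π : O} (hπ : Irreducible π)
variable (N' q : ℕ) [NeZero N'] [NeZero q] [hq : Fact q.Prime] [CharP (ResidueField O) q]
  (hq2 : ¬ 2 ∣ q) (hqN' : ¬ q ∣ N') (ζ : L) (hζ : IsPrimitiveRoot ζ N')

include hζ in
/-- **[L3c] (7), chart `{λ}`, [NF2-CTX] closed term** (`W`-spelling of `hφ`). -/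
theorem s36cpw_nf
    (φ1 : fc_chart ↥O ({lg_lamE N'} : Set ↥(lg_E L N')) →+*
      fc_chart ↥O ({lg_lamE (N' * q)} : Set ↥(lg_E L (N' * q))))
    (hφ : ∀ b' : fc_chart ↥O ({lg_lamE N'} : Set ↥(lg_E L N')),
      ((φ1 b' : fc_chart ↥O ({lg_lamE (N' * q)} : Set ↥(lg_E L (N' * q)))) : ↥(lg_E L (N' * q))) =
        ssm_gl_W L N' q hq2 hqN'
          (IntermediateField.inclusion (ssm_al_E_le L N' q) (b' : ↥(lg_E L N')))) :
    (∀ b : fc_chart ↥O ({lg_lamE (N' * q)} : Set ↥(lg_E L (N' * q))),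
      ∃ b' : fc_chart ↥O ({lg_lamE N'} : Set ↥(lg_E L N')),
        b ^ q - φ1 b' ∈ ssm_tp_P (fc_chart ↥O ({lg_lamE (N' * q)} : Set ↥(lg_E L (N' * q))))
          (ssm_gl_V1 O hπ N' q)) ∧
    (∀ b : fc_chart ↥O ({lg_lamE (N' * q)} : Set ↥(lg_E L (N' * q))),
      ∃ b' : fc_chart ↥O ({lg_lamE N'} : Set ↥(lg_E L N')),
        b - φ1 b' ∈ ssm_tp_P (fc_chart ↥O ({lg_lamE (N' * q)} : Set ↥(lg_E L (N' * q))))
          (ssm_gl_V2 O hπ N' q hq2 hqN')) ∧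
    (ssm_tp_P (fc_chart ↥O ({lg_lamE (N' * q)} : Set ↥(lg_E L (N' * q))))
      (ssm_gl_V1 O hπ N' q)).comap φ1 =
      Ideal.span {algebraMap ↥O (fc_chart ↥O ({lg_lamE N'} : Set ↥(lg_E L N'))) π} ∧
    (ssm_tp_P (fc_chart ↥O ({lg_lamE (N' * q)} : Set ↥(lg_E L (N' * q))))
      (ssm_gl_V2 O hπ N' q hq2 hqN')).comap φ1 =
      Ideal.span {algebraMap ↥O (fc_chart ↥O ({lg_lamE N'} : Set ↥(lg_E L N'))) π} :=
  s36cpw_leg O hπ N' q hq2 hqN'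
    (ssm_ll_prime L N' hπ q (ssm_fln_q_mem L O q) (ssm_fl_ne_two q hq2) hqN' ζ hζ).1
    (ssm_ll_ic1 L N' hπ q (ssm_fln_q_mem L O q) (ssm_fl_ne_two q hq2) hqN' ζ hζ) φ1 hφ

include hζ in
/-- **[L3c] (7), chart `{λ}`, [NF2-CTX] closed term**, `β`-spelling of `hφ`. -/
theorem s36cpw_nf_beta
    (φ1 : fc_chart ↥O ({lg_lamE N'} : Set ↥(lg_E L N')) →+*
      fc_chart ↥O ({lg_lamE (N' * q)} : Set ↥(lg_E L (N' * q))))
    (hφ : letI := s36ch_algBeta L N' q hq2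
      ∀ b' : fc_chart ↥O ({lg_lamE N'} : Set ↥(lg_E L N')),
      ((φ1 b' : fc_chart ↥O ({lg_lamE (N' * q)} : Set ↥(lg_E L (N' * q)))) : ↥(lg_E L (N' * q))) =
        algebraMap ↥(lg_E L N') ↥(lg_E L (N' * q)) (b' : ↥(lg_E L N'))) :
    (∀ b : fc_chart ↥O ({lg_lamE (N' * q)} : Set ↥(lg_E L (N' * q))),
      ∃ b' : fc_chart ↥O ({lg_lamE N'} : Set ↥(lg_E L N')),
        b ^ q - φ1 b' ∈ ssm_tp_P (fc_chart ↥O ({lg_lamE (N' * q)} : Set ↥(lg_E L (N' * q))))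
          (ssm_gl_V1 O hπ N' q)) ∧
    (∀ b : fc_chart ↥O ({lg_lamE (N' * q)} : Set ↥(lg_E L (N' * q))),
      ∃ b' : fc_chart ↥O ({lg_lamE N'} : Set ↥(lg_E L N')),
        b - φ1 b' ∈ ssm_tp_P (fc_chart ↥O ({lg_lamE (N' * q)} : Set ↥(lg_E L (N' * q))))
          (ssm_gl_V2 O hπ N' q hq2 hqN')) ∧
    (ssm_tp_P (fc_chart ↥O ({lg_lamE (N' * q)} : Set ↥(lg_E L (N' * q))))
      (ssm_gl_V1 O hπ N' q)).comap φ1 =
      Ideal.span {algebraMap ↥O (fc_chart ↥O ({lg_lamE N'} : Set ↥(lg_E L N'))) π} ∧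
    (ssm_tp_P (fc_chart ↥O ({lg_lamE (N' * q)} : Set ↥(lg_E L (N' * q))))
      (ssm_gl_V2 O hπ N' q hq2 hqN')).comap φ1 =
      Ideal.span {algebraMap ↥O (fc_chart ↥O ({lg_lamE N'} : Set ↥(lg_E L N'))) π} :=
  s36cpw_leg_beta O hπ N' q hq2 hqN'
    (ssm_ll_prime L N' hπ q (ssm_fln_q_mem L O q) (ssm_fl_ne_two q hq2) hqN' ζ hζ).1
    (ssm_ll_ic1 L N' hπ q (ssm_fln_q_mem L O q) (ssm_fl_ne_two q hq2) hqN' ζ hζ) φ1 hφ

include hζ in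
/-- **[L3c] (7), chart `{λ⁻¹}`, [NF2-CTX] closed term** (`W`-spelling of `hφ`). -/
theorem s36cpw_nfInv
    (φ1 : fc_chart ↥O ({(lg_lamE N')⁻¹} : Set ↥(lg_E L N')) →+*
      fc_chart ↥O ({(lg_lamE (N' * q))⁻¹} : Set ↥(lg_E L (N' * q))))
    (hφ : ∀ b' : fc_chart ↥O ({(lg_lamE N')⁻¹} : Set ↥(lg_E L N')),
      ((φ1 b' : fc_chart ↥O ({(lg_lamE (N' * q))⁻¹} : Set ↥(lg_E L (N' * q)))) :
          ↥(lg_E L (N' * q))) =
        ssm_gl_W L N' q hq2 hqN'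
          (IntermediateField.inclusion (ssm_al_E_le L N' q) (b' : ↥(lg_E L N')))) :
    (∀ b : fc_chart ↥O ({(lg_lamE (N' * q))⁻¹} : Set ↥(lg_E L (N' * q))),
      ∃ b' : fc_chart ↥O ({(lg_lamE N')⁻¹} : Set ↥(lg_E L N')),
        b ^ q - φ1 b' ∈ ssm_tp_P (fc_chart ↥O ({(lg_lamE (N' * q))⁻¹} : Set ↥(lg_E L (N' * q))))
          (ssm_gl_V1 O hπ N' q)) ∧
    (∀ b : fc_chart ↥O ({(lg_lamE (N' * q))⁻¹} : Set ↥(lg_E L (N' * q))),
      ∃ b' : fc_chart ↥O ({(lg_lamE N')⁻¹} : Set ↥(lg_E L N')),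
        b - φ1 b' ∈ ssm_tp_P (fc_chart ↥O ({(lg_lamE (N' * q))⁻¹} : Set ↥(lg_E L (N' * q))))
          (ssm_gl_V2 O hπ N' q hq2 hqN')) ∧
    (ssm_tp_P (fc_chart ↥O ({(lg_lamE (N' * q))⁻¹} : Set ↥(lg_E L (N' * q))))
      (ssm_gl_V1 O hπ N' q)).comap φ1 =
      Ideal.span {algebraMap ↥O (fc_chart ↥O ({(lg_lamE N')⁻¹} : Set ↥(lg_E L N'))) π} ∧
    (ssm_tp_P (fc_chart ↥O ({(lg_lamE (N' * q))⁻¹} : Set ↥(lg_E L (N' * q))))
      (ssm_gl_V2 O hπ N' q hq2 hqN')).comap φ1 =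
      Ideal.span {algebraMap ↥O (fc_chart ↥O ({(lg_lamE N')⁻¹} : Set ↥(lg_E L N'))) π} :=
  s36cpw_legInv O hπ N' q hq2 hqN'
    (ssm_ll_prime L N' hπ q (ssm_fln_q_mem L O q) (ssm_fl_ne_two q hq2) hqN' ζ hζ).1
    (ssm_ll_prime L N' hπ q (ssm_fln_q_mem L O q) (ssm_fl_ne_two q hq2) hqN' ζ hζ).2.1
    (ssm_ll_ic2 L N' hπ q (ssm_fln_q_mem L O q) (ssm_fl_ne_two q hq2) hqN' ζ hζ) φ1 hφ

include hζ in
/-- **[L3c] (7), chart `{λ⁻¹}`, [NF2-CTX] closed term**, `β`-spelling of `hφ`. -/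
theorem s36cpw_nfInv_beta
    (φ1 : fc_chart ↥O ({(lg_lamE N')⁻¹} : Set ↥(lg_E L N')) →+*
      fc_chart ↥O ({(lg_lamE (N' * q))⁻¹} : Set ↥(lg_E L (N' * q))))
    (hφ : letI := s36ch_algBeta L N' q hq2
      ∀ b' : fc_chart ↥O ({(lg_lamE N')⁻¹} : Set ↥(lg_E L N')),
      ((φ1 b' : fc_chart ↥O ({(lg_lamE (N' * q))⁻¹} : Set ↥(lg_E L (N' * q)))) :
          ↥(lg_E L (N' * q))) =
        algebraMap ↥(lg_E L N') ↥(lg_E L (N' * q)) (b' : ↥(lg_E L N'))) :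
    (∀ b : fc_chart ↥O ({(lg_lamE (N' * q))⁻¹} : Set ↥(lg_E L (N' * q))),
      ∃ b' : fc_chart ↥O ({(lg_lamE N')⁻¹} : Set ↥(lg_E L N')),
        b ^ q - φ1 b' ∈ ssm_tp_P (fc_chart ↥O ({(lg_lamE (N' * q))⁻¹} : Set ↥(lg_E L (N' * q))))
          (ssm_gl_V1 O hπ N' q)) ∧
    (∀ b : fc_chart ↥O ({(lg_lamE (N' * q))⁻¹} : Set ↥(lg_E L (N' * q))),
      ∃ b' : fc_chart ↥O ({(lg_lamE N')⁻¹} : Set ↥(lg_E L N')),
        b - φ1 b' ∈ ssm_tp_P (fc_chart ↥O ({(lg_lamE (N' * q))⁻¹} : Set ↥(lg_E L (N' * q))))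
          (ssm_gl_V2 O hπ N' q hq2 hqN')) ∧
    (ssm_tp_P (fc_chart ↥O ({(lg_lamE (N' * q))⁻¹} : Set ↥(lg_E L (N' * q))))
      (ssm_gl_V1 O hπ N' q)).comap φ1 =
      Ideal.span {algebraMap ↥O (fc_chart ↥O ({(lg_lamE N')⁻¹} : Set ↥(lg_E L N'))) π} ∧
    (ssm_tp_P (fc_chart ↥O ({(lg_lamE (N' * q))⁻¹} : Set ↥(lg_E L (N' * q))))
      (ssm_gl_V2 O hπ N' q hq2 hqN')).comap φ1 =
      Ideal.span {algebraMap ↥O (fc_chart ↥O ({(lg_lamE N')⁻¹} : Set ↥(lg_E L N'))) π} :=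
  s36cpw_legInv_beta O hπ N' q hq2 hqN'
    (ssm_ll_prime L N' hπ q (ssm_fln_q_mem L O q) (ssm_fl_ne_two q hq2) hqN' ζ hζ).1
    (ssm_ll_prime L N' hπ q (ssm_fln_q_mem L O q) (ssm_fl_ne_two q hq2) hqN' ζ hζ).2.1
    (ssm_ll_ic2 L N' hπ q (ssm_fln_q_mem L O q) (ssm_fl_ne_two q hq2) hqN' ζ hζ) φ1 hφ

end NF

end Fermat.Agent.S36
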