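/-
Project S36 (Carayol), cell [M2], leaf [L3b], LEGENDRE tower, item (ii) of helper2's list
(helper29; prefix `s36czs_`): THE CONCRETE PRESENTATION `S := fc_locAt E₀ y0` of the local ring of the
level-`N'` chart `B' = fc_chart O {λ}` at a prime `y0 ∋ q`, and the hypothesis `h0` of helper2's
`s36cy_leg_point`:

* `s36czs_over_ff`  : (function-field form) a valuation subring over the Gauss ring of `A0[y]` lies
                      over `S_(π)`, `S := fc_locAt F0 n`, for every prime `n ∋ π` of the chart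
                      (`ssm_ths_ff` without the regularity hypotheses);
* `s36czs_h0`       : `h0` of `s36cy_leg_point` VERBATIM for `S := fc_locAt (lg_E L N') y0`;
* `s36czs_chart_isNoetherianRing`, `s36czs_chart_isIntegrallyClosed` : the level-`M` chart instances;
* `s36czs_isNoetherianRing`, `s36czs_isIntegrallyClosed`, `s36czs_isFractionRing` : the instances of
  `S` (with `IsLocalRing S` = `ssm_ths_isLocalRing`, an instance).
-/
import Mathlib
import Fermat.Agent.SS.Model.ThickBase
import Fermat.Agent.SS.Model.LegLevel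
import Fermat.Agent.SS.Model.TwoPrimesLeg
import Fermat.Agent.S36.Model.PtsAB

set_option autoImplicit false
set_option linter.unusedSectionVars false
set_option linter.unusedVariables false
set_option linter.style.haveILetI false

noncomputable section

open ModularCurve IntermediateField IsLocalRing Polynomial
open Fermat.Agent.JT3 Fermat.Agent.SS

namespace Fermat.Agent.S36

section FunField

universe v

variable {A0 L : Type*} {F0 : Type v} [CommRing A0] [IsDomain A0] [IsDiscreteValuationRing A0]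
  [Field L] [Field F0] [Algebra A0 L] [IsFractionRing A0 L] [CharZero L] [Algebra L F0]
  [Algebra A0 F0] [IsScalarTower A0 L F0]

/-- **`V` lies over `S_(π)`**, `S := fc_locAt F0 n` the local ring of the chart `fc_chart A0 {y}` at
ANY prime `n ∋ π` (no regularity hypothesis at `n`). -/
theorem s36czs_over_ff {π : A0} {y : F0} (hy : Transcendental L y)
    [FiniteDimensional L⟮y⟯ F0]
    (hπB : Prime (algebraMap A0 ↥(fc_chart A0 ({y} : Set F0)) π))
    (n : Ideal ↥(fc_chart A0 ({y} : Set F0))) [hn : n.IsPrime]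
    (hπn : algebraMap A0 ↥(fc_chart A0 ({y} : Set F0)) π ∈ n)
    {V : ValuationSubring F0}
    (hV : ssm_tp_Over (algebraMap A0 (Algebra.adjoin A0 ({y} : Set F0)) π) V) :
    haveI := ssm_ths_chart_isFractionRing (A0 := A0) (L := L) y
    ssm_tp_Over (algebraMap ↥(fc_chart A0 ({y} : Set F0)) ↥(fc_locAt F0 n)
      (algebraMap A0 ↥(fc_chart A0 ({y} : Set F0)) π)) V := by
  haveI hfr := ssm_ths_chart_isFractionRing (A0 := A0) (L := L) y
  have hyA : Transcendental A0 y := fc_ff_transcendental (L := L) hy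
  haveI : IsIntegrallyClosed (Algebra.adjoin A0 ({y} : Set F0)) := fc_ff_isIntegrallyClosed hyA
  haveI : FaithfulSMul (Algebra.adjoin A0 ({y} : Set F0)) F0 :=
    (faithfulSMul_iff_algebraMap_injective _ _).2 Subtype.val_injective
  have hπ0 : algebraMap A0 ↥(fc_chart A0 ({y} : Set F0)) π ≠ 0 := hπB.ne_zero
  have hπ00 : algebraMap A0 (Algebra.adjoin A0 ({y} : Set F0)) π ≠ 0 := by
    intro h0
    apply hπ0
    apply Subtype.ext
    have := congrArg Subtype.val h0
    exact this
  have hp : ssm_tpw_PrimeInt (Algebra.adjoin A0 ({y} : Set F0)) F0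
      (algebraMap A0 (Algebra.adjoin A0 ({y} : Set F0)) π) :=
    ssm_tpw_primeInt_of_prime (fc_chart A0 ({y} : Set F0)) (fun _ => Iff.rfl)
      (algebraMap A0 ↥(fc_chart A0 ({y} : Set F0)) π) rfl hπB
  exact ssm_ths_over (R0 := Algebra.adjoin A0 ({y} : Set F0)) n hV hπ00 hp
    (fun r => r.2) (fun z hz => ⟨⟨z, hz⟩, rfl⟩)
    (π := algebraMap A0 ↥(fc_chart A0 ({y} : Set F0)) π) rfl hπn

end FunField

section Charts

variable {L : Type*} [Field L] [CharZero L] [Algebra L (AlgebraicClosure ℚ)]
  (O : ValuationSubring L) [IsDiscreteValuationRing O] (M : ℕ) [NeZero M]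

/-- the chart `B_λ` of `lg_E L M` is noetherian. -/
theorem s36czs_chart_isNoetherianRing :
    IsNoetherianRing ↥(fc_chart ↥O ({lg_lamE M} : Set ↥(lg_E L M))) := by
  haveI := ssm_go_isScalarTower O (lg_E L M)
  haveI := lgf_finite L M
  exact ssm_ths_chart_isNoetherianRing (A0 := ↥O) (L := L)
    (lgf_lam_transcendental L M two_ne_zero)

/-- the chart `B_λ` of `lg_E L M` is integrally closed. -/
theorem s36czs_chart_isIntegrallyClosed :
    IsIntegrallyClosed ↥(fc_chart ↥O ({lg_lamE M} : Set ↥(lg_E L M))) := by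
  haveI := ssm_go_isScalarTower O (lg_E L M)
  haveI := lgf_finite L M
  exact ssm_ths_chart_isIntegrallyClosed (A0 := ↥O) (L := L) _

variable (y0 : Ideal ↥(fc_chart ↥O ({lg_lamE M} : Set ↥(lg_E L M)))) [y0.IsPrime]

/-- `S = fc_locAt (lg_E L M) y0` is noetherian. -/
theorem s36czs_isNoetherianRing :
    haveI := s36cp_chart_isFractionRing O M
    IsNoetherianRing ↥(fc_locAt ↥(lg_E L M) y0) := by
  haveI := s36cp_chart_isFractionRing O M
  haveI := s36czs_chart_isNoetherianRing O M
  exact ssm_ths_isNoetherianRing ↥(lg_E L M) y0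

/-- `S = fc_locAt (lg_E L M) y0` is integrally closed. -/
theorem s36czs_isIntegrallyClosed :
    haveI := s36cp_chart_isFractionRing O M
    IsIntegrallyClosed ↥(fc_locAt ↥(lg_E L M) y0) := by
  haveI := s36cp_chart_isFractionRing O M
  haveI := s36czs_chart_isIntegrallyClosed O M
  exact ssm_ths_isIntegrallyClosed ↥(lg_E L M) y0

/-- `S = fc_locAt (lg_E L M) y0` has fraction field `lg_E L M`. -/
theorem s36czs_isFractionRing :
    haveI := s36cp_chart_isFractionRing O M
    IsFractionRing ↥(fc_locAt ↥(lg_E L M) y0) ↥(lg_E L M) := by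
  haveI := s36cp_chart_isFractionRing O M
  exact ssm_ths_isFractionRing ↥(lg_E L M) y0

end Charts

section NF

variable (L : Type) [Field L] [NumberField L] [Algebra L (AlgebraicClosure ℚ)]
  (O : ValuationSubring L) [IsDiscreteValuationRing O]
variable (N' q : ℕ) [NeZero N'] [NeZero q] [hq : Fact q.Prime] [CharP (ResidueField O) q]
  (hq2 : ¬ 2 ∣ q) (hqN' : ¬ q ∣ N') (hπ : Irreducible ((q : ℕ) : ↥O))
  (ζ : L) (hζ : IsPrimitiveRoot ζ N')

include hq2 hqN' hζ in
set_option synthInstance.maxHeartbeats 200000 in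
/-- **`h0` of `s36cy_leg_point`** for `S := fc_locAt (lg_E L N') y0`, `y0` a prime of the level-`N'`
chart containing `q`: the Gauss valuation subring of level `N'` lies over `S_(q)`. -/
theorem s36czs_h0 (y0 : Ideal ↥(fc_chart ↥O ({lg_lamE N'} : Set ↥(lg_E L N')))) [y0.IsPrime]
    (hqy0 : ((q : ℕ) : ↥(fc_chart ↥O ({lg_lamE N'} : Set ↥(lg_E L N')))) ∈ y0) :
    haveI := s36cp_chart_isFractionRing O N'
    ssm_tp_Over (algebraMap ↥(fc_chart ↥O ({lg_lamE N'} : Set ↥(lg_E L N')))
        ↥(fc_locAt ↥(lg_E L N') y0)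
        ((q : ℕ) : ↥(fc_chart ↥O ({lg_lamE N'} : Set ↥(lg_E L N')))))
      (gq_valSubOf ((q : ℕ) : ↥O) hπ.ne_zero hπ.maximalIdeal_eq (lg_E L N')
        ((ssm_al_E_le L N' q).trans (ssm_ga_E_le_quotField O (N' * q)))) := by
  haveI := s36cp_chart_isFractionRing O N'
  haveI := ssm_go_isScalarTower O (lg_E L N')
  haveI := lgf_finite L N'
  have hx' : Transcendental L (lg_lamE (L := L) N') := lgf_lam_transcendental L N' two_ne_zero
  have hqO : ((q : ℕ) : O) ∈ maximalIdeal O := ssm_fln_q_mem L O q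
  have hq2' : q ≠ 2 := ssm_fl_ne_two q hq2
  have hp := ssm_ll_prime L N' hπ q hqO hq2' hqN' ζ hζ
  have hV := ssm_go_over O (lg_E L N') (hm_lam O) (lg_lamE N') (hm_coeffMap_lam _).symm hπ
    ((ssm_al_E_le L N' q).trans (ssm_ga_E_le_quotField O (N' * q))) (n := 1) one_ne_zero
    (ssm_ga_lam_coeff_one O (ssm_gl_two_ne_zero O q hq2))
  have hqB : algebraMap ↥O ↥(fc_chart ↥O ({lg_lamE N'} : Set ↥(lg_E L N'))) ((q : ℕ) : ↥O) =
      ((q : ℕ) : ↥(fc_chart ↥O ({lg_lamE N'} : Set ↥(lg_E L N')))) := map_natCast _ q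
  have h := s36czs_over_ff (A0 := ↥O) (L := L) hx' hp.1 y0 (by rw [hqB]; exact hqy0) hV
  rw [hqB] at h
  exact h

end NF

end Fermat.Agent.S36
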