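/-
Project S36 (Carayol), model cell [M2], leaf **[C-REG-INST]** = [L3b], LEGENDRE, [NF2-CTX] wrapper
(helper2).  Prefix `s36cn_`.

Target: helper24's `s36asm_cOrd O hπ N' q hq2 hqN' VC 1` (Model/AsmLegPtsCSplit.lean) = the NON-CUSP
`C`-only closed points `𝔫` of the chart `B_x = fc_chart O {λ}` of level `N' q q` are one-branch points.

* `s36cn_noncusp_abs` : abstract cusp / non-cusp bridge through a Frobenius congruence
  `φ1 λ' ≡ x1 ^ q` modulo a prime `𝔫1 ∋ q`: `λ' ∈ 𝔫1 ∩ B' ↔ x1 ∈ 𝔫1`, `λ' - 1 ∈ 𝔫1 ∩ B' ↔ x1 - 1 ∈ 𝔫1`;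
* `s36cn_frob_mem`    : `β λ - λ ^ q ∈ 𝔪(VF)` on the level `N' q`;
* `s36cn_below`       : THE POINT BELOW: for `𝔫` maximal, `q ∈ 𝔫`, `P_C ≤ 𝔫`, `¬ P_B ≤ 𝔫`, `x, x - 1 ∉ 𝔫`,
  the point `y0 := (𝔫 ∩ B₁) ∩ B'` (through `ι`, then `φ1`) of the level-`N'` chart is maximal, contains
  `q`, is NON-CUSP and ORDINARY (`hord` of `s36oc_Hyp`; helper17's `s36cp_bl_leg_below` +
  `s36cp_bl_hord'`);
* `s36cn_cOrd_of`     : `s36asm_cOrd … VC 1` from `T3 : s36asm_Third … VC` and the inputs still to be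
  plugged as closed terms: the `β`-chart map `φ1` with `hφ1 hint1 hpow`, the Gauss fact `h0` for the
  presentation `S := fc_locAt (lg_E L N') y0`, and the [ORD-G] export `HORD` (helper16's OrdGLeg).
  Inside: helper29's `s36t3_leg_all_of` ([TP3], `W₂`-stable charts), helper10's
  `s36tri_legData_of_third'` + `s36tri_leg_unique` (`huniq`), `s36cy_leg_point` (CReg/PointLeg.lean).
-/
import Mathlib
import Fermat.Agent.S36.CReg.PointLeg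
import Fermat.Agent.S36.Model.BelowInst
import Fermat.Agent.S36.Model.AsmLegPtsCSplit
import Fermat.Agent.S36.Model.ThreeLegB
import Fermat.Agent.S36.Tri.LegDataOf

set_option autoImplicit false
set_option linter.unusedSectionVars false
set_option linter.unusedVariables false
set_option linter.style.haveILetI false

noncomputable section

open ModularCurve IntermediateField IsLocalRing Polynomial
open ModularCurve AlgebraicCurve
open Fermat.Agent.JT3 Fermat.Agent.SS Fermat.Agent.S35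

namespace Fermat.Agent.S36

/-- cusp / non-cusp through a Frobenius congruence. -/
theorem s36cn_noncusp_abs {B' B1 : Type*} [CommRing B'] [CommRing B1] (φ1 : B' →+* B1)
    (𝔫1 : Ideal B1) [h𝔫1 : 𝔫1.IsPrime] (q : ℕ) (hq : q.Prime) (hq𝔫 : ((q : ℕ) : B1) ∈ 𝔫1)
    (lam' : B') (x1 : B1) (hfrob : φ1 lam' - x1 ^ q ∈ 𝔫1) :
    (lam' ∈ 𝔫1.comap φ1 ↔ x1 ∈ 𝔫1) ∧ (lam' - 1 ∈ 𝔫1.comap φ1 ↔ x1 - 1 ∈ 𝔫1) := by
  haveI : Fact q.Prime := ⟨hq⟩
  haveI : CharP (B1 ⧸ 𝔫1) q :=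
    (CharP.charP_iff_prime_eq_zero hq).2 (by
      rw [← map_natCast (Ideal.Quotient.mk 𝔫1)]
      exact Ideal.Quotient.eq_zero_iff_mem.2 hq𝔫)
  have hmk : Ideal.Quotient.mk 𝔫1 (φ1 lam') = Ideal.Quotient.mk 𝔫1 x1 ^ q := by
    rw [← map_pow]
    exact Ideal.Quotient.eq.2 hfrob
  constructor
  · rw [Ideal.mem_comap, ← Ideal.Quotient.eq_zero_iff_mem, ← Ideal.Quotient.eq_zero_iff_mem, hmk]
    exact pow_eq_zero_iff hq.ne_zero
  · rw [Ideal.mem_comap, ← Ideal.Quotient.eq_zero_iff_mem, ← Ideal.Quotient.eq_zero_iff_mem,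
      map_sub, map_one, map_sub, map_one, hmk]
    have : Ideal.Quotient.mk 𝔫1 x1 ^ q - 1 = (Ideal.Quotient.mk 𝔫1 x1 - 1) ^ q := by
      rw [sub_pow_char, one_pow]
    rw [this]
    exact pow_eq_zero_iff hq.ne_zero

section Leg

variable {L : Type*} [Field L] [CharZero L] [Algebra L (AlgebraicClosure ℚ)]
  (O : ValuationSubring L) [IsDiscreteValuationRing O] {π : O} (hπ : Irreducible π)
variable (N' q : ℕ) [NeZero N'] [NeZero q] [hq : Fact q.Prime] [CharP (ResidueField O) q]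
  (hq2 : ¬ 2 ∣ q) (hqN' : ¬ q ∣ N')

/-- **the Frobenius congruence on the level-`N' q` chart**: `β λ - λ ^ q ∈ 𝔪(VF)`. -/
theorem s36cn_frob_mem :
    letI := s36ch_algBeta L N' q hq2
    algebraMap ↥(lg_E L N') ↥(lg_E L (N' * q)) (lg_lamE N') - lg_lamE (N' * q) ^ q ∈
      (ssm_gl_V1 O hπ N' q).nonunits := by
  letI := s36ch_algBeta L N' q hq2
  refine ssm_ga_frob_mem_nonunits q π hπ.ne_zero hπ.maximalIdeal_eq (lg_E L (N' * q))
    (ssm_ga_E_le_quotField O (N' * q)) (hm_lam O) (ssm_ga_lam_frobFixed O q) _ ?_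
  rw [hm_coeffMap_lam, AddSubgroupClass.coe_sub, SubmonoidClass.coe_pow, s36ch_algBeta_apply,
    s36mc_coe_beta]
  rfl

end Leg

section NF

variable (L : Type) [Field L] [NumberField L] [Algebra L (AlgebraicClosure ℚ)]
  (O : ValuationSubring L) [IsDiscreteValuationRing O] {π : O} (hπ : Irreducible π)
variable (N' q : ℕ) [NeZero N'] [NeZero q] [hq : Fact q.Prime] [CharP (ResidueField O) q]
  (hq2 : ¬ 2 ∣ q) (hqN' : ¬ q ∣ N') (ζ : L) (hζ : IsPrimitiveRoot ζ N')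

include hζ in
set_option synthInstance.maxHeartbeats 200000 in
set_option maxHeartbeats 1600000 in
/-- **THE POINT BELOW A NON-CUSP `C`-ONLY POINT** (Legendre tower, chart `B_x`): `y0 := 𝔫 ∩ B'`
(through `φ2 = ι ∘ φ1`) is a maximal ideal containing `π`, NON-CUSP (`λ', λ' - 1 ∉ y0`) and
ORDINARY (`hord` of `s36oc_Hyp`). -/
theorem s36cn_below
    (φ1 : fc_chart ↥O ({lg_lamE N'} : Set ↥(lg_E L N')) →+*
      fc_chart ↥O ({lg_lamE (N' * q)} : Set ↥(lg_E L (N' * q))))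
    (hφ1 : letI := s36ch_algBeta L N' q hq2
      ∀ b' : fc_chart ↥O ({lg_lamE N'} : Set ↥(lg_E L N')),
        ((φ1 b' : fc_chart ↥O ({lg_lamE (N' * q)} : Set ↥(lg_E L (N' * q)))) :
          ↥(lg_E L (N' * q))) = algebraMap ↥(lg_E L N') ↥(lg_E L (N' * q)) (b' : ↥(lg_E L N')))
    (hint1 : φ1.IsIntegral)
    (hpow : ∀ b : fc_chart ↥O ({lg_lamE (N' * q)} : Set ↥(lg_E L (N' * q))),
      ∃ b' : fc_chart ↥O ({lg_lamE N'} : Set ↥(lg_E L N')),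
        b ^ q - φ1 b' ∈ ssm_tp_P (fc_chart ↥O ({lg_lamE (N' * q)} : Set ↥(lg_E L (N' * q))))
          (ssm_gl_V1 O hπ N' q))
    {VC : ValuationSubring ↥(lg_E L (N' * q * q))} {e : Fin 3 → ℕ}
    (H : s36tp_Hyp
      (algebraMap ↥O (Algebra.adjoin ↥O ({lg_lamE (N' * q * q)} : Set ↥(lg_E L (N' * q * q)))) π)
      ![s36i_VA O hπ (N' * q) q, s36cp_VB O hπ N' q hq2 hqN', VC] e)
    (hVC :
      letI := ssm_gi_algebra (ssm_al_E_le L (N' * q) q)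
      letI := ssm_gi_algebraV (ssm_al_E_le L (N' * q) q) (ssm_gl_V1 O hπ N' q)
      ssm_tw_Over ↥(lg_E L (N' * q)) ↥(ssm_gl_V1 O hπ N' q) VC)
    (huniq : ∀ 𝔫 𝔫' : Ideal (fc_chart ↥O ({lg_lamE (N' * q * q)} : Set ↥(lg_E L (N' * q * q)))),
      𝔫.IsMaximal → 𝔫'.IsMaximal →
      ssm_tp_P (fc_chart ↥O ({lg_lamE (N' * q)} : Set ↥(lg_E L (N' * q))))
        (ssm_gl_V1 O hπ N' q) ≤ 𝔫.comap (s36tn_leg_iota O N' q) →
      ssm_tp_P (fc_chart ↥O ({lg_lamE (N' * q)} : Set ↥(lg_E L (N' * q))))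
        (ssm_gl_V2 O hπ N' q hq2 hqN') ≤ 𝔫.comap (s36tn_leg_iota O N' q) →
      𝔫'.comap (s36tn_leg_iota O N' q) = 𝔫.comap (s36tn_leg_iota O N' q) → 𝔫' = 𝔫)
    (𝔫 : Ideal (fc_chart ↥O ({lg_lamE (N' * q * q)} : Set ↥(lg_E L (N' * q * q)))))
    (h𝔫 : 𝔫.IsMaximal)
    (hq𝔫 : ((q : ℕ) : fc_chart ↥O ({lg_lamE (N' * q * q)} : Set ↥(lg_E L (N' * q * q)))) ∈ 𝔫)
    (hC : ssm_tp_P (fc_chart ↥O ({lg_lamE (N' * q * q)} : Set ↥(lg_E L (N' * q * q)))) VC ≤ 𝔫)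
    (hB : ¬ ssm_tp_P (fc_chart ↥O ({lg_lamE (N' * q * q)} : Set ↥(lg_E L (N' * q * q))))
        (s36cp_VB O hπ N' q hq2 hqN') ≤ 𝔫)
    (lam' : fc_chart ↥O ({lg_lamE N'} : Set ↥(lg_E L N')))
    (hlam : (lam' : ↥(lg_E L N')) = lg_lamE N')
    (h0 : (⟨lg_lamE (N' * q * q), fc_x_mem_chart _⟩ :
      fc_chart ↥O ({lg_lamE (N' * q * q)} : Set ↥(lg_E L (N' * q * q)))) ∉ 𝔫)
    (h1 : (⟨lg_lamE (N' * q * q), fc_x_mem_chart _⟩ :
      fc_chart ↥O ({lg_lamE (N' * q * q)} : Set ↥(lg_E L (N' * q * q)))) - 1 ∉ 𝔫) :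
    ((𝔫.comap (s36tn_leg_iota O N' q)).comap φ1).IsMaximal ∧
    ((q : ℕ) : fc_chart ↥O ({lg_lamE N'} : Set ↥(lg_E L N'))) ∈
      (𝔫.comap (s36tn_leg_iota O N' q)).comap φ1 ∧
    lam' ∉ (𝔫.comap (s36tn_leg_iota O N' q)).comap φ1 ∧
    lam' - 1 ∉ (𝔫.comap (s36tn_leg_iota O N' q)).comap φ1 ∧
    ∀ 𝔫' : Ideal (fc_chart ↥O ({lg_lamE (N' * q)} : Set ↥(lg_E L (N' * q)))), 𝔫'.IsPrime →
      𝔫'.comap φ1 = (𝔫.comap (s36tn_leg_iota O N' q)).comap φ1 →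
      ¬ (ssm_tp_P (fc_chart ↥O ({lg_lamE (N' * q)} : Set ↥(lg_E L (N' * q))))
          (ssm_gl_V2 O hπ N' q hq2 hqN') ≤ 𝔫' ∧
        ssm_tp_P (fc_chart ↥O ({lg_lamE (N' * q)} : Set ↥(lg_E L (N' * q))))
          (ssm_gl_V1 O hπ N' q) ≤ 𝔫') := by
  letI aβ := s36ch_algBeta L N' q hq2
  obtain ⟨hmax1, hF, hV⟩ :=
    (s36cp_bl_leg_below L O hπ N' q hq2 hqN' ζ hζ H hVC huniq 𝔫 h𝔫).2.1 hC hB
  haveI hpr1 : (𝔫.comap (s36tn_leg_iota O N' q)).IsPrime := hmax1.isPrime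
  -- chart-level facts of level `N' q`
  have hqO := ssm_fln_q_mem L O q
  have hq2' : q ≠ 2 := ssm_fl_ne_two q hq2
  have hp := ssm_ll_prime L N' hπ q hqO hq2' hqN' ζ hζ
  have H1 := ssm_gl_hyp O hπ N' q hq2 hqN' hp.1
  haveI := ssm_go_isScalarTower O (lg_E L (N' * q))
  have hx1 : Transcendental L (lg_lamE (L := L) (N' * q)) :=
    lgf_lam_transcendental L (N' * q) two_ne_zero
  have hC1 := ssm_tp_ff_chart (L := L) hπ hx1
  haveI : IsIntegrallyClosed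
      (Algebra.adjoin ↥O ({lg_lamE (N' * q)} : Set ↥(lg_E L (N' * q)))) :=
    fc_ff_isIntegrallyClosed (fc_ff_transcendental (L := L) hx1)
  haveI : FaithfulSMul (Algebra.adjoin ↥O ({lg_lamE (N' * q)} : Set ↥(lg_E L (N' * q))))
      ↥(lg_E L (N' * q)) :=
    (faithfulSMul_iff_algebraMap_injective _ _).2 Subtype.val_injective
  have hq1 : ((q : ℕ) : fc_chart ↥O ({lg_lamE (N' * q)} : Set ↥(lg_E L (N' * q)))) ∈
      𝔫.comap (s36tn_leg_iota O N' q) := by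
    rw [Ideal.mem_comap, map_natCast]
    exact hq𝔫
  have hfrob : φ1 lam' - (⟨lg_lamE (N' * q), fc_x_mem_chart _⟩ :
      fc_chart ↥O ({lg_lamE (N' * q)} : Set ↥(lg_E L (N' * q)))) ^ q ∈
      𝔫.comap (s36tn_leg_iota O N' q) := by
    refine hF ((H1.mem_P1 hC1).2 ?_)
    rw [AddSubgroupClass.coe_sub, SubmonoidClass.coe_pow, hφ1, hlam]
    exact s36cn_frob_mem O hπ N' q hq2
  obtain ⟨e0, e1⟩ := s36cn_noncusp_abs φ1 (𝔫.comap (s36tn_leg_iota O N' q)) q hq.out hq1 lam'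
    ⟨lg_lamE (N' * q), fc_x_mem_chart _⟩ hfrob
  have hιx : s36tn_leg_iota O N' q ⟨lg_lamE (N' * q), fc_x_mem_chart _⟩ =
      ⟨lg_lamE (N' * q * q), fc_x_mem_chart _⟩ := s36tn_leg_iota_lam O N' q
  refine ⟨ssm_cp_comap_isMaximal φ1 hint1 _ hmax1, ?_, ?_, ?_, ?_⟩
  · rw [Ideal.mem_comap, map_natCast]
    exact hq1
  · intro h
    have h3 : s36tn_leg_iota O N' q ⟨lg_lamE (N' * q), fc_x_mem_chart _⟩ ∈ 𝔫 :=
      Ideal.mem_comap.1 (e0.1 h)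
    rw [hιx] at h3
    exact h0 h3
  · intro h
    have h3 : s36tn_leg_iota O N' q (⟨lg_lamE (N' * q), fc_x_mem_chart _⟩ - 1) ∈ 𝔫 :=
      Ideal.mem_comap.1 (e1.1 h)
    rw [map_sub, map_one, hιx] at h3
    exact h1 h3
  · exact s36cp_bl_hord' φ1 _ _ q hq.out.pos hpow _ (𝔫.comap (s36tn_leg_iota O N' q)) rfl hF hV

end NF

section NFq

variable (L : Type) [Field L] [NumberField L] [Algebra L (AlgebraicClosure ℚ)]
  (O : ValuationSubring L) [IsDiscreteValuationRing O]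
variable (N' q : ℕ) [NeZero N'] [NeZero q] [hq : Fact q.Prime] [CharP (ResidueField O) q]
  (hq2 : ¬ 2 ∣ q) (hqN' : ¬ q ∣ N') (hπ : Irreducible ((q : ℕ) : ↥O)) (ζ : L)
  (hζ : IsPrimitiveRoot ζ N')

include hζ in
set_option synthInstance.maxHeartbeats 400000 in
set_option maxHeartbeats 3200000 in
/-- **[L3b], Legendre tower, closed modulo the [ORD-G] export**: the NON-CUSP `C`-only points of the
chart `B_x` of level `N' q q` are one-branch points. -/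
theorem s36cn_cOrd_of
    (φ1 : fc_chart ↥O ({lg_lamE N'} : Set ↥(lg_E L N')) →+*
      fc_chart ↥O ({lg_lamE (N' * q)} : Set ↥(lg_E L (N' * q))))
    (hφ1 : letI := s36ch_algBeta L N' q hq2
      ∀ b' : fc_chart ↥O ({lg_lamE N'} : Set ↥(lg_E L N')),
        ((φ1 b' : fc_chart ↥O ({lg_lamE (N' * q)} : Set ↥(lg_E L (N' * q)))) :
          ↥(lg_E L (N' * q))) = algebraMap ↥(lg_E L N') ↥(lg_E L (N' * q)) (b' : ↥(lg_E L N')))
    (hint1 : φ1.IsIntegral)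
    (hpow : ∀ b : fc_chart ↥O ({lg_lamE (N' * q)} : Set ↥(lg_E L (N' * q))),
      ∃ b' : fc_chart ↥O ({lg_lamE N'} : Set ↥(lg_E L N')),
        b ^ q - φ1 b' ∈ ssm_tp_P (fc_chart ↥O ({lg_lamE (N' * q)} : Set ↥(lg_E L (N' * q))))
          (ssm_gl_V1 O hπ N' q))
    (h0 : ∀ (y0 : Ideal (fc_chart ↥O ({lg_lamE N'} : Set ↥(lg_E L N')))) [y0.IsPrime],
      ((q : ℕ) : fc_chart ↥O ({lg_lamE N'} : Set ↥(lg_E L N'))) ∈ y0 →
      haveI := s36cp_chart_isFractionRing O (L := L) N'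
      ssm_tp_Over (algebraMap (fc_chart ↥O ({lg_lamE N'} : Set ↥(lg_E L N')))
          ↥(fc_locAt ↥(lg_E L N') y0)
          ((q : ℕ) : fc_chart ↥O ({lg_lamE N'} : Set ↥(lg_E L N'))))
        (gq_valSubOf ((q : ℕ) : ↥O) hπ.ne_zero hπ.maximalIdeal_eq (lg_E L N')
          ((ssm_al_E_le L N' q).trans (ssm_ga_E_le_quotField O (N' * q)))))
    (HORD : ∀ (y0 : Ideal (fc_chart ↥O ({lg_lamE N'} : Set ↥(lg_E L N')))) [y0.IsPrime],
      y0.IsMaximal → ((q : ℕ) : fc_chart ↥O ({lg_lamE N'} : Set ↥(lg_E L N'))) ∈ y0 →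
      ∀ (lam' : fc_chart ↥O ({lg_lamE N'} : Set ↥(lg_E L N'))),
      (lam' : ↥(lg_E L N')) = lg_lamE N' → lam' ∉ y0 → lam' - 1 ∉ y0 →
      (∀ 𝔫' : Ideal (fc_chart ↥O ({lg_lamE (N' * q)} : Set ↥(lg_E L (N' * q)))), 𝔫'.IsPrime →
        𝔫'.comap φ1 = y0 →
        ¬ (ssm_tp_P (fc_chart ↥O ({lg_lamE (N' * q)} : Set ↥(lg_E L (N' * q))))
            (ssm_gl_V2 O hπ N' q hq2 hqN') ≤ 𝔫' ∧
          ssm_tp_P (fc_chart ↥O ({lg_lamE (N' * q)} : Set ↥(lg_E L (N' * q))))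
            (ssm_gl_V1 O hπ N' q) ≤ 𝔫')) →
      ∀ {S : Type} [CommRing S] [IsDomain S] [IsLocalRing S] [IsNoetherianRing S]
        [IsIntegrallyClosed S] [Algebra (fc_chart ↥O ({lg_lamE N'} : Set ↥(lg_E L N'))) S]
        [IsLocalization.AtPrime S y0] [Algebra S ↥(lg_E L N')]
        [IsScalarTower (fc_chart ↥O ({lg_lamE N'} : Set ↥(lg_E L N'))) S ↥(lg_E L N')]
        [IsFractionRing S ↥(lg_E L N')],
      letI := s36ch_algBeta L N' q hq2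
      ∀ [Algebra S ↥(lg_E L (N' * q))] [IsScalarTower S ↥(lg_E L N') ↥(lg_E L (N' * q))],
      ∃ (t' : fc_chart ↥O ({lg_lamE N'} : Set ↥(lg_E L N')))
        (u : fc_chart ↥O ({lg_lamE (N' * q)} : Set ↥(lg_E L (N' * q)))) (Gp : (↥O)[X]),
        s36oc_Hyp φ1 y0 S q
          (ssm_tp_P (fc_chart ↥O ({lg_lamE (N' * q)} : Set ↥(lg_E L (N' * q))))
            (ssm_gl_V2 O hπ N' q hq2 hqN'))
          (ssm_tp_P (fc_chart ↥O ({lg_lamE (N' * q)} : Set ↥(lg_E L (N' * q))))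
            (ssm_gl_V1 O hπ N' q))
          ((q : ℕ) : fc_chart ↥O ({lg_lamE N'} : Set ↥(lg_E L N'))) t' u ∧
        (u : ↥(lg_E L (N' * q))) = aeval (lg_lamE (N' * q)) Gp ∧
        aeval (lg_lamE (N' * q)) (derivative Gp) ∉ (ssm_gl_V1 O hπ N' q).nonunits)
    {VC : ValuationSubring ↥(lg_E L (N' * q * q))}
    (T3 : s36asm_Third O hπ N' q hq2 hqN' VC) :
    s36asm_cOrd O hπ N' q hq2 hqN' VC 1 := by
  intro 𝔫 h𝔫 hπ𝔫 hC hA hB hx0 hx1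
  left
  haveI h𝔫p : 𝔫.IsPrime := h𝔫.isPrime
  have hqO := ssm_fln_q_mem L O q
  have hq2' : q ≠ 2 := ssm_fl_ne_two q hq2
  have hp := ssm_ll_prime L N' hπ q hqO hq2' hqN' ζ hζ
  obtain ⟨H3, -, -, hWC, hWB1, hWB2⟩ := s36t3_leg_all_of O hπ N' q hq2 hqN' hp.1
    (s36t3_leg_third_conv O hπ N' q hq2 hqN' T3)
  have D := s36tri_legData_of_third' L O hπ N' q hq2 hqN' ζ hζ T3 hWB1 hWB2
  -- the third-valuation package
  letI a12 := ssm_gi_algebra (ssm_al_E_le L (N' * q) q)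
  letI aF := ssm_gi_algebraV (ssm_al_E_le L (N' * q) q) (ssm_gl_V1 O hπ N' q)
  haveI tF := ssm_gi_isScalarTower (ssm_al_E_le L (N' * q) q) (ssm_gl_V1 O hπ N' q)
  haveI fd2 : FiniteDimensional ↥(lg_E L (N' * q)) ↥(lg_E L (N' * q * q)) :=
    s36at_leg_fin1 (L := L) N' q hq2
  haveI sep2 : Algebra.IsSeparable ↥(lg_E L (N' * q)) ↥(lg_E L (N' * q * q)) := ssm_gi_isSeparable
  have T : s36t3_Third ↥(lg_E L (N' * q)) ↥(ssm_gl_V1 O hπ N' q) q (s36at_leg_piF O hπ N' q)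
      (s36asm_z (L := L) N' q hq2 hqN') (s36i_VA O hπ (N' * q) q) VC := T3
  -- the point below
  have hq𝔫 : ((q : ℕ) :
      fc_chart ↥O ({lg_lamE (N' * q * q)} : Set ↥(lg_E L (N' * q * q)))) ∈ 𝔫 := by
    have h := hπ𝔫
    rwa [map_natCast] at h
  obtain ⟨hmax, hqy0, hy0, hy1, hord⟩ := s36cn_below L O hπ N' q hq2 hqN' ζ hζ φ1 hφ1 hint1 hpow
    H3 T.overC
    (fun 𝔪 𝔪' h h' h1 h2 hc => s36tri_leg_unique L O N' q hq2 hqN' hπ ζ hζ D 𝔪 𝔪' h h' h1 h2 hc)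
    𝔫 h𝔫 hq𝔫 hC hB ⟨lg_lamE N', fc_x_mem_chart _⟩ rfl hx0 hx1
  -- the point `y0` of the level-`N'` chart and its local ring `S`
  haveI hy0p : ((𝔫.comap (s36tn_leg_iota O N' q)).comap φ1).IsPrime := hmax.isPrime
  haveI hfr0 : IsFractionRing ↥(fc_chart ↥O ({lg_lamE N'} : Set ↥(lg_E L N'))) ↥(lg_E L N') :=
    s36cp_chart_isFractionRing O (L := L) N'
  haveI := ssm_go_isScalarTower O (lg_E L N')
  have hx0' : Transcendental L (lg_lamE (L := L) N') := lgf_lam_transcendental L N' two_ne_zero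
  haveI : FiniteDimensional L⟮(lg_lamE (L := L) N')⟯ ↥(lg_E L N') := lgf_finite L N'
  haveI hno0 : IsNoetherianRing ↥(fc_chart ↥O ({lg_lamE N'} : Set ↥(lg_E L N'))) :=
    ssm_ths_chart_isNoetherianRing (A0 := ↥O) (L := L) hx0'
  haveI hic0 : IsIntegrallyClosed ↥(fc_chart ↥O ({lg_lamE N'} : Set ↥(lg_E L N'))) :=
    ssm_ths_chart_isIntegrallyClosed (A0 := ↥O) (L := L) _
  haveI hnoS := ssm_ths_isNoetherianRing ↥(lg_E L N') ((𝔫.comap (s36tn_leg_iota O N' q)).comap φ1)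
  haveI hicS := ssm_ths_isIntegrallyClosed ↥(lg_E L N') ((𝔫.comap (s36tn_leg_iota O N' q)).comap φ1)
  haveI hfrS := ssm_ths_isFractionRing ↥(lg_E L N') ((𝔫.comap (s36tn_leg_iota O N' q)).comap φ1)
  letI aβ := s36ch_algBeta L N' q hq2
  obtain ⟨t', u, Gp, H, huG, hGp'⟩ := HORD ((𝔫.comap (s36tn_leg_iota O N' q)).comap φ1) hmax hqy0 ⟨lg_lamE N', fc_x_mem_chart _⟩ rfl hy0 hy1
    hord (S := ↥(fc_locAt ↥(lg_E L N') ((𝔫.comap (s36tn_leg_iota O N' q)).comap φ1)))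
  have hπF : (((s36at_leg_piF O hπ N' q : ↥(ssm_gl_V1 O hπ N' q)) : ↥(lg_E L (N' * q))) :
      LaurentSeries L) = ((q : ℕ) : LaurentSeries L) := by
    show ((algebraMap L ↥(lg_E L (N' * q)) (algebraMap ↥O L ((q : ℕ) : ↥O)) :
      ↥(lg_E L (N' * q))) : LaurentSeries L) = _
    rw [map_natCast, map_natCast]
    rfl
  have hzl : ((s36asm_z (L := L) N' q hq2 hqN' : ↥(lg_E L (N' * q * q))) : LaurentSeries L) =
      qExpand L q (qExpand L q (lg_lam L)) - lg_lam L := by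
    unfold s36asm_z
    rw [AddSubgroupClass.coe_sub]
    rfl
  have key := s36cy_leg_point O N' q hq2 hqN' hπ (lgr_hram (N' * q) L).1 hp.1 φ1
    (S := ↥(fc_locAt ↥(lg_E L N') ((𝔫.comap (s36tn_leg_iota O N' q)).comap φ1))) ⟨lg_lamE N', fc_x_mem_chart _⟩ rfl hy0 hy1 (h0 ((𝔫.comap (s36tn_leg_iota O N' q)).comap φ1) hqy0) Gp H huG hGp'
    (πF := s36at_leg_piF O hπ N' q) (zl := s36asm_z (L := L) N' q hq2 hqN') hπF hzl
    T 𝔫 (Ideal.comap_comap φ1 (s36tn_leg_iota O N' q)).symm hC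
  exact key

end NFq

end Fermat.Agent.S36
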