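/-
Project S36 (Carayol), model cell [M2], leaf **[C-REG-INST]** = [L3b], LEGENDRE, [NF2-CTX] (helper2).
Prefix `s36cn_`.

`s36cn_cOrd_of_hord` : helper24's `s36asm_cOrd O hπ N' q hq2 hqN' VC 1` from `T3 : s36asm_Third … VC`
with ONE remaining input: the [ORD-G] export `HORD` for the closed `β`-chart map
`φ1 := s36cb_phiB O hπ N' q hq2 hqN' (s36cn_hprime …)` (helper27's CReg/BetaChart.lean).
Plugged here into `s36cn_cOrd_of` (CReg/PointNF.lean): `hφ1 := s36cb_phiB_algBeta`,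
`hint1 := s36cb_phiB_isIntegral`, `hpow := (s36cpw_nf_beta …).1` (helper8's CReg/CuspEisPow.lean),
`h0 := s36czs_h0` (helper29's CReg/PointLegS.lean).
-/
import Mathlib
import Fermat.Agent.S36.CReg.PointNF
import Fermat.Agent.S36.CReg.BetaChart
import Fermat.Agent.S36.CReg.CuspEisPow
import Fermat.Agent.S36.CReg.PointLegS

set_option autoImplicit false
set_option linter.unusedSectionVars false
set_option linter.unusedVariables false
set_option linter.style.haveILetI false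

noncomputable section

open ModularCurve AlgebraicCurve IntermediateField IsLocalRing Polynomial
open Fermat.Agent.JT3 Fermat.Agent.SS Fermat.Agent.S35

namespace Fermat.Agent.S36

section NFq

variable (L : Type) [Field L] [NumberField L] [Algebra L (AlgebraicClosure ℚ)]
  (O : ValuationSubring L) [IsDiscreteValuationRing O]
variable (N' q : ℕ) [NeZero N'] [NeZero q] [hq : Fact q.Prime] [CharP (ResidueField O) q]
  (hq2 : ¬ 2 ∣ q) (hqN' : ¬ q ∣ N') (hπ : Irreducible ((q : ℕ) : ↥O)) (ζ : L)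
  (hζ : IsPrimitiveRoot ζ N')

include hζ hq2 hqN' hπ in
/-- the level-`N'` primality input. -/
theorem s36cn_hprime :
    Prime (algebraMap ↥O (fc_chart ↥O ({lg_lamE N'} : Set ↥(lg_E L N'))) ((q : ℕ) : ↥O)) :=
  (ssm_ll_prime L N' hπ q (ssm_fln_q_mem L O q) (ssm_fl_ne_two q hq2) hqN' ζ hζ).1

include hζ in
set_option synthInstance.maxHeartbeats 400000 in
set_option maxHeartbeats 1600000 in
/-- **[L3b], Legendre tower**: `φ1 := s36cb_phiB` (helper27), `hpow` (helper8), `h0` (helper29) plugged;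
the ONLY remaining input is the [ORD-G] export `HORD`. -/
theorem s36cn_cOrd_of_hord
    (HORD : ∀ (y0 : Ideal (fc_chart ↥O ({lg_lamE N'} : Set ↥(lg_E L N')))) [y0.IsPrime],
      y0.IsMaximal → ((q : ℕ) : fc_chart ↥O ({lg_lamE N'} : Set ↥(lg_E L N'))) ∈ y0 →
      ∀ (lam' : fc_chart ↥O ({lg_lamE N'} : Set ↥(lg_E L N'))),
      (lam' : ↥(lg_E L N')) = lg_lamE N' → lam' ∉ y0 → lam' - 1 ∉ y0 →
      (∀ 𝔫' : Ideal (fc_chart ↥O ({lg_lamE (N' * q)} : Set ↥(lg_E L (N' * q)))), 𝔫'.IsPrime →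
        𝔫'.comap (s36cb_phiB O hπ N' q hq2 hqN' (s36cn_hprime L O N' q hq2 hqN' hπ ζ hζ)) = y0 →
        ¬ (ssm_tp_P (fc_chart ↥O ({lg_lamE (N' * q)} : Set ↥(lg_E L (N' * q))))
            (ssm_gl_V2 O hπ N' q hq2 hqN') ≤ 𝔫' ∧
          ssm_tp_P (fc_chart ↥O ({lg_lamE (N' * q)} : Set ↥(lg_E L (N' * q))))
            (ssm_gl_V1 O hπ N' q) ≤ 𝔫')) →
      ∀ {S : Type} [CommRing S] [IsDomain S] [IsLocalRing S] [IsNoetherianRing S]
        [IsIntegrallyClosed S] [Algebra (fc_chart ↥O ({lg_lamE N'} : Set ↥(lg_E L N'))) S]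
        [IsLocalization.AtPrime S y0] [Algebra S ↥(lg_E L N')]
        [IsScalarTower (fc_chart ↥O ({lg_lamE N'} : Set ↥(lg_E L N'))) S ↥(lg_E L N')]
        [IsFractionRing S ↥(lg_E L N')],
      letI := s36ch_algBeta L N' q hq2
      ∀ [Algebra S ↥(lg_E L (N' * q))] [IsScalarTower S ↥(lg_E L N') ↥(lg_E L (N' * q))],
      ∃ (t' : fc_chart ↥O ({lg_lamE N'} : Set ↥(lg_E L N')))
        (u : fc_chart ↥O ({lg_lamE (N' * q)} : Set ↥(lg_E L (N' * q)))) (Gp : (↥O)[X]),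
        s36oc_Hyp (s36cb_phiB O hπ N' q hq2 hqN' (s36cn_hprime L O N' q hq2 hqN' hπ ζ hζ)) y0 S q
          (ssm_tp_P (fc_chart ↥O ({lg_lamE (N' * q)} : Set ↥(lg_E L (N' * q))))
            (ssm_gl_V2 O hπ N' q hq2 hqN'))
          (ssm_tp_P (fc_chart ↥O ({lg_lamE (N' * q)} : Set ↥(lg_E L (N' * q))))
            (ssm_gl_V1 O hπ N' q))
          ((q : ℕ) : fc_chart ↥O ({lg_lamE N'} : Set ↥(lg_E L N'))) t' u ∧
        (u : ↥(lg_E L (N' * q))) = aeval (lg_lamE (N' * q)) Gp ∧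
        aeval (lg_lamE (N' * q)) (derivative Gp) ∉ (ssm_gl_V1 O hπ N' q).nonunits)
    {VC : ValuationSubring ↥(lg_E L (N' * q * q))}
    (T3 : s36asm_Third O hπ N' q hq2 hqN' VC) :
    s36asm_cOrd O hπ N' q hq2 hqN' VC 1 := by
  have hp1 := s36cn_hprime L O N' q hq2 hqN' hπ ζ hζ
  have hφ1 : letI := s36ch_algBeta L N' q hq2
      ∀ b' : fc_chart ↥O ({lg_lamE N'} : Set ↥(lg_E L N')),
        ((s36cb_phiB O hπ N' q hq2 hqN' hp1 b' :
          fc_chart ↥O ({lg_lamE (N' * q)} : Set ↥(lg_E L (N' * q)))) : ↥(lg_E L (N' * q))) =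
        algebraMap ↥(lg_E L N') ↥(lg_E L (N' * q)) (b' : ↥(lg_E L N')) :=
    fun b' => s36cb_phiB_algBeta O hπ N' q hq2 hqN' hp1 b'
  exact s36cn_cOrd_of L O N' q hq2 hqN' hπ ζ hζ (s36cb_phiB O hπ N' q hq2 hqN' hp1) hφ1
    (s36cb_phiB_isIntegral O hπ N' q hq2 hqN' hp1)
    (s36cpw_nf_beta L O hπ N' q hq2 hqN' ζ hζ _ hφ1).1
    (fun y0 _ hqy0 => s36czs_h0 L O N' q hq2 hqN' hπ ζ hζ y0 hqy0) HORD T3

end NFq

end Fermat.Agent.S36
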