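/-
Project S36 (Carayol), model cell [M2], leaf **[C-REG-INST]** = [L3b], LEGENDRE: THE CLOSED TERM
(helper2).  Prefix `s36cn_`.

`s36cn_cOrd : s36asm_cOrd O hπ N' q hq2 hqN' VC 1` from `T3 : s36asm_Third O hπ N' q hq2 hqN' VC` alone,
[NF2-CTX] (binders of helper1's `s36asm_Leaves4/5/6`): the NON-CUSP `C`-only closed points of the chart
`B_x = fc_chart O {λ}` of level `N' q q` are ONE-BRANCH points.
`= s36cn_cOrd_of_hord` (CReg/PointNFHord.lean) with `HORD := s36ol_hyp_of` (helper16's [ORD-G-INST],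
CReg/OrdGLegMain.lean) at `φ1 := s36cb_phiB` (helper27).
-/
import Mathlib
import Fermat.Agent.S36.CReg.PointNFHord
import Fermat.Agent.S36.CReg.OrdGLegMain

set_option autoImplicit false
set_option linter.unusedSectionVars false
set_option linter.unusedVariables false
set_option linter.style.haveILetI false

noncomputable section

open ModularCurve AlgebraicCurve IntermediateField IsLocalRing Polynomial
open Fermat.Agent.JT3 Fermat.Agent.SS Fermat.Agent.S35

namespace Fermat.Agent.S36

section NFq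

variable (L : Type) [Field L] [NumberField L] [Algebra L (AlgebraicClosure ℚ)]
  (O : ValuationSubring L) [IsDiscreteValuationRing O]
variable (N' q : ℕ) [NeZero N'] [NeZero q] [hq : Fact q.Prime] [CharP (ResidueField O) q]
  (hq2 : ¬ 2 ∣ q) (hqN' : ¬ q ∣ N') (hπ : Irreducible ((q : ℕ) : ↥O)) (ζ : L)
  (hζ : IsPrimitiveRoot ζ N')

include hζ in
set_option synthInstance.maxHeartbeats 400000 in
set_option maxHeartbeats 1600000 in
/-- **[L3b], Legendre tower, CLOSED**: the non-cusp `C`-only points are one-branch points. -/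
theorem s36cn_cOrd {VC : ValuationSubring ↥(lg_E L (N' * q * q))}
    (T3 : s36asm_Third O hπ N' q hq2 hqN' VC) :
    s36asm_cOrd O hπ N' q hq2 hqN' VC 1 := by
  refine s36cn_cOrd_of_hord L O N' q hq2 hqN' hπ ζ hζ ?_ T3
  intro y0 _ hmax hqy lam' hlam h0 h1 hord S _ _ _ _ _ _ _ _ _ _ _ _
  haveI := hmax
  exact s36ol_hyp_of L O N' q hq2 hqN' hπ ζ hζ _
    (fun b' => s36cb_phiB_beta O hπ N' q hq2 hqN' (s36cn_hprime L O N' q hq2 hqN' hπ ζ hζ) b')
    y0 hqy lam' hlam h0 h1 hord S

end NFq

end Fermat.Agent.S36
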