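/-
Project S36, model cell [M2], leaf **[C-CUSP-EIS]** / [L3c], item (9) of the numbered input list
(helper27).  Prefix `s36cel_` (continuation of `CReg/CuspEisInputsLeg.lean`).

THE ELEMENT `e'` OF THE CUSP INSTANCE, IN THE SPELLING OF THE CLOSED CHART MAPS
`φA = s36cb_phiA`, `φB = s36cb_phiB` (`CReg/BetaChart.lean`) AND OF helper23's CUSP COORDINATE
`y0 : B0`, `(y0 : E0) = λ₀ - c` (`c = 0 ∨ c = 1`; `(y0 : E0) = λ₀⁻¹` at infinity):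

  `∃ e' : B1, e' * φA y0 = (φB y0) ^ q ∧ e' - 1 ∈ P_VV ∧ (∀ 𝔞 ⊇ P_VF, φA y0 ∈ 𝔞 → e' ∈ 𝔞) ∧ φA y0 ∉ P_VF`

= the hypotheses `xc := φA y0`, `xc0 := y0`, `e'`, `hrel`, `he'1`, `he'n`, `hxcP2` of
`s36cfl_leg_point` / `s36cf_oneBranch_fin3` / `s36cf_oneBranch_loc`.

* `s36cel_ephi`    : chart `B_λ`, `c = 0 ∨ c = 1`;
* `s36cel_ephiInf` : chart `B_{λ⁻¹}`;
* `s36cel_phiA_y0`, `s36cel_phiA_y0Inf` : `(φA y0 : E1) = λ₁ - c` resp. `λ₁⁻¹`, and the membership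
  transfer `φA y0 ∈ 𝔞 ↔ ⟨λ₁,_⟩ - c ∈ 𝔞`.
-/
import Mathlib
import Fermat.Agent.S36.CReg.BetaChart

set_option autoImplicit false
set_option linter.unusedSectionVars false
set_option linter.unusedVariables false
set_option linter.style.haveILetI false

noncomputable section

namespace Fermat.Agent.S36

open Fermat.Agent.SS Fermat.Agent.JT3 IsLocalRing ModularCurve IntermediateField

section Leg

variable {L : Type*} [Field L] [CharZero L] [Algebra L (AlgebraicClosure ℚ)]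
  (O : ValuationSubring L) [IsDiscreteValuationRing O] {π : O} (hπ : Irreducible π)
variable (N' q : ℕ) [NeZero N'] [NeZero q] [hq : Fact q.Prime] [CharP (ResidueField O) q]
  (hq2 : ¬ 2 ∣ q) (hqN' : ¬ q ∣ N')

/-- `φA y0 = ⟨λ₁,_⟩ - c` for a cusp coordinate `y0` with `(y0 : E0) = λ₀ - c`. -/
theorem s36cel_phiA_y0 (c : ↥O)
    (y0 : fc_chart ↥O ({lg_lamE N'} : Set ↥(lg_E L N')))
    (hy0 : (y0 : ↥(lg_E L N')) = lg_lamE N' - algebraMap ↥O ↥(lg_E L N') c) :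
    s36cb_phiA O N' q y0 =
      ⟨lg_lamE (N' * q), fc_x_mem_chart _⟩ -
        algebraMap ↥O (fc_chart ↥O ({lg_lamE (N' * q)} : Set ↥(lg_E L (N' * q)))) c := by
  have e : y0 = ⟨lg_lamE N', fc_x_mem_chart _⟩ -
      algebraMap ↥O (fc_chart ↥O ({lg_lamE N'} : Set ↥(lg_E L N'))) c := by
    apply Subtype.ext
    rw [hy0]
    rfl
  rw [e, map_sub, s36cb_phiA_lam, s36cb_phiA_algebraMap]

/-- `φB y0 = ⟨W λ₁,_⟩ - c`, on coordinates. -/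
theorem s36cel_phiB_y0
    (hprime : Prime (algebraMap ↥O (fc_chart ↥O ({lg_lamE N'} : Set ↥(lg_E L N'))) π)) (c : ↥O)
    (y0 : fc_chart ↥O ({lg_lamE N'} : Set ↥(lg_E L N')))
    (hy0 : (y0 : ↥(lg_E L N')) = lg_lamE N' - algebraMap ↥O ↥(lg_E L N') c) :
    ((s36cb_phiB O hπ N' q hq2 hqN' hprime y0 :
      fc_chart ↥O ({lg_lamE (N' * q)} : Set ↥(lg_E L (N' * q)))) : ↥(lg_E L (N' * q))) =
      ssm_gl_W L N' q hq2 hqN' (lg_lamE (N' * q)) - algebraMap ↥O ↥(lg_E L (N' * q)) c := by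
  have e : y0 = ⟨lg_lamE N', fc_x_mem_chart _⟩ -
      algebraMap ↥O (fc_chart ↥O ({lg_lamE N'} : Set ↥(lg_E L N'))) c := by
    apply Subtype.ext
    rw [hy0]
    rfl
  rw [e, map_sub, s36cb_phiB_algebraMap, AddSubgroupClass.coe_sub, s36cb_phiB_lam]
  rfl

set_option synthInstance.maxHeartbeats 200000 in
/-- **(9) on the chart `B_λ`**, `c = 0 ∨ c = 1`. -/
theorem s36cel_ephi
    (hprime : Prime (algebraMap ↥O (fc_chart ↥O ({lg_lamE N'} : Set ↥(lg_E L N'))) π))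
    (c : ↥O) (hc : c = 0 ∨ c = 1)
    (y0 : fc_chart ↥O ({lg_lamE N'} : Set ↥(lg_E L N')))
    (hy0 : (y0 : ↥(lg_E L N')) = lg_lamE N' - algebraMap ↥O ↥(lg_E L N') c) :
    ∃ e' : fc_chart ↥O ({lg_lamE (N' * q)} : Set ↥(lg_E L (N' * q))),
      e' * s36cb_phiA O N' q y0 = (s36cb_phiB O hπ N' q hq2 hqN' hprime y0) ^ q ∧
      e' - 1 ∈ ssm_tp_P (fc_chart ↥O ({lg_lamE (N' * q)} : Set ↥(lg_E L (N' * q))))
        (ssm_gl_V2 O hπ N' q hq2 hqN') ∧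
      (∀ 𝔞 : Ideal (fc_chart ↥O ({lg_lamE (N' * q)} : Set ↥(lg_E L (N' * q)))),
        ssm_tp_P (fc_chart ↥O ({lg_lamE (N' * q)} : Set ↥(lg_E L (N' * q))))
          (ssm_gl_V1 O hπ N' q) ≤ 𝔞 → s36cb_phiA O N' q y0 ∈ 𝔞 → e' ∈ 𝔞) ∧
      s36cb_phiA O N' q y0 ∉
        ssm_tp_P (fc_chart ↥O ({lg_lamE (N' * q)} : Set ↥(lg_E L (N' * q))))
          (ssm_gl_V1 O hπ N' q) := by
  haveI := ssm_go_isScalarTower O (lg_E L (N' * q))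
  have H := ssm_gl_hyp O hπ N' q hq2 hqN' hprime
  have hx : Transcendental L (lg_lamE (L := L) (N' * q)) :=
    lgf_lam_transcendental L (N' * q) two_ne_zero
  have hxA : Transcendental ↥O (lg_lamE (L := L) (N' * q)) := fc_ff_transcendental (L := L) hx
  obtain ⟨le1, -⟩ := s36cel_chart_le O hπ N' q hq2 hqN' hprime
  have hA := s36cel_phiA_y0 O N' q c y0 hy0
  have hB := s36cel_phiB_y0 O hπ N' q hq2 hqN' hprime c y0 hy0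
  have hunit : s36cb_phiA O N' q y0 ∉
      ssm_tp_P (fc_chart ↥O ({lg_lamE (N' * q)} : Set ↥(lg_E L (N' * q))))
        (ssm_gl_V1 O hπ N' q) := by
    rw [ssm_tp_mem_P le1, hA]
    exact (ssm_i1_linear_not_mem hπ hxA H.over1 c).2
  rcases hc with rfl | rfl
  · obtain ⟨x1, e', hx1, h1, h2, -, h4⟩ := s36cel_e0 O hπ N' q hq2 hqN' hprime
    have eA : s36cb_phiA O N' q y0 = ⟨lg_lamE (N' * q), fc_x_mem_chart _⟩ := by
      rw [hA, map_zero, sub_zero]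
    have eB : s36cb_phiB O hπ N' q hq2 hqN' hprime y0 = x1 := by
      apply Subtype.ext
      rw [hB, hx1, map_zero, sub_zero]
    refine ⟨e', ?_, h2, ?_, hunit⟩
    · rw [eA, eB]
      exact h1
    · intro 𝔞 h𝔞 hm
      rw [eA] at hm
      exact h4 𝔞 h𝔞 hm
  · obtain ⟨x1, e', hx1, h1, h2, -, h4⟩ := s36cel_e1 O hπ N' q hq2 hqN' hprime
    have eA : s36cb_phiA O N' q y0 = ⟨lg_lamE (N' * q), fc_x_mem_chart _⟩ - 1 := by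
      rw [hA, map_one]
    have eB : s36cb_phiB O hπ N' q hq2 hqN' hprime y0 = x1 := by
      apply Subtype.ext
      rw [hB, hx1, map_one]
    refine ⟨e', ?_, h2, ?_, hunit⟩
    · rw [eA, eB]
      exact h1
    · intro 𝔞 h𝔞 hm
      rw [eA] at hm
      exact h4 𝔞 h𝔞 hm

/-- `φAInv y0 = ⟨λ₁⁻¹,_⟩` for the cusp coordinate at infinity. -/
theorem s36cel_phiA_y0Inf
    (y0 : fc_chart ↥O ({(lg_lamE N')⁻¹} : Set ↥(lg_E L N')))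
    (hy0 : (y0 : ↥(lg_E L N')) = (lg_lamE N')⁻¹) :
    s36cb_phiAInv O N' q y0 = ⟨(lg_lamE (N' * q))⁻¹, fc_x_mem_chart _⟩ := by
  have e : y0 = ⟨(lg_lamE N')⁻¹, fc_x_mem_chart _⟩ := Subtype.ext hy0
  rw [e, s36cb_phiAInv_lam]

/-- `φBInv y0 = ⟨(W λ₁)⁻¹,_⟩`, on coordinates. -/
theorem s36cel_phiB_y0Inf
    (hprime : Prime (algebraMap ↥O (fc_chart ↥O ({lg_lamE N'} : Set ↥(lg_E L N'))) π))
    (y0 : fc_chart ↥O ({(lg_lamE N')⁻¹} : Set ↥(lg_E L N')))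
    (hy0 : (y0 : ↥(lg_E L N')) = (lg_lamE N')⁻¹) :
    ((s36cb_phiBInv O hπ N' q hq2 hqN' hprime y0 :
      fc_chart ↥O ({(lg_lamE (N' * q))⁻¹} : Set ↥(lg_E L (N' * q)))) : ↥(lg_E L (N' * q))) =
      (ssm_gl_W L N' q hq2 hqN' (lg_lamE (N' * q)))⁻¹ := by
  have e : y0 = ⟨(lg_lamE N')⁻¹, fc_x_mem_chart _⟩ := Subtype.ext hy0
  rw [e, s36cb_phiBInv_lam]

set_option synthInstance.maxHeartbeats 200000 in
/-- **(9) on the chart `B_{λ⁻¹}`.** -/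
theorem s36cel_ephiInf
    (hprime : Prime (algebraMap ↥O (fc_chart ↥O ({lg_lamE N'} : Set ↥(lg_E L N'))) π))
    (y0 : fc_chart ↥O ({(lg_lamE N')⁻¹} : Set ↥(lg_E L N')))
    (hy0 : (y0 : ↥(lg_E L N')) = (lg_lamE N')⁻¹) :
    ∃ e' : fc_chart ↥O ({(lg_lamE (N' * q))⁻¹} : Set ↥(lg_E L (N' * q))),
      e' * s36cb_phiAInv O N' q y0 = (s36cb_phiBInv O hπ N' q hq2 hqN' hprime y0) ^ q ∧
      e' - 1 ∈ ssm_tp_P (fc_chart ↥O ({(lg_lamE (N' * q))⁻¹} : Set ↥(lg_E L (N' * q))))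
        (ssm_gl_V2 O hπ N' q hq2 hqN') ∧
      (∀ 𝔞 : Ideal (fc_chart ↥O ({(lg_lamE (N' * q))⁻¹} : Set ↥(lg_E L (N' * q)))),
        ssm_tp_P (fc_chart ↥O ({(lg_lamE (N' * q))⁻¹} : Set ↥(lg_E L (N' * q))))
          (ssm_gl_V1 O hπ N' q) ≤ 𝔞 → s36cb_phiAInv O N' q y0 ∈ 𝔞 → e' ∈ 𝔞) ∧
      s36cb_phiAInv O N' q y0 ∉
        ssm_tp_P (fc_chart ↥O ({(lg_lamE (N' * q))⁻¹} : Set ↥(lg_E L (N' * q))))
          (ssm_gl_V1 O hπ N' q) := by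
  haveI := ssm_go_isScalarTower O (lg_E L (N' * q))
  haveI : FiniteDimensional L⟮(lg_lamE (N' * q) : lg_E L (N' * q))⟯ ↥(lg_E L (N' * q)) :=
    lgf_finite L (N' * q)
  have H := ssm_gl_hyp O hπ N' q hq2 hqN' hprime
  have hx : Transcendental L (lg_lamE (L := L) (N' * q)) :=
    lgf_lam_transcendental L (N' * q) two_ne_zero
  obtain ⟨le1, -, hμ1⟩ := ssm_inf_ff_le (L := L) hπ hx H
  have eA := s36cel_phiA_y0Inf O N' q y0 hy0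
  have hB := s36cel_phiB_y0Inf O hπ N' q hq2 hqN' hprime y0 hy0
  obtain ⟨x1, e', hx1, h1, h2, -, h4⟩ := s36cel_eInf O hπ N' q hq2 hqN' hprime
  have eB : s36cb_phiBInv O hπ N' q hq2 hqN' hprime y0 = x1 := by
    apply Subtype.ext
    rw [hB, hx1]
  refine ⟨e', ?_, h2, ?_, ?_⟩
  · rw [eA, eB]
    exact h1
  · intro 𝔞 h𝔞 hm
    rw [eA] at hm
    exact h4 𝔞 h𝔞 hm
  · rw [eA, ssm_tp_mem_P le1]
    exact hμ1

/-- the canonical cusp coordinate `⟨λ₀,_⟩ - c` has the coordinates required by `hy0`. -/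
theorem s36cel_y0_coe (c : ↥O) :
    (((⟨lg_lamE N', fc_x_mem_chart _⟩ : fc_chart ↥O ({lg_lamE N'} : Set ↥(lg_E L N'))) -
        algebraMap ↥O (fc_chart ↥O ({lg_lamE N'} : Set ↥(lg_E L N'))) c :
      fc_chart ↥O ({lg_lamE N'} : Set ↥(lg_E L N'))) : ↥(lg_E L N')) =
      lg_lamE N' - algebraMap ↥O ↥(lg_E L N') c := rfl

/-- at `c = 0`: `φA y0 ∈ 𝔞 ↔ ⟨λ₁,_⟩ ∈ 𝔞` (the output spelling of `s36cel_yF0`). -/
theorem s36cel_phiA_y0_mem0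
    (y0 : fc_chart ↥O ({lg_lamE N'} : Set ↥(lg_E L N')))
    (hy0 : (y0 : ↥(lg_E L N')) = lg_lamE N' - algebraMap ↥O ↥(lg_E L N') 0)
    (𝔞 : Ideal (fc_chart ↥O ({lg_lamE (N' * q)} : Set ↥(lg_E L (N' * q))))) :
    s36cb_phiA O N' q y0 ∈ 𝔞 ↔
      (⟨lg_lamE (N' * q), fc_x_mem_chart _⟩ :
        fc_chart ↥O ({lg_lamE (N' * q)} : Set ↥(lg_E L (N' * q)))) ∈ 𝔞 := by
  rw [s36cel_phiA_y0 O N' q 0 y0 hy0, map_zero, sub_zero]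

/-- at `c = 1`: `φA y0 ∈ 𝔞 ↔ ⟨λ₁,_⟩ - 1 ∈ 𝔞` (the output spelling of `s36cel_yF1`). -/
theorem s36cel_phiA_y0_mem1
    (y0 : fc_chart ↥O ({lg_lamE N'} : Set ↥(lg_E L N')))
    (hy0 : (y0 : ↥(lg_E L N')) = lg_lamE N' - algebraMap ↥O ↥(lg_E L N') 1)
    (𝔞 : Ideal (fc_chart ↥O ({lg_lamE (N' * q)} : Set ↥(lg_E L (N' * q))))) :
    s36cb_phiA O N' q y0 ∈ 𝔞 ↔
      (⟨lg_lamE (N' * q), fc_x_mem_chart _⟩ :
        fc_chart ↥O ({lg_lamE (N' * q)} : Set ↥(lg_E L (N' * q)))) - 1 ∈ 𝔞 := by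
  rw [s36cel_phiA_y0 O N' q 1 y0 hy0, map_one]

/-- at infinity: `φAInv y0 ∈ 𝔞 ↔ ⟨λ₁⁻¹,_⟩ ∈ 𝔞` (the output spelling of `s36cel_yFInf`). -/
theorem s36cel_phiA_y0_memInf
    (y0 : fc_chart ↥O ({(lg_lamE N')⁻¹} : Set ↥(lg_E L N')))
    (hy0 : (y0 : ↥(lg_E L N')) = (lg_lamE N')⁻¹)
    (𝔞 : Ideal (fc_chart ↥O ({(lg_lamE (N' * q))⁻¹} : Set ↥(lg_E L (N' * q))))) :
    s36cb_phiAInv O N' q y0 ∈ 𝔞 ↔
      (⟨(lg_lamE (N' * q))⁻¹, fc_x_mem_chart _⟩ :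
        fc_chart ↥O ({(lg_lamE (N' * q))⁻¹} : Set ↥(lg_E L (N' * q)))) ∈ 𝔞 := by
  rw [s36cel_phiA_y0Inf O N' q y0 hy0]

end Leg

end Fermat.Agent.S36
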