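/-
Project S36 (Carayol), model cell [M2], leaf **[C-CUSP-EIS]** = [L3c], LEGENDRE INSTANCE, LAYER 2
(helper15).  Prefix `s36cfl_`.

The closed producers of helper24's targets `s36asm_cCusp0`, `s36asm_cCusp1`
(Model/AsmLegPtsCSplit.lean) MODULO the cusp data (R1)+(R2)+(T2) of helper23 / helper6
(`s36cfl_R12` = the conclusion of `s36ct_si_r2`, CuspTrans/T2Inst.lean, VERBATIM).

* `s36cfl_R12 π q φA φB 𝔫 y' y''` : the conclusion of `s36ct_si_r2` as a `Prop`;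
* `s36cfl_cusp_core` : layer 1 (`s36cfl_leg_point`) with `φ1 := s36cb_phiB` (helper27), `hpow`
  (helper8), `H3` (helper29 / helper1), `y0 := (𝔫 ∩ B₁) ∩ B'`, `u := φA t₀`, `xc := φA y'`,
  `xc0 := y'` plugged;
* `s36cfl_cusp0_of`, `s36cfl_cusp1_of` : `s36asm_cCusp0/1 O hπ N' q hq2 hqN' VC 1` from the cusp
  data at the points `𝔫 ∩ B₁` ((i1), (i4) of helper27 plugged).
-/
import Mathlib
import Fermat.Agent.S36.CReg.CuspEisLeg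
import Fermat.Agent.S36.CReg.BetaChart
import Fermat.Agent.S36.CReg.CuspEisPow
import Fermat.Agent.S36.CReg.CuspEisInputsLeg
import Fermat.Agent.S36.Model.AsmLegLast

set_option autoImplicit false
set_option linter.unusedSectionVars false
set_option linter.unusedVariables false
set_option linter.style.haveILetI false

noncomputable section

open ModularCurve IntermediateField IsLocalRing Polynomial
open Fermat.Agent.JT3 Fermat.Agent.SS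

namespace Fermat.Agent.S36

/-- **the cusp data (R1) + (R2) + (T2)** at a point `𝔫` of a chart `B1` with the two chart maps
`φA φB : B0 → B1` (= the conclusion of helper23's `s36ct_si_r2`, VERBATIM). -/
def s36cfl_R12 {A0 B0 B1 : Type*} [CommRing A0] [CommRing B0] [CommRing B1] [Algebra A0 B0]
    [Algebra A0 B1] (π : A0) (q : ℕ) (φA φB : B0 →+* B1) (𝔫 : Ideal B1) (y' y'' : B0) : Prop :=
  ∃ t0 t1 : B0,
    tq_GenBy (algebraMap A0 B0 π) t0 (𝔫.comap φA) ∧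
    tq_Dom t0 (𝔫.comap φA) ∧
    (∃ (e : ℕ) (s w : B0), 0 < e ∧ s ∉ 𝔫.comap φA ∧ w ∉ 𝔫.comap φA ∧ s * y' = w * t0 ^ e) ∧
    tq_GenBy (algebraMap A0 B1 π) (φA t0) 𝔫 ∧
    tq_Dom (algebraMap A0 B1 π) 𝔫 ∧
    tq_Dom (φA t0) 𝔫 ∧
    (∃ (e : ℕ) (s w : B1), 0 < e ∧ s ∉ 𝔫 ∧ w ∉ 𝔫 ∧ s * φA y' = w * φA t0 ^ e) ∧
    tq_GenBy (algebraMap A0 B0 π) t1 (𝔫.comap φB) ∧
    tq_Dom t1 (𝔫.comap φB) ∧
    (∃ (e : ℕ) (s w : B0), 0 < e ∧ s ∉ 𝔫.comap φB ∧ w ∉ 𝔫.comap φB ∧ s * y'' = w * t1 ^ e) ∧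
    ∃ s w : B1, s ∉ 𝔫 ∧ w ∉ 𝔫 ∧ s * φB t1 = w * φA t0 ^ q

section Leg

variable {L : Type*} [Field L] [CharZero L] [Algebra L (AlgebraicClosure ℚ)]
  (O : ValuationSubring L) [IsDiscreteValuationRing O] {π : O} (hπ : Irreducible π)
variable (N' q : ℕ) [NeZero N'] [NeZero q] [hq : Fact q.Prime] [CharP (ResidueField O) q]
  (hq2 : ¬ 2 ∣ q) (hqN' : ¬ q ∣ N')

set_option synthInstance.maxHeartbeats 200000 in
set_option maxHeartbeats 1600000 in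
/-- **[L3c], Legendre tower, the point-level core** (chart `{λ}`): a C-only closed point `𝔫` of
`B₂` whose trace on `B₁` lies on `VF` and contains `φA y'`, with the Eisenstein datum `e'` of `y'`
and the cusp data at `𝔫 ∩ B₁`. -/
theorem s36cfl_cusp_core (u0 : ↥O) (hu0 : IsUnit u0) (hqu : ((q : ℕ) : ↥O) = π * u0)
    (hprime : Prime (algebraMap ↥O (fc_chart ↥O ({lg_lamE N'} : Set ↥(lg_E L N'))) π))
    (hic : IsIntegrallyClosed (fc_chart ↥O ({lg_lamE N'} : Set ↥(lg_E L N')) ⧸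
      (Ideal.span {algebraMap ↥O (fc_chart ↥O ({lg_lamE N'} : Set ↥(lg_E L N'))) π} :
        Ideal (fc_chart ↥O ({lg_lamE N'} : Set ↥(lg_E L N'))))))
    {VC : ValuationSubring ↥(lg_E L (N' * q * q))}
    (T3 : s36asm_Third O hπ N' q hq2 hqN' VC)
    (y' : fc_chart ↥O ({lg_lamE N'} : Set ↥(lg_E L N')))
    (e' : fc_chart ↥O ({lg_lamE (N' * q)} : Set ↥(lg_E L (N' * q))))
    (hrel : e' * s36cb_phiA O N' q y' = (s36cb_phiB O hπ N' q hq2 hqN' hprime y') ^ q)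
    (he'1 : e' - 1 ∈ ssm_tp_P (fc_chart ↥O ({lg_lamE (N' * q)} : Set ↥(lg_E L (N' * q))))
      (ssm_gl_V2 O hπ N' q hq2 hqN'))
    (he'n : ∀ 𝔞 : Ideal (fc_chart ↥O ({lg_lamE (N' * q)} : Set ↥(lg_E L (N' * q)))),
      ssm_tp_P (fc_chart ↥O ({lg_lamE (N' * q)} : Set ↥(lg_E L (N' * q))))
        (ssm_gl_V1 O hπ N' q) ≤ 𝔞 → s36cb_phiA O N' q y' ∈ 𝔞 → e' ∈ 𝔞)
    (hxcP2 : s36cb_phiA O N' q y' ∉
      ssm_tp_P (fc_chart ↥O ({lg_lamE (N' * q)} : Set ↥(lg_E L (N' * q)))) (ssm_gl_V1 O hπ N' q))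
    (𝔫 : Ideal (fc_chart ↥O ({lg_lamE (N' * q * q)} : Set ↥(lg_E L (N' * q * q)))))
    (h𝔫 : 𝔫.IsMaximal)
    (hπ𝔫 : algebraMap ↥O
      (fc_chart ↥O ({lg_lamE (N' * q * q)} : Set ↥(lg_E L (N' * q * q)))) π ∈ 𝔫)
    (hC : ssm_tp_P (fc_chart ↥O ({lg_lamE (N' * q * q)} : Set ↥(lg_E L (N' * q * q)))) VC ≤ 𝔫)
    (hA : ¬ ssm_tp_P (fc_chart ↥O ({lg_lamE (N' * q * q)} : Set ↥(lg_E L (N' * q * q))))
      (s36i_VA O hπ (N' * q) q) ≤ 𝔫)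
    (hB : ¬ ssm_tp_P (fc_chart ↥O ({lg_lamE (N' * q * q)} : Set ↥(lg_E L (N' * q * q))))
      (s36i_VB O hπ N' q hq2 hqN') ≤ 𝔫)
    (hF1 : ssm_tp_P (fc_chart ↥O ({lg_lamE (N' * q)} : Set ↥(lg_E L (N' * q))))
      (ssm_gl_V1 O hπ N' q) ≤ 𝔫.comap (s36tn_leg_iota O N' q))
    (hy𝔫 : s36cb_phiA O N' q y' ∈ 𝔫.comap (s36tn_leg_iota O N' q))
    (hR : s36cfl_R12 π q (s36cb_phiA O N' q) (s36cb_phiB O hπ N' q hq2 hqN' hprime)
      (𝔫.comap (s36tn_leg_iota O N' q)) y' y') :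
    haveI := s36cp_chart_isFractionRing O (N' * q * q)
    haveI := h𝔫.isPrime
    s36g_PtOne π q
      (fc_chart ↥O ({lg_lamE (N' * q * q)} : Set ↥(lg_E L (N' * q * q)))) 𝔫 := by
  haveI := h𝔫.isPrime
  obtain ⟨t0, t1, -, -, -, g1, dπ, du, r1, g2, -, ⟨e2, s2, w2, -, hs2, hw2, h2⟩, t2⟩ := hR
  obtain ⟨-, H3, -⟩ := s36asm_all_of_third O hπ N' q hq2 hqN' hprime T3
  obtain ⟨hpow, -, -, -⟩ := s36cpw_leg O hπ N' q hq2 hqN' hprime hic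
    (s36cb_phiB O hπ N' q hq2 hqN' hprime) (s36cb_phiB_coe O hπ N' q hq2 hqN' hprime)
  have hmax1 : (𝔫.comap (s36tn_leg_iota O N' q)).IsMaximal :=
    ssm_cp_comap_isMaximal _ (s36tn_leg_iota_isIntegral O N' q) 𝔫 h𝔫
  have hmax0 : ((𝔫.comap (s36tn_leg_iota O N' q)).comap
      (s36cb_phiB O hπ N' q hq2 hqN' hprime)).IsMaximal :=
    ssm_cp_comap_isMaximal _ (s36cb_phiB_isIntegral O hπ N' q hq2 hqN' hprime) _ hmax1
  haveI := hmax0.isPrime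
  have hπy0 : algebraMap ↥O (fc_chart ↥O ({lg_lamE N'} : Set ↥(lg_E L N'))) π ∈
      (𝔫.comap (s36tn_leg_iota O N' q)).comap (s36cb_phiB O hπ N' q hq2 hqN' hprime) := by
    rw [Ideal.mem_comap, Ideal.mem_comap, s36cb_phiB_algebraMap, s36tn_leg_iota_algebraMap]
    exact hπ𝔫
  exact s36cfl_leg_point O hπ N' q hq2 hqN' u0 hu0 hqu hprime
    (s36cb_phiB O hπ N' q hq2 hqN' hprime) (s36cb_phiB_beta O hπ N' q hq2 hqN' hprime)
    (s36cb_phiB_algebraMap O hπ N' q hq2 hqN' hprime π)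
    (s36cb_phiB_isIntegral O hπ N' q hq2 hqN' hprime) hmax0 hπy0 hpow g2 T3 H3 𝔫 rfl hC hA hB
    g1 dπ du (s36cb_phiA O N' q y') e' y' hrel he'1 (he'n _ hF1 hy𝔫) hxcP2 r1
    ⟨e2, s2, w2, hs2, hw2, h2⟩ t2

include hq2 hqN' in
/-- `λ₁ - c` is not in the `VF`-prime of the level-`N' q` chart (`c = 0, 1`). -/
theorem s36cfl_lam_not_mem
    (hprime : Prime (algebraMap ↥O (fc_chart ↥O ({lg_lamE N'} : Set ↥(lg_E L N'))) π)) :
    (⟨lg_lamE (N' * q), fc_x_mem_chart _⟩ :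
      fc_chart ↥O ({lg_lamE (N' * q)} : Set ↥(lg_E L (N' * q)))) ∉
        ssm_tp_P (fc_chart ↥O ({lg_lamE (N' * q)} : Set ↥(lg_E L (N' * q))))
          (ssm_gl_V1 O hπ N' q) ∧
    (⟨lg_lamE (N' * q), fc_x_mem_chart _⟩ :
      fc_chart ↥O ({lg_lamE (N' * q)} : Set ↥(lg_E L (N' * q)))) - 1 ∉
        ssm_tp_P (fc_chart ↥O ({lg_lamE (N' * q)} : Set ↥(lg_E L (N' * q))))
          (ssm_gl_V1 O hπ N' q) := by
  haveI := ssm_go_isScalarTower O (lg_E L (N' * q))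
  have H := ssm_gl_hyp O hπ N' q hq2 hqN' hprime
  have hx : Transcendental L (lg_lamE (L := L) (N' * q)) :=
    lgf_lam_transcendental L (N' * q) two_ne_zero
  have hxA : Transcendental ↥O (lg_lamE (L := L) (N' * q)) := fc_ff_transcendental (L := L) hx
  obtain ⟨le1, -⟩ := s36cel_chart_le O hπ N' q hq2 hqN' hprime
  constructor
  · rw [ssm_tp_mem_P le1]
    have h := (ssm_i1_linear_not_mem hπ hxA H.over1 0).2
    rwa [map_zero, sub_zero] at h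
  · rw [ssm_tp_mem_P le1]
    have h := (ssm_i1_linear_not_mem hπ hxA H.over1 1).2
    rwa [map_one] at h

set_option synthInstance.maxHeartbeats 200000 in
set_option maxHeartbeats 800000 in
/-- **[L3c] at the cusp `λ = 0` of the component `C`**, modulo the cusp data. -/
theorem s36cfl_cusp0_of (u0 : ↥O) (hu0 : IsUnit u0) (hqu : ((q : ℕ) : ↥O) = π * u0)
    (hprime : Prime (algebraMap ↥O (fc_chart ↥O ({lg_lamE N'} : Set ↥(lg_E L N'))) π))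
    (hic : IsIntegrallyClosed (fc_chart ↥O ({lg_lamE N'} : Set ↥(lg_E L N')) ⧸
      (Ideal.span {algebraMap ↥O (fc_chart ↥O ({lg_lamE N'} : Set ↥(lg_E L N'))) π} :
        Ideal (fc_chart ↥O ({lg_lamE N'} : Set ↥(lg_E L N'))))))
    {VC : ValuationSubring ↥(lg_E L (N' * q * q))}
    (T3 : s36asm_Third O hπ N' q hq2 hqN' VC)
    (hR : ∀ 𝔫1 : Ideal (fc_chart ↥O ({lg_lamE (N' * q)} : Set ↥(lg_E L (N' * q)))),
      𝔫1.IsMaximal →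
      algebraMap ↥O (fc_chart ↥O ({lg_lamE (N' * q)} : Set ↥(lg_E L (N' * q)))) π ∈ 𝔫1 →
      ssm_tp_P (fc_chart ↥O ({lg_lamE (N' * q)} : Set ↥(lg_E L (N' * q))))
        (ssm_gl_V1 O hπ N' q) ≤ 𝔫1 →
      ¬ ssm_tp_P (fc_chart ↥O ({lg_lamE (N' * q)} : Set ↥(lg_E L (N' * q))))
        (ssm_gl_V2 O hπ N' q hq2 hqN') ≤ 𝔫1 →
      (⟨lg_lamE (N' * q), fc_x_mem_chart _⟩ :
        fc_chart ↥O ({lg_lamE (N' * q)} : Set ↥(lg_E L (N' * q)))) ∈ 𝔫1 →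
      s36cfl_R12 π q (s36cb_phiA O N' q) (s36cb_phiB O hπ N' q hq2 hqN' hprime) 𝔫1
        (⟨lg_lamE N', fc_x_mem_chart _⟩ : fc_chart ↥O ({lg_lamE N'} : Set ↥(lg_E L N')))
        (⟨lg_lamE N', fc_x_mem_chart _⟩ : fc_chart ↥O ({lg_lamE N'} : Set ↥(lg_E L N')))) :
    s36asm_cCusp0 O hπ N' q hq2 hqN' VC 1 := by
  intro 𝔫 h𝔫 hπ𝔫 hC hA hB hμ
  left
  have hover :
      letI := ssm_gi_algebra (ssm_al_E_le L (N' * q) q)
      letI := ssm_gi_algebraV (ssm_al_E_le L (N' * q) q) (ssm_gl_V1 O hπ N' q)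
      ssm_tw_Over ↥(lg_E L (N' * q)) ↥(ssm_gl_V1 O hπ N' q) VC := by
    letI := ssm_gi_algebra (ssm_al_E_le L (N' * q) q)
    letI := ssm_gi_algebraV (ssm_al_E_le L (N' * q) q) (ssm_gl_V1 O hπ N' q)
    haveI := ssm_gi_isScalarTower (ssm_al_E_le L (N' * q) q) (ssm_gl_V1 O hπ N' q)
    have T' : s36t3_Third ↥(lg_E L (N' * q)) ↥(ssm_gl_V1 O hπ N' q) q
        (s36at_leg_piF O hπ N' q) (s36asm_z (L := L) N' q hq2 hqN')
        (s36i_VA O hπ (N' * q) q) VC := T3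
    exact T'.overC
  obtain ⟨hmax1, hF1, hV1, hμ1⟩ := s36cel_yF0 O hπ N' q hq2 hqN' hprime VC hover 𝔫 h𝔫 hC hμ
  obtain ⟨x1, e', hx1, hrel, he'1, -, he'n⟩ := s36cel_e0 O hπ N' q hq2 hqN' hprime
  have hφA : s36cb_phiA O N' q
      (⟨lg_lamE N', fc_x_mem_chart _⟩ : fc_chart ↥O ({lg_lamE N'} : Set ↥(lg_E L N'))) =
      ⟨lg_lamE (N' * q), fc_x_mem_chart _⟩ := s36cb_phiA_lam O N' q
  have hφB : s36cb_phiB O hπ N' q hq2 hqN' hprime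
      (⟨lg_lamE N', fc_x_mem_chart _⟩ : fc_chart ↥O ({lg_lamE N'} : Set ↥(lg_E L N'))) = x1 :=
    Subtype.ext ((s36cb_phiB_lam O hπ N' q hq2 hqN' hprime).trans hx1.symm)
  have hπ1 : algebraMap ↥O (fc_chart ↥O ({lg_lamE (N' * q)} : Set ↥(lg_E L (N' * q)))) π ∈
      𝔫.comap (s36tn_leg_iota O N' q) := by
    rw [Ideal.mem_comap, s36tn_leg_iota_algebraMap]
    exact hπ𝔫
  exact s36cfl_cusp_core O hπ N' q hq2 hqN' u0 hu0 hqu hprime hic T3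
    (⟨lg_lamE N', fc_x_mem_chart _⟩ : fc_chart ↥O ({lg_lamE N'} : Set ↥(lg_E L N'))) e'
    (by rw [hφA, hφB]; exact hrel) he'1 (by rw [hφA]; exact he'n)
    (by rw [hφA]; exact (s36cfl_lam_not_mem O hπ N' q hq2 hqN' hprime).1) 𝔫 h𝔫 hπ𝔫 hC hA hB hF1
    (by rw [hφA]; exact hμ1) (hR _ hmax1 hπ1 hF1 hV1 hμ1)

set_option synthInstance.maxHeartbeats 200000 in
set_option maxHeartbeats 800000 in
/-- **[L3c] at the cusp `λ = 1` of the component `C`**, modulo the cusp data. -/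
theorem s36cfl_cusp1_of (u0 : ↥O) (hu0 : IsUnit u0) (hqu : ((q : ℕ) : ↥O) = π * u0)
    (hprime : Prime (algebraMap ↥O (fc_chart ↥O ({lg_lamE N'} : Set ↥(lg_E L N'))) π))
    (hic : IsIntegrallyClosed (fc_chart ↥O ({lg_lamE N'} : Set ↥(lg_E L N')) ⧸
      (Ideal.span {algebraMap ↥O (fc_chart ↥O ({lg_lamE N'} : Set ↥(lg_E L N'))) π} :
        Ideal (fc_chart ↥O ({lg_lamE N'} : Set ↥(lg_E L N'))))))
    {VC : ValuationSubring ↥(lg_E L (N' * q * q))}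
    (T3 : s36asm_Third O hπ N' q hq2 hqN' VC)
    (hR : ∀ 𝔫1 : Ideal (fc_chart ↥O ({lg_lamE (N' * q)} : Set ↥(lg_E L (N' * q)))),
      𝔫1.IsMaximal →
      algebraMap ↥O (fc_chart ↥O ({lg_lamE (N' * q)} : Set ↥(lg_E L (N' * q)))) π ∈ 𝔫1 →
      ssm_tp_P (fc_chart ↥O ({lg_lamE (N' * q)} : Set ↥(lg_E L (N' * q))))
        (ssm_gl_V1 O hπ N' q) ≤ 𝔫1 →
      ¬ ssm_tp_P (fc_chart ↥O ({lg_lamE (N' * q)} : Set ↥(lg_E L (N' * q))))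
        (ssm_gl_V2 O hπ N' q hq2 hqN') ≤ 𝔫1 →
      (⟨lg_lamE (N' * q), fc_x_mem_chart _⟩ :
        fc_chart ↥O ({lg_lamE (N' * q)} : Set ↥(lg_E L (N' * q)))) - 1 ∈ 𝔫1 →
      s36cfl_R12 π q (s36cb_phiA O N' q) (s36cb_phiB O hπ N' q hq2 hqN' hprime) 𝔫1
        ((⟨lg_lamE N', fc_x_mem_chart _⟩ : fc_chart ↥O ({lg_lamE N'} : Set ↥(lg_E L N'))) - 1)
        ((⟨lg_lamE N', fc_x_mem_chart _⟩ : fc_chart ↥O ({lg_lamE N'} : Set ↥(lg_E L N'))) - 1)) :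
    s36asm_cCusp1 O hπ N' q hq2 hqN' VC 1 := by
  intro 𝔫 h𝔫 hπ𝔫 hC hA hB hμ
  left
  have hover :
      letI := ssm_gi_algebra (ssm_al_E_le L (N' * q) q)
      letI := ssm_gi_algebraV (ssm_al_E_le L (N' * q) q) (ssm_gl_V1 O hπ N' q)
      ssm_tw_Over ↥(lg_E L (N' * q)) ↥(ssm_gl_V1 O hπ N' q) VC := by
    letI := ssm_gi_algebra (ssm_al_E_le L (N' * q) q)
    letI := ssm_gi_algebraV (ssm_al_E_le L (N' * q) q) (ssm_gl_V1 O hπ N' q)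
    haveI := ssm_gi_isScalarTower (ssm_al_E_le L (N' * q) q) (ssm_gl_V1 O hπ N' q)
    have T' : s36t3_Third ↥(lg_E L (N' * q)) ↥(ssm_gl_V1 O hπ N' q) q
        (s36at_leg_piF O hπ N' q) (s36asm_z (L := L) N' q hq2 hqN')
        (s36i_VA O hπ (N' * q) q) VC := T3
    exact T'.overC
  obtain ⟨hmax1, hF1, hV1, hμ1⟩ := s36cel_yF1 O hπ N' q hq2 hqN' hprime VC hover 𝔫 h𝔫 hC hμ
  obtain ⟨x1, e', hx1, hrel, he'1, -, he'n⟩ := s36cel_e1 O hπ N' q hq2 hqN' hprime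
  have hφA : s36cb_phiA O N' q
      ((⟨lg_lamE N', fc_x_mem_chart _⟩ : fc_chart ↥O ({lg_lamE N'} : Set ↥(lg_E L N'))) - 1) =
      ⟨lg_lamE (N' * q), fc_x_mem_chart _⟩ - 1 := by
    rw [map_sub, map_one, s36cb_phiA_lam]
  have hφB : s36cb_phiB O hπ N' q hq2 hqN' hprime
      ((⟨lg_lamE N', fc_x_mem_chart _⟩ : fc_chart ↥O ({lg_lamE N'} : Set ↥(lg_E L N'))) - 1) =
      x1 := by
    apply Subtype.ext
    rw [map_sub, map_one, hx1, ← s36cb_phiB_lam O hπ N' q hq2 hqN' hprime]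
    rfl
  have hπ1 : algebraMap ↥O (fc_chart ↥O ({lg_lamE (N' * q)} : Set ↥(lg_E L (N' * q)))) π ∈
      𝔫.comap (s36tn_leg_iota O N' q) := by
    rw [Ideal.mem_comap, s36tn_leg_iota_algebraMap]
    exact hπ𝔫
  exact s36cfl_cusp_core O hπ N' q hq2 hqN' u0 hu0 hqu hprime hic T3
    ((⟨lg_lamE N', fc_x_mem_chart _⟩ : fc_chart ↥O ({lg_lamE N'} : Set ↥(lg_E L N'))) - 1) e'
    (by rw [hφA, hφB]; exact hrel) he'1 (by rw [hφA]; exact he'n)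
    (by rw [hφA]; exact (s36cfl_lam_not_mem O hπ N' q hq2 hqN' hprime).2) 𝔫 h𝔫 hπ𝔫 hC hA hB hF1
    (by rw [hφA]; exact hμ1) (hR _ hmax1 hπ1 hF1 hV1 hμ1)

end Leg

end Fermat.Agent.S36
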