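/-
Project S36 (Carayol), model cell [M2], leaf **[C-CUSP-EIS]** = [L3c], LEGENDRE INSTANCE AT THE CUSP
`λ = ∞` (helper15; the `{λ⁻¹}`-chart twin of CReg/CuspEisLeg.lean + CuspEisLeg2.lean +
CuspEisLegNF.lean).  Prefix `s36cfl_`, suffix `inf`.

* `s36cfl_leg_base_inf` : the `{λ⁻¹}`-chart of level `N'` under its Gauss valuation `V₀`;
* `s36cfl_leg_point_inf` : helper5's `s36cf_oneBranch_loc` on the three `{λ⁻¹}`-charts of the
  Legendre tower (layer 1);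
* `s36cfl_cuspInf_of` : `s36asm_cCuspInf O hπ N' q hq2 hqN' VC 1` modulo the cusp data `s36cfl_R12`
  (layer 2: helper27's `s36cb_phiAInv / s36cb_phiBInv`, `s36cel_yFInf`, `s36cel_ephiInf`, helper8's
  `s36cpw_legInv`, helper29's [TP3] on the inverse chart plugged);
* `s36cfl_cuspInf`, `s36cfl_cuspInf_q` : THE CLOSED PRODUCER in [NF2-CTX] (helper23's
  `s36ct_leg_r2_inf`, `ssm_ll_prime`, `ssm_ll_ic2` plugged).
-/
import Mathlib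
import Fermat.Agent.S36.CReg.CuspEisLeg2
import Fermat.Agent.S36.CReg.CuspEisInputsLegPhi
import Fermat.Agent.S36.CuspTrans.T2LegR

set_option autoImplicit false
set_option linter.unusedSectionVars false
set_option linter.unusedVariables false
set_option linter.style.haveILetI false

noncomputable section

open ModularCurve IntermediateField IsLocalRing Polynomial
open Fermat.Agent.JT3 Fermat.Agent.SS

namespace Fermat.Agent.S36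

section Leg

variable {L : Type*} [Field L] [CharZero L] [Algebra L (AlgebraicClosure ℚ)]
  (O : ValuationSubring L) [IsDiscreteValuationRing O] {π : O} (hπ : Irreducible π)
variable (N' q : ℕ) [NeZero N'] [NeZero q] [hq : Fact q.Prime] [CharP (ResidueField O) q]
  (hq2 : ¬ 2 ∣ q) (hqN' : ¬ q ∣ N')

include hq2 in
/-- **the base chart `{λ⁻¹}` of level `N'` under its Gauss valuation `V₀`.** -/
theorem s36cfl_leg_base_inf
    (hp2 : Prime (algebraMap ↥O (fc_chart ↥O ({(lg_lamE N')⁻¹} : Set ↥(lg_E L N'))) π)) :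
    (∀ b : fc_chart ↥O ({(lg_lamE N')⁻¹} : Set ↥(lg_E L N')),
      (b : ↥(lg_E L N')) ∈ s36i_leg_V0 O hπ N') ∧
    (∀ b : fc_chart ↥O ({(lg_lamE N')⁻¹} : Set ↥(lg_E L N')),
      (b : ↥(lg_E L N')) ∈ (s36i_leg_V0 O hπ N').nonunits →
        algebraMap ↥O ↥(fc_chart ↥O ({(lg_lamE N')⁻¹} : Set ↥(lg_E L N'))) π ∣ b) := by
  haveI := ssm_go_isScalarTower O (lg_E L N')
  have hx0 : Transcendental L (lg_lamE (L := L) N') := lgf_lam_transcendental L N' two_ne_zero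
  have hx0i : Transcendental L (lg_lamE (L := L) N')⁻¹ :=
    fun h => hx0 (IsAlgebraic.inv_iff.mp h)
  have hover0 : ssm_tp_Over
      (algebraMap ↥O (Algebra.adjoin ↥O ({lg_lamE N'} : Set ↥(lg_E L N'))) π)
      (s36i_leg_V0 O hπ N') :=
    ssm_go_over O (lg_E L N') (hm_lam O) (lg_lamE N') (hm_coeffMap_lam _).symm hπ
      (ssm_ga_E_le_quotField O N') one_ne_zero
      (ssm_ga_lam_coeff_one O (ssm_gl_two_ne_zero O q hq2))
  have hover0' := ssm_tp_over_inv (fc_ff_transcendental (L := L) hx0)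
    (fc_ff_transcendental (L := L) hx0i) hπ.not_isUnit hover0
  exact s36cfl_ff_base (A0 := ↥O) (L := L) hx0i hp2 hover0'

set_option synthInstance.maxHeartbeats 200000 in
set_option maxHeartbeats 1600000 in
/-- **[L3c], Legendre tower, layer 1** (chart `{λ⁻¹}`). -/
theorem s36cfl_leg_point_inf (u0 : ↥O) (hu0 : IsUnit u0) (hqu : ((q : ℕ) : ↥O) = π * u0)
    (hp1 : Prime (algebraMap ↥O (fc_chart ↥O ({lg_lamE N'} : Set ↥(lg_E L N'))) π))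
    (hp2 : Prime (algebraMap ↥O (fc_chart ↥O ({(lg_lamE N')⁻¹} : Set ↥(lg_E L N'))) π))
    {y0 : Ideal (fc_chart ↥O ({(lg_lamE N')⁻¹} : Set ↥(lg_E L N')))} [y0.IsPrime]
    (φ1 : fc_chart ↥O ({(lg_lamE N')⁻¹} : Set ↥(lg_E L N')) →+*
      fc_chart ↥O ({(lg_lamE (N' * q))⁻¹} : Set ↥(lg_E L (N' * q))))
    (hφ : ∀ b' : fc_chart ↥O ({(lg_lamE N')⁻¹} : Set ↥(lg_E L N')),
      ((φ1 b' : fc_chart ↥O ({(lg_lamE (N' * q))⁻¹} : Set ↥(lg_E L (N' * q)))) :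
        ↥(lg_E L (N' * q))) = s36mc_beta L N' q hq2 (b' : ↥(lg_E L N')))
    (hφπ : φ1 (algebraMap ↥O (fc_chart ↥O ({(lg_lamE N')⁻¹} : Set ↥(lg_E L N'))) π) =
      algebraMap ↥O (fc_chart ↥O ({(lg_lamE (N' * q))⁻¹} : Set ↥(lg_E L (N' * q)))) π)
    (hint : φ1.IsIntegral) (hy0 : y0.IsMaximal)
    (hπy0 : algebraMap ↥O (fc_chart ↥O ({(lg_lamE N')⁻¹} : Set ↥(lg_E L N'))) π ∈ y0)
    (hpow : ∀ b : fc_chart ↥O ({(lg_lamE (N' * q))⁻¹} : Set ↥(lg_E L (N' * q))),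
      ∃ b' : fc_chart ↥O ({(lg_lamE N')⁻¹} : Set ↥(lg_E L N')), b ^ q - φ1 b' ∈
        ssm_tp_P (fc_chart ↥O ({(lg_lamE (N' * q))⁻¹} : Set ↥(lg_E L (N' * q))))
          (ssm_gl_V1 O hπ N' q))
    {t1 : fc_chart ↥O ({(lg_lamE N')⁻¹} : Set ↥(lg_E L N'))}
    (hgen0 : tq_GenBy (algebraMap ↥O (fc_chart ↥O ({(lg_lamE N')⁻¹} : Set ↥(lg_E L N'))) π)
      t1 y0)
    {VC : ValuationSubring ↥(lg_E L (N' * q * q))}
    (T3 : s36asm_Third O hπ N' q hq2 hqN' VC)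
    (H3 : s36tp_Hyp
      (algebraMap ↥O
        (Algebra.adjoin ↥O ({(lg_lamE (N' * q * q))⁻¹} : Set ↥(lg_E L (N' * q * q)))) π)
      ![s36i_VA O hπ (N' * q) q, s36i_VB O hπ N' q hq2 hqN', VC] ![1, 1, q - 1])
    (𝔫 : Ideal (fc_chart ↥O ({(lg_lamE (N' * q * q))⁻¹} : Set ↥(lg_E L (N' * q * q)))))
    [𝔫.IsPrime] (h𝔫 : (𝔫.comap (s36cel_iotaInv O N' q)).comap φ1 = y0)
    (hC : ssm_tp_P (fc_chart ↥O ({(lg_lamE (N' * q * q))⁻¹} : Set ↥(lg_E L (N' * q * q))))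
      VC ≤ 𝔫)
    (hA : ¬ ssm_tp_P (fc_chart ↥O ({(lg_lamE (N' * q * q))⁻¹} : Set ↥(lg_E L (N' * q * q))))
      (s36i_VA O hπ (N' * q) q) ≤ 𝔫)
    (hB : ¬ ssm_tp_P (fc_chart ↥O ({(lg_lamE (N' * q * q))⁻¹} : Set ↥(lg_E L (N' * q * q))))
      (s36i_VB O hπ N' q hq2 hqN') ≤ 𝔫)
    {u : fc_chart ↥O ({(lg_lamE (N' * q))⁻¹} : Set ↥(lg_E L (N' * q)))}
    (hgen : tq_GenBy (algebraMap ↥O (fc_chart ↥O ({(lg_lamE (N' * q))⁻¹} :
        Set ↥(lg_E L (N' * q)))) π) u (𝔫.comap (s36cel_iotaInv O N' q)))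
    (hdomπ : tq_Dom (algebraMap ↥O (fc_chart ↥O ({(lg_lamE (N' * q))⁻¹} :
        Set ↥(lg_E L (N' * q)))) π) (𝔫.comap (s36cel_iotaInv O N' q)))
    (hdomu : tq_Dom u (𝔫.comap (s36cel_iotaInv O N' q)))
    (xc e' : fc_chart ↥O ({(lg_lamE (N' * q))⁻¹} : Set ↥(lg_E L (N' * q))))
    (xc0 : fc_chart ↥O ({(lg_lamE N')⁻¹} : Set ↥(lg_E L N')))
    (hrel : e' * xc = (φ1 xc0) ^ q)
    (he'1 : e' - 1 ∈ ssm_tp_P (fc_chart ↥O ({(lg_lamE (N' * q))⁻¹} : Set ↥(lg_E L (N' * q))))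
      (ssm_gl_V2 O hπ N' q hq2 hqN'))
    (he'n : e' ∈ 𝔫.comap (s36cel_iotaInv O N' q))
    (hxcP2 : xc ∉ ssm_tp_P (fc_chart ↥O ({(lg_lamE (N' * q))⁻¹} : Set ↥(lg_E L (N' * q))))
      (ssm_gl_V1 O hπ N' q))
    (hR1 : ∃ (e : ℕ) (s w : fc_chart ↥O ({(lg_lamE (N' * q))⁻¹} : Set ↥(lg_E L (N' * q)))),
      0 < e ∧ s ∉ 𝔫.comap (s36cel_iotaInv O N' q) ∧ w ∉ 𝔫.comap (s36cel_iotaInv O N' q) ∧
        s * xc = w * u ^ e)
    (hR2 : ∃ (e : ℕ) (s w : fc_chart ↥O ({(lg_lamE N')⁻¹} : Set ↥(lg_E L N'))),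
      s ∉ y0 ∧ w ∉ y0 ∧ s * xc0 = w * t1 ^ e)
    (hT2 : ∃ s w : fc_chart ↥O ({(lg_lamE (N' * q))⁻¹} : Set ↥(lg_E L (N' * q))),
      s ∉ 𝔫.comap (s36cel_iotaInv O N' q) ∧ w ∉ 𝔫.comap (s36cel_iotaInv O N' q) ∧
        s * φ1 t1 = w * u ^ q) :
    haveI := s36cp_chart_inv_isFractionRing O (N' * q * q)
    s36g_PtOne π q
      (fc_chart ↥O ({(lg_lamE (N' * q * q))⁻¹} : Set ↥(lg_E L (N' * q * q)))) 𝔫 := by
  letI aβ := s36ch_algBeta L N' q hq2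
  letI a12 := ssm_gi_algebra (ssm_al_E_le L (N' * q) q)
  letI aF := ssm_gi_algebraV (ssm_al_E_le L (N' * q) q) (ssm_gl_V1 O hπ N' q)
  haveI tF := ssm_gi_isScalarTower (ssm_al_E_le L (N' * q) q) (ssm_gl_V1 O hπ N' q)
  letI aK2 : Algebra ↥(lg_E L N') ↥(lg_E L (N' * q * q)) :=
    ((algebraMap ↥(lg_E L (N' * q)) ↥(lg_E L (N' * q * q))).comp
      (algebraMap ↥(lg_E L N') ↥(lg_E L (N' * q)))).toAlgebra
  haveI tK : IsScalarTower ↥(lg_E L N') ↥(lg_E L (N' * q)) ↥(lg_E L (N' * q * q)) :=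
    IsScalarTower.of_algebraMap_eq fun _ => rfl
  haveI fd1 : FiniteDimensional ↥(lg_E L N') ↥(lg_E L (N' * q)) :=
    s36ch_finiteDimensional_beta L N' q hq.out hq2 hqN'
  have hq1 : q - 1 + 1 = q := Nat.sub_add_cancel hq.out.one_le
  have hrank2' : Module.finrank ↥(lg_E L (N' * q)) ↥(lg_E L (N' * q * q)) = q :=
    s36vh_leg_finrank N' q hq2
  haveI fd2 : FiniteDimensional ↥(lg_E L (N' * q)) ↥(lg_E L (N' * q * q)) :=
    ssm_gi_finiteDimensional (n := q - 1) (by rw [hq1]; exact hrank2')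
  haveI cz : CharZero ↥(lg_E L N') :=
    charZero_of_injective_algebraMap (algebraMap L ↥(lg_E L N')).injective
  -- the chart of level `N'`
  haveI := ssm_go_isScalarTower O (lg_E L N')
  have hx0 : Transcendental L (lg_lamE (L := L) N') := lgf_lam_transcendental L N' two_ne_zero
  have hx0i : Transcendental L (lg_lamE (L := L) N')⁻¹ :=
    fun h => hx0 (IsAlgebraic.inv_iff.mp h)
  haveI : FiniteDimensional L⟮(lg_lamE (L := L) N')⟯ ↥(lg_E L N') := lgf_finite L N'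
  haveI : FiniteDimensional L⟮(lg_lamE (L := L) N')⁻¹⟯ ↥(lg_E L N') := by
    rw [rt_adjoin_inv]; infer_instance
  haveI hfr0 := s36cp_chart_inv_isFractionRing O (L := L) N'
  haveI hno0 : IsNoetherianRing ↥(fc_chart ↥O ({(lg_lamE N')⁻¹} : Set ↥(lg_E L N'))) :=
    ssm_ths_chart_isNoetherianRing (A0 := ↥O) (L := L) hx0i
  haveI hic0 : IsIntegrallyClosed ↥(fc_chart ↥O ({(lg_lamE N')⁻¹} : Set ↥(lg_E L N'))) :=
    ssm_ths_chart_isIntegrallyClosed (A0 := ↥O) (L := L) _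
  -- chart-level facts of level `N' q`
  haveI := ssm_go_isScalarTower O (lg_E L (N' * q))
  have hx1 : Transcendental L (lg_lamE (L := L) (N' * q)) :=
    lgf_lam_transcendental L (N' * q) two_ne_zero
  have hx1i : Transcendental L (lg_lamE (L := L) (N' * q))⁻¹ :=
    fun h => hx1 (IsAlgebraic.inv_iff.mp h)
  haveI : FiniteDimensional L⟮(lg_lamE (L := L) (N' * q))⟯ ↥(lg_E L (N' * q)) :=
    lgf_finite L (N' * q)
  haveI : FiniteDimensional L⟮(lg_lamE (L := L) (N' * q))⁻¹⟯ ↥(lg_E L (N' * q)) := by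
    rw [rt_adjoin_inv]; infer_instance
  have hx1A : Transcendental ↥O (lg_lamE (L := L) (N' * q))⁻¹ :=
    fc_ff_transcendental (L := L) hx1i
  haveI : IsIntegrallyClosed
      (Algebra.adjoin ↥O ({(lg_lamE (N' * q))⁻¹} : Set ↥(lg_E L (N' * q)))) :=
    fc_ff_isIntegrallyClosed hx1A
  haveI : FaithfulSMul (Algebra.adjoin ↥O ({(lg_lamE (N' * q))⁻¹} : Set ↥(lg_E L (N' * q))))
      ↥(lg_E L (N' * q)) :=
    (faithfulSMul_iff_algebraMap_injective _ _).2 Subtype.val_injective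
  haveI hfr1 := s36cp_chart_inv_isFractionRing O (L := L) (N' * q)
  haveI hno1 : IsNoetherianRing
      ↥(fc_chart ↥O ({(lg_lamE (N' * q))⁻¹} : Set ↥(lg_E L (N' * q)))) :=
    ssm_ths_chart_isNoetherianRing (A0 := ↥O) (L := L) hx1i
  have H1 := ssm_tp_ff_hyp_inv (L := L) hπ hx1 (ssm_gl_hyp O hπ N' q hq2 hqN' hp1)
  have hC1 := ssm_tp_ff_chart (A0 := ↥O) (L := L) (F0 := ↥(lg_E L (N' * q))) hπ hx1i
  have hP1 : ∀ b ∈ ssm_tp_P (fc_chart ↥O ({(lg_lamE (N' * q))⁻¹} : Set ↥(lg_E L (N' * q))))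
      (ssm_gl_V2 O hπ N' q hq2 hqN'), (b : ↥(lg_E L (N' * q))) ∈
        (ssm_gl_V2 O hπ N' q hq2 hqN').nonunits := fun b hb => (H1.mem_P2 hC1).1 hb
  have hP2 : ∀ b ∈ ssm_tp_P (fc_chart ↥O ({(lg_lamE (N' * q))⁻¹} : Set ↥(lg_E L (N' * q))))
      (ssm_gl_V1 O hπ N' q), (b : ↥(lg_E L (N' * q))) ∈
        (ssm_gl_V1 O hπ N' q).nonunits := fun b hb => (H1.mem_P1 hC1).1 hb
  have hP2' : ∀ b : fc_chart ↥O ({(lg_lamE (N' * q))⁻¹} : Set ↥(lg_E L (N' * q))),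
      (b : ↥(lg_E L (N' * q))) ∈ (ssm_gl_V1 O hπ N' q).nonunits →
      b ∈ ssm_tp_P (fc_chart ↥O ({(lg_lamE (N' * q))⁻¹} : Set ↥(lg_E L (N' * q))))
        (ssm_gl_V1 O hπ N' q) := fun b hb => (H1.mem_P1 hC1).2 hb
  have hB1F : ∀ b : fc_chart ↥O ({(lg_lamE (N' * q))⁻¹} : Set ↥(lg_E L (N' * q))),
      (b : ↥(lg_E L (N' * q))) ∈ ssm_gl_V1 O hπ N' q := fun b => hC1.le H1.over1 b.2
  haveI hP1p := H1.P2_isPrime hC1
  haveI hP2p := H1.P1_isPrime hC1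
  -- `(B')_{y0} ⊆ V₀ ⟹ β (B')_{y0} ⊆ VV`
  obtain ⟨hB'V, hy0V⟩ := s36cfl_leg_base_inf O hπ N' q hq2 hp2
  have hSV : ∀ x : ↥(lg_E L N'), x ∈ ssl_locSub ↥(lg_E L N') y0 →
      algebraMap ↥(lg_E L N') ↥(lg_E L (N' * q)) x ∈ ssm_gl_V2 O hπ N' q hq2 hqN' :=
    s36cf_loc_mem_val (s36i_leg_V0 O hπ N') (ssm_gl_V2 O hπ N' q hq2 hqN') hB'V
      (fun b' hb' => by
        obtain ⟨d, rfl⟩ := hy0V b' hb'
        exact y0.mul_mem_right _ hπy0)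
      (fun x hx => (s36i_leg_cV O hπ N' q hq2 hqN' x).2 hx)
  -- `φ1 π ∈ P_VF`
  have hπP2 : φ1 (algebraMap ↥O (fc_chart ↥O ({(lg_lamE N')⁻¹} : Set ↥(lg_E L N'))) π) ∈
      ssm_tp_P (fc_chart ↥O ({(lg_lamE (N' * q))⁻¹} : Set ↥(lg_E L (N' * q))))
        (ssm_gl_V1 O hπ N' q) := by
    rw [hφπ]
    apply hP2'
    exact H1.over1.pi_mem
  -- `π' ~ q` on `B'`
  have hπq : Associated
      (algebraMap ↥O (fc_chart ↥O ({(lg_lamE N')⁻¹} : Set ↥(lg_E L N'))) π)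
      ((q : ℕ) : fc_chart ↥O ({(lg_lamE N')⁻¹} : Set ↥(lg_E L N'))) := by
    refine ⟨(hu0.map (algebraMap ↥O
      (fc_chart ↥O ({(lg_lamE N')⁻¹} : Set ↥(lg_E L N'))))).unit, ?_⟩
    rw [IsUnit.unit_spec, ← map_mul, ← hqu, map_natCast]
  -- the packages of level `N' q q`
  have T' : s36t3_Third ↥(lg_E L (N' * q)) ↥(ssm_gl_V1 O hπ N' q) q (s36at_leg_piF O hπ N' q)
      (s36asm_z (L := L) N' q hq2 hqN') (s36i_VA O hπ (N' * q) q) VC := T3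
  have oA : ∀ x : ↥(lg_E L (N' * q)),
      algebraMap ↥(lg_E L (N' * q)) ↥(lg_E L (N' * q * q)) x ∈ s36i_VA O hπ (N' * q) q ↔
        x ∈ ssm_gl_V1 O hπ N' q := fun x => s36i_leg_oA O hπ N' q x
  have oC : ∀ x : ↥(lg_E L (N' * q)),
      algebraMap ↥(lg_E L (N' * q)) ↥(lg_E L (N' * q * q)) x ∈ VC ↔
        x ∈ ssm_gl_V1 O hπ N' q := fun x => s36i_leg_oC O hπ N' q VC T'.overC x
  have hVC : VC.comap (s36i_W2 L N' q hq2 hqN' :
      ↥(lg_E L (N' * q * q)) →+* ↥(lg_E L (N' * q * q))) = VC :=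
    s36i_leg_hVC_of_third O hπ N' q hq2 hqN' T'
  have W2K : ∀ x : ↥(lg_E L N'), s36i_W2 L N' q hq2 hqN'
      (algebraMap ↥(lg_E L N') ↥(lg_E L (N' * q * q)) x) =
      algebraMap ↥(lg_E L N') ↥(lg_E L (N' * q * q)) x :=
    fun x => s36i_leg_W2_beta N' q hq2 hqN' x
  have W2VA : ∀ x : ↥(lg_E L (N' * q)), x ∈ (ssm_gl_V2 O hπ N' q hq2 hqN').nonunits →
      s36i_W2 L N' q hq2 hqN' (algebraMap ↥(lg_E L (N' * q)) ↥(lg_E L (N' * q * q)) x) ∈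
        (s36i_VA O hπ (N' * q) q).nonunits :=
    fun x hx => s36i_leg_W2VA O hπ N' q hq2 hqN' x hx
  -- the chart of level `N' q q`
  haveI := ssm_go_isScalarTower O (lg_E L (N' * q * q))
  have hx2 : Transcendental L (lg_lamE (L := L) (N' * q * q)) :=
    lgf_lam_transcendental L (N' * q * q) two_ne_zero
  have hx2i : Transcendental L (lg_lamE (L := L) (N' * q * q))⁻¹ :=
    fun h => hx2 (IsAlgebraic.inv_iff.mp h)
  haveI : FiniteDimensional L⟮(lg_lamE (L := L) (N' * q * q))⟯ ↥(lg_E L (N' * q * q)) :=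
    lgf_finite L (N' * q * q)
  haveI : FiniteDimensional L⟮(lg_lamE (L := L) (N' * q * q))⁻¹⟯ ↥(lg_E L (N' * q * q)) := by
    rw [rt_adjoin_inv]; infer_instance
  have hx2A : Transcendental ↥O (lg_lamE (L := L) (N' * q * q))⁻¹ :=
    fc_ff_transcendental (L := L) hx2i
  haveI : IsIntegrallyClosed
      (Algebra.adjoin ↥O ({(lg_lamE (N' * q * q))⁻¹} : Set ↥(lg_E L (N' * q * q)))) :=
    fc_ff_isIntegrallyClosed hx2A
  haveI : FaithfulSMul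
      (Algebra.adjoin ↥O ({(lg_lamE (N' * q * q))⁻¹} : Set ↥(lg_E L (N' * q * q))))
      ↥(lg_E L (N' * q * q)) :=
    (faithfulSMul_iff_algebraMap_injective _ _).2 Subtype.val_injective
  haveI hfr2 := s36cp_chart_inv_isFractionRing O (L := L) (N' * q * q)
  haveI hno2 : IsNoetherianRing
      ↥(fc_chart ↥O ({(lg_lamE (N' * q * q))⁻¹} : Set ↥(lg_E L (N' * q * q)))) :=
    ssm_ths_chart_isNoetherianRing (A0 := ↥O) (L := L) hx2i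
  haveI hic2 : IsIntegrallyClosed
      ↥(fc_chart ↥O ({(lg_lamE (N' * q * q))⁻¹} : Set ↥(lg_E L (N' * q * q)))) :=
    ssm_ths_chart_isIntegrallyClosed (A0 := ↥O) (L := L) _
  have hC3 := ssm_tp_ff_chart (A0 := ↥O) (L := L) (F0 := ↥(lg_E L (N' * q * q))) hπ hx2i
  exact s36cf_oneBranch_loc (K := ↥(lg_E L N')) (E1 := ↥(lg_E L (N' * q)))
    (E2 := ↥(lg_E L (N' * q * q))) (ψ := s36cel_iotaInv O N' q)
    (fun b' => (hφ b').trans (s36ch_algBeta_apply L N' q hq2 _).symm) hint hy0 hq.out hπP2 hpow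
    hgen0 (s36ch_finrank_beta L N' q hq.out hq2 hqN') hrank2' hπq
    (fun b => s36cel_iotaInv_coe O N' q b) (s36cel_iotaInv_isIntegral O N' q)
    hSV hP1 hP2 hP2' hB1F oA oC (s36i_W2 L N' q hq2 hqN') W2K W2VA hVC H3 hC3
    (algebraMap ↥O (fc_chart ↥O ({(lg_lamE (N' * q * q))⁻¹} : Set ↥(lg_E L (N' * q * q)))) π)
    rfl 𝔫 h𝔫 hC hA hB (by rw [hφπ]; exact hgen) (by rw [hφπ]; exact hdomπ) hdomu xc e' xc0 hrel
    he'1 he'n hxcP2 hR1 hR2 hT2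

set_option synthInstance.maxHeartbeats 200000 in
set_option maxHeartbeats 1600000 in
/-- **[L3c] at the cusp `λ = ∞` of the component `C`**, modulo the cusp data. -/
theorem s36cfl_cuspInf_of (u0 : ↥O) (hu0 : IsUnit u0) (hqu : ((q : ℕ) : ↥O) = π * u0)
    (hprime : Prime (algebraMap ↥O (fc_chart ↥O ({lg_lamE N'} : Set ↥(lg_E L N'))) π))
    (hprime2 : Prime (algebraMap ↥O (fc_chart ↥O ({(lg_lamE N')⁻¹} : Set ↥(lg_E L N'))) π))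
    (hic2 : IsIntegrallyClosed (fc_chart ↥O ({(lg_lamE N')⁻¹} : Set ↥(lg_E L N')) ⧸
      (Ideal.span {algebraMap ↥O (fc_chart ↥O ({(lg_lamE N')⁻¹} : Set ↥(lg_E L N'))) π} :
        Ideal (fc_chart ↥O ({(lg_lamE N')⁻¹} : Set ↥(lg_E L N'))))))
    {VC : ValuationSubring ↥(lg_E L (N' * q * q))}
    (T3 : s36asm_Third O hπ N' q hq2 hqN' VC)
    (hR : ∀ 𝔫1 : Ideal (fc_chart ↥O ({(lg_lamE (N' * q))⁻¹} : Set ↥(lg_E L (N' * q)))),
      𝔫1.IsMaximal →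
      algebraMap ↥O (fc_chart ↥O ({(lg_lamE (N' * q))⁻¹} : Set ↥(lg_E L (N' * q)))) π ∈ 𝔫1 →
      ssm_tp_P (fc_chart ↥O ({(lg_lamE (N' * q))⁻¹} : Set ↥(lg_E L (N' * q))))
        (ssm_gl_V1 O hπ N' q) ≤ 𝔫1 →
      ¬ ssm_tp_P (fc_chart ↥O ({(lg_lamE (N' * q))⁻¹} : Set ↥(lg_E L (N' * q))))
        (ssm_gl_V2 O hπ N' q hq2 hqN') ≤ 𝔫1 →
      (⟨(lg_lamE (N' * q))⁻¹, fc_x_mem_chart _⟩ :
        fc_chart ↥O ({(lg_lamE (N' * q))⁻¹} : Set ↥(lg_E L (N' * q)))) ∈ 𝔫1 →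
      s36cfl_R12 π q (s36cb_phiAInv O N' q) (s36cb_phiBInv O hπ N' q hq2 hqN' hprime) 𝔫1
        (⟨(lg_lamE N')⁻¹, fc_x_mem_chart _⟩ :
          fc_chart ↥O ({(lg_lamE N')⁻¹} : Set ↥(lg_E L N')))
        (⟨(lg_lamE N')⁻¹, fc_x_mem_chart _⟩ :
          fc_chart ↥O ({(lg_lamE N')⁻¹} : Set ↥(lg_E L N')))) :
    s36asm_cCuspInf O hπ N' q hq2 hqN' VC 1 := by
  intro 𝔫 h𝔫 hπ𝔫 hμ hC hA hB
  left
  haveI := h𝔫.isPrime
  have hover :
      letI := ssm_gi_algebra (ssm_al_E_le L (N' * q) q)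
      letI := ssm_gi_algebraV (ssm_al_E_le L (N' * q) q) (ssm_gl_V1 O hπ N' q)
      ssm_tw_Over ↥(lg_E L (N' * q)) ↥(ssm_gl_V1 O hπ N' q) VC := by
    letI := ssm_gi_algebra (ssm_al_E_le L (N' * q) q)
    letI := ssm_gi_algebraV (ssm_al_E_le L (N' * q) q) (ssm_gl_V1 O hπ N' q)
    haveI := ssm_gi_isScalarTower (ssm_al_E_le L (N' * q) q) (ssm_gl_V1 O hπ N' q)
    have T' : s36t3_Third ↥(lg_E L (N' * q)) ↥(ssm_gl_V1 O hπ N' q) q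
        (s36at_leg_piF O hπ N' q) (s36asm_z (L := L) N' q hq2 hqN')
        (s36i_VA O hπ (N' * q) q) VC := T3
    exact T'.overC
  obtain ⟨hmax1, hF1, hV1, hμ1⟩ := s36cel_yFInf O hπ N' q hq2 hqN' hprime VC hover 𝔫 h𝔫 hC hμ
  have hy0 : (((⟨(lg_lamE N')⁻¹, fc_x_mem_chart _⟩ :
      fc_chart ↥O ({(lg_lamE N')⁻¹} : Set ↥(lg_E L N'))) :
      fc_chart ↥O ({(lg_lamE N')⁻¹} : Set ↥(lg_E L N'))) : ↥(lg_E L N')) = (lg_lamE N')⁻¹ := rfl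
  obtain ⟨e', hrel, he'1, he'n, hxcP2⟩ := s36cel_ephiInf O hπ N' q hq2 hqN' hprime
    (⟨(lg_lamE N')⁻¹, fc_x_mem_chart _⟩ : fc_chart ↥O ({(lg_lamE N')⁻¹} : Set ↥(lg_E L N')))
    hy0
  have hy𝔫 : s36cb_phiAInv O N' q
      (⟨(lg_lamE N')⁻¹, fc_x_mem_chart _⟩ : fc_chart ↥O ({(lg_lamE N')⁻¹} : Set ↥(lg_E L N'))) ∈
      𝔫.comap (s36cel_iotaInv O N' q) :=
    (s36cel_phiA_y0_memInf O N' q _ hy0 _).2 hμ1
  have hπ1 : algebraMap ↥O (fc_chart ↥O ({(lg_lamE (N' * q))⁻¹} : Set ↥(lg_E L (N' * q)))) π ∈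
      𝔫.comap (s36cel_iotaInv O N' q) := by
    rw [Ideal.mem_comap, s36cel_iotaInv_algebraMap]
    exact hπ𝔫
  obtain ⟨t0, t1, -, -, -, g1, dπ, du, r1, g2, -, ⟨e2, s2, w2, -, hs2, hw2, h2⟩, t2⟩ :=
    hR _ hmax1 hπ1 hF1 hV1 hμ1
  obtain ⟨-, H3, -⟩ := s36t3_leg_all_of O hπ N' q hq2 hqN' hprime
    (s36t3_leg_third_conv O hπ N' q hq2 hqN' T3)
  obtain ⟨hpow, -, -, -⟩ := s36cpw_legInv O hπ N' q hq2 hqN' hprime hprime2 hic2
    (s36cb_phiBInv O hπ N' q hq2 hqN' hprime) (s36cb_phiBInv_coe O hπ N' q hq2 hqN' hprime)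
  have hmax0 : ((𝔫.comap (s36cel_iotaInv O N' q)).comap
      (s36cb_phiBInv O hπ N' q hq2 hqN' hprime)).IsMaximal :=
    ssm_cp_comap_isMaximal _ (s36cb_phiBInv_isIntegral O hπ N' q hq2 hqN' hprime) _ hmax1
  haveI := hmax0.isPrime
  have hπy0 : algebraMap ↥O (fc_chart ↥O ({(lg_lamE N')⁻¹} : Set ↥(lg_E L N'))) π ∈
      (𝔫.comap (s36cel_iotaInv O N' q)).comap (s36cb_phiBInv O hπ N' q hq2 hqN' hprime) := by
    rw [Ideal.mem_comap, s36cb_phiBInv_algebraMap]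
    exact hπ1
  exact s36cfl_leg_point_inf O hπ N' q hq2 hqN' u0 hu0 hqu hprime hprime2
    (s36cb_phiBInv O hπ N' q hq2 hqN' hprime) (s36cb_phiBInv_beta O hπ N' q hq2 hqN' hprime)
    (s36cb_phiBInv_algebraMap O hπ N' q hq2 hqN' hprime π)
    (s36cb_phiBInv_isIntegral O hπ N' q hq2 hqN' hprime) hmax0 hπy0 hpow g2 T3 H3 𝔫 rfl hC hA hB
    g1 dπ du (s36cb_phiAInv O N' q ⟨(lg_lamE N')⁻¹, fc_x_mem_chart _⟩) e'
    ⟨(lg_lamE N')⁻¹, fc_x_mem_chart _⟩ hrel he'1 (he'n _ hF1 hy𝔫) hxcP2 r1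
    ⟨e2, s2, w2, hs2, hw2, h2⟩ t2

end Leg

end Fermat.Agent.S36

namespace Fermat.Agent.S36

open ModularCurve IntermediateField IsLocalRing Polynomial
open Fermat.Agent.JT3 Fermat.Agent.SS

section NF

variable (L : Type) [Field L] [NumberField L] [Algebra L (AlgebraicClosure ℚ)]
  (O : ValuationSubring L) [IsDiscreteValuationRing O] {π : O} (hπ : Irreducible π)
variable (N' q : ℕ) [NeZero N'] [NeZero q] [hq : Fact q.Prime] [CharP (ResidueField O) q]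
  (hq2 : ¬ 2 ∣ q) (hqN' : ¬ q ∣ N') (ζ : L) (hζ : IsPrimitiveRoot ζ N')

include hζ in
set_option synthInstance.maxHeartbeats 200000 in
set_option maxHeartbeats 800000 in
/-- **[L3c] at the cusp `λ = ∞` of the component `C`, CLOSED** ([NF2-CTX], general `π`). -/
theorem s36cfl_cuspInf (u0 : ↥O) (hu0 : IsUnit u0) (hqu : ((q : ℕ) : ↥O) = π * u0)
    {VC : ValuationSubring ↥(lg_E L (N' * q * q))}
    (T3 : s36asm_Third O hπ N' q hq2 hqN' VC) :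
    s36asm_cCuspInf O hπ N' q hq2 hqN' VC 1 := by
  have hp := ssm_ll_prime L N' hπ q (ssm_fln_q_mem L O q) (ssm_fl_ne_two q hq2) hqN' ζ hζ
  have hic2 := ssm_ll_ic2 L N' hπ q (ssm_fln_q_mem L O q) (ssm_fl_ne_two q hq2) hqN' ζ hζ
  refine s36cfl_cuspInf_of O hπ N' q hq2 hqN' u0 hu0 hqu hp.1 hp.2.1 hic2 T3 ?_
  intro 𝔫1 hmax1 hπ1 hF1 hV1 hμ1
  haveI := hmax1
  exact s36ct_leg_r2_inf L O hπ N' q hq2 hqN' ζ hζ (s36cb_phiAInv O N' q)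
    (s36cb_phiBInv O hπ N' q hq2 hqN' hp.1) (s36cb_phiAInv_coe O N' q)
    (s36cb_phiBInv_coe O hπ N' q hq2 hqN' hp.1) 𝔫1 hπ1 hV1
    (⟨(lg_lamE N')⁻¹, fc_x_mem_chart _⟩ : fc_chart ↥O ({(lg_lamE N')⁻¹} : Set ↥(lg_E L N')))
    rfl (by rw [s36cb_phiAInv_lam]; exact hμ1)

end NF

section NFq

variable (L : Type) [Field L] [NumberField L] [Algebra L (AlgebraicClosure ℚ)]
  (O : ValuationSubring L) [IsDiscreteValuationRing O]
variable (N' q : ℕ) [NeZero N'] [NeZero q] [hq : Fact q.Prime] [CharP (ResidueField O) q]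
  (hq2 : ¬ 2 ∣ q) (hqN' : ¬ q ∣ N') (hπ : Irreducible ((q : ℕ) : ↥O))
  (ζ : L) (hζ : IsPrimitiveRoot ζ N')

include hζ in
/-- **[L3c] at the cusp `λ = ∞`**, binders of helper1's `s36asm_Leaves4/5` VERBATIM. -/
theorem s36cfl_cuspInf_q {VC : ValuationSubring ↥(lg_E L (N' * q * q))}
    (T3 : s36asm_Third O hπ N' q hq2 hqN' VC) : s36asm_cCuspInf O hπ N' q hq2 hqN' VC 1 :=
  s36cfl_cuspInf L O hπ N' q hq2 hqN' ζ hζ 1 isUnit_one (mul_one _).symm T3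

end NFq

end Fermat.Agent.S36
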