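/-
Project S36 (Carayol), model cell [M2], leaf **[C-CUSP-EIS]** = [L3c], LEGENDRE INSTANCE, LAYER 3
(helper15).  Prefix `s36cfl_`.

THE CLOSED PRODUCERS of helper24's targets `s36asm_cCusp0`, `s36asm_cCusp1`
(Model/AsmLegPtsCSplit.lean) in the number-field context [NF2-CTX] (general uniformiser `π` with
`q = π u₀`, `u₀` a unit; `π := q`, `u₀ := 1` in helper1's `s36asm_Leaves4`):

* `s36cfl_cusp0`, `s36cfl_cusp1` : `s36asm_cCusp0/1 O hπ N' q hq2 hqN' VC 1` from `T3` ALONE;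
* `s36cfl_cusp0_q`, `s36cfl_cusp1_q` : the same at `π := (q : O)` (binders of `s36asm_Leaves4`).

= layer 2 (`s36cfl_cusp0_of`, `s36cfl_cusp1_of`) with the level-`N'` inputs `ssm_ll_prime`,
`ssm_ll_ic1` and helper23's closed cusp data `s36ct_leg_r2` (CuspTrans/T2LegR.lean) plugged.
-/
import Mathlib
import Fermat.Agent.S36.CReg.CuspEisLeg2
import Fermat.Agent.S36.CuspTrans.T2LegR

set_option autoImplicit false
set_option linter.unusedSectionVars false
set_option linter.unusedVariables false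
set_option linter.style.haveILetI false

noncomputable section

open ModularCurve IntermediateField IsLocalRing Polynomial
open Fermat.Agent.JT3 Fermat.Agent.SS

namespace Fermat.Agent.S36

section NF

variable (L : Type) [Field L] [NumberField L] [Algebra L (AlgebraicClosure ℚ)]
  (O : ValuationSubring L) [IsDiscreteValuationRing O] {π : O} (hπ : Irreducible π)
variable (N' q : ℕ) [NeZero N'] [NeZero q] [hq : Fact q.Prime] [CharP (ResidueField O) q]
  (hq2 : ¬ 2 ∣ q) (hqN' : ¬ q ∣ N') (ζ : L) (hζ : IsPrimitiveRoot ζ N')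

include hζ in
set_option synthInstance.maxHeartbeats 200000 in
set_option maxHeartbeats 800000 in
/-- **[L3c] at the cusp `λ = 0` of the component `C`, CLOSED** ([NF2-CTX], general `π`). -/
theorem s36cfl_cusp0 (u0 : ↥O) (hu0 : IsUnit u0) (hqu : ((q : ℕ) : ↥O) = π * u0)
    {VC : ValuationSubring ↥(lg_E L (N' * q * q))}
    (T3 : s36asm_Third O hπ N' q hq2 hqN' VC) :
    s36asm_cCusp0 O hπ N' q hq2 hqN' VC 1 := by
  have hprime := (ssm_ll_prime L N' hπ q (ssm_fln_q_mem L O q) (ssm_fl_ne_two q hq2) hqN' ζ hζ).1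
  have hic := ssm_ll_ic1 L N' hπ q (ssm_fln_q_mem L O q) (ssm_fl_ne_two q hq2) hqN' ζ hζ
  refine s36cfl_cusp0_of O hπ N' q hq2 hqN' u0 hu0 hqu hprime hic T3 ?_
  intro 𝔫1 hmax1 hπ1 hF1 hV1 hμ1
  haveI := hmax1
  exact s36ct_leg_r2 L O hπ N' q hq2 hqN' ζ hζ 0 (Or.inl rfl) (s36cb_phiA O N' q)
    (s36cb_phiB O hπ N' q hq2 hqN' hprime) (s36cb_phiA_coe O N' q)
    (s36cb_phiB_coe O hπ N' q hq2 hqN' hprime) 𝔫1 hπ1 hV1
    (⟨lg_lamE N', fc_x_mem_chart _⟩ : fc_chart ↥O ({lg_lamE N'} : Set ↥(lg_E L N')))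
    (by rw [map_zero, sub_zero]) (by rw [s36cb_phiA_lam]; exact hμ1)

include hζ in
set_option synthInstance.maxHeartbeats 200000 in
set_option maxHeartbeats 800000 in
/-- **[L3c] at the cusp `λ = 1` of the component `C`, CLOSED** ([NF2-CTX], general `π`). -/
theorem s36cfl_cusp1 (u0 : ↥O) (hu0 : IsUnit u0) (hqu : ((q : ℕ) : ↥O) = π * u0)
    {VC : ValuationSubring ↥(lg_E L (N' * q * q))}
    (T3 : s36asm_Third O hπ N' q hq2 hqN' VC) :
    s36asm_cCusp1 O hπ N' q hq2 hqN' VC 1 := by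
  have hprime := (ssm_ll_prime L N' hπ q (ssm_fln_q_mem L O q) (ssm_fl_ne_two q hq2) hqN' ζ hζ).1
  have hic := ssm_ll_ic1 L N' hπ q (ssm_fln_q_mem L O q) (ssm_fl_ne_two q hq2) hqN' ζ hζ
  refine s36cfl_cusp1_of O hπ N' q hq2 hqN' u0 hu0 hqu hprime hic T3 ?_
  intro 𝔫1 hmax1 hπ1 hF1 hV1 hμ1
  haveI := hmax1
  exact s36ct_leg_r2 L O hπ N' q hq2 hqN' ζ hζ 1 (Or.inr rfl) (s36cb_phiA O N' q)
    (s36cb_phiB O hπ N' q hq2 hqN' hprime) (s36cb_phiA_coe O N' q)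
    (s36cb_phiB_coe O hπ N' q hq2 hqN' hprime) 𝔫1 hπ1 hV1
    ((⟨lg_lamE N', fc_x_mem_chart _⟩ : fc_chart ↥O ({lg_lamE N'} : Set ↥(lg_E L N'))) - 1)
    (by rw [map_one]; rfl) (by rw [map_sub, map_one, s36cb_phiA_lam]; exact hμ1)

end NF

section NFq

variable (L : Type) [Field L] [NumberField L] [Algebra L (AlgebraicClosure ℚ)]
  (O : ValuationSubring L) [IsDiscreteValuationRing O]
variable (N' q : ℕ) [NeZero N'] [NeZero q] [hq : Fact q.Prime] [CharP (ResidueField O) q]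
  (hq2 : ¬ 2 ∣ q) (hqN' : ¬ q ∣ N') (hπ : Irreducible ((q : ℕ) : ↥O))
  (ζ : L) (hζ : IsPrimitiveRoot ζ N')

include hζ in
/-- **[L3c] at the cusp `λ = 0`**, binders of helper1's `s36asm_Leaves4` VERBATIM. -/
theorem s36cfl_cusp0_q {VC : ValuationSubring ↥(lg_E L (N' * q * q))}
    (T3 : s36asm_Third O hπ N' q hq2 hqN' VC) : s36asm_cCusp0 O hπ N' q hq2 hqN' VC 1 :=
  s36cfl_cusp0 L O hπ N' q hq2 hqN' ζ hζ 1 isUnit_one (mul_one _).symm T3

include hζ in
/-- **[L3c] at the cusp `λ = 1`**, binders of helper1's `s36asm_Leaves4` VERBATIM. -/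
theorem s36cfl_cusp1_q {VC : ValuationSubring ↥(lg_E L (N' * q * q))}
    (T3 : s36asm_Third O hπ N' q hq2 hqN' VC) : s36asm_cCusp1 O hπ N' q hq2 hqN' VC 1 :=
  s36cfl_cusp1 L O hπ N' q hq2 hqN' ζ hζ 1 isUnit_one (mul_one _).symm T3

end NFq

end Fermat.Agent.S36
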