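/-
Project S36, model cell [M2], leaf **[C-CUSP-EIS]** / [L3c], NOTE 7 (G3), part 2 (helper27).
Prefix `s36cb_`.

THE ADDITIVE / FROBENIUS DECOMPOSITIONS OF THE LEVEL-`N' q` CHARTS THROUGH `α` AND THROUGH `β`,
as closed terms on the named objects of `CReg/BetaChart.lean`
(`B0 = fc_chart O {λ₀}`, `B1 = fc_chart O {λ₁}`, `φA = s36cb_phiA`, `φB = s36cb_phiB`,
`P_VF = ssm_tp_P B1 (ssm_gl_V1 …)`, `P_VV = ssm_tp_P B1 (ssm_gl_V2 …)`):

* `s36cb_si_frob`  : generic tower `E' ≤ E ≤ Quot(O((X)))`, one chart: `B = φA B' + P1`,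
  `B^q ⊆ φA B' + P2`, `P_i ∩ B' = (π)`, `(π) = P1 ⊓ P2`  (S34 `ssm_cpi_ff` + `ssm_cpi_comap1/2`);
* `s36cb_frobA`    : the Legendre instance on `B_λ`;  `s36cb_frobAInv` : on `B_{λ⁻¹}`;
* `s36cb_frobB`    : the same THROUGH `β`: `B1 = φB B0 + P_VV`, `B1^q ⊆ φB B0 + P_VF`
  (`hpow` of `s36cf_oneBranch'` / `s36oc_Hyp` / `s36cp_bl_hord'`), `P_VF ∩_β B0 = (π) = P_VV ∩_β B0`,
  `φB π ∈ P_VF ⊓ P_VV`;  `s36cb_frobBInv` : at infinity.

Level-`N'` inputs: `hprime` (π prime in the chart) and `hic` (`B0 / π` integrally closed), i.e.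
`ssm_ll_prime`, `ssm_ll_ic1/ic2` in [NF2-CTX].
-/
import Mathlib
import Fermat.Agent.S36.CReg.BetaChart
import Fermat.Agent.S36.CuspTrans.T2Hyp

set_option autoImplicit false
set_option linter.unusedSectionVars false
set_option linter.unusedVariables false
set_option linter.style.haveILetI false

noncomputable section

namespace Fermat.Agent.S36

open Fermat.Agent.SS Fermat.Agent.JT3 IsLocalRing ModularCurve IntermediateField

section Generic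

variable {L : Type*} [Field L] [CharZero L] (O : ValuationSubring L)
  [IsDiscreteValuationRing O] {π : O} (hπ : Irreducible π)
variable (q : ℕ) [NeZero q] [hq : Fact q.Prime] [CharP (ResidueField O) q]
variable (E' E : IntermediateField L (LaurentSeries L)) (hle : E' ≤ E)
  (hE : E ≤ gq_quotField O L)

set_option synthInstance.maxHeartbeats 200000 in
set_option maxHeartbeats 800000 in
/-- **[CP-I] on one chart of a tower, as five closed facts** about an `α`-side chart map `φA`. -/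
theorem s36cb_si_frob (W : ↥E ≃+* ↥E) (hWW : ∀ x, W (W x) = x)
    (hW : ∀ z : ↥E', ((W (IntermediateField.inclusion hle z) : ↥E) : LaurentSeries L) =
      qExpand L q (z : LaurentSeries L))
    (hrank : IntermediateField.relfinrank E' E = q + 1)
    (ys : LaurentSeries O) (hyF : ssm_ga_FrobFixed q ys) (n : ℤ) (hn : ¬ (q : ℤ) ∣ n)
    (hyn : residue O (ys.coeff n) ≠ 0) (lam' : ↥E')
    (hlam : (lam' : LaurentSeries L) = coeffMap (algebraMap O L) ys)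
    (y : ↥E') (yE : ↥E) (hyE : IntermediateField.inclusion hle y = yE)
    (hy : Transcendental L y) [FiniteDimensional L⟮y⟯ ↥E'] (hyEt : Transcendental L yE)
    (hover : ssm_tp_Over (algebraMap ↥O (Algebra.adjoin ↥O ({y} : Set ↥E')) π)
      (gq_valSubOf π hπ.ne_zero hπ.maximalIdeal_eq E' (hle.trans hE)))
    (H : ssm_tp_Hyp (algebraMap ↥O (Algebra.adjoin ↥O ({yE} : Set ↥E)) π)
      (gq_valSubOf π hπ.ne_zero hπ.maximalIdeal_eq E hE)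
      ((gq_valSubOf π hπ.ne_zero hπ.maximalIdeal_eq E hE).comap (W : ↥E →+* ↥E)))
    (hprime : Prime (algebraMap ↥O (fc_chart ↥O ({y} : Set ↥E')) π))
    (hic : IsIntegrallyClosed (fc_chart ↥O ({y} : Set ↥E') ⧸
      (Ideal.span {algebraMap ↥O (fc_chart ↥O ({y} : Set ↥E')) π} :
        Ideal (fc_chart ↥O ({y} : Set ↥E')))))
    (φA : fc_chart ↥O ({y} : Set ↥E') →+* fc_chart ↥O ({yE} : Set ↥E))
    (hφA : ∀ b : fc_chart ↥O ({y} : Set ↥E'), ((φA b : fc_chart ↥O ({yE} : Set ↥E)) : ↥E) =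
      IntermediateField.inclusion hle (b : ↥E')) :
    (∀ b : fc_chart ↥O ({yE} : Set ↥E), ∃ b' : fc_chart ↥O ({y} : Set ↥E'),
      b - φA b' ∈ ssm_tp_P (fc_chart ↥O ({yE} : Set ↥E))
        (gq_valSubOf π hπ.ne_zero hπ.maximalIdeal_eq E hE)) ∧
    (∀ b : fc_chart ↥O ({yE} : Set ↥E), ∃ b' : fc_chart ↥O ({y} : Set ↥E'),
      b ^ q - φA b' ∈ ssm_tp_P (fc_chart ↥O ({yE} : Set ↥E))
        ((gq_valSubOf π hπ.ne_zero hπ.maximalIdeal_eq E hE).comap (W : ↥E →+* ↥E))) ∧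
    (ssm_tp_P (fc_chart ↥O ({yE} : Set ↥E))
        (gq_valSubOf π hπ.ne_zero hπ.maximalIdeal_eq E hE)).comap φA =
      Ideal.span {algebraMap ↥O (fc_chart ↥O ({y} : Set ↥E')) π} ∧
    (ssm_tp_P (fc_chart ↥O ({yE} : Set ↥E))
        ((gq_valSubOf π hπ.ne_zero hπ.maximalIdeal_eq E hE).comap (W : ↥E →+* ↥E))).comap φA =
      Ideal.span {algebraMap ↥O (fc_chart ↥O ({y} : Set ↥E')) π} ∧
    Ideal.span {algebraMap ↥O (fc_chart ↥O ({yE} : Set ↥E)) π} =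
      ssm_tp_P (fc_chart ↥O ({yE} : Set ↥E))
        (gq_valSubOf π hπ.ne_zero hπ.maximalIdeal_eq E hE) ⊓
      ssm_tp_P (fc_chart ↥O ({yE} : Set ↥E))
        ((gq_valSubOf π hπ.ne_zero hπ.maximalIdeal_eq E hE).comap (W : ↥E →+* ↥E)) := by
  subst hyE
  letI := ssm_gi_algebra hle
  letI := ssm_gi_algebraV hle (gq_valSubOf π hπ.ne_zero hπ.maximalIdeal_eq E' (hle.trans hE))
  haveI := ssm_gi_isScalarTower hle
    (gq_valSubOf π hπ.ne_zero hπ.maximalIdeal_eq E' (hle.trans hE))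
  have hfr : Module.finrank ↥E' ↥E = q + 1 := (ssm_gt_finrank_eq hle).trans hrank
  haveI : FiniteDimensional ↥E' ↥E := ssm_gi_finiteDimensional hfr
  haveI : Algebra.IsSeparable ↥E' ↥E := ssm_gi_isSeparable
  haveI := ssm_go_isScalarTower O E
  haveI := ssm_go_isScalarTower O E'
  haveI := ssm_gt_isScalarTower O hle
  have D := ssm_gt_data O hπ q E' E hle hE W hWW hW hrank ys hyF n hn hyn lam' hlam
  have hVK : ∀ z : ↥E', z ∈ gq_valSubOf π hπ.ne_zero hπ.maximalIdeal_eq E' (hle.trans hE) ↔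
      z ∈ (algebraMap ↥(gq_valSubOf π hπ.ne_zero hπ.maximalIdeal_eq E' (hle.trans hE)) ↥E').range :=
    fun z => (ssm_gi_mem_range _ z).symm
  have Lk := ssm_cpi_link_ff (L := L) D hπ hy hyEt hprime
    (gq_valSubOf π hπ.ne_zero hπ.maximalIdeal_eq E' (hle.trans hE)) hVK hover H
  have h1 := ssm_cpi_ff (L := L) D hπ hy hyEt hprime hic
    (gq_valSubOf π hπ.ne_zero hπ.maximalIdeal_eq E' (hle.trans hE)) hVK hover H
  have hC := ssm_tp_ff_chart (L := L) hπ hyEt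
  have hyEA : Transcendental ↥O (algebraMap ↥E' ↥E y) := fc_ff_transcendental (L := L) hyEt
  haveI : IsIntegrallyClosed (Algebra.adjoin ↥O ({algebraMap ↥E' ↥E y} : Set ↥E)) :=
    fc_ff_isIntegrallyClosed hyEA
  haveI : FaithfulSMul (Algebra.adjoin ↥O ({algebraMap ↥E' ↥E y} : Set ↥E)) ↥E :=
    (faithfulSMul_iff_algebraMap_injective _ _).2 Subtype.val_injective
  have hφAeq : φA = ssm_cpi_phi ↥O ↥E y := by
    ext b
    rw [hφA, ssm_cpi_phi_coe]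
    rfl
  subst hφAeq
  exact ⟨h1.1, h1.2.1, ssm_cpi_comap1 Lk, ssm_cpi_comap2 D Lk, H.P_inf hC _ rfl⟩

end Generic

section Leg

variable {L : Type*} [Field L] [CharZero L] [Algebra L (AlgebraicClosure ℚ)]
  (O : ValuationSubring L) [IsDiscreteValuationRing O] {π : O} (hπ : Irreducible π)
variable (N' q : ℕ) [NeZero N'] [NeZero q] [hq : Fact q.Prime] [CharP (ResidueField O) q]
  (hq2 : ¬ 2 ∣ q) (hqN' : ¬ q ∣ N')

set_option synthInstance.maxHeartbeats 200000 in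
set_option maxHeartbeats 800000 in
/-- **[CP-I] through `α` on `B_λ`** (level `N' q`): `B1 = φA B0 + P_VF`, `B1^q ⊆ φA B0 + P_VV`,
`P_VF ∩ B0 = (π) = P_VV ∩ B0`, `(π) = P_VF ⊓ P_VV`. -/
theorem s36cb_frobA
    (hprime : Prime (algebraMap ↥O (fc_chart ↥O ({lg_lamE N'} : Set ↥(lg_E L N'))) π))
    (hic : IsIntegrallyClosed (fc_chart ↥O ({lg_lamE N'} : Set ↥(lg_E L N')) ⧸
      (Ideal.span {algebraMap ↥O (fc_chart ↥O ({lg_lamE N'} : Set ↥(lg_E L N'))) π} :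
        Ideal (fc_chart ↥O ({lg_lamE N'} : Set ↥(lg_E L N')))))) :
    (∀ b : fc_chart ↥O ({lg_lamE (N' * q)} : Set ↥(lg_E L (N' * q))),
      ∃ b' : fc_chart ↥O ({lg_lamE N'} : Set ↥(lg_E L N')),
        b - s36cb_phiA O N' q b' ∈
          ssm_tp_P (fc_chart ↥O ({lg_lamE (N' * q)} : Set ↥(lg_E L (N' * q))))
            (ssm_gl_V1 O hπ N' q)) ∧
    (∀ b : fc_chart ↥O ({lg_lamE (N' * q)} : Set ↥(lg_E L (N' * q))),
      ∃ b' : fc_chart ↥O ({lg_lamE N'} : Set ↥(lg_E L N')),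
        b ^ q - s36cb_phiA O N' q b' ∈
          ssm_tp_P (fc_chart ↥O ({lg_lamE (N' * q)} : Set ↥(lg_E L (N' * q))))
            (ssm_gl_V2 O hπ N' q hq2 hqN')) ∧
    (ssm_tp_P (fc_chart ↥O ({lg_lamE (N' * q)} : Set ↥(lg_E L (N' * q))))
        (ssm_gl_V1 O hπ N' q)).comap (s36cb_phiA O N' q) =
      Ideal.span {algebraMap ↥O (fc_chart ↥O ({lg_lamE N'} : Set ↥(lg_E L N'))) π} ∧
    (ssm_tp_P (fc_chart ↥O ({lg_lamE (N' * q)} : Set ↥(lg_E L (N' * q))))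
        (ssm_gl_V2 O hπ N' q hq2 hqN')).comap (s36cb_phiA O N' q) =
      Ideal.span {algebraMap ↥O (fc_chart ↥O ({lg_lamE N'} : Set ↥(lg_E L N'))) π} ∧
    Ideal.span {algebraMap ↥O (fc_chart ↥O ({lg_lamE (N' * q)} : Set ↥(lg_E L (N' * q)))) π} =
      ssm_tp_P (fc_chart ↥O ({lg_lamE (N' * q)} : Set ↥(lg_E L (N' * q))))
        (ssm_gl_V1 O hπ N' q) ⊓
      ssm_tp_P (fc_chart ↥O ({lg_lamE (N' * q)} : Set ↥(lg_E L (N' * q))))
        (ssm_gl_V2 O hπ N' q hq2 hqN') := by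
  haveI := lgf_finite L N'
  haveI : FiniteDimensional
      L⟮IntermediateField.inclusion (ssm_al_E_le L N' q) (lg_lamE N')⟯ ↥(lg_E L (N' * q)) :=
    lgf_finite L (N' * q)
  have H := ssm_gl_hyp O hπ N' q hq2 hqN' hprime
  have hx : Transcendental L (lg_lamE (L := L) N') := lgf_lam_transcendental L N' two_ne_zero
  have hxE : Transcendental L (lg_lamE (L := L) (N' * q)) :=
    lgf_lam_transcendental L (N' * q) two_ne_zero
  have hover := ssm_go_over O (lg_E L N') (hm_lam O) (lg_lamE N') (hm_coeffMap_lam _).symm hπ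
    ((ssm_al_E_le L N' q).trans (ssm_ga_E_le_quotField O (N' * q))) one_ne_zero
    (ssm_ga_lam_coeff_one O (ssm_gl_two_ne_zero O q hq2))
  exact s36cb_si_frob O hπ q (lg_E L N') (lg_E L (N' * q)) (ssm_al_E_le L N' q)
    (ssm_ga_E_le_quotField O (N' * q)) (ssm_gl_W L N' q hq2 hqN')
    (ssm_al_WE_WE L N' q hq.out hq2 hqN')
    (fun z => ssm_al_coe_WE_of_mem L N' q hq.out hq2 hqN' z.2 _)
    (ssm_al_relfinrank_E L N' q hq.out hq2 hqN') (hm_lam O) (ssm_ga_lam_frobFixed O q) 1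
    (ssm_gl_not_dvd_one q) (ssm_ga_lam_coeff_one O (ssm_gl_two_ne_zero O q hq2)) (lg_lamE N')
    (hm_coeffMap_lam _).symm (lg_lamE N') (lg_lamE (N' * q)) rfl hx hxE hover H hprime hic
    (s36cb_phiA O N' q) (s36cb_phiA_coe O N' q)

set_option synthInstance.maxHeartbeats 200000 in
set_option maxHeartbeats 800000 in
/-- **[CP-I] through `α` on `B_{λ⁻¹}`** (level `N' q`). -/
theorem s36cb_frobAInv
    (hprime : Prime (algebraMap ↥O (fc_chart ↥O ({lg_lamE N'} : Set ↥(lg_E L N'))) π))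
    (hprime2 : Prime (algebraMap ↥O (fc_chart ↥O ({(lg_lamE N')⁻¹} : Set ↥(lg_E L N'))) π))
    (hic2 : IsIntegrallyClosed (fc_chart ↥O ({(lg_lamE N')⁻¹} : Set ↥(lg_E L N')) ⧸
      (Ideal.span {algebraMap ↥O (fc_chart ↥O ({(lg_lamE N')⁻¹} : Set ↥(lg_E L N'))) π} :
        Ideal (fc_chart ↥O ({(lg_lamE N')⁻¹} : Set ↥(lg_E L N')))))) :
    (∀ b : fc_chart ↥O ({(lg_lamE (N' * q))⁻¹} : Set ↥(lg_E L (N' * q))),
      ∃ b' : fc_chart ↥O ({(lg_lamE N')⁻¹} : Set ↥(lg_E L N')),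
        b - s36cb_phiAInv O N' q b' ∈
          ssm_tp_P (fc_chart ↥O ({(lg_lamE (N' * q))⁻¹} : Set ↥(lg_E L (N' * q))))
            (ssm_gl_V1 O hπ N' q)) ∧
    (∀ b : fc_chart ↥O ({(lg_lamE (N' * q))⁻¹} : Set ↥(lg_E L (N' * q))),
      ∃ b' : fc_chart ↥O ({(lg_lamE N')⁻¹} : Set ↥(lg_E L N')),
        b ^ q - s36cb_phiAInv O N' q b' ∈
          ssm_tp_P (fc_chart ↥O ({(lg_lamE (N' * q))⁻¹} : Set ↥(lg_E L (N' * q))))
            (ssm_gl_V2 O hπ N' q hq2 hqN')) ∧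
    (ssm_tp_P (fc_chart ↥O ({(lg_lamE (N' * q))⁻¹} : Set ↥(lg_E L (N' * q))))
        (ssm_gl_V1 O hπ N' q)).comap (s36cb_phiAInv O N' q) =
      Ideal.span {algebraMap ↥O (fc_chart ↥O ({(lg_lamE N')⁻¹} : Set ↥(lg_E L N'))) π} ∧
    (ssm_tp_P (fc_chart ↥O ({(lg_lamE (N' * q))⁻¹} : Set ↥(lg_E L (N' * q))))
        (ssm_gl_V2 O hπ N' q hq2 hqN')).comap (s36cb_phiAInv O N' q) =
      Ideal.span {algebraMap ↥O (fc_chart ↥O ({(lg_lamE N')⁻¹} : Set ↥(lg_E L N'))) π} ∧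
    Ideal.span
        {algebraMap ↥O (fc_chart ↥O ({(lg_lamE (N' * q))⁻¹} : Set ↥(lg_E L (N' * q)))) π} =
      ssm_tp_P (fc_chart ↥O ({(lg_lamE (N' * q))⁻¹} : Set ↥(lg_E L (N' * q))))
        (ssm_gl_V1 O hπ N' q) ⊓
      ssm_tp_P (fc_chart ↥O ({(lg_lamE (N' * q))⁻¹} : Set ↥(lg_E L (N' * q))))
        (ssm_gl_V2 O hπ N' q hq2 hqN') := by
  haveI := lgf_finite L N'
  haveI : FiniteDimensional
      L⟮IntermediateField.inclusion (ssm_al_E_le L N' q) (lg_lamE N')⟯ ↥(lg_E L (N' * q)) :=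
    lgf_finite L (N' * q)
  haveI : FiniteDimensional L⟮(lg_lamE (N' * q) : lg_E L (N' * q))⟯ ↥(lg_E L (N' * q)) :=
    lgf_finite L (N' * q)
  haveI := ssm_go_isScalarTower O (lg_E L (N' * q))
  haveI := ssm_go_isScalarTower O (lg_E L N')
  have H := ssm_gl_hyp O hπ N' q hq2 hqN' hprime
  have hx : Transcendental L (lg_lamE (L := L) N') := lgf_lam_transcendental L N' two_ne_zero
  have hxE : Transcendental L (lg_lamE (L := L) (N' * q)) :=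
    lgf_lam_transcendental L (N' * q) two_ne_zero
  have hxi : Transcendental L (lg_lamE (L := L) N')⁻¹ := fun h => hx (IsAlgebraic.inv_iff.mp h)
  have hxEi : Transcendental L (lg_lamE (L := L) (N' * q))⁻¹ :=
    fun h => hxE (IsAlgebraic.inv_iff.mp h)
  have hover := ssm_go_over O (lg_E L N') (hm_lam O) (lg_lamE N') (hm_coeffMap_lam _).symm hπ
    ((ssm_al_E_le L N' q).trans (ssm_ga_E_le_quotField O (N' * q))) one_ne_zero
    (ssm_ga_lam_coeff_one O (ssm_gl_two_ne_zero O q hq2))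
  have hover' := ssm_tp_over_inv (fc_ff_transcendental (L := L) hx)
    (fc_ff_transcendental (L := L) hxi) hπ.not_isUnit hover
  have H' := ssm_tp_ff_hyp_inv (L := L) hπ hxE H
  haveI : FiniteDimensional L⟮(lg_lamE (L := L) N')⁻¹⟯ ↥(lg_E L N') := by
    rw [rt_adjoin_inv]; infer_instance
  exact s36cb_si_frob O hπ q (lg_E L N') (lg_E L (N' * q)) (ssm_al_E_le L N' q)
    (ssm_ga_E_le_quotField O (N' * q)) (ssm_gl_W L N' q hq2 hqN')
    (ssm_al_WE_WE L N' q hq.out hq2 hqN')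
    (fun z => ssm_al_coe_WE_of_mem L N' q hq.out hq2 hqN' z.2 _)
    (ssm_al_relfinrank_E L N' q hq.out hq2 hqN') (hm_lam O) (ssm_ga_lam_frobFixed O q) 1
    (ssm_gl_not_dvd_one q) (ssm_ga_lam_coeff_one O (ssm_gl_two_ne_zero O q hq2)) (lg_lamE N')
    (hm_coeffMap_lam _).symm (lg_lamE N')⁻¹ (lg_lamE (N' * q))⁻¹
    (map_inv₀ (IntermediateField.inclusion (ssm_al_E_le L N' q)) (lg_lamE N')) hxi hxEi hover' H'
    hprime2 hic2 (s36cb_phiAInv O N' q) (s36cb_phiAInv_coe O N' q)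

/-- **[CP-I] THROUGH `β` on `B_λ`** (level `N' q`): `B1 = φB B0 + P_VV`, `B1^q ⊆ φB B0 + P_VF`
(= `hpow` of `s36cf_oneBranch'`, `s36oc_Hyp`, `s36cp_bl_hord'` with `P1 := P_VV`, `P2 := P_VF`),
`P_VF ∩_β B0 = (π) = P_VV ∩_β B0`, `φB π ∈ P_VF`, `φB π ∈ P_VV`, `(φB π) = P_VV ⊓ P_VF`. -/
theorem s36cb_frobB
    (hprime : Prime (algebraMap ↥O (fc_chart ↥O ({lg_lamE N'} : Set ↥(lg_E L N'))) π))
    (hic : IsIntegrallyClosed (fc_chart ↥O ({lg_lamE N'} : Set ↥(lg_E L N')) ⧸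
      (Ideal.span {algebraMap ↥O (fc_chart ↥O ({lg_lamE N'} : Set ↥(lg_E L N'))) π} :
        Ideal (fc_chart ↥O ({lg_lamE N'} : Set ↥(lg_E L N')))))) :
    (∀ b : fc_chart ↥O ({lg_lamE (N' * q)} : Set ↥(lg_E L (N' * q))),
      ∃ b' : fc_chart ↥O ({lg_lamE N'} : Set ↥(lg_E L N')),
        b - s36cb_phiB O hπ N' q hq2 hqN' hprime b' ∈
          ssm_tp_P (fc_chart ↥O ({lg_lamE (N' * q)} : Set ↥(lg_E L (N' * q))))
            (ssm_gl_V2 O hπ N' q hq2 hqN')) ∧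
    (∀ b : fc_chart ↥O ({lg_lamE (N' * q)} : Set ↥(lg_E L (N' * q))),
      ∃ b' : fc_chart ↥O ({lg_lamE N'} : Set ↥(lg_E L N')),
        b ^ q - s36cb_phiB O hπ N' q hq2 hqN' hprime b' ∈
          ssm_tp_P (fc_chart ↥O ({lg_lamE (N' * q)} : Set ↥(lg_E L (N' * q))))
            (ssm_gl_V1 O hπ N' q)) ∧
    (ssm_tp_P (fc_chart ↥O ({lg_lamE (N' * q)} : Set ↥(lg_E L (N' * q))))
        (ssm_gl_V1 O hπ N' q)).comap (s36cb_phiB O hπ N' q hq2 hqN' hprime) =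
      Ideal.span {algebraMap ↥O (fc_chart ↥O ({lg_lamE N'} : Set ↥(lg_E L N'))) π} ∧
    (ssm_tp_P (fc_chart ↥O ({lg_lamE (N' * q)} : Set ↥(lg_E L (N' * q))))
        (ssm_gl_V2 O hπ N' q hq2 hqN')).comap (s36cb_phiB O hπ N' q hq2 hqN' hprime) =
      Ideal.span {algebraMap ↥O (fc_chart ↥O ({lg_lamE N'} : Set ↥(lg_E L N'))) π} ∧
    s36cb_phiB O hπ N' q hq2 hqN' hprime
        (algebraMap ↥O (fc_chart ↥O ({lg_lamE N'} : Set ↥(lg_E L N'))) π) ∈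
      ssm_tp_P (fc_chart ↥O ({lg_lamE (N' * q)} : Set ↥(lg_E L (N' * q))))
        (ssm_gl_V1 O hπ N' q) ∧
    s36cb_phiB O hπ N' q hq2 hqN' hprime
        (algebraMap ↥O (fc_chart ↥O ({lg_lamE N'} : Set ↥(lg_E L N'))) π) ∈
      ssm_tp_P (fc_chart ↥O ({lg_lamE (N' * q)} : Set ↥(lg_E L (N' * q))))
        (ssm_gl_V2 O hπ N' q hq2 hqN') ∧
    Ideal.span {s36cb_phiB O hπ N' q hq2 hqN' hprime
        (algebraMap ↥O (fc_chart ↥O ({lg_lamE N'} : Set ↥(lg_E L N'))) π)} =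
      ssm_tp_P (fc_chart ↥O ({lg_lamE (N' * q)} : Set ↥(lg_E L (N' * q))))
        (ssm_gl_V2 O hπ N' q hq2 hqN') ⊓
      ssm_tp_P (fc_chart ↥O ({lg_lamE (N' * q)} : Set ↥(lg_E L (N' * q))))
        (ssm_gl_V1 O hπ N' q) := by
  obtain ⟨hadd, hpow, hc1, hc2, hP⟩ := s36cb_frobA O hπ N' q hq2 hqN' hprime hic
  have hWW := s36cb_WB_WB O hπ N' q hq2 hqN' hprime
  have hAB := s36cb_phiB_apply O hπ N' q hq2 hqN' hprime
  have hW12 := s36cb_W12 O hπ N' q hq2 hqN' hprime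
  have hπmem : algebraMap ↥O (fc_chart ↥O ({lg_lamE (N' * q)} : Set ↥(lg_E L (N' * q)))) π ∈
      ssm_tp_P (fc_chart ↥O ({lg_lamE (N' * q)} : Set ↥(lg_E L (N' * q))))
        (ssm_gl_V1 O hπ N' q) ⊓
      ssm_tp_P (fc_chart ↥O ({lg_lamE (N' * q)} : Set ↥(lg_E L (N' * q))))
        (ssm_gl_V2 O hπ N' q hq2 hqN') := hP ▸ Ideal.subset_span rfl
  refine ⟨s36ct_add_beta (s36cb_phiA O N' q) (s36cb_phiB O hπ N' q hq2 hqN' hprime)
      (s36cb_WB O hπ N' q hq2 hqN' hprime) hWW hAB _ _ hW12 hadd,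
    s36ct_pow_beta (s36cb_phiA O N' q) (s36cb_phiB O hπ N' q hq2 hqN' hprime)
      (s36cb_WB O hπ N' q hq2 hqN' hprime) hWW hAB _ _ hW12 hpow, ?_, ?_, ?_, ?_, ?_⟩
  · rw [s36ct_comap_beta1 (s36cb_phiA O N' q) (s36cb_phiB O hπ N' q hq2 hqN' hprime)
      (s36cb_WB O hπ N' q hq2 hqN' hprime) hWW hAB _ _ hW12, hc2]
  · rw [s36ct_comap_beta2 (s36cb_phiA O N' q) (s36cb_phiB O hπ N' q hq2 hqN' hprime)
      (s36cb_WB O hπ N' q hq2 hqN' hprime) hWW hAB _ _ hW12, hc1]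
  · rw [s36cb_phiB_algebraMap]
    exact hπmem.1
  · rw [s36cb_phiB_algebraMap]
    exact hπmem.2
  · rw [s36cb_phiB_algebraMap, hP, inf_comm]

/-- **[CP-I] THROUGH `β` on `B_{λ⁻¹}`** (level `N' q`). -/
theorem s36cb_frobBInv
    (hprime : Prime (algebraMap ↥O (fc_chart ↥O ({lg_lamE N'} : Set ↥(lg_E L N'))) π))
    (hprime2 : Prime (algebraMap ↥O (fc_chart ↥O ({(lg_lamE N')⁻¹} : Set ↥(lg_E L N'))) π))
    (hic2 : IsIntegrallyClosed (fc_chart ↥O ({(lg_lamE N')⁻¹} : Set ↥(lg_E L N')) ⧸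
      (Ideal.span {algebraMap ↥O (fc_chart ↥O ({(lg_lamE N')⁻¹} : Set ↥(lg_E L N'))) π} :
        Ideal (fc_chart ↥O ({(lg_lamE N')⁻¹} : Set ↥(lg_E L N')))))) :
    (∀ b : fc_chart ↥O ({(lg_lamE (N' * q))⁻¹} : Set ↥(lg_E L (N' * q))),
      ∃ b' : fc_chart ↥O ({(lg_lamE N')⁻¹} : Set ↥(lg_E L N')),
        b - s36cb_phiBInv O hπ N' q hq2 hqN' hprime b' ∈
          ssm_tp_P (fc_chart ↥O ({(lg_lamE (N' * q))⁻¹} : Set ↥(lg_E L (N' * q))))
            (ssm_gl_V2 O hπ N' q hq2 hqN')) ∧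
    (∀ b : fc_chart ↥O ({(lg_lamE (N' * q))⁻¹} : Set ↥(lg_E L (N' * q))),
      ∃ b' : fc_chart ↥O ({(lg_lamE N')⁻¹} : Set ↥(lg_E L N')),
        b ^ q - s36cb_phiBInv O hπ N' q hq2 hqN' hprime b' ∈
          ssm_tp_P (fc_chart ↥O ({(lg_lamE (N' * q))⁻¹} : Set ↥(lg_E L (N' * q))))
            (ssm_gl_V1 O hπ N' q)) ∧
    (ssm_tp_P (fc_chart ↥O ({(lg_lamE (N' * q))⁻¹} : Set ↥(lg_E L (N' * q))))
        (ssm_gl_V1 O hπ N' q)).comap (s36cb_phiBInv O hπ N' q hq2 hqN' hprime) =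
      Ideal.span {algebraMap ↥O (fc_chart ↥O ({(lg_lamE N')⁻¹} : Set ↥(lg_E L N'))) π} ∧
    (ssm_tp_P (fc_chart ↥O ({(lg_lamE (N' * q))⁻¹} : Set ↥(lg_E L (N' * q))))
        (ssm_gl_V2 O hπ N' q hq2 hqN')).comap (s36cb_phiBInv O hπ N' q hq2 hqN' hprime) =
      Ideal.span {algebraMap ↥O (fc_chart ↥O ({(lg_lamE N')⁻¹} : Set ↥(lg_E L N'))) π} ∧
    s36cb_phiBInv O hπ N' q hq2 hqN' hprime
        (algebraMap ↥O (fc_chart ↥O ({(lg_lamE N')⁻¹} : Set ↥(lg_E L N'))) π) ∈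
      ssm_tp_P (fc_chart ↥O ({(lg_lamE (N' * q))⁻¹} : Set ↥(lg_E L (N' * q))))
        (ssm_gl_V1 O hπ N' q) ∧
    s36cb_phiBInv O hπ N' q hq2 hqN' hprime
        (algebraMap ↥O (fc_chart ↥O ({(lg_lamE N')⁻¹} : Set ↥(lg_E L N'))) π) ∈
      ssm_tp_P (fc_chart ↥O ({(lg_lamE (N' * q))⁻¹} : Set ↥(lg_E L (N' * q))))
        (ssm_gl_V2 O hπ N' q hq2 hqN') ∧
    Ideal.span {s36cb_phiBInv O hπ N' q hq2 hqN' hprime
        (algebraMap ↥O (fc_chart ↥O ({(lg_lamE N')⁻¹} : Set ↥(lg_E L N'))) π)} =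
      ssm_tp_P (fc_chart ↥O ({(lg_lamE (N' * q))⁻¹} : Set ↥(lg_E L (N' * q))))
        (ssm_gl_V2 O hπ N' q hq2 hqN') ⊓
      ssm_tp_P (fc_chart ↥O ({(lg_lamE (N' * q))⁻¹} : Set ↥(lg_E L (N' * q))))
        (ssm_gl_V1 O hπ N' q) := by
  obtain ⟨hadd, hpow, hc1, hc2, hP⟩ := s36cb_frobAInv O hπ N' q hq2 hqN' hprime hprime2 hic2
  have hWW := s36cb_WBInv_WBInv O hπ N' q hq2 hqN' hprime
  have hAB := s36cb_phiBInv_apply O hπ N' q hq2 hqN' hprime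
  have hW12 := s36cb_W12Inv O hπ N' q hq2 hqN' hprime
  have hπmem :
      algebraMap ↥O (fc_chart ↥O ({(lg_lamE (N' * q))⁻¹} : Set ↥(lg_E L (N' * q)))) π ∈
      ssm_tp_P (fc_chart ↥O ({(lg_lamE (N' * q))⁻¹} : Set ↥(lg_E L (N' * q))))
        (ssm_gl_V1 O hπ N' q) ⊓
      ssm_tp_P (fc_chart ↥O ({(lg_lamE (N' * q))⁻¹} : Set ↥(lg_E L (N' * q))))
        (ssm_gl_V2 O hπ N' q hq2 hqN') := hP ▸ Ideal.subset_span rfl
  refine ⟨s36ct_add_beta (s36cb_phiAInv O N' q) (s36cb_phiBInv O hπ N' q hq2 hqN' hprime)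
      (s36cb_WBInv O hπ N' q hq2 hqN' hprime) hWW hAB _ _ hW12 hadd,
    s36ct_pow_beta (s36cb_phiAInv O N' q) (s36cb_phiBInv O hπ N' q hq2 hqN' hprime)
      (s36cb_WBInv O hπ N' q hq2 hqN' hprime) hWW hAB _ _ hW12 hpow, ?_, ?_, ?_, ?_, ?_⟩
  · rw [s36ct_comap_beta1 (s36cb_phiAInv O N' q) (s36cb_phiBInv O hπ N' q hq2 hqN' hprime)
      (s36cb_WBInv O hπ N' q hq2 hqN' hprime) hWW hAB _ _ hW12, hc2]
  · rw [s36ct_comap_beta2 (s36cb_phiAInv O N' q) (s36cb_phiBInv O hπ N' q hq2 hqN' hprime)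
      (s36cb_WBInv O hπ N' q hq2 hqN' hprime) hWW hAB _ _ hW12, hc1]
  · rw [s36cb_phiBInv_algebraMap]
    exact hπmem.1
  · rw [s36cb_phiBInv_algebraMap]
    exact hπmem.2
  · rw [s36cb_phiBInv_algebraMap, hP, inf_comm]

/-- **`hpow` through `β`** (`B1^q ⊆ φB B0 + P_VF`), the form consumed by `s36cf_oneBranch'`,
`s36oc_Hyp.hpow` (with `P2 := P_VF`) and `s36cp_bl_hord'`. -/
theorem s36cb_pow_beta
    (hprime : Prime (algebraMap ↥O (fc_chart ↥O ({lg_lamE N'} : Set ↥(lg_E L N'))) π))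
    (hic : IsIntegrallyClosed (fc_chart ↥O ({lg_lamE N'} : Set ↥(lg_E L N')) ⧸
      (Ideal.span {algebraMap ↥O (fc_chart ↥O ({lg_lamE N'} : Set ↥(lg_E L N'))) π} :
        Ideal (fc_chart ↥O ({lg_lamE N'} : Set ↥(lg_E L N'))))))
    (b : fc_chart ↥O ({lg_lamE (N' * q)} : Set ↥(lg_E L (N' * q)))) :
    ∃ b' : fc_chart ↥O ({lg_lamE N'} : Set ↥(lg_E L N')),
      b ^ q - s36cb_phiB O hπ N' q hq2 hqN' hprime b' ∈
        ssm_tp_P (fc_chart ↥O ({lg_lamE (N' * q)} : Set ↥(lg_E L (N' * q))))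
          (ssm_gl_V1 O hπ N' q) :=
  (s36cb_frobB O hπ N' q hq2 hqN' hprime hic).2.1 b

/-- **`hadd` through `β`** (`B1 = φB B0 + P_VV`). -/
theorem s36cb_add_beta
    (hprime : Prime (algebraMap ↥O (fc_chart ↥O ({lg_lamE N'} : Set ↥(lg_E L N'))) π))
    (hic : IsIntegrallyClosed (fc_chart ↥O ({lg_lamE N'} : Set ↥(lg_E L N')) ⧸
      (Ideal.span {algebraMap ↥O (fc_chart ↥O ({lg_lamE N'} : Set ↥(lg_E L N'))) π} :
        Ideal (fc_chart ↥O ({lg_lamE N'} : Set ↥(lg_E L N'))))))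
    (b : fc_chart ↥O ({lg_lamE (N' * q)} : Set ↥(lg_E L (N' * q)))) :
    ∃ b' : fc_chart ↥O ({lg_lamE N'} : Set ↥(lg_E L N')),
      b - s36cb_phiB O hπ N' q hq2 hqN' hprime b' ∈
        ssm_tp_P (fc_chart ↥O ({lg_lamE (N' * q)} : Set ↥(lg_E L (N' * q))))
          (ssm_gl_V2 O hπ N' q hq2 hqN') :=
  (s36cb_frobB O hπ N' q hq2 hqN' hprime hic).1 b

/-- `hπP2`: `φB π ∈ P_VF` (needs only `hprime`). -/
theorem s36cb_phiB_pi_mem
    (hprime : Prime (algebraMap ↥O (fc_chart ↥O ({lg_lamE N'} : Set ↥(lg_E L N'))) π)) :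
    s36cb_phiB O hπ N' q hq2 hqN' hprime
        (algebraMap ↥O (fc_chart ↥O ({lg_lamE N'} : Set ↥(lg_E L N'))) π) ∈
      ssm_tp_P (fc_chart ↥O ({lg_lamE (N' * q)} : Set ↥(lg_E L (N' * q))))
        (ssm_gl_V1 O hπ N' q) := by
  obtain ⟨le1, -⟩ := s36cel_chart_le O hπ N' q hq2 hqN' hprime
  haveI := ssm_go_isScalarTower O (lg_E L (N' * q))
  have hx : Transcendental L (lg_lamE (L := L) (N' * q)) :=
    lgf_lam_transcendental L (N' * q) two_ne_zero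
  have hxA : Transcendental ↥O (lg_lamE (L := L) (N' * q)) := fc_ff_transcendental (L := L) hx
  haveI : IsIntegrallyClosed (Algebra.adjoin ↥O ({lg_lamE (N' * q)} : Set ↥(lg_E L (N' * q)))) :=
    fc_ff_isIntegrallyClosed hxA
  haveI : FaithfulSMul (Algebra.adjoin ↥O ({lg_lamE (N' * q)} : Set ↥(lg_E L (N' * q))))
      ↥(lg_E L (N' * q)) :=
    (faithfulSMul_iff_algebraMap_injective _ _).2 Subtype.val_injective
  have H := ssm_gl_hyp O hπ N' q hq2 hqN' hprime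
  rw [s36cb_phiB_algebraMap, ssm_tp_mem_P le1]
  exact H.over1.pi_mem

/-- **`hpow` through `β` at infinity.** -/
theorem s36cb_pow_betaInv
    (hprime : Prime (algebraMap ↥O (fc_chart ↥O ({lg_lamE N'} : Set ↥(lg_E L N'))) π))
    (hprime2 : Prime (algebraMap ↥O (fc_chart ↥O ({(lg_lamE N')⁻¹} : Set ↥(lg_E L N'))) π))
    (hic2 : IsIntegrallyClosed (fc_chart ↥O ({(lg_lamE N')⁻¹} : Set ↥(lg_E L N')) ⧸
      (Ideal.span {algebraMap ↥O (fc_chart ↥O ({(lg_lamE N')⁻¹} : Set ↥(lg_E L N'))) π} :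
        Ideal (fc_chart ↥O ({(lg_lamE N')⁻¹} : Set ↥(lg_E L N'))))))
    (b : fc_chart ↥O ({(lg_lamE (N' * q))⁻¹} : Set ↥(lg_E L (N' * q)))) :
    ∃ b' : fc_chart ↥O ({(lg_lamE N')⁻¹} : Set ↥(lg_E L N')),
      b ^ q - s36cb_phiBInv O hπ N' q hq2 hqN' hprime b' ∈
        ssm_tp_P (fc_chart ↥O ({(lg_lamE (N' * q))⁻¹} : Set ↥(lg_E L (N' * q))))
          (ssm_gl_V1 O hπ N' q) :=
  (s36cb_frobBInv O hπ N' q hq2 hqN' hprime hprime2 hic2).2.1 b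

/-- **`hadd` through `β` at infinity.** -/
theorem s36cb_add_betaInv
    (hprime : Prime (algebraMap ↥O (fc_chart ↥O ({lg_lamE N'} : Set ↥(lg_E L N'))) π))
    (hprime2 : Prime (algebraMap ↥O (fc_chart ↥O ({(lg_lamE N')⁻¹} : Set ↥(lg_E L N'))) π))
    (hic2 : IsIntegrallyClosed (fc_chart ↥O ({(lg_lamE N')⁻¹} : Set ↥(lg_E L N')) ⧸
      (Ideal.span {algebraMap ↥O (fc_chart ↥O ({(lg_lamE N')⁻¹} : Set ↥(lg_E L N'))) π} :
        Ideal (fc_chart ↥O ({(lg_lamE N')⁻¹} : Set ↥(lg_E L N'))))))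
    (b : fc_chart ↥O ({(lg_lamE (N' * q))⁻¹} : Set ↥(lg_E L (N' * q)))) :
    ∃ b' : fc_chart ↥O ({(lg_lamE N')⁻¹} : Set ↥(lg_E L N')),
      b - s36cb_phiBInv O hπ N' q hq2 hqN' hprime b' ∈
        ssm_tp_P (fc_chart ↥O ({(lg_lamE (N' * q))⁻¹} : Set ↥(lg_E L (N' * q))))
          (ssm_gl_V2 O hπ N' q hq2 hqN') :=
  (s36cb_frobBInv O hπ N' q hq2 hqN' hprime hprime2 hic2).1 b

/-- `hπP2` at infinity: `φBInv π ∈ P_VF` (needs only `hprime`). -/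
theorem s36cb_phiBInv_pi_mem
    (hprime : Prime (algebraMap ↥O (fc_chart ↥O ({lg_lamE N'} : Set ↥(lg_E L N'))) π)) :
    s36cb_phiBInv O hπ N' q hq2 hqN' hprime
        (algebraMap ↥O (fc_chart ↥O ({(lg_lamE N')⁻¹} : Set ↥(lg_E L N'))) π) ∈
      ssm_tp_P (fc_chart ↥O ({(lg_lamE (N' * q))⁻¹} : Set ↥(lg_E L (N' * q))))
        (ssm_gl_V1 O hπ N' q) := by
  obtain ⟨le1, -⟩ := s36cb_chartInv_le O hπ N' q hq2 hqN' hprime
  haveI := ssm_go_isScalarTower O (lg_E L (N' * q))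
  have hx : Transcendental L (lg_lamE (L := L) (N' * q)) :=
    lgf_lam_transcendental L (N' * q) two_ne_zero
  have hxA : Transcendental ↥O (lg_lamE (L := L) (N' * q)) := fc_ff_transcendental (L := L) hx
  haveI : IsIntegrallyClosed (Algebra.adjoin ↥O ({lg_lamE (N' * q)} : Set ↥(lg_E L (N' * q)))) :=
    fc_ff_isIntegrallyClosed hxA
  haveI : FaithfulSMul (Algebra.adjoin ↥O ({lg_lamE (N' * q)} : Set ↥(lg_E L (N' * q))))
      ↥(lg_E L (N' * q)) :=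
    (faithfulSMul_iff_algebraMap_injective _ _).2 Subtype.val_injective
  have H := ssm_gl_hyp O hπ N' q hq2 hqN' hprime
  rw [s36cb_phiBInv_algebraMap, ssm_tp_mem_P le1]
  exact H.over1.pi_mem

end Leg

end Fermat.Agent.S36
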