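/-
Project S36, model cell [M2], leaf **[C-CUSP]**, abstract half (helper5).  Prefix `s36cr_`.

THE POINT OF THE COMPONENT OF MULTIPLICITY `q - 1` AT A CUSP.

At a cusp `y_c` of the middle chart (level `N'`), with cusp divisor `(t₁)`, the integral closure
`C1 = S[t]` in the function field of level `N' q` has the wild cusp `(t)` (`t₁ = t^q w`) and the
characteristic polynomial of `t` is `F = X^(q+1) - a X^q - t₁ G` (`a` a unit, `deg G ≤ q`).  The
local equation of the component `C` at its point over the wild cusp is NOT `z = W₂ t - t` (which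
also vanishes along the `q - 1` conjugate "middle" cusps) but `t / W₂ t - 1`.

* `s36cr_cusp_ratio` : at a valuation ring `V` of the function field of level `N' q²` in which `q`
  is a unit, with `t, t₂ ∈ 𝔪_V` (`t₂ = W₂ t ≠ t` another root of `F`):
  `t / t₂` and `t₂ / t` lie in `V` and `t / t₂ - 1` is a unit of `V` (its residue is a primitive
  `q`-th root of unity);
* `s36cr_dvd_pi_t_pow` : the discriminant divides `π^a t₁^b` as soon as it lies in no other
  height-one prime; `s36cr_dvd_pi_t_pow'` : pushed to `C2` (twin of `s36cr_dvd_pi_pow`).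
-/
import Mathlib
import Fermat.Agent.SS.Model.ThickDiscr
import Fermat.Agent.SS.Model.TwoValW

set_option autoImplicit false
set_option linter.unusedSectionVars false
set_option linter.unusedVariables false
set_option linter.style.haveILetI false

namespace Fermat.Agent.S36

open Fermat.Agent.SS Polynomial Module

section Ratio

variable {E : Type*} [Field E]

theorem s36cr_zero_mem_nonunits (V : ValuationSubring E) : (0 : E) ∈ V.nonunits := by
  rw [ValuationSubring.mem_nonunits_iff, map_zero]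
  exact zero_lt_one

theorem s36cr_geom_mem (V : ValuationSubring E) {x : E} (hx : x ∈ V) (n : ℕ) :
    (∑ i ∈ Finset.range n, x ^ i) ∈ V :=
  V.toSubring.sum_mem fun i _ => V.pow_mem hx i

/-- `1 + x + ⋯ + x^(n-1) ≡ n` modulo `x - 1`, in a valuation ring. -/
theorem s36cr_geom_sub_mem (V : ValuationSubring E) {x : E} (hx : x ∈ V)
    (h1 : x - 1 ∈ V.nonunits) (n : ℕ) :
    (∑ i ∈ Finset.range n, x ^ i) - (n : E) ∈ V.nonunits := by
  induction n with
  | zero =>
    simp only [Finset.range_zero, Finset.sum_empty, Nat.cast_zero, sub_self]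
    exact s36cr_zero_mem_nonunits V
  | succ n ih =>
    rw [Finset.sum_range_succ]
    have h2 : x ^ n - 1 ∈ V.nonunits := by
      have := ssm_tw_nonunits_pow_sub V hx V.one_mem h1 n
      rwa [one_pow] at this
    have e : (∑ i ∈ Finset.range n, x ^ i) + x ^ n - ((n + 1 : ℕ) : E) =
        ((∑ i ∈ Finset.range n, x ^ i) - (n : E)) + (x ^ n - 1) := by
      push_cast; ring
    rw [e]
    exact ssm_tw_nonunits_add V ih h2

/-- `1 + x + ⋯ + x^(n-1) ≡ 1` modulo `x`, for `n ≥ 1`. -/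
theorem s36cr_geom_sub_one_mem (V : ValuationSubring E) {x : E} (hx : x ∈ V.nonunits) (n : ℕ) :
    (∑ i ∈ Finset.range (n + 1), x ^ i) - 1 ∈ V.nonunits := by
  rw [Finset.sum_range_succ', pow_zero, add_sub_cancel_right]
  have : ∑ i ∈ Finset.range n, x ^ (i + 1) = (∑ i ∈ Finset.range n, x ^ i) * x := by
    rw [Finset.sum_mul]
    exact Finset.sum_congr rfl fun i _ => pow_succ x i
  rw [this]
  exact ssm_tw_nonunits_mul V (s36cr_geom_mem V (ssm_tw_nonunits_le V hx) n) hx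

/-- the two-root identity: if `x = ρ y` and `x, y` are two distinct roots of
`Y^(q+1) - a Y^q - t₁ Σ g_k Y^k`, then
`y^(q+1) s_{q+1}(ρ) - a y^q s_q(ρ) - t₁ Σ g_k y^k s_k(ρ) = 0`, `s_k(ρ) = 1 + ρ + ⋯ + ρ^(k-1)`. -/
theorem s36cr_two_roots (q : ℕ) (a t1 : E) (g : ℕ → E) (x y ρ : E) (hxy : x = ρ * y)
    (hρ : ρ ≠ 1)
    (hx : x ^ (q + 1) - a * x ^ q - t1 * ∑ k ∈ Finset.range (q + 1), g k * x ^ k = 0)
    (hy : y ^ (q + 1) - a * y ^ q - t1 * ∑ k ∈ Finset.range (q + 1), g k * y ^ k = 0) :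
    y ^ (q + 1) * (∑ i ∈ Finset.range (q + 1), ρ ^ i) - a * y ^ q * (∑ i ∈ Finset.range q, ρ ^ i)
      - t1 * ∑ k ∈ Finset.range (q + 1), g k * y ^ k * (∑ i ∈ Finset.range k, ρ ^ i) = 0 := by
  have hs : ∀ k : ℕ, (∑ i ∈ Finset.range k, ρ ^ i) * (ρ - 1) = ρ ^ k - 1 := fun k =>
    geom_sum_mul ρ k
  have hne : ρ - 1 ≠ 0 := sub_ne_zero.2 hρ
  apply mul_right_cancel₀ hne
  rw [zero_mul]
  have e0 : (∑ k ∈ Finset.range (q + 1), g k * y ^ k * (∑ i ∈ Finset.range k, ρ ^ i)) * (ρ - 1)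
      = ∑ k ∈ Finset.range (q + 1), g k * y ^ k * (ρ ^ k - 1) := by
    rw [Finset.sum_mul]
    apply Finset.sum_congr rfl
    intro k _
    rw [mul_assoc, hs]
  have e1 : (y ^ (q + 1) * (∑ i ∈ Finset.range (q + 1), ρ ^ i)
      - a * y ^ q * (∑ i ∈ Finset.range q, ρ ^ i)
      - t1 * ∑ k ∈ Finset.range (q + 1), g k * y ^ k * (∑ i ∈ Finset.range k, ρ ^ i)) * (ρ - 1)
      = y ^ (q + 1) * (ρ ^ (q + 1) - 1) - a * y ^ q * (ρ ^ q - 1)
      - t1 * ∑ k ∈ Finset.range (q + 1), g k * y ^ k * (ρ ^ k - 1) := by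
    rw [← e0, ← hs (q + 1), ← hs q]
    ring
  rw [e1]
  have e2 : ∑ k ∈ Finset.range (q + 1), g k * y ^ k * (ρ ^ k - 1)
      = ∑ k ∈ Finset.range (q + 1), g k * x ^ k - ∑ k ∈ Finset.range (q + 1), g k * y ^ k := by
    rw [← Finset.sum_sub_distrib]
    apply Finset.sum_congr rfl
    intro k _
    rw [hxy]; ring
  rw [e2]
  have hx' : (ρ * y) ^ (q + 1) - a * (ρ * y) ^ q
      - t1 * ∑ k ∈ Finset.range (q + 1), g k * x ^ k = 0 := by rw [← hxy]; exact hx
  linear_combination hx' - hy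

/-- core step: from the two-root identity with `t₁ = y^q w'`, `y ∈ 𝔪_V`, `ρ, w', g_k ∈ V` and `a`
a unit of `V`: `s_q(ρ) ∈ 𝔪_V`. -/
theorem s36cr_geom_mem_nonunits (V : ValuationSubring E) (q : ℕ) (a t1 w' : E) (g : ℕ → E)
    (y ρ : E) (hy0 : y ≠ 0) (hyV : y ∈ V.nonunits) (hρV : ρ ∈ V) (haV : a⁻¹ ∈ V)
    (ha0 : a ≠ 0) (hw' : w' ∈ V) (hg : ∀ k, g k ∈ V) (ht1 : t1 = y ^ q * w')
    (h : y ^ (q + 1) * (∑ i ∈ Finset.range (q + 1), ρ ^ i)
      - a * y ^ q * (∑ i ∈ Finset.range q, ρ ^ i)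
      - t1 * ∑ k ∈ Finset.range (q + 1), g k * y ^ k * (∑ i ∈ Finset.range k, ρ ^ i) = 0) :
    (∑ i ∈ Finset.range q, ρ ^ i) ∈ V.nonunits := by
  have hyq : y ^ q ≠ 0 := pow_ne_zero _ hy0
  have hyVV : y ∈ V := ssm_tw_nonunits_le V hyV
  -- divide by `y ^ q`
  have h1 : a * (∑ i ∈ Finset.range q, ρ ^ i) =
      y * (∑ i ∈ Finset.range (q + 1), ρ ^ i)
        - w' * ∑ k ∈ Finset.range (q + 1), g k * y ^ k * (∑ i ∈ Finset.range k, ρ ^ i) := by
    apply mul_left_cancel₀ hyq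
    rw [ht1] at h
    linear_combination (-1 : E) * h
  -- the right-hand side lies in `𝔪_V`
  have hterm : ∀ k ∈ Finset.range (q + 1),
      g k * y ^ k * (∑ i ∈ Finset.range k, ρ ^ i) ∈ V.nonunits := by
    intro k _
    rcases Nat.eq_zero_or_pos k with rfl | hk
    · simp only [Finset.range_zero, Finset.sum_empty, mul_zero]
      exact s36cr_zero_mem_nonunits V
    · have hyk : y ^ k ∈ V.nonunits := by
        obtain ⟨j, rfl⟩ := Nat.exists_eq_succ_of_ne_zero hk.ne'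
        rw [pow_succ]
        exact ssm_tw_nonunits_mul V (V.pow_mem hyVV j) hyV
      have : g k * y ^ k * (∑ i ∈ Finset.range k, ρ ^ i)
          = (g k * (∑ i ∈ Finset.range k, ρ ^ i)) * y ^ k := by ring
      rw [this]
      exact ssm_tw_nonunits_mul V (V.mul_mem _ _ (hg k) (s36cr_geom_mem V hρV k)) hyk
  have hsum : (∑ k ∈ Finset.range (q + 1), g k * y ^ k * (∑ i ∈ Finset.range k, ρ ^ i))
      ∈ V.nonunits := by
    have key : ∀ (T : Finset ℕ), (∀ k ∈ T, g k * y ^ k * (∑ i ∈ Finset.range k, ρ ^ i)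
        ∈ V.nonunits) → (∑ k ∈ T, g k * y ^ k * (∑ i ∈ Finset.range k, ρ ^ i)) ∈ V.nonunits := by
      intro T
      induction T using Finset.induction_on with
      | empty => intro _; rw [Finset.sum_empty]; exact s36cr_zero_mem_nonunits V
      | insert k T hk ih =>
        intro hT
        rw [Finset.sum_insert hk]
        exact ssm_tw_nonunits_add V (hT k (Finset.mem_insert_self _ _))
          (ih fun j hj => hT j (Finset.mem_insert_of_mem hj))
    exact key _ hterm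
  have hrhs : y * (∑ i ∈ Finset.range (q + 1), ρ ^ i)
      - w' * ∑ k ∈ Finset.range (q + 1), g k * y ^ k * (∑ i ∈ Finset.range k, ρ ^ i)
      ∈ V.nonunits := by
    refine ssm_tw_nonunits_sub V ?_ (ssm_tw_nonunits_mul V hw' hsum)
    rw [mul_comm]
    exact ssm_tw_nonunits_mul V (s36cr_geom_mem V hρV _) hyV
  rw [← h1] at hrhs
  have : (∑ i ∈ Finset.range q, ρ ^ i) = a⁻¹ * (a * (∑ i ∈ Finset.range q, ρ ^ i)) := by
    rw [← mul_assoc, inv_mul_cancel₀ ha0, one_mul]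
  rw [this]
  exact ssm_tw_nonunits_mul V haV hrhs

/-- **[C-CUSP] the ratio at a middle-cusp place.** -/
theorem s36cr_cusp_ratio (V : ValuationSubring E) (q : ℕ) (hq : 1 ≤ q)
    (hqV : (q : E) ∉ V.nonunits) (a t1 w : E) (g : ℕ → E) (t t2 : E)
    (ha : a ∈ V) (haV : a⁻¹ ∈ V) (ha0 : a ≠ 0) (hw : w ∈ V) (hg : ∀ k, g k ∈ V)
    (ht : t ∈ V.nonunits) (ht2 : t2 ∈ V.nonunits) (ht0 : t ≠ 0) (ht20 : t2 ≠ 0) (hne : t ≠ t2)
    (ht1 : t1 = t ^ q * w)
    (hF : t ^ (q + 1) - a * t ^ q - t1 * ∑ k ∈ Finset.range (q + 1), g k * t ^ k = 0)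
    (hF2 : t2 ^ (q + 1) - a * t2 ^ q - t1 * ∑ k ∈ Finset.range (q + 1), g k * t2 ^ k = 0) :
    t / t2 ∈ V ∧ t2 / t ∈ V ∧ t / t2 - 1 ∉ V.nonunits := by
  set η := t / t2 with hη
  set ξ := t2 / t with hξ
  have hηξ : η * ξ = 1 := by
    rw [hη, hξ]; field_simp
  have hη1 : η ≠ 1 := by
    intro h
    apply hne
    rw [hη, div_eq_one_iff_eq ht20] at h
    exact h
  have hξ1 : ξ ≠ 1 := by
    intro h
    apply hne
    rw [hξ, div_eq_one_iff_eq ht0] at h
    exact h.symm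
  have htη : t = η * t2 := by rw [hη]; field_simp
  have htξ : t2 = ξ * t := by rw [hξ]; field_simp
  have idη := s36cr_two_roots q a t1 g t t2 η htη hη1 hF hF2
  have idξ := s36cr_two_roots q a t1 g t2 t ξ htξ hξ1 hF2 hF
  obtain ⟨q', rfl⟩ : ∃ q', q = q' + 1 := ⟨q - 1, by omega⟩
  -- `ξ ∉ 𝔪_V`
  have hξm : ξ ∉ V.nonunits := by
    intro hξm
    have h1 := s36cr_geom_mem_nonunits V (q' + 1) a t1 w g t ξ ht0 ht
      (ssm_tw_nonunits_le V hξm) haV ha0 hw hg ht1 idξ
    have h2 := s36cr_geom_sub_one_mem V hξm q'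
    have h3 : (1 : E) ∈ V.nonunits := by
      have := ssm_tw_nonunits_sub V h1 h2
      simpa using this
    rw [ValuationSubring.mem_nonunits_iff, map_one] at h3
    exact lt_irrefl _ h3
  -- hence `η ∈ V`
  have hηV : η ∈ V := by
    by_contra hηV
    apply hξm
    rw [ssm_tw_nonunits_iff]
    have hξinv : ξ⁻¹ = η := by
      rw [hξ, hη, inv_div]
    refine ⟨?_, Or.inr (by rw [hξinv]; exact hηV)⟩
    rcases V.mem_or_inv_mem ξ with h | h
    · exact h
    · rw [hξinv] at h; exact absurd h hηV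
  have ht1' : t1 = t2 ^ (q' + 1) * (η ^ (q' + 1) * w) := by
    rw [ht1, htη]; ring
  have hw' : η ^ (q' + 1) * w ∈ V := V.mul_mem _ _ (V.pow_mem hηV _) hw
  have hkey := s36cr_geom_mem_nonunits V (q' + 1) a t1 (η ^ (q' + 1) * w) g t2 η ht20 ht2
    hηV haV ha0 hw' hg ht1' idη
  -- `η ∉ 𝔪_V`
  have hηm : η ∉ V.nonunits := by
    intro hηm
    have h2 := s36cr_geom_sub_one_mem V hηm q'
    have h3 : (1 : E) ∈ V.nonunits := by
      have := ssm_tw_nonunits_sub V hkey h2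
      simpa using this
    rw [ValuationSubring.mem_nonunits_iff, map_one] at h3
    exact lt_irrefl _ h3
  have hξV : ξ ∈ V := by
    have hηinv : η⁻¹ = ξ := by rw [hξ, hη, inv_div]
    rw [← hηinv]
    exact ssm_tw_inv_mem V hηV hηm
  refine ⟨hηV, hξV, fun h1 => hqV ?_⟩
  have h2 := s36cr_geom_sub_mem V hηV h1 (q' + 1)
  have := ssm_tw_nonunits_sub V hkey h2
  simpa using this

end Ratio

section Discr

variable {S : Type*} [CommRing S] [IsDomain S] [IsNoetherianRing S] [IsIntegrallyClosed S]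

/-- a prime element generates every height-one prime containing it. -/
theorem s36cr_span_eq_of_mem {p : S} (hp : Prime p) (𝔭 : Ideal S) [h𝔭 : 𝔭.IsPrime]
    (hht : 𝔭.height = 1) (hmem : p ∈ 𝔭) : Ideal.span {p} = 𝔭 := by
  haveI : (Ideal.span {p}).IsPrime := (Ideal.span_singleton_prime hp.ne_zero).2 hp
  have hle : Ideal.span {p} ≤ 𝔭 := (Ideal.span_singleton_le_iff_mem 𝔭).2 hmem
  by_contra hne
  have hlt : Ideal.span {p} < 𝔭 := lt_of_le_of_ne hle hne
  have h1 := Ideal.height_strict_mono_of_isPrime_of_isPrime hlt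
  rw [hht, Order.lt_one_iff, Ideal.height_eq_zero_iff_eq_bot, Ideal.span_singleton_eq_bot] at h1
  exact hp.ne_zero h1

/-- **the discriminant at a cusp**: an element lying in no height-one prime other than `(π)` and
`(t₁)` divides `π^a t₁^b`. -/
theorem s36cr_dvd_pi_t_pow {d π t1 : S} (hd : d ≠ 0) (hπ : Prime π) (ht1 : Prime t1)
    (hunr : ∀ 𝔭 : Ideal S, 𝔭.IsPrime → 𝔭.height = 1 → π ∉ 𝔭 → t1 ∉ 𝔭 → d ∉ 𝔭) :
    ∃ a b : ℕ, d ∣ π ^ a * t1 ^ b := by
  obtain ⟨a, d', hπd', hdd'⟩ := WfDvdMonoid.max_power_factor hd hπ.irreducible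
  have hd'0 : d' ≠ 0 := by
    rintro rfl
    exact hd (by rw [hdd', mul_zero])
  obtain ⟨b, d'', htd'', hd'd''⟩ := WfDvdMonoid.max_power_factor hd'0 ht1.irreducible
  have hπd'' : ¬ π ∣ d'' := fun h => hπd' (by rw [hd'd'']; exact Dvd.dvd.mul_left h _)
  refine ⟨a, b, ?_⟩
  apply sskr_dvd hd
  intro 𝔭 h𝔭 hht
  haveI := h𝔭
  by_cases h1 : π ∈ 𝔭
  · have heq := s36cr_span_eq_of_mem hπ 𝔭 hht h1
    refine ⟨d'', ?_, ?_⟩
    · rw [← heq, Ideal.mem_span_singleton]; exact hπd''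
    · rw [hdd', hd'd'']
      exact ⟨1, by ring⟩
  · by_cases h2 : t1 ∈ 𝔭
    · have heq := s36cr_span_eq_of_mem ht1 𝔭 hht h2
      refine ⟨d'', ?_, ?_⟩
      · rw [← heq, Ideal.mem_span_singleton]; exact htd''
      · rw [hdd', hd'd'']
        exact ⟨1, by ring⟩
    · exact ⟨d, hunr 𝔭 h𝔭 hht h1 h2, Dvd.intro _ rfl⟩

variable [CharZero S] {C1 C2 : Type*} [CommRing C1] [IsDomain C1] [Algebra S C1]
  [CommRing C2] [Algebra C1 C2] [Algebra S C2] [IsScalarTower S C1 C2]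

/-- **[C-CUSP] (c)**: `z ∣ π^a t₁^b` in `C2` (twin of `s36cr_dvd_pi_pow` at a cusp of the middle
chart, where the discriminant also contains the cusp divisor `t₁`). -/
theorem s36cr_dvd_pi_t_pow' (n : ℕ) (bs : Basis (Fin n) S C1) (G : C1)
    (hb : ∀ i, bs i = G ^ (i : ℕ))
    (F : S[X]) (hF : F.Monic) (hdeg : F.natDegree = n) (hFG : aeval G F = 0)
    (π t1 : S) (hπ : Prime π) (ht1 : Prime t1)
    (hunr : ∀ 𝔭 : Ideal S, 𝔭.IsPrime → 𝔭.height = 1 → π ∉ 𝔭 → t1 ∉ 𝔭 →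
      Algebra.discr S bs ∉ 𝔭)
    (z : C2) (hz : z ∣ algebraMap C1 C2 (aeval G (derivative F))) :
    ∃ a b : ℕ, z ∣ algebraMap S C2 π ^ a * algebraMap S C2 t1 ^ b := by
  obtain ⟨a, b, hab⟩ := s36cr_dvd_pi_t_pow (ssm_thd_discr_ne_zero n bs) hπ ht1 hunr
  obtain ⟨c, hc⟩ := ssm_thd_dvd_discr n bs G hb F hF hdeg hFG
  refine ⟨a, b, ?_⟩
  obtain ⟨e, he⟩ := hab
  have h1 : algebraMap S C2 π ^ a * algebraMap S C2 t1 ^ b
      = algebraMap C1 C2 (algebraMap S C1 (π ^ a * t1 ^ b)) := by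
    rw [← IsScalarTower.algebraMap_apply, map_mul, map_pow, map_pow]
  rw [h1, he, map_mul, hc, map_mul, map_mul]
  exact Dvd.dvd.mul_right (Dvd.dvd.mul_right hz _) _

end Discr

section Shape

variable {S C1 : Type*} [CommRing S] [CommRing C1] [Algebra S C1]

/-- a polynomial of degree `< n` vanishing at the generator of a power basis `1, t, …, t^(n-1)`
is zero. -/
theorem s36cr_eq_zero_of_aeval (n : ℕ) (bs : Basis (Fin n) S C1) (t : C1)
    (hb : ∀ i, bs i = t ^ (i : ℕ)) (P : S[X]) (hdeg : P.natDegree < n ∨ P = 0)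
    (hP : aeval t P = 0) : P = 0 := by
  by_cases hP0 : P = 0
  · exact hP0
  have hdeg' : P.natDegree < n := hdeg.resolve_right hP0
  have h1 : aeval t P = ∑ i : Fin n, P.coeff (i : ℕ) • bs i := by
    rw [aeval_eq_sum_range' hdeg', Finset.sum_range]
    apply Finset.sum_congr rfl
    intro i _
    rw [hb]
  rw [h1] at hP
  have h2 := Fintype.linearIndependent_iff.1 bs.linearIndependent (fun i => P.coeff (i : ℕ)) hP
  ext k
  rw [coeff_zero]
  by_cases hk : k < n
  · exact h2 ⟨k, hk⟩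
  · exact coeff_eq_zero_of_natDegree_lt (lt_of_lt_of_le hdeg' (not_lt.1 hk))

/-- **the shape of the characteristic polynomial at a cusp**: `t^q (t - a) = t₁ g` forces
`F = X^(q+1) - a X^q - t₁ Σ_{k ≤ q} g_k X^k`. -/
theorem s36cr_cusp_F [Nontrivial S] (q : ℕ) (bs : Basis (Fin (q + 1)) S C1) (t : C1)
    (hb : ∀ i, bs i = t ^ (i : ℕ)) (F : S[X]) (hF : F.Monic) (hdeg : F.natDegree = q + 1)
    (hFt : aeval t F = 0) (a t1 : S) (g : C1)
    (hg : t ^ q * (t - algebraMap S C1 a) = algebraMap S C1 t1 * g) :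
    ∃ g' : ℕ → S, F = X ^ (q + 1) - C a * X ^ q
      - C t1 * ∑ k ∈ Finset.range (q + 1), C (g' k) * X ^ k := by
  classical
  let g' : ℕ → S := fun k => if hk : k < q + 1 then bs.repr g ⟨k, hk⟩ else 0
  refine ⟨g', ?_⟩
  set R : S[X] := ∑ k ∈ Finset.range (q + 1), C (g' k) * X ^ k with hR
  set P : S[X] := X ^ (q + 1) - C a * X ^ q - C t1 * R with hPdef
  have hRdeg : R.natDegree ≤ q := by
    rw [hR]
    refine natDegree_sum_le_of_forall_le _ _ fun k hk => ?_
    have hk' : k ≤ q := by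
      have := Finset.mem_range.1 hk
      omega
    exact (natDegree_C_mul_X_pow_le _ _).trans hk'
  have hRt : aeval t R = g := by
    rw [hR, map_sum]
    have h1 : ∀ k ∈ Finset.range (q + 1), aeval t (C (g' k) * X ^ k) = g' k • t ^ k := by
      intro k _
      rw [map_mul, aeval_C, map_pow, aeval_X, Algebra.smul_def]
    rw [Finset.sum_congr rfl h1, Finset.sum_range]
    conv_rhs => rw [← bs.sum_repr g]
    apply Finset.sum_congr rfl
    intro i _
    rw [hb]
    have : g' (i : ℕ) = bs.repr g i := by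
      simp only [g']
      rw [dif_pos i.2]
    rw [this]
  have hPt : aeval t P = 0 := by
    rw [hPdef, map_sub, map_sub, map_pow, aeval_X, map_mul, aeval_C, map_pow, aeval_X, map_mul,
      aeval_C, hRt, ← hg]
    ring
  have hlow : (C a * X ^ q + C t1 * R).natDegree ≤ q := by
    refine (natDegree_add_le _ _).trans (max_le (natDegree_C_mul_X_pow_le _ _) ?_)
    exact (natDegree_C_mul_le _ _).trans hRdeg
  have hdiff : (F - P).natDegree < q + 1 ∨ F - P = 0 := by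
    left
    have e : F - P = (F - X ^ (q + 1)) + (C a * X ^ q + C t1 * R) := by
      rw [hPdef]; ring
    have h1 : (F - X ^ (q + 1)).natDegree < q + 1 :=
      IsMonicOfDegree.natDegree_sub_X_pow (Nat.succ_ne_zero q) ⟨hdeg, hF⟩
    rw [e]
    refine lt_of_le_of_lt (natDegree_add_le _ _) (max_lt h1 ?_)
    exact Nat.lt_succ_of_le hlow
  have hz : aeval t (F - P) = 0 := by rw [map_sub, hFt, hPt, sub_self]
  have := s36cr_eq_zero_of_aeval (q + 1) bs t hb (F - P) hdiff hz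
  exact sub_eq_zero.1 this

end Shape

end Fermat.Agent.S36
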