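/-
Project S36, model cell [M2], leaf **[C-CUSP-EIS]**, abstract part 1 = (B.2) (helper27).
Prefix `s36cs_`.

THE SHAPE OF THE EQUATION OF `t` OVER `S` AT A CUSP.

`S → A` a local homomorphism of local domains (`S` = the local ring of the `β`-middle chart at the
cusp `y_c`, `𝔪_S = (π, t₁)`; `A` = the local ring of the level-`N' q` chart at the cusp point `y_F`,
`𝔪_A = (π, u)`), `t₁ = ε u ^ q` in `A` (wild ramification of the cusp), `t = u v` with `v ∈ Aˣ`,
`uA ∩ S = t₁ S`.  If `F ∈ S[Y]` is monic of degree `≤ q + 1` with `F(t) = 0` and `F(1) ∈ 𝔪_S`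
(`t ≡ 1` at a point over `y_c` on the other vertical component), then

  `F = Y ^ (q + 1) - a Y ^ q - t₁ g(Y)`,  `deg g < q`,  `a ≡ 1 mod 𝔪_S`,  `g(0) ∈ Sˣ`.

* `s36cs_cap`            : `uA ∩ S = t₁ S` (Krull intersection in `S / t₁`);
* `s36cs_eval_one_mem`   : `F(1) ∈ 𝔪_S` from a proper ideal containing `t - 1`;
* `s36cs_coeff_dvd`      : the `u`-adic filtration: `t₁ ∣ f_k` for `k < q`;
* `s36cs_shape`          : the shape;
* `s36cs_aeval_shape`, `s36cs_data` : the equation pushed to `A` and to any `A`-algebra.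
-/
import Mathlib

set_option autoImplicit false

namespace Fermat.Agent.S36

open IsLocalRing Polynomial

section Cap

variable {S A : Type*} [CommRing S] [IsNoetherianRing S] [IsLocalRing S] [CommRing A] [Algebra S A]

/-- `uA ∩ S = t₁ S`: if `𝔪_S = (π, t₁)`, `u ∣ t₁` in `A` and `u` divides no power of `π`, then every
element of `S` divisible by `u` in `A` is divisible by `t₁` in `S`. -/
theorem s36cs_cap {πS t1 : S} (hm : maximalIdeal S = Ideal.span {πS, t1}) {u : A}
    (hut : u ∣ algebraMap S A t1) (hπ : ∀ k : ℕ, ¬ u ∣ algebraMap S A (πS ^ k)) :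
    ∀ s : S, u ∣ algebraMap S A s → t1 ∣ s := by
  intro s hs
  have hk : ∀ k : ℕ, ∃ c r : S, s = πS ^ k * c + t1 * r := by
    intro k
    induction k with
    | zero => exact ⟨s, 0, by ring⟩
    | succ k ih =>
      obtain ⟨c, r, hcr⟩ := ih
      have hc : c ∈ maximalIdeal S := by
        by_contra hc
        have hcu : IsUnit c := by
          by_contra h
          exact hc ((mem_maximalIdeal c).2 h)
        obtain ⟨c', hc'⟩ := hcu.exists_right_inv
        apply hπ k
        have h1 : u ∣ algebraMap S A (πS ^ k * c) := by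
          have h0 : algebraMap S A (πS ^ k * c) =
              algebraMap S A s - algebraMap S A t1 * algebraMap S A r := by
            rw [← map_mul, ← map_sub]
            congr 1
            rw [hcr]; ring
          rw [h0]
          exact dvd_sub hs (Dvd.dvd.mul_right hut _)
        have h2 : algebraMap S A (πS ^ k) = algebraMap S A (πS ^ k * c) * algebraMap S A c' := by
          rw [← map_mul, mul_assoc, hc', mul_one]
        rw [h2]
        exact Dvd.dvd.mul_right h1 _
      rw [hm, Ideal.mem_span_pair] at hc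
      obtain ⟨c1, r1, hc1⟩ := hc
      exact ⟨c1, r + πS ^ k * r1, by rw [hcr, ← hc1]; ring⟩
  have hzero : Ideal.Quotient.mk (Ideal.span {t1}) s = 0 := by
    have hK := Ideal.iInf_pow_smul_eq_bot_of_isLocalRing (M := S ⧸ Ideal.span {t1})
      (maximalIdeal S) (Ideal.IsPrime.ne_top')
    have hmem : Ideal.Quotient.mk (Ideal.span {t1}) s ∈
        (⨅ i : ℕ, maximalIdeal S ^ i • ⊤ : Submodule S (S ⧸ Ideal.span {t1})) := by
      rw [Submodule.mem_iInf]
      intro k
      obtain ⟨c, r, hcr⟩ := hk k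
      have hπm : πS ∈ maximalIdeal S := by
        rw [hm]; exact Ideal.subset_span (by simp)
      have h1 : Ideal.Quotient.mk (Ideal.span {t1}) s =
          (πS ^ k * c) • (1 : S ⧸ Ideal.span {t1}) := by
        have ht1r : Ideal.Quotient.mk (Ideal.span {t1}) (t1 * r) = 0 :=
          Ideal.Quotient.eq_zero_iff_mem.2
            (Ideal.mul_mem_right _ _ (Ideal.mem_span_singleton_self t1))
        rw [Algebra.smul_def, mul_one, Ideal.Quotient.algebraMap_eq, hcr, map_add, ht1r, add_zero]
      rw [h1]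
      exact Submodule.smul_mem_smul (Ideal.mul_mem_right _ _ (Ideal.pow_mem_pow hπm k))
        Submodule.mem_top
    rw [hK] at hmem
    exact hmem
  rw [Ideal.Quotient.eq_zero_iff_mem, Ideal.mem_span_singleton] at hzero
  exact hzero

/-- the variant of `s36cs_cap` for a prime element `u`. -/
theorem s36cs_cap_of_prime {πS t1 : S} (hm : maximalIdeal S = Ideal.span {πS, t1}) {u : A}
    (hu : Prime u) (hut : u ∣ algebraMap S A t1) (hπ : ¬ u ∣ algebraMap S A πS) :
    ∀ s : S, u ∣ algebraMap S A s → t1 ∣ s := by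
  refine s36cs_cap hm hut ?_
  intro k hk
  rw [map_pow] at hk
  exact hπ (hu.dvd_of_dvd_pow hk)

end Cap

section EvalOne

variable {S C : Type*} [CommRing S] [IsLocalRing S] [CommRing C] [Algebra S C]

/-- the `V`-side input: if `F(t) = 0` in an `S`-algebra `C` which has a proper ideal containing
`t - 1`, then `F(1) ∈ 𝔪_S`. -/
theorem s36cs_eval_one_mem {F : S[X]} {tC : C} (hFt : aeval tC F = 0) {Q : Ideal C} (hQ : Q ≠ ⊤)
    (htQ : tC - 1 ∈ Q) : F.eval 1 ∈ maximalIdeal S := by
  have h1 : algebraMap S C (F.eval 1) ∈ Q := by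
    have h2 : tC - 1 ∣ (F.map (algebraMap S C)).eval tC - (F.map (algebraMap S C)).eval 1 :=
      sub_dvd_eval_sub tC 1 _
    rw [eval_map_algebraMap, hFt, zero_sub, dvd_neg, eval_map_algebraMap] at h2
    have h3 : aeval (1 : C) F = algebraMap S C (F.eval 1) := by
      rw [← aeval_algebraMap_apply_eq_algebraMap_eval, map_one]
    rw [← h3]
    exact Ideal.mem_of_dvd Q h2 htQ
  have hne : Q.comap (algebraMap S C) ≠ ⊤ := by
    rw [Ne, Ideal.comap_eq_top_iff]; exact hQ
  exact le_maximalIdeal hne (Ideal.mem_comap.2 h1)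

end EvalOne

section Push

/-- the equation `F = Y ^ (q + 1) - a Y ^ q - t₁ g(Y)` evaluated in any `S`-algebra. -/
theorem s36cs_aeval_shape {S E : Type*} [CommRing S] [CommRing E] [Algebra S E] {q : ℕ}
    {t1 a : S} {g F : S[X]} (hF : F = X ^ (q + 1) - C a * X ^ q - C t1 * g) (τ : E) :
    aeval τ F = τ ^ (q + 1) - algebraMap S E a * τ ^ q - algebraMap S E t1 * aeval τ g := by
  rw [hF]
  simp only [map_sub, map_mul, map_pow, aeval_X, aeval_C]

end Push

section Shape

variable {S A : Type*} [CommRing S] [CommRing A] [IsDomain A] [Algebra S A]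

/-- the `u`-adic filtration: the coefficients of `F` of index `< q` are divisible by `t₁`. -/
theorem s36cs_coeff_dvd {q : ℕ} {t1 : S} {u v ε t : A} (hu0 : u ≠ 0) (hv : IsUnit v)
    (ht : t = u * v) (ht1u : algebraMap S A t1 = ε * u ^ q)
    (hcap : ∀ s : S, u ∣ algebraMap S A s → t1 ∣ s) {F : S[X]} (hdeg : F.natDegree ≤ q + 1)
    (hFt : aeval t F = 0) : ∀ k < q, t1 ∣ F.coeff k := by
  intro k
  induction k using Nat.strong_induction_on with
  | _ k ih =>
    intro hk
    apply hcap
    have hsum : ∑ j ∈ Finset.range (q + 2), algebraMap S A (F.coeff j) * t ^ j = 0 := by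
      rw [← hFt, aeval_eq_sum_range' (show F.natDegree < q + 2 by omega)]
      simp only [Algebra.smul_def]
    have hkmem : k ∈ Finset.range (q + 2) := Finset.mem_range.2 (by omega)
    have hsplit := Finset.add_sum_erase (Finset.range (q + 2))
      (fun j => algebraMap S A (F.coeff j) * t ^ j) hkmem
    rw [hsum] at hsplit
    have hdvd : u ^ (k + 1) ∣
        ∑ j ∈ (Finset.range (q + 2)).erase k, algebraMap S A (F.coeff j) * t ^ j := by
      apply Finset.dvd_sum
      intro j hj
      rw [Finset.mem_erase] at hj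
      rcases lt_or_gt_of_ne hj.1 with hjk | hjk
      · obtain ⟨c, hc⟩ := ih j hjk (hjk.trans hk)
        rw [hc, map_mul, ht1u]
        have h0 : u ^ (k + 1) ∣ u ^ q := pow_dvd_pow u (by omega)
        exact Dvd.dvd.mul_right (Dvd.dvd.mul_right (Dvd.dvd.mul_left h0 ε) _) _
      · rw [ht, mul_pow]
        have h0 : u ^ (k + 1) ∣ u ^ j := pow_dvd_pow u (by omega)
        exact Dvd.dvd.mul_left (Dvd.dvd.mul_right h0 _) _
    have h1 : u ^ (k + 1) ∣ algebraMap S A (F.coeff k) * t ^ k := by
      have h0 : algebraMap S A (F.coeff k) * t ^ k =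
          - ∑ j ∈ (Finset.range (q + 2)).erase k, algebraMap S A (F.coeff j) * t ^ j := by
        linear_combination hsplit
      rw [h0]
      exact (dvd_neg).2 hdvd
    rw [ht, mul_pow, pow_succ] at h1
    have h2 : u ^ k * u ∣ u ^ k * (algebraMap S A (F.coeff k) * v ^ k) := by
      convert h1 using 1
      ring
    have h3 := (mul_dvd_mul_iff_left (pow_ne_zero k hu0)).1 h2
    exact ((hv.pow k).dvd_mul_right).1 h3

variable [IsLocalRing S] [IsLocalRing A] [IsLocalHom (algebraMap S A)]

/-- the constant coefficient of `g` is a unit. -/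
theorem s36cs_unit_coeff_zero {q : ℕ} {t1 a : S} {g : S[X]} {u v ε t : A} (hu0 : u ≠ 0)
    (hu : u ∈ maximalIdeal A) (hv : IsUnit v) (ht : t = u * v)
    (ht1u : algebraMap S A t1 = ε * u ^ q) (ha : a - 1 ∈ maximalIdeal S)
    (hFt : aeval t (X ^ (q + 1) - C a * X ^ q - C t1 * g : S[X]) = 0) : IsUnit (g.coeff 0) := by
  have h1 : t ^ (q + 1) - algebraMap S A a * t ^ q - algebraMap S A t1 * aeval t g = 0 := by
    simpa only [map_sub, map_mul, map_pow, aeval_X, aeval_C] using hFt
  obtain ⟨v', hv'⟩ := hv.exists_right_inv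
  have htq : u ^ q = t ^ q * v' ^ q := by
    rw [ht, mul_pow, mul_assoc, ← mul_pow, hv', one_pow, mul_one]
  have h2 : t ^ q * (t - algebraMap S A a - ε * v' ^ q * aeval t g) = 0 := by
    rw [ht1u, htq] at h1
    linear_combination h1
  have ht0 : t ≠ 0 := by
    rw [ht]; exact mul_ne_zero hu0 hv.ne_zero
  have h3 : t - algebraMap S A a = ε * v' ^ q * aeval t g :=
    sub_eq_zero.1 ((mul_eq_zero.1 h2).resolve_left (pow_ne_zero q ht0))
  have h1S : (1 : S) ∉ maximalIdeal S := fun h =>
    (Ideal.ne_top_iff_one _).1 (maximalIdeal.isMaximal S).ne_top h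
  have haU : IsUnit a := by
    by_contra h
    have ham : a ∈ maximalIdeal S := (mem_maximalIdeal a).2 h
    apply h1S
    have h0 : (1 : S) = a - (a - 1) := by ring
    rw [h0]
    exact Ideal.sub_mem _ ham ha
  have htm : t ∈ maximalIdeal A := by
    rw [ht]; exact Ideal.mul_mem_right _ _ hu
  have hunit_sub : ∀ x y : A, IsUnit x → y ∈ maximalIdeal A → IsUnit (x - y) := by
    intro x y hx hy
    by_contra h
    have hxy : x - y ∈ maximalIdeal A := (mem_maximalIdeal _).2 h
    have hxm : x ∈ maximalIdeal A := by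
      have h0 : x = (x - y) + y := by ring
      rw [h0]
      exact Ideal.add_mem _ hxy hy
    exact (mem_maximalIdeal x).1 hxm hx
  have h4 : IsUnit (t - algebraMap S A a) := by
    have h0 : t - algebraMap S A a = - (algebraMap S A a - t) := by ring
    rw [h0]
    exact (hunit_sub _ _ (haU.map (algebraMap S A)) htm).neg
  rw [h3] at h4
  have h5 : IsUnit (aeval t g) := isUnit_of_mul_isUnit_right h4
  have h6 : aeval t g = aeval t g.divX * t + algebraMap S A (g.coeff 0) := by
    conv_lhs => rw [← divX_mul_X_add g]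
    simp only [map_add, map_mul, aeval_X, aeval_C]
  have h7 : IsUnit (algebraMap S A (g.coeff 0)) := by
    have h0 : algebraMap S A (g.coeff 0) = aeval t g - aeval t g.divX * t := by
      rw [h6]; ring
    rw [h0]
    exact hunit_sub _ _ h5 (Ideal.mul_mem_left _ _ htm)
  exact isUnit_of_map_unit (algebraMap S A) _ h7

/-- **(B.2): the shape of the equation of `t` over `S`.** -/
theorem s36cs_shape {q : ℕ} {t1 : S} (ht1 : t1 ∈ maximalIdeal S) {u v ε t : A} (hu0 : u ≠ 0)
    (hu : u ∈ maximalIdeal A) (hv : IsUnit v) (hε : IsUnit ε) (ht : t = u * v)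
    (ht1u : algebraMap S A t1 = ε * u ^ q)
    (hcap : ∀ s : S, u ∣ algebraMap S A s → t1 ∣ s) {F : S[X]} (hF : F.Monic)
    (hdeg : F.natDegree ≤ q + 1) (hFt : aeval t F = 0) (hF1 : F.eval 1 ∈ maximalIdeal S) :
    ∃ (a : S) (g : S[X]), g.natDegree < q ∧ IsUnit (g.coeff 0) ∧ a - 1 ∈ maximalIdeal S ∧
      F = X ^ (q + 1) - C a * X ^ q - C t1 * g := by
  classical
  have hcoef := s36cs_coeff_dvd hu0 hv ht ht1u hcap hdeg hFt
  have hq : 0 < q := by
    rcases Nat.eq_zero_or_pos q with h | h
    · exfalso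
      subst h
      rw [pow_zero, mul_one] at ht1u
      have h0 : IsUnit (algebraMap S A t1) := ht1u ▸ hε
      exact (mem_maximalIdeal t1).1 ht1 (isUnit_of_map_unit (algebraMap S A) t1 h0)
    · exact h
  have heval : F.eval 1 = ∑ j ∈ Finset.range q, F.coeff j + F.coeff q + F.coeff (q + 1) := by
    rw [eval_eq_sum_range' (show F.natDegree < q + 2 by omega), Finset.sum_range_succ,
      Finset.sum_range_succ]
    simp only [one_pow, mul_one]
  have hlow : ∑ j ∈ Finset.range q, F.coeff j ∈ maximalIdeal S := by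
    apply Ideal.sum_mem
    intro j hj
    obtain ⟨c, hc⟩ := hcoef j (Finset.mem_range.1 hj)
    rw [hc]
    exact Ideal.mul_mem_right _ _ ht1
  have hqq : F.coeff q + F.coeff (q + 1) ∈ maximalIdeal S := by
    have h0 : F.coeff q + F.coeff (q + 1) = F.eval 1 - ∑ j ∈ Finset.range q, F.coeff j := by
      rw [heval]; ring
    rw [h0]
    exact Ideal.sub_mem _ hF1 hlow
  have h1S : (1 : S) ∉ maximalIdeal S := fun h =>
    (Ideal.ne_top_iff_one _).1 (maximalIdeal.isMaximal S).ne_top h
  have hnat : F.natDegree = q + 1 := by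
    by_contra hne
    have hle : F.natDegree ≤ q := by omega
    rcases Nat.lt_or_ge F.natDegree q with hlt | hge
    · obtain ⟨c, hc⟩ := hcoef _ hlt
      rw [hF.coeff_natDegree] at hc
      exact h1S (hc ▸ Ideal.mul_mem_right _ _ ht1)
    · have hqn : F.natDegree = q := le_antisymm hle hge
      have hcq : F.coeff q = 1 := by rw [← hqn]; exact hF.coeff_natDegree
      have hcq1 : F.coeff (q + 1) = 0 := coeff_eq_zero_of_natDegree_lt (by omega)
      rw [hcq, hcq1, add_zero] at hqq
      exact h1S hqq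
  have hlead : F.coeff (q + 1) = 1 := by rw [← hnat]; exact hF.coeff_natDegree
  choose! c hc using hcoef
  have hshape : F = X ^ (q + 1) - C (- F.coeff q) * X ^ q -
      C t1 * (- ∑ j ∈ Finset.range q, monomial j (c j)) := by
    conv_lhs => rw [F.as_sum_range' (q + 2) (by omega)]
    rw [Finset.sum_range_succ, Finset.sum_range_succ, hlead]
    have h0 : ∑ j ∈ Finset.range q, monomial j (F.coeff j) =
        C t1 * ∑ j ∈ Finset.range q, monomial j (c j) := by
      rw [Finset.mul_sum]
      apply Finset.sum_congr rfl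
      intro j hj
      rw [hc j (Finset.mem_range.1 hj), C_mul_monomial]
    rw [h0, ← C_mul_X_pow_eq_monomial, ← C_mul_X_pow_eq_monomial, C_1, one_mul, C_neg]
    ring
  have ha1 : - F.coeff q - 1 ∈ maximalIdeal S := by
    have h0 : - F.coeff q - 1 = -(F.coeff q + F.coeff (q + 1)) := by rw [hlead]; ring
    rw [h0]
    exact (maximalIdeal S).neg_mem hqq
  refine ⟨- F.coeff q, - ∑ j ∈ Finset.range q, monomial j (c j), ?_, ?_, ha1, hshape⟩
  · rw [natDegree_neg]
    have h0 : (∑ j ∈ Finset.range q, monomial j (c j)).natDegree ≤ q - 1 := by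
      apply natDegree_sum_le_of_forall_le
      intro j hj
      exact (natDegree_monomial_le _).trans (by have := Finset.mem_range.1 hj; omega)
    omega
  · rw [hshape] at hFt
    exact s36cs_unit_coeff_zero hu0 hu hv ht ht1u ha1 hFt

/-- the degree is exactly `q + 1`. -/
theorem s36cs_natDegree {q : ℕ} {t1 a : S} {g : S[X]} (hg : g.natDegree < q) {F : S[X]}
    (hF : F = X ^ (q + 1) - C a * X ^ q - C t1 * g) : F.natDegree = q + 1 := by
  have h1 : (C a * X ^ q + C t1 * g).natDegree < q + 1 := by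
    refine lt_of_le_of_lt (natDegree_add_le _ _) (max_lt ?_ ?_)
    · exact lt_of_le_of_lt (natDegree_C_mul_X_pow_le a q) (Nat.lt_succ_self q)
    · exact lt_of_le_of_lt (natDegree_C_mul_le _ _) (hg.trans (Nat.lt_succ_self q))
  have h2 : F = X ^ (q + 1) - (C a * X ^ q + C t1 * g) := by rw [hF]; ring
  rw [h2, natDegree_sub_eq_left_of_natDegree_lt (by rwa [natDegree_X_pow]), natDegree_X_pow]

/-- the data of the equation pushed to `A`: `ε' := t₁ / t ^ q ∈ Aˣ`, `a`, `g` with coefficients in
`A`, the relation `(Ft)` in `A`, and the relation `(Fτ)` for every root `τ` of `F` in an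
`A`-algebra. -/
theorem s36cs_data {q : ℕ} {t1 : S} (ht1 : t1 ∈ maximalIdeal S) {u v ε t : A} (hu0 : u ≠ 0)
    (hu : u ∈ maximalIdeal A) (hv : IsUnit v) (hε : IsUnit ε) (ht : t = u * v)
    (ht1u : algebraMap S A t1 = ε * u ^ q)
    (hcap : ∀ s : S, u ∣ algebraMap S A s → t1 ∣ s) {F : S[X]} (hF : F.Monic)
    (hdeg : F.natDegree ≤ q + 1) (hFt : aeval t F = 0) (hF1 : F.eval 1 ∈ maximalIdeal S) :
    ∃ (aA : A) (gA : A[X]) (ε' : A), IsUnit ε' ∧ algebraMap S A t1 = ε' * t ^ q ∧
      aA - 1 ∈ maximalIdeal A ∧ gA.natDegree < q ∧ IsUnit (gA.coeff 0) ∧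
      t ^ (q + 1) - aA * t ^ q - ε' * t ^ q * gA.eval t = 0 ∧
      ∀ {E : Type*} [CommRing E] [Algebra A E] [Algebra S E] [IsScalarTower S A E] (τ : E),
        aeval τ F = 0 →
          τ ^ (q + 1) - algebraMap A E aA * τ ^ q - algebraMap A E (ε' * t ^ q) * aeval τ gA = 0 := by
  obtain ⟨a, g, hg, hg0, ha, hshape⟩ :=
    s36cs_shape ht1 hu0 hu hv hε ht ht1u hcap hF hdeg hFt hF1
  obtain ⟨v', hv'⟩ := hv.exists_right_inv
  have hv'U : IsUnit v' := IsUnit.of_mul_eq_one v (by rw [mul_comm]; exact hv')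
  have htq : u ^ q = t ^ q * v' ^ q := by
    rw [ht, mul_pow, mul_assoc, ← mul_pow, hv', one_pow, mul_one]
  have hε' : algebraMap S A t1 = ε * v' ^ q * t ^ q := by
    rw [ht1u, htq]; ring
  refine ⟨algebraMap S A a, g.map (algebraMap S A), ε * v' ^ q, hε.mul (hv'U.pow q), hε', ?_, ?_, ?_,
    ?_, ?_⟩
  · rw [← map_one (algebraMap S A), ← map_sub]
    exact (mem_maximalIdeal _).2 (map_nonunit (algebraMap S A) _ ((mem_maximalIdeal _).1 ha))
  · exact lt_of_le_of_lt natDegree_map_le hg
  · rw [coeff_map]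
    exact hg0.map (algebraMap S A)
  · rw [eval_map_algebraMap, ← hε']
    have h0 := s36cs_aeval_shape hshape t
    rw [hFt] at h0
    rw [← h0]
  · intro E _ _ _ _ τ hτ
    rw [← hε', ← IsScalarTower.algebraMap_apply, ← IsScalarTower.algebraMap_apply,
      aeval_map_algebraMap, ← s36cs_aeval_shape hshape τ, hτ]

end Shape

end Fermat.Agent.S36
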