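/-
Project S36, model cell [M2], leaf **[C-CUSP-EIS]**, inputs of the instance, LAYER A (helper27).
Prefix `s36cei_`.

ABSTRACT INPUT LEMMAS FOR THE CUSP INSTANCE (`CuspEisInst`).

* `s36cei_minpoly`   : `F := minpoly S t` is monic, kills `t`, and has degree `≤ [E1 : K]`
  (`S` integrally closed with fraction field `K`): the hypotheses `hF hdeg hFt` of `s36cs_shape`;
* `s36cei_aeval_fix`, `s36cei_aeval_W` : a root of `F ∈ S[X]` is mapped to a root by a ring
  endomorphism fixing `S` (`τ = W₂ t` is a root of the same `F`: `hFτ` of `s36cq_main_of_F`);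
* `s36cei_eval_one`  : `F(1) ∈ 𝔪_S` as soon as `t ≡ 1` in a valuation ring containing `S`
  (`hF1` of `s36cs_shape`);
* `s36cei_dvd`, `s36cei_t_unit`, `s36cei_t_sub_one` : (B.1): `t := u + e' ^ 2 (1 - u)` is
  `u` times a unit of `A` and `t - 1 = (u - 1)(1 - e')(1 + e')`;
* `s36cei_not_mem_range` : `τ ∉ E1` from `τ - t ∈ 𝔪(VC)`, `τ - t ∉ 𝔪(VA)`, `VA ∩ E1 = VC ∩ E1`
  (`hτ1` of `s36cq_main`).
-/
import Mathlib
import Fermat.Agent.S36.CReg.CuspEisShape

set_option autoImplicit false
set_option linter.unusedSectionVars false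
set_option linter.style.haveILetI false

namespace Fermat.Agent.S36

open IsLocalRing Polynomial

section Minpoly

variable {S K E1 : Type*} [CommRing S] [IsDomain S] [IsIntegrallyClosed S] [Field K] [Algebra S K]
  [IsFractionRing S K] [Field E1] [Algebra K E1] [Algebra S E1] [IsScalarTower S K E1]
  [FiniteDimensional K E1]

/-- the minimal polynomial of `t` over `S`: monic, kills `t`, of degree `≤ [E1 : K]`. -/
theorem s36cei_minpoly {t : E1} (ht : IsIntegral S t) :
    (minpoly S t).Monic ∧ aeval t (minpoly S t) = 0 ∧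
      (minpoly S t).natDegree ≤ Module.finrank K E1 := by
  refine ⟨minpoly.monic ht, minpoly.aeval S t, ?_⟩
  have h1 : minpoly K t = (minpoly S t).map (algebraMap S K) :=
    minpoly.isIntegrallyClosed_eq_field_fractions' K ht
  have h2 : (minpoly K t).natDegree = (minpoly S t).natDegree := by
    rw [h1, (minpoly.monic ht).natDegree_map]
  rw [← h2]
  exact minpoly.natDegree_le t

end Minpoly

section Fix

variable {S E : Type*} [CommRing S] [CommRing E] [Algebra S E]

/-- a ring endomorphism fixing `S` commutes with evaluation of polynomials over `S`. -/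
theorem s36cei_aeval_fix (W : E →+* E) (hW : ∀ s : S, W (algebraMap S E s) = algebraMap S E s)
    (F : S[X]) (x : E) : aeval (W x) F = W (aeval x F) :=
  Polynomial.aeval_algHom_apply ({ W with commutes' := hW } : E →ₐ[S] E) x F

/-- `τ := W t` is a root of `F` in `E2` when `t ∈ E1` is. -/
theorem s36cei_aeval_W {E1 : Type*} [CommRing E1] [Algebra S E1] [Algebra E1 E]
    [IsScalarTower S E1 E] (W : E →+* E)
    (hW : ∀ s : S, W (algebraMap S E s) = algebraMap S E s) {F : S[X]} {t : E1}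
    (hFt : aeval t F = 0) : aeval (W (algebraMap E1 E t)) F = 0 := by
  rw [s36cei_aeval_fix W hW, aeval_algebraMap_apply, hFt, map_zero, map_zero]

end Fix

section EvalOne

variable {S E1 : Type*} [CommRing S] [IsLocalRing S] [Field E1] [Algebra S E1]

/-- `hF1`: if `F(t) = 0` and `t ≡ 1` in a valuation ring `VV ⊇ S` of `E1`, then `F(1) ∈ 𝔪_S`. -/
theorem s36cei_eval_one (VV : ValuationSubring E1) (hSV : ∀ s : S, algebraMap S E1 s ∈ VV)
    {F : S[X]} {t : E1} (hFt : aeval t F = 0) (ht : t - 1 ∈ VV.nonunits) :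
    F.eval 1 ∈ maximalIdeal S := by
  letI : Algebra S VV := ((algebraMap S E1).codRestrict VV.toSubring hSV).toAlgebra
  have ht1 : t ∈ VV := by
    have h0 : t = (t - 1) + 1 := by ring
    rw [h0]
    exact VV.add_mem _ _ (VV.nonunits_subset ht) VV.one_mem
  let ψ : VV →ₐ[S] E1 := { VV.subtype with commutes' := fun s => rfl }
  have hψ : Function.Injective ψ := Subtype.val_injective
  have h1 : aeval (⟨t, ht1⟩ : VV) F = 0 := by
    apply hψ
    rw [← Polynomial.aeval_algHom_apply, map_zero]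
    exact hFt
  refine s36cs_eval_one_mem (C := VV) (Q := maximalIdeal VV) h1 (Ideal.IsPrime.ne_top') ?_
  rw [← ValuationSubring.coe_mem_nonunits_iff]
  exact ht

end EvalOne

section TUnit

variable {A : Type*} [CommRing A] [IsDomain A] [IsLocalRing A]

/-- `u ∣ e'`: `e' x = x₁ ^ q` with `x = v_x u ^ a`, `x₁ = v₁ u ^ b` (`v_x, v₁` units), `e' ∈ 𝔪_A`. -/
theorem s36cei_dvd {u e' x x1 vx v1 : A} {q a b : ℕ} (hu0 : u ≠ 0) (he' : e' ∈ maximalIdeal A)
    (hrel : e' * x = x1 ^ q) (hx : x = vx * u ^ a) (hx1 : x1 = v1 * u ^ b) (hvx : IsUnit vx)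
    (hv1 : IsUnit v1) : u ∣ e' := by
  have h1 : e' * vx * u ^ a = v1 ^ q * u ^ (b * q) := by
    rw [pow_mul, ← mul_pow, ← hx1, ← hrel, hx]; ring
  rcases Nat.lt_or_ge a (b * q) with hlt | hge
  · -- cancel `u ^ a`
    obtain ⟨k, hk⟩ := Nat.exists_eq_add_of_lt hlt
    have h2 : u ^ a * (e' * vx) = u ^ a * (v1 ^ q * u ^ (k + 1)) := by
      have : b * q = a + (k + 1) := by omega
      rw [this, pow_add] at h1
      linear_combination h1
    have h3 := mul_left_cancel₀ (pow_ne_zero a hu0) h2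
    have h4 : u ∣ e' * vx := ⟨v1 ^ q * u ^ k, by rw [h3, pow_succ]; ring⟩
    exact (hvx.dvd_mul_right).1 h4
  · -- `e'` would be a unit
    exfalso
    obtain ⟨k, hk⟩ := Nat.exists_eq_add_of_le hge
    have h2 : u ^ (b * q) * (e' * vx * u ^ k) = u ^ (b * q) * (v1 ^ q) := by
      rw [hk, pow_add] at h1
      linear_combination h1
    have h3 := mul_left_cancel₀ (pow_ne_zero _ hu0) h2
    have h4 : IsUnit (e' * vx * u ^ k) := by rw [h3]; exact hv1.pow q
    have h5 : IsUnit e' := isUnit_of_mul_isUnit_left (isUnit_of_mul_isUnit_left h4)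
    exact (mem_maximalIdeal e').1 he' h5

/-- (B.1): `t := u + e' ^ 2 (1 - u)` is `u` times a unit. -/
theorem s36cei_t_unit {u e' : A} (he' : e' ∈ maximalIdeal A) (hd : u ∣ e') :
    ∃ v : A, IsUnit v ∧ u + e' ^ 2 * (1 - u) = u * v := by
  obtain ⟨c, hc⟩ := hd
  refine ⟨1 + c * e' * (1 - u), ?_, by rw [hc]; ring⟩
  by_contra h
  have h1 : 1 + c * e' * (1 - u) ∈ maximalIdeal A := (mem_maximalIdeal _).2 h
  have h2 : c * e' * (1 - u) ∈ maximalIdeal A :=
    Ideal.mul_mem_right _ _ (Ideal.mul_mem_left _ _ he')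
  have h3 : (1 : A) ∈ maximalIdeal A := by
    have h0 : (1 : A) = (1 + c * e' * (1 - u)) - c * e' * (1 - u) := by ring
    rw [h0]
    exact Ideal.sub_mem _ h1 h2
  exact (Ideal.ne_top_iff_one _).1 (maximalIdeal.isMaximal A).ne_top h3

omit [IsDomain A] [IsLocalRing A] in
/-- `t = u v` with `v` a unit lies outside every prime ideal not containing `u`. -/
theorem s36cei_t_not_mem {u v : A} (hv : IsUnit v) (Q : Ideal A) [hQ : Q.IsPrime] (hu : u ∉ Q) :
    u * v ∉ Q := by
  intro h
  rcases hQ.mem_or_mem h with h1 | h1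
  · exact hu h1
  · exact hQ.ne_top (Ideal.eq_top_of_isUnit_mem _ h1 hv)

omit [IsDomain A] [IsLocalRing A] in
/-- (B.1): `t - 1 = (u - 1)(1 - e')(1 + e')`. -/
theorem s36cei_t_sub_one (u e' : A) :
    u + e' ^ 2 * (1 - u) - 1 = (u - 1) * (1 - e') * (1 + e') := by
  ring

end TUnit

section NotMem

variable {E1 E2 : Type*} [Field E1] [Field E2] [Algebra E1 E2]

/-- `hτ1`: `τ ∉ E1` when `z := τ - t` (`t ∈ E1`) lies in `𝔪(VC)` and is a unit of `VA`, the two
valuation rings `VA`, `VC` of `E2` having the same restriction to `E1`. -/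
theorem s36cei_not_mem_range (VA VC : ValuationSubring E2)
    (hAC : ∀ x : E1, algebraMap E1 E2 x ∈ VA ↔ algebraMap E1 E2 x ∈ VC) {t : E1} {τ : E2}
    (hzC : τ - algebraMap E1 E2 t ∈ VC.nonunits)
    (hzA' : τ - algebraMap E1 E2 t ∉ VA.nonunits) : τ ∉ (algebraMap E1 E2).range := by
  rintro ⟨y, hy⟩
  have hz : τ - algebraMap E1 E2 t = algebraMap E1 E2 (y - t) := by rw [map_sub, hy]
  rw [hz] at hzC hzA'
  -- `(y - t)⁻¹ ∈ VA` hence `∈ VC`, contradiction
  have h0 : algebraMap E1 E2 (y - t) ≠ 0 := by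
    intro h
    apply hzA'
    rw [h]
    exact (ValuationSubring.mem_nonunits_iff_or VA).2 (Or.inl rfl)
  have h1 : (algebraMap E1 E2 (y - t))⁻¹ ∈ VA := by
    by_contra h
    exact hzA' ((ValuationSubring.mem_nonunits_iff_or VA).2 (Or.inr h))
  rw [← map_inv₀, hAC] at h1
  rw [ValuationSubring.mem_nonunits_iff_or] at hzC
  rcases hzC with h | h
  · exact h0 h
  · rw [← map_inv₀] at h
    exact h h1

end NotMem

end Fermat.Agent.S36
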