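/-
Project S36, model cell [M2], leaf **[C-CUSP-EIS]**, plumbing for the instance (helper5).
Prefix `s36cf_`.

LOCAL RINGS OF CHARTS ALONG A TOWER `K ⊆ E1 ⊆ E2`, AND THE VERTICAL CONGRUENCE `W₂ x ≡ x`.

* `s36cf_map_mem`, `s36cf_locMap`, `s36cf_locMap_coe` : for charts `B1 ⊆ E1`, `B2 ⊆ E2` and a chart map
  `ψ : B1 → B2` (the restriction of `E1 → E2`), the local ring `A = (B1)_{𝔫 ∩ B1}` maps to
  `R = (B2)_𝔫`;
* `s36cf_base_mem`, `s36cf_baseMap`, `s36cf_baseMap_coe` : the (abstract) local ring `S` of the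
  base chart `B'` at `y0` maps to `A = (B1)_{𝔫1}` when `𝔫1 ∩ B' ≤ y0`;
* `s36cf_isIntegral_num` : the elements of `B2` are integral over `A` (in `R`);
* `s36cf_exists_frac` : `hR` of `s36ce_ring`;
* `s36cf_mem_of_isIntegral` : an element of `E2` integral over `A` lies in `R` (`B2` integrally
  closed);
* `s36cf_vert` : `x ^ q ≡ s` at `VC`, `W₂ s = s`, `W₂ VC = VC`, `q ∈ 𝔪(VC)` ⟹ `W₂ x - x ∈ 𝔪(VC)`;
* `s36cf_mem_maximalIdeal` : an element of `R` lying in `𝔪(V)` (`𝔪(V) ∩ B2 ≤ 𝔫`) is in `𝔪_R`.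
-/
import Mathlib
import Fermat.Agent.SS.Local.Height1
import Fermat.Agent.S36.Model.Approx

set_option autoImplicit false
set_option linter.unusedSectionVars false
set_option linter.unusedVariables false
set_option linter.style.haveILetI false

namespace Fermat.Agent.S36

open Fermat.Agent.SS IsLocalRing Polynomial

section LocMap

variable {A0 : Type*} [CommRing A0] {E1 E2 : Type*} [Field E1] [Field E2] [Algebra E1 E2]
  [Algebra A0 E1] [Algebra A0 E2]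
  {B1 : Subalgebra A0 E1} {B2 : Subalgebra A0 E2} [IsFractionRing B1 E1] [IsFractionRing B2 E2]
  (ψ : B1 →+* B2) (hψ : ∀ b : B1, ((ψ b : B2) : E2) = algebraMap E1 E2 (b : E1))
  (𝔫 : Ideal B2) [𝔫.IsPrime] (𝔫1 : Ideal B1) [𝔫1.IsPrime]

include hψ in
/-- `A = (B1)_{𝔫1} → R = (B2)_𝔫` when `𝔫1 = 𝔫 ∩ B1`. -/
theorem s36cf_map_mem (h1 : 𝔫.comap ψ ≤ 𝔫1) (a : ssl_locSub E1 𝔫1) :
    algebraMap E1 E2 (a : E1) ∈ ssl_locSub E2 𝔫 := by
  obtain ⟨b, s, hs, hz⟩ := (ssl_mem_locSub 𝔫1 (a : E1)).1 a.2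
  rw [ssl_mem_locSub]
  refine ⟨ψ b, ψ s, fun h => hs (h1 h), ?_⟩
  have e1 : algebraMap B2 E2 (ψ s) = algebraMap E1 E2 (algebraMap B1 E1 s) := hψ s
  have e2 : algebraMap B2 E2 (ψ b) = algebraMap E1 E2 (algebraMap B1 E1 b) := hψ b
  rw [e1, e2, ← map_mul, hz]

/-- the local homomorphism `A → R`. -/
noncomputable def s36cf_locMap (h1 : 𝔫.comap ψ ≤ 𝔫1) : ssl_locSub E1 𝔫1 →+* ssl_locSub E2 𝔫 :=
  ((algebraMap E1 E2).comp (ssl_locSub E1 𝔫1).val.toRingHom).codRestrict (ssl_locSub E2 𝔫)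
    (fun a => s36cf_map_mem ψ hψ 𝔫 𝔫1 h1 a)

theorem s36cf_locMap_coe (h1 : 𝔫.comap ψ ≤ 𝔫1) (a : ssl_locSub E1 𝔫1) :
    ((s36cf_locMap ψ hψ 𝔫 𝔫1 h1 a : ssl_locSub E2 𝔫) : E2) = algebraMap E1 E2 (a : E1) := rfl

theorem s36cf_locMap_algebraMap (h1 : 𝔫.comap ψ ≤ 𝔫1) (b : B1) :
    s36cf_locMap ψ hψ 𝔫 𝔫1 h1 (algebraMap B1 (ssl_locSub E1 𝔫1) b) =
      algebraMap B2 (ssl_locSub E2 𝔫) (ψ b) := by
  apply Subtype.ext
  rw [s36cf_locMap_coe]
  exact (hψ b).symm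

include hψ in
/-- the elements of `B2` are integral over `A` inside `R` (via any compatible `A → R`). -/
theorem s36cf_isIntegral_num (hint : ψ.IsIntegral) (j : ssl_locSub E1 𝔫1 →+* ssl_locSub E2 𝔫)
    (hj : ∀ a, ((j a : ssl_locSub E2 𝔫) : E2) = algebraMap E1 E2 (a : E1)) (b : B2) :
    j.IsIntegralElem (algebraMap B2 (ssl_locSub E2 𝔫) b) := by
  obtain ⟨P, hP, hPb⟩ := hint b
  refine ⟨P.map (algebraMap B1 (ssl_locSub E1 𝔫1)), hP.map _, ?_⟩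
  rw [eval₂_map]
  have hcomp : j.comp (algebraMap B1 (ssl_locSub E1 𝔫1)) =
      (algebraMap B2 (ssl_locSub E2 𝔫)).comp ψ := by
    ext b1
    show ((j (algebraMap B1 (ssl_locSub E1 𝔫1) b1) : ssl_locSub E2 𝔫) : E2) = _
    rw [hj]
    exact (hψ b1).symm
  rw [hcomp, ← hom_eval₂, hPb, map_zero]

include hψ in
/-- **`hR` of `s36ce_ring`**: every element of `R = (B2)_𝔫` is `c / s` with `c`, `s` integral
over `A` and `s` a unit. -/
theorem s36cf_exists_frac (hint : ψ.IsIntegral) (j : ssl_locSub E1 𝔫1 →+* ssl_locSub E2 𝔫)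
    (hj : ∀ a, ((j a : ssl_locSub E2 𝔫) : E2) = algebraMap E1 E2 (a : E1))
    (r : ssl_locSub E2 𝔫) :
    ∃ c s : ssl_locSub E2 𝔫, j.IsIntegralElem c ∧ j.IsIntegralElem s ∧ IsUnit s ∧ r * s = c := by
  obtain ⟨⟨b, s⟩, hbs⟩ := IsLocalization.surj 𝔫.primeCompl r
  exact ⟨algebraMap B2 _ b, algebraMap B2 _ (s : B2),
    s36cf_isIntegral_num ψ hψ 𝔫 𝔫1 hint j hj b, s36cf_isIntegral_num ψ hψ 𝔫 𝔫1 hint j hj s,
    IsLocalization.map_units _ s, hbs⟩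

end LocMap

section Base

variable {A0 : Type*} [CommRing A0] {K E1 : Type*} [Field K] [Field E1] [Algebra K E1]
  [Algebra A0 K] [Algebra A0 E1]
  {B' : Subalgebra A0 K} {B1 : Subalgebra A0 E1} [IsFractionRing B1 E1]
  (φ1 : B' →+* B1) (hφ : ∀ b' : B', ((φ1 b' : B1) : E1) = algebraMap K E1 (b' : K))
  (y0 : Ideal B') [y0.IsPrime]
  (S : Type*) [CommRing S] [Algebra B' S] [IsLocalization.AtPrime S y0]
  [Algebra S K] [IsScalarTower B' S K] [Algebra S E1] [IsScalarTower S K E1]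
  (𝔫1 : Ideal B1) [𝔫1.IsPrime]

include hφ in
theorem s36cf_algebraMap_base (b' : B') :
    algebraMap S E1 (algebraMap B' S b') = ((φ1 b' : B1) : E1) := by
  rw [hφ, IsScalarTower.algebraMap_apply S K E1, ← IsScalarTower.algebraMap_apply B' S K]
  rfl

include hφ in
/-- `S = B'_{y0} → A = (B1)_{𝔫1}` when `𝔫1 ∩ B' ≤ y0`. -/
theorem s36cf_base_mem (h0 : 𝔫1.comap φ1 ≤ y0) (s : S) :
    algebraMap S E1 s ∈ ssl_locSub E1 𝔫1 := by
  obtain ⟨⟨b', m⟩, hbm⟩ := IsLocalization.surj y0.primeCompl s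
  rw [ssl_mem_locSub]
  refine ⟨φ1 b', φ1 (m : B'), fun h => m.2 (h0 h), ?_⟩
  have := congrArg (algebraMap S E1) hbm
  rw [map_mul, s36cf_algebraMap_base φ1 hφ S, s36cf_algebraMap_base φ1 hφ S] at this
  exact this

/-- the local homomorphism `S → A`. -/
noncomputable def s36cf_baseMap (h0 : 𝔫1.comap φ1 ≤ y0) : S →+* ssl_locSub E1 𝔫1 :=
  (algebraMap S E1).codRestrict (ssl_locSub E1 𝔫1) (fun s => s36cf_base_mem φ1 hφ y0 S 𝔫1 h0 s)

theorem s36cf_baseMap_coe (h0 : 𝔫1.comap φ1 ≤ y0) (s : S) :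
    ((s36cf_baseMap φ1 hφ y0 S 𝔫1 h0 s : ssl_locSub E1 𝔫1) : E1) = algebraMap S E1 s := rfl

theorem s36cf_baseMap_algebraMap (h0 : 𝔫1.comap φ1 ≤ y0) (b' : B') :
    s36cf_baseMap φ1 hφ y0 S 𝔫1 h0 (algebraMap B' S b') =
      algebraMap B1 (ssl_locSub E1 𝔫1) (φ1 b') := by
  apply Subtype.ext
  rw [s36cf_baseMap_coe, s36cf_algebraMap_base φ1 hφ S]
  rfl

/-- `S → A` is a local homomorphism when `𝔫1 ∩ B' = y0`. -/
theorem s36cf_baseMap_mem_maximalIdeal [IsLocalRing S] (h0 : 𝔫1.comap φ1 = y0) (s : S)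
    (hs : s ∈ maximalIdeal S) :
    haveI : IsLocalRing (ssl_locSub E1 𝔫1) := IsLocalization.AtPrime.isLocalRing _ 𝔫1
    s36cf_baseMap φ1 hφ y0 S 𝔫1 h0.le s ∈ maximalIdeal (ssl_locSub E1 𝔫1) := by
  haveI : IsLocalRing (ssl_locSub E1 𝔫1) := IsLocalization.AtPrime.isLocalRing _ 𝔫1
  obtain ⟨⟨b', m⟩, hbm⟩ := IsLocalization.surj y0.primeCompl s
  have hb' : b' ∈ y0 := by
    have h1 : algebraMap B' S b' ∈ maximalIdeal S := by
      rw [← hbm]; exact Ideal.mul_mem_right _ _ hs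
    rw [← IsLocalization.AtPrime.under_maximalIdeal S y0]
    exact h1
  have hb1 : φ1 b' ∈ 𝔫1 := by rw [← h0] at hb'; exact hb'
  have hm : IsUnit (s36cf_baseMap φ1 hφ y0 S 𝔫1 h0.le (algebraMap B' S (m : B'))) :=
    (IsLocalization.map_units S m).map _
  have h2 := congrArg (s36cf_baseMap φ1 hφ y0 S 𝔫1 h0.le) hbm
  rw [map_mul, s36cf_baseMap_algebraMap φ1 hφ y0 S 𝔫1 h0.le b'] at h2
  have h3 : algebraMap B1 (ssl_locSub E1 𝔫1) (φ1 b') ∈ maximalIdeal (ssl_locSub E1 𝔫1) := by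
    rw [← IsLocalization.AtPrime.map_eq_maximalIdeal 𝔫1 (ssl_locSub E1 𝔫1)]
    exact Ideal.mem_map_of_mem _ hb1
  rw [← h2] at h3
  exact (Ideal.mul_unit_mem_iff_mem _ hm).1 h3

end Base

section Vert

variable {E2 : Type*} [Field E2]

/-- **the vertical congruence**: `g ^ q ≡ s` at `VC`, `W₂ s = s`, `W₂` preserves `VC` and `𝔪(VC)`,
`q ∈ 𝔪(VC)` ⟹ `W₂ g - g ∈ 𝔪(VC)`. -/
theorem s36cf_vert (VC : ValuationSubring E2) (W2 : E2 ≃+* E2)
    (hW : ∀ x ∈ VC.nonunits, W2 x ∈ VC.nonunits) (hW' : ∀ x ∈ VC, W2 x ∈ VC)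
    {q : ℕ} (hq : q.Prime) (hqC : (q : E2) ∈ VC.nonunits) {g s : E2} (hg : g ∈ VC)
    (hs : W2 s = s) (hgs : g ^ q - s ∈ VC.nonunits) : W2 g - g ∈ VC.nonunits := by
  have hWg : W2 g ∈ VC := hW' g hg
  have hWgs : W2 g ^ q - s ∈ VC.nonunits := by
    have := hW _ hgs
    rwa [map_sub, map_pow, hs] at this
  obtain ⟨r, hr⟩ := exists_add_pow_prime_eq hq (⟨W2 g, hWg⟩ - ⟨g, hg⟩ : VC) ⟨g, hg⟩
  rw [sub_add_cancel] at hr
  have hr' := congrArg (Subtype.val : VC → E2) hr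
  simp only [MulMemClass.coe_mul, SubmonoidClass.coe_pow, AddMemClass.coe_add,
    AddSubgroupClass.coe_sub, SubringClass.coe_natCast] at hr'
  have hz : (W2 g - g) ^ q = (W2 g ^ q - s) - (g ^ q - s)
      - (q : E2) * ((W2 g - g) * g * (r : E2)) := by
    linear_combination (-1 : E2) * hr'
  have hzq : (W2 g - g) ^ q ∈ VC.nonunits := by
    rw [hz]
    have h1 : (q : E2) * ((W2 g - g) * g * (r : E2)) ∈ VC.nonunits :=
      s36tp_nonunits_mul VC hqC (VC.mul_mem _ _ (VC.mul_mem _ _ (sub_mem hWg hg) hg) r.2)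
    have h2 : W2 g ^ q - s - (g ^ q - s) ∈ VC.nonunits := by
      have := s36tp_nonunits_add VC hWgs (by
        have : -(g ^ q - s) ∈ VC.nonunits := by
          rw [ValuationSubring.mem_nonunits_iff] at hgs ⊢
          rwa [Valuation.map_neg]
        exact this)
      rwa [← sub_eq_add_neg] at this
    have h3 : -((q : E2) * ((W2 g - g) * g * (r : E2))) ∈ VC.nonunits := by
      rw [ValuationSubring.mem_nonunits_iff] at h1 ⊢
      rwa [Valuation.map_neg]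
    have := s36tp_nonunits_add VC h2 h3
    rwa [← sub_eq_add_neg] at this
  by_contra hn
  exact s36tp_pow_not_mem VC hn q hzq

end Vert

end Fermat.Agent.S36
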