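/-
Project S36, model cell [M2], leaf **[C-CUSP-EIS]**, abstract part 4 (helper5).  Prefix `s36cep_`.

`ϖ ~ Z ^ k`, `1 ≤ k ≤ e i`, AT A ONE-COMPONENT POINT WHOSE LOCAL RING IS FACTORIAL.

Vocabulary of helper24's [TP3] (`Model/Primes3.lean`): `H : s36tp_Hyp π V e`, a chart `B`, a prime
`𝔫` of `B` through exactly one vertical prime `P i` (`hi`, `hone`).  If `B_𝔫` is factorial and
`Z ∈ B_𝔫` is a prime element lying in `𝔪(V i)`, then `ϖ` is associated to `Z ^ k` for some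
`1 ≤ k ≤ e i`.

* `s36cep_locSub_le` : `B_𝔫 ⊆ V i`;
* `s36cep_exists_num` : an element of `𝔪(V i) ∩ B_𝔫` is `b / s`, `b ∈ P i`, `s ∉ 𝔫`;
* `s36cep_prime_dvd` : every prime factor of `ϖ` in `B_𝔫` divides every element of
  `𝔪(V i) ∩ B_𝔫`;
* `s36cep_assoc` : the statement;
* `s36cep_ptOne` : the resulting clause `UFD ∧ ∃ u k, k ≠ 0 ∧ k ≤ n ∧ Prime u ∧ ϖ ~ u ^ k ∧
  (B_𝔫 / u) integrally closed` (the body of helper3's `s36g_PtOne`).
-/
import Mathlib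
import Fermat.Agent.S36.Model.Primes3
import Fermat.Agent.SS.Local.Height1

set_option autoImplicit false
set_option linter.unusedSectionVars false
set_option linter.unusedVariables false
set_option linter.style.haveILetI false

namespace Fermat.Agent.S36

open Fermat.Agent.SS

section Pi

variable {R : Type*} [CommRing R] [IsDomain R] [IsIntegrallyClosed R]
  {E : Type*} [Field E] [Algebra R E] [FaithfulSMul R E]
  {A : Type*} [CommRing A] [Algebra A E] {ι : Type*} [Fintype ι]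
  {π : R} {V : ι → ValuationSubring E} {e : ι → ℕ} {B : Subalgebra A E}
  [IsFractionRing B E]

/-- `B_𝔫 ⊆ V i` when `P i ≤ 𝔫`. -/
theorem s36cep_locSub_le (H : s36tp_Hyp π V e) (hC : ssm_tp_Chart π B) (𝔫 : Ideal B)
    [h𝔫 : 𝔫.IsPrime] (i : ι) (hi : ssm_tp_P B (V i) ≤ 𝔫) (z : ssl_locSub E 𝔫) :
    (z : E) ∈ V i := by
  obtain ⟨a, s, hs, hz⟩ := (ssl_mem_locSub 𝔫 (z : E)).1 z.2
  rw [H.mem_V_iff hC i]
  refine ⟨s, fun h => hs (hi h), ?_⟩
  have : (s : E) * (z : E) = (a : E) := by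
    rw [mul_comm]; exact hz
  rw [this]; exact a.2

/-- an element of `B_𝔫` lying in `𝔪(V i)` is `b / s` with `b ∈ P i`, `s ∉ 𝔫`. -/
theorem s36cep_exists_num (H : s36tp_Hyp π V e) (hC : ssm_tp_Chart π B) (𝔫 : Ideal B)
    [h𝔫 : 𝔫.IsPrime] (i : ι) (z : ssl_locSub E 𝔫)
    (hz : (z : E) ∈ (V i).nonunits) :
    ∃ b s : B, b ∈ ssm_tp_P B (V i) ∧ s ∉ 𝔫 ∧
      z * algebraMap B (ssl_locSub E 𝔫) s = algebraMap B (ssl_locSub E 𝔫) b := by
  obtain ⟨a, s, hs, hzs⟩ := (ssl_mem_locSub 𝔫 (z : E)).1 z.2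
  refine ⟨a, s, ?_, hs, Subtype.ext hzs⟩
  rw [H.mem_P hC i]
  have hsV : (s : E) ∈ V i := hC.le (H.ovr i) s.2
  have : (a : E) = (z : E) * (s : E) := hzs.symm
  rw [this]
  exact s36tp_nonunits_mul (V i) hz hsV

/-- every prime factor of `ϖ` in `B_𝔫` divides every element of `𝔪(V i) ∩ B_𝔫`, when `P i` is the
only vertical prime through `𝔫`. -/
theorem s36cep_prime_dvd (H : s36tp_Hyp π V e) (hC : ssm_tp_Chart π B) (ϖ : B)
    (hϖ : (ϖ : E) = algebraMap R E π) (𝔫 : Ideal B) [h𝔫 : 𝔫.IsPrime] (i : ι)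
    (hone : ∀ j, ssm_tp_P B (V j) ≤ 𝔫 → j = i)
    (u : ssl_locSub E 𝔫) (hu : Prime u) (huϖ : u ∣ algebraMap B (ssl_locSub E 𝔫) ϖ)
    (z : ssl_locSub E 𝔫) (hz : (z : E) ∈ (V i).nonunits) : u ∣ z := by
  haveI hloc : IsLocalRing (ssl_locSub E 𝔫) := IsLocalization.AtPrime.isLocalRing (ssl_locSub E 𝔫) 𝔫
  -- the prime `(u) ∩ B`
  have hPu : (Ideal.span {u} : Ideal (ssl_locSub E 𝔫)).IsPrime :=
    (Ideal.span_singleton_prime hu.ne_zero).2 hu
  set Q : Ideal B := (Ideal.span {u} : Ideal (ssl_locSub E 𝔫)).comap (algebraMap B (ssl_locSub E 𝔫)) with hQ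
  haveI hQp : Q.IsPrime := Ideal.comap_isPrime _ _
  have hQϖ : ϖ ∈ Q := by
    show algebraMap B (ssl_locSub E 𝔫) ϖ ∈ Ideal.span {u}
    rw [Ideal.mem_span_singleton]; exact huϖ
  have hQ𝔫 : Q ≤ 𝔫 := by
    intro b hb
    by_contra hbn
    have hbu : IsUnit (algebraMap B (ssl_locSub E 𝔫) b) :=
      IsLocalization.map_units (ssl_locSub E 𝔫) (⟨b, hbn⟩ : 𝔫.primeCompl)
    have : algebraMap B (ssl_locSub E 𝔫) b ∈ Ideal.span {u} := hb
    rw [Ideal.mem_span_singleton] at this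
    exact hu.not_isUnit (isUnit_of_dvd_unit this hbu)
  obtain ⟨j, hj⟩ := H.P_le_of_mem hC ϖ hϖ Q hQϖ
  have hji : j = i := hone j (hj.trans hQ𝔫)
  subst hji
  obtain ⟨b, s, hb, hs, hzs⟩ := s36cep_exists_num H hC 𝔫 j z hz
  have hbQ : algebraMap B (ssl_locSub E 𝔫) b ∈ Ideal.span {u} := hj hb
  rw [Ideal.mem_span_singleton, ← hzs] at hbQ
  have hsu : IsUnit (algebraMap B (ssl_locSub E 𝔫) s) :=
    IsLocalization.map_units (ssl_locSub E 𝔫) (⟨s, hs⟩ : 𝔫.primeCompl)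
  exact (hsu.dvd_mul_right).1 hbQ

/-- **`ϖ ~ Z ^ k`, `1 ≤ k ≤ e i`.** -/
theorem s36cep_assoc (H : s36tp_Hyp π V e) (hC : ssm_tp_Chart π B) (ϖ : B)
    (hϖ : (ϖ : E) = algebraMap R E π) (𝔫 : Ideal B) [h𝔫 : 𝔫.IsPrime] (i : ι)
    (hi : ssm_tp_P B (V i) ≤ 𝔫) (hone : ∀ j, ssm_tp_P B (V j) ≤ 𝔫 → j = i)
    [UniqueFactorizationMonoid (ssl_locSub E 𝔫)]
    (Z : ssl_locSub E 𝔫) (hZ : Prime Z) (hZV : (Z : E) ∈ (V i).nonunits) :
    ∃ k : ℕ, k ≠ 0 ∧ k ≤ e i ∧ Associated (algebraMap B (ssl_locSub E 𝔫) ϖ) (Z ^ k) := by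
  classical
  haveI hloc : IsLocalRing (ssl_locSub E 𝔫) := IsLocalization.AtPrime.isLocalRing (ssl_locSub E 𝔫) 𝔫
  set ϖ' : (ssl_locSub E 𝔫) := algebraMap B (ssl_locSub E 𝔫) ϖ with hϖ'
  have hϖE : (ϖ' : E) = algebraMap R E π := hϖ
  have hϖ0 : ϖ' ≠ 0 := by
    intro h0
    apply H.algebraMap_ne_zero
    rw [← hϖE, h0, ZeroMemClass.coe_zero]
  obtain ⟨fs, hfs, hfsa⟩ := UniqueFactorizationMonoid.exists_prime_factors ϖ' hϖ0
  -- every factor is associated to `Z`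
  have hall : ∀ u ∈ fs, Associated u Z := by
    intro u hu
    have hup := hfs u hu
    have hudvd : u ∣ ϖ' := (Multiset.dvd_prod hu).trans hfsa.dvd
    have huZ : u ∣ Z := s36cep_prime_dvd H hC ϖ hϖ 𝔫 i hone u hup hudvd Z hZV
    exact hup.associated_of_dvd hZ huZ
  have hprod : Associated fs.prod (Z ^ Multiset.card fs) := by
    clear hfsa hfs
    induction fs using Multiset.induction_on with
    | empty => simp
    | cons a s ih =>
      rw [Multiset.prod_cons, Multiset.card_cons, pow_succ']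
      exact (hall a (Multiset.mem_cons_self a s)).mul_mul
        (ih fun u hu => hall u (Multiset.mem_cons_of_mem hu))
  have hassoc : Associated ϖ' (Z ^ Multiset.card fs) := hfsa.symm.trans hprod
  refine ⟨Multiset.card fs, ?_, ?_, hassoc⟩
  · -- `ϖ` is not a unit
    intro h0
    rw [h0, pow_zero] at hassoc
    have hunit : IsUnit ϖ' := (associated_one_iff_isUnit).1 hassoc
    have hmem : ϖ ∈ 𝔫 := hi (H.pi_mem_P hC ϖ hϖ i)
    have : ϖ' ∈ IsLocalRing.maximalIdeal (ssl_locSub E 𝔫) := by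
      rw [← IsLocalization.AtPrime.map_eq_maximalIdeal 𝔫 (ssl_locSub E 𝔫)]
      exact Ideal.mem_map_of_mem _ hmem
    exact (IsLocalRing.mem_maximalIdeal _).1 this hunit
  · -- the bound
    by_contra hlt
    push Not at hlt
    obtain ⟨d, hd⟩ := Nat.exists_eq_add_of_lt hlt
    obtain ⟨ω, hω⟩ := hassoc.symm
    -- `Z ^ card * ω = ϖ'`
    have hZ0 : (Z : E) ≠ 0 := by
      intro h0
      exact hZ.ne_zero (Subtype.ext h0)
    have hram : (algebraMap R E π)⁻¹ * (Z : E) ^ e i ∈ V i := H.ram i _ hZV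
    have hωV : ((ω : (ssl_locSub E 𝔫)) : E) ∈ V i := s36cep_locSub_le H hC 𝔫 i hi _
    have hE : (algebraMap R E π) = (Z : E) ^ (e i + d + 1) * ((ω : (ssl_locSub E 𝔫)) : E) := by
      rw [← hϖE, ← hω, hd]
      simp only [MulMemClass.coe_mul, SubmonoidClass.coe_pow]
    have hω0 : ((ω : (ssl_locSub E 𝔫)) : E) ≠ 0 := by
      intro h0
      have : (ω : (ssl_locSub E 𝔫)) = 0 := Subtype.ext h0
      exact ω.ne_zero this
    have h1 : ((Z : E) ^ (d + 1))⁻¹ ∈ V i := by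
      have h2 : ((Z : E) ^ (d + 1))⁻¹ =
          ((algebraMap R E π)⁻¹ * (Z : E) ^ e i) * ((ω : (ssl_locSub E 𝔫)) : E) := by
        rw [hE]
        have : (Z : E) ^ (e i + d + 1) = (Z : E) ^ e i * (Z : E) ^ (d + 1) := by
          rw [add_assoc, pow_add]
        rw [this]
        field_simp
      rw [h2]
      exact (V i).mul_mem _ _ hram hωV
    have h3 : (Z : E) ^ (d + 1) ∈ (V i).nonunits := by
      rw [pow_succ']
      exact s36tp_nonunits_mul (V i) hZV ((V i).pow_mem (ValuationSubring.nonunits_subset hZV) d)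
    have h4 := s36tp_nonunits_mul (V i) h3 h1
    rw [mul_inv_cancel₀ (pow_ne_zero _ hZ0)] at h4
    exact s36tp_one_not_mem (V i) h4

/-- **the one-branch clause** at a one-component point with factorial local ring (the body of
helper3's `s36g_PtOne`, with `e i ≤ n`). -/
theorem s36cep_ptOne (H : s36tp_Hyp π V e) (hC : ssm_tp_Chart π B) (ϖ : B)
    (hϖ : (ϖ : E) = algebraMap R E π) (𝔫 : Ideal B) [h𝔫 : 𝔫.IsPrime] (i : ι)
    (hi : ssm_tp_P B (V i) ≤ 𝔫) (hone : ∀ j, ssm_tp_P B (V j) ≤ 𝔫 → j = i) (n : ℕ)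
    (hn : e i ≤ n)
    (hufd : UniqueFactorizationMonoid (ssl_locSub E 𝔫))
    (Z : ssl_locSub E 𝔫) (hZ : Prime Z) (hZV : (Z : E) ∈ (V i).nonunits)
    (hic : IsIntegrallyClosed (ssl_locSub E 𝔫 ⧸ (Ideal.span {Z} : Ideal (ssl_locSub E 𝔫)))) :
    UniqueFactorizationMonoid (ssl_locSub E 𝔫) ∧ ∃ (u : ssl_locSub E 𝔫) (k : ℕ), k ≠ 0 ∧ k ≤ n ∧
      Prime u ∧ Associated (algebraMap B (ssl_locSub E 𝔫) ϖ) (u ^ k) ∧
      IsIntegrallyClosed (ssl_locSub E 𝔫 ⧸ (Ideal.span {u} : Ideal (ssl_locSub E 𝔫))) := by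
  haveI := hufd
  obtain ⟨k, hk0, hk, hassoc⟩ := s36cep_assoc H hC ϖ hϖ 𝔫 i hi hone Z hZ hZV
  exact ⟨hufd, Z, k, hk0, hk.trans hn, hZ, hassoc, hic⟩

end Pi

end Fermat.Agent.S36
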