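/-
S36 [L3c] = [C-CUSP-EIS] (helper5's route #2436), step (B.3), minimal polynomial part (helper24).

`A` an integrally closed domain with fraction field `E1`, `E2 / E1` of prime degree `q`,
`σ ∈ E2 ∖ E1` a root of a monic `p ∈ A[X]` of degree `q`.  Then `p = minpoly A σ`, every
`Y ∈ A[X]` vanishing at `σ` is a multiple of `p`, and every element of `E2` is `Y(σ) / d`.
-/
import Mathlib

set_option autoImplicit false
set_option linter.unusedSectionVars false
set_option linter.style.haveILetI false

namespace Fermat.Agent.S36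

open Polynomial

section Min

variable {A : Type*} [CommRing A] [IsDomain A] [IsIntegrallyClosed A]
  {E1 E2 : Type*} [Field E1] [Field E2] [Algebra A E1] [IsFractionRing A E1] [Algebra E1 E2]
  [Algebra A E2] [IsScalarTower A E1 E2] [FiniteDimensional E1 E2]

/-- the generator of `A[σ]` -/
def s36cq_gen (A : Type*) [CommRing A] {E2 : Type*} [Field E2] [Algebra A E2] (σ : E2) :
    Algebra.adjoin A ({σ} : Set E2) :=
  ⟨σ, Algebra.self_mem_adjoin_singleton A σ⟩

omit [IsDomain A] [IsIntegrallyClosed A] in
@[simp] theorem s36cq_gen_coe (σ : E2) : ((s36cq_gen A σ : Algebra.adjoin A ({σ} : Set E2)) : E2) = σ :=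
  rfl

omit [IsDomain A] [IsIntegrallyClosed A] in
theorem s36cq_aeval_coe (σ : E2) (h : A[X]) :
    ((aeval (s36cq_gen A σ) h : Algebra.adjoin A ({σ} : Set E2)) : E2) = aeval σ h := by
  rw [← s36cq_gen_coe (A := A) σ]
  exact (Subalgebra.aeval_coe _ _ _).symm

omit [IsDomain A] [IsIntegrallyClosed A] in
theorem s36cq_exists_aeval (σ : E2) (x : Algebra.adjoin A ({σ} : Set E2)) :
    ∃ h : A[X], aeval (s36cq_gen A σ) h = x := by
  have hx : (x : E2) ∈ (aeval σ : A[X] →ₐ[A] E2).range := by
    rw [← Algebra.adjoin_singleton_eq_range_aeval]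
    exact x.2
  obtain ⟨h, hh⟩ := hx
  exact ⟨h, Subtype.ext (by rw [s36cq_aeval_coe]; exact hh)⟩

include E1 in
omit [IsIntegrallyClosed A] [FiniteDimensional E1 E2] in
theorem s36cq_algebraMap_injective : Function.Injective (algebraMap A E2) := by
  rw [IsScalarTower.algebraMap_eq A E1 E2]
  exact (algebraMap E1 E2).injective.comp (IsFractionRing.injective A E1)

include E1 in
/-- **The minimal polynomial.** -/
theorem s36cq_minpoly_eq {p : A[X]} (hp : p.Monic) (hdeg : p.natDegree = Module.finrank E1 E2)
    (hprime : (Module.finrank E1 E2).Prime) {σ : E2} (hσ : aeval σ p = 0)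
    (hσ1 : σ ∉ (algebraMap E1 E2).range) : minpoly A σ = p := by
  have hint : IsIntegral A σ := ⟨p, hp, by rwa [← aeval_def]⟩
  have hint1 : IsIntegral E1 σ := hint.tower_top
  haveI : Module.IsTorsionFree A E2 :=
    Module.isTorsionFree_iff_algebraMap_injective.2 (s36cq_algebraMap_injective (E1 := E1))
  have := IntermediateField.isSimpleOrder_of_finrank_prime E1 E2 hprime
  have htop : IntermediateField.adjoin E1 ({σ} : Set E2) = ⊤ := by
    rcases eq_bot_or_eq_top (IntermediateField.adjoin E1 ({σ} : Set E2)) with h | h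
    · exfalso
      apply hσ1
      have h1 : σ ∈ (⊥ : IntermediateField E1 E2) :=
        h ▸ IntermediateField.mem_adjoin_simple_self E1 σ
      exact IntermediateField.mem_bot.1 h1
    · exact h
  have hd1 : (minpoly E1 σ).natDegree = Module.finrank E1 E2 := by
    rw [← IntermediateField.adjoin.finrank hint1, htop, IntermediateField.finrank_top']
  have hd2 : (minpoly A σ).natDegree = Module.finrank E1 E2 := by
    rw [← hd1, minpoly.isIntegrallyClosed_eq_field_fractions' E1 hint,
      (minpoly.monic hint).natDegree_map]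
  symm
  apply minpoly.IsIntegrallyClosed.unique_of_degree_le_degree_minpoly hp hσ
  rw [degree_eq_natDegree hp.ne_zero, degree_eq_natDegree (minpoly.ne_zero hint), hdeg, hd2]

include E1 in
/-- a polynomial vanishing at `σ` is a multiple of `p` (`E2`-level form) -/
theorem s36cq_dvd_of_aeval' {p : A[X]} (hp : p.Monic) (hdeg : p.natDegree = Module.finrank E1 E2)
    (hprime : (Module.finrank E1 E2).Prime) {σ : E2} (hσ : aeval σ p = 0)
    (hσ1 : σ ∉ (algebraMap E1 E2).range) (h : A[X]) (hh : aeval σ h = 0) : p ∣ h := by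
  have hint : IsIntegral A σ := ⟨p, hp, by rwa [← aeval_def]⟩
  haveI : Module.IsTorsionFree A E2 :=
    Module.isTorsionFree_iff_algebraMap_injective.2 (s36cq_algebraMap_injective (E1 := E1))
  have := minpoly.isIntegrallyClosed_dvd hint hh
  rwa [s36cq_minpoly_eq (E1 := E1) hp hdeg hprime hσ hσ1] at this

include E1 in
omit [IsIntegrallyClosed A] in
/-- every element of `E2 = E1(σ)` is `Y(σ) / d` with `Y ∈ A[X]`, `0 ≠ d ∈ A` -/
theorem s36cq_exists_frac (hprime : (Module.finrank E1 E2).Prime) {σ : E2}
    (hσ1 : σ ∉ (algebraMap E1 E2).range) (e : E2) :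
    ∃ (Y : A[X]) (d : A), d ≠ 0 ∧ e * algebraMap A E2 d = aeval σ Y := by
  have hint1 : IsIntegral E1 σ := Algebra.IsIntegral.isIntegral σ
  have := IntermediateField.isSimpleOrder_of_finrank_prime E1 E2 hprime
  have htop : IntermediateField.adjoin E1 ({σ} : Set E2) = ⊤ := by
    rcases eq_bot_or_eq_top (IntermediateField.adjoin E1 ({σ} : Set E2)) with h | h
    · exfalso
      apply hσ1
      have h1 : σ ∈ (⊥ : IntermediateField E1 E2) :=
        h ▸ IntermediateField.mem_adjoin_simple_self E1 σ
      exact IntermediateField.mem_bot.1 h1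
    · exact h
  have he : e ∈ (IntermediateField.adjoin E1 ({σ} : Set E2)).toSubalgebra := by
    rw [htop]; exact Algebra.mem_top
  rw [IntermediateField.adjoin_simple_toSubalgebra_of_isAlgebraic hint1.isAlgebraic,
    Algebra.adjoin_singleton_eq_range_aeval] at he
  obtain ⟨Y1, hY1⟩ := he
  obtain ⟨b, hbM, hb⟩ := IsLocalization.integerNormalization_spec (nonZeroDivisors A) Y1
  refine ⟨IsLocalization.integerNormalization (nonZeroDivisors A) Y1, b,
    nonZeroDivisors.ne_zero hbM, ?_⟩
  have h1 : aeval σ (IsLocalization.integerNormalization (nonZeroDivisors A) Y1) =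
      aeval σ ((IsLocalization.integerNormalization (nonZeroDivisors A) Y1).map
        (algebraMap A E1)) := (aeval_map_algebraMap E1 σ _).symm
  have h2 : b • Y1 = C (algebraMap A E1 b) * Y1 := by
    rw [Algebra.smul_def, Polynomial.algebraMap_apply]
  have h3 : (aeval σ) Y1 = e := hY1
  rw [h1, hb, h2, map_mul, aeval_C, h3, ← IsScalarTower.algebraMap_apply, mul_comm]

end Min

end Fermat.Agent.S36
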