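/-
S36 [L3c] = [C-CUSP-EIS] (helper5's route #2436), step (B.3), polynomial part (helper24).

`F(Y) = Y^(n+2) - a Y^(n+1) - ε t^(n+1) Σ_{k ≤ n} g_k Y^k` (`q = n + 1`) with `F(t) = 0`.
`Ψ(X) := ε Σ_{k ≤ n} g_k t^k X^(n+2-k) + a X - t` has `Ψ(1) = 0` and `Ψ(t/τ) = 0` for every root
`τ ≠ 0` of `F`; `Ψ = (X - 1) P0` with `P0` of degree `n + 1`, leading coefficient `ε g_0`, and
`P0(1) = (n + 1) ε g_0 + t κ`.
-/
import Mathlib

set_option autoImplicit false
set_option linter.unusedSectionVars false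

namespace Fermat.Agent.S36

open Polynomial

section Poly

variable {A : Type*} [CommRing A]

/-- `Ψ(X) = ε Σ_{k ≤ n} g_k t^k X^(n+2-k) + a X - t`. -/
noncomputable def s36cq_Psi (n : ℕ) (t a ε : A) (g : ℕ → A) : A[X] :=
  C ε * ∑ k ∈ Finset.range (n + 1), C (g k * t ^ k) * X ^ (n + 2 - k) + C a * X - C t

/-- `P0(X) = ε Σ_{k ≤ n} g_k t^k (1 + X + ⋯ + X^(n+1-k)) + a`, the quotient `Ψ / (X - 1)`. -/
noncomputable def s36cq_P0 (n : ℕ) (t a ε : A) (g : ℕ → A) : A[X] :=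
  C ε * ∑ k ∈ Finset.range (n + 1), C (g k * t ^ k) * ∑ i ∈ Finset.range (n + 2 - k), X ^ i + C a

theorem s36cq_Psi_eval (n : ℕ) (t a ε : A) (g : ℕ → A) (x : A) :
    (s36cq_Psi n t a ε g).eval x =
      ε * ∑ k ∈ Finset.range (n + 1), g k * t ^ k * x ^ (n + 2 - k) + a * x - t := by
  simp [s36cq_Psi, eval_finsetSum]

theorem s36cq_Psi_aeval {E : Type*} [CommRing E] [Algebra A E] (n : ℕ) (t a ε : A) (g : ℕ → A)
    (x : E) :
    aeval x (s36cq_Psi n t a ε g) =
      algebraMap A E ε * ∑ k ∈ Finset.range (n + 1),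
        algebraMap A E (g k) * algebraMap A E t ^ k * x ^ (n + 2 - k) +
        algebraMap A E a * x - algebraMap A E t := by
  simp [s36cq_Psi, map_sum]

theorem s36cq_P0_eval_one (n : ℕ) (t a ε : A) (g : ℕ → A) :
    (s36cq_P0 n t a ε g).eval 1 =
      ε * ∑ k ∈ Finset.range (n + 1), g k * t ^ k * ((n + 2 - k : ℕ) : A) + a := by
  simp [s36cq_P0, eval_finsetSum]

/-- `Ψ - Ψ(1) = (X - 1) P0`. -/
theorem s36cq_Psi_factor (n : ℕ) (t a ε : A) (g : ℕ → A) :
    s36cq_Psi n t a ε g - C ((s36cq_Psi n t a ε g).eval 1) = (X - 1) * s36cq_P0 n t a ε g := by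
  have h1 : C ((s36cq_Psi n t a ε g).eval 1) =
      C ε * ∑ k ∈ Finset.range (n + 1), C (g k * t ^ k) + C a - C t := by
    rw [s36cq_Psi_eval]
    simp only [one_pow, mul_one, map_add, map_sub, map_mul, map_sum]
  have h2 : (X - 1 : A[X]) * s36cq_P0 n t a ε g =
      C ε * ∑ k ∈ Finset.range (n + 1), C (g k * t ^ k) * (X ^ (n + 2 - k) - 1) +
        C a * (X - 1) := by
    unfold s36cq_P0
    rw [mul_add, mul_left_comm (X - 1 : A[X]) (C ε), Finset.mul_sum, mul_comm (X - 1 : A[X]) (C a)]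
    congr 2
    refine Finset.sum_congr rfl (fun k _ => ?_)
    rw [mul_left_comm, mul_geom_sum]
  have h3 : ∑ k ∈ Finset.range (n + 1), C (g k * t ^ k) * (X ^ (n + 2 - k) - 1) =
      ∑ k ∈ Finset.range (n + 1), C (g k * t ^ k) * X ^ (n + 2 - k) -
        ∑ k ∈ Finset.range (n + 1), C (g k * t ^ k) := by
    rw [← Finset.sum_sub_distrib]
    refine Finset.sum_congr rfl (fun k _ => ?_)
    rw [mul_sub, mul_one]
  rw [h1, h2, h3]
  unfold s36cq_Psi
  ring

/-- `Ψ(1) = 0` from `F(t) = 0`. -/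
theorem s36cq_Psi_eval_one [IsDomain A] (n : ℕ) (t a ε : A) (g : ℕ → A) (ht : t ≠ 0)
    (hF : t ^ (n + 2) - a * t ^ (n + 1) -
      ε * t ^ (n + 1) * ∑ k ∈ Finset.range (n + 1), g k * t ^ k = 0) :
    (s36cq_Psi n t a ε g).eval 1 = 0 := by
  rw [s36cq_Psi_eval]
  simp only [one_pow, mul_one]
  have h : (ε * ∑ k ∈ Finset.range (n + 1), g k * t ^ k + a - t) * t ^ (n + 1) = 0 := by
    linear_combination -hF
  rcases mul_eq_zero.1 h with h | h
  · exact h
  · exact absurd (pow_eq_zero_iff (n.succ_ne_zero) |>.1 h) ht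

/-- `Ψ(t/τ) = 0` for a root `τ ≠ 0` of `F`. -/
theorem s36cq_Psi_aeval_div {E : Type*} [Field E] [Algebra A E] (n : ℕ) (t a ε : A) (g : ℕ → A)
    (τ : E) (hτ : τ ≠ 0)
    (hF : τ ^ (n + 2) - algebraMap A E a * τ ^ (n + 1) -
      algebraMap A E ε * algebraMap A E t ^ (n + 1) *
        ∑ k ∈ Finset.range (n + 1), algebraMap A E (g k) * τ ^ k = 0) :
    aeval (algebraMap A E t / τ) (s36cq_Psi n t a ε g) = 0 := by
  rw [s36cq_Psi_aeval]
  set T := algebraMap A E t with hT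
  have hterm : ∀ k ∈ Finset.range (n + 1),
      algebraMap A E (g k) * T ^ k * (T / τ) ^ (n + 2 - k) * τ ^ (n + 2) =
        T ^ (n + 2) * (algebraMap A E (g k) * τ ^ k) := by
    intro k hk
    have hk' : k ≤ n + 2 := by
      have := Finset.mem_range.1 hk
      omega
    have h1 : τ ^ (n + 2) = τ ^ (n + 2 - k) * τ ^ k := by
      rw [← pow_add, Nat.sub_add_cancel hk']
    have h2 : T ^ (n + 2) = T ^ (n + 2 - k) * T ^ k := by
      rw [← pow_add, Nat.sub_add_cancel hk']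
    have h3 : (T / τ) ^ (n + 2 - k) * τ ^ (n + 2 - k) = T ^ (n + 2 - k) := by
      rw [← mul_pow, div_mul_cancel₀ _ hτ]
    rw [h1, h2]
    calc algebraMap A E (g k) * T ^ k * (T / τ) ^ (n + 2 - k) * (τ ^ (n + 2 - k) * τ ^ k)
        = algebraMap A E (g k) * T ^ k * ((T / τ) ^ (n + 2 - k) * τ ^ (n + 2 - k)) * τ ^ k := by
          ring
      _ = T ^ (n + 2 - k) * T ^ k * (algebraMap A E (g k) * τ ^ k) := by rw [h3]; ring
  have h : (algebraMap A E ε * ∑ k ∈ Finset.range (n + 1),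
      algebraMap A E (g k) * T ^ k * (T / τ) ^ (n + 2 - k) +
      algebraMap A E a * (T / τ) - T) * τ ^ (n + 2) = 0 := by
    rw [sub_mul, add_mul, mul_assoc, Finset.sum_mul, Finset.sum_congr rfl hterm,
      ← Finset.mul_sum]
    have h4 : algebraMap A E a * (T / τ) * τ ^ (n + 2) = algebraMap A E a * T * τ ^ (n + 1) := by
      rw [pow_succ τ (n + 1)]
      field_simp
    rw [h4]
    linear_combination (-T) * hF
  rcases mul_eq_zero.1 h with h | h
  · exact h
  · exact absurd (pow_eq_zero_iff (by omega) |>.1 h) hτ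

/-- `P0(1) = (n + 1) ε g_0 + t κ` as soon as `Ψ(1) = 0`. -/
theorem s36cq_P0_eval_one' (n : ℕ) (t a ε : A) (g : ℕ → A)
    (h1 : (s36cq_Psi n t a ε g).eval 1 = 0) :
    ∃ κ : A, (s36cq_P0 n t a ε g).eval 1 = ((n + 1 : ℕ) : A) * (ε * g 0) + t * κ := by
  rw [s36cq_Psi_eval] at h1
  simp only [one_pow, mul_one] at h1
  refine ⟨1 + ε * ∑ j ∈ Finset.range n, g (j + 1) * t ^ j * ((n - j : ℕ) : A), ?_⟩
  rw [s36cq_P0_eval_one]
  have h2 : ∀ k ∈ Finset.range (n + 1), g k * t ^ k * ((n + 2 - k : ℕ) : A) =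
      g k * t ^ k * ((n + 1 - k : ℕ) : A) + g k * t ^ k := by
    intro k hk
    have hk' : n + 2 - k = (n + 1 - k) + 1 := by
      have := Finset.mem_range.1 hk
      omega
    rw [hk']
    push_cast
    ring
  rw [Finset.sum_congr rfl h2, Finset.sum_add_distrib,
    Finset.sum_range_succ' (fun k => g k * t ^ k * ((n + 1 - k : ℕ) : A))]
  have h3 : ∀ j ∈ Finset.range n, g (j + 1) * t ^ (j + 1) * ((n + 1 - (j + 1) : ℕ) : A) =
      t * (g (j + 1) * t ^ j * ((n - j : ℕ) : A)) := by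
    intro j _
    rw [Nat.add_sub_add_right, pow_succ]
    ring
  rw [Finset.sum_congr rfl h3, ← Finset.mul_sum]
  simp only [pow_zero, mul_one, Nat.sub_zero]
  linear_combination h1

theorem s36cq_P0_natDegree_le (n : ℕ) (t a ε : A) (g : ℕ → A) :
    (s36cq_P0 n t a ε g).natDegree ≤ n + 1 := by
  unfold s36cq_P0
  refine natDegree_add_le_of_degree_le ?_ ((natDegree_C a).le.trans (Nat.zero_le _))
  refine (natDegree_C_mul_le _ _).trans ?_
  refine natDegree_sum_le_of_forall_le _ _ (fun k _ => ?_)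
  refine (natDegree_C_mul_le _ _).trans ?_
  refine natDegree_sum_le_of_forall_le _ _ (fun i hi => ?_)
  refine (natDegree_X_pow_le i).trans ?_
  have := Finset.mem_range.1 hi
  omega

theorem s36cq_P0_coeff (n : ℕ) (t a ε : A) (g : ℕ → A) :
    (s36cq_P0 n t a ε g).coeff (n + 1) = ε * g 0 := by
  unfold s36cq_P0
  rw [coeff_add, coeff_C_mul, finsetSum_coeff, coeff_C, if_neg (Nat.succ_ne_zero n), add_zero]
  congr 1
  rw [Finset.sum_eq_single 0]
  · rw [coeff_C_mul, finsetSum_coeff, pow_zero, mul_one, Nat.sub_zero]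
    simp only [coeff_X_pow]
    rw [Finset.sum_ite_eq, if_pos (Finset.mem_range.2 (Nat.lt_succ_self _)), mul_one]
  · intro k hk hk0
    rw [coeff_C_mul, finsetSum_coeff]
    simp only [coeff_X_pow]
    rw [Finset.sum_ite_eq, if_neg, mul_zero]
    rw [Finset.mem_range]
    have := Finset.mem_range.1 hk
    omega
  · intro h
    exact absurd (Finset.mem_range.2 (Nat.succ_pos n)) h

/-- The monic polynomial `p = c⁻¹ P0` (`v c = 1`, `c = ε g_0`). -/
theorem s36cq_p_monic [Nontrivial A] (n : ℕ) (t a ε : A) (g : ℕ → A) (v : A)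
    (hv : v * (ε * g 0) = 1) :
    (C v * s36cq_P0 n t a ε g).Monic ∧ (C v * s36cq_P0 n t a ε g).natDegree = n + 1 := by
  have hle : (C v * s36cq_P0 n t a ε g).natDegree ≤ n + 1 :=
    (natDegree_C_mul_le _ _).trans (s36cq_P0_natDegree_le n t a ε g)
  have hco : (C v * s36cq_P0 n t a ε g).coeff (n + 1) = 1 := by
    rw [coeff_C_mul, s36cq_P0_coeff, hv]
  have hm : (C v * s36cq_P0 n t a ε g).Monic := monic_of_natDegree_le_of_coeff_eq_one _ hle hco
  refine ⟨hm, le_antisymm hle ?_⟩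
  exact le_natDegree_of_ne_zero (by rw [hco]; exact one_ne_zero)

end Poly

end Fermat.Agent.S36
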