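/-
S36 [L3c] = [C-CUSP-EIS] (helper5's route #2436), step (B.3) assembled (helper24), in the shape
requested by helper5 (#2456).

`A` a noetherian integrally closed local domain which is a UFD, `𝔪_A = (q, t)`, `¬ t ∣ q`,
`E1 = Frac A`, `E2 / E1` of prime degree `q`;
`F(Y) = Y^(q+1) - a Y^q - t1 g(Y)` with `t1 = ε t^q`, `ε` and `g(0)` units, `deg g < q`,
`F(t) = 0`, `F(τ) = 0` for some `τ ∈ E2 ∖ E1`, `τ ≠ 0`.  Then `σ := t / τ` is a root of a monic
`p ∈ A[X]` of degree `q` with `m0 := p(1) = q + t κ` a prime element, `𝔪_A = (m0, t)`,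
`Y(σ) = 0 → m0 ∣ Y(1)`, `σ ≠ 1`, and `E2 = {Y(σ) / d}`.
-/
import Mathlib
import Fermat.Agent.JT3.FCore.LocalUFD
import Fermat.Agent.S36.CReg.CuspEisPoly
import Fermat.Agent.S36.CReg.CuspEisMin

set_option autoImplicit false
set_option linter.unusedSectionVars false
set_option linter.style.haveILetI false

namespace Fermat.Agent.S36

open Polynomial IsLocalRing Fermat.Agent.JT3

section Irred

variable {A : Type*} [CommRing A] [IsDomain A] [IsLocalRing A]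

/-- In a local domain with `𝔪 = (m0, t)` and `m0 ∉ (t)`, the element `m0` is irreducible. -/
theorem s36cq_irreducible {m0 t : A} (hmax : maximalIdeal A = Ideal.span {m0, t})
    (hm0t : ¬ t ∣ m0) : Irreducible m0 := by
  have hm0 : m0 ∈ maximalIdeal A := by rw [hmax]; exact Ideal.subset_span (by simp)
  have ht : t ∈ maximalIdeal A := by rw [hmax]; exact Ideal.subset_span (by simp)
  refine ⟨(mem_maximalIdeal _).1 hm0, fun r s hrs => ?_⟩
  by_contra hcon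
  rw [not_or] at hcon
  have hr : r ∈ maximalIdeal A := (mem_maximalIdeal _).2 hcon.1
  have hs : s ∈ maximalIdeal A := (mem_maximalIdeal _).2 hcon.2
  rw [hmax] at hr
  obtain ⟨a1, b1, h1⟩ := Ideal.mem_span_pair.1 hr
  have hs' := hs
  rw [hmax] at hs'
  obtain ⟨a2, b2, h2⟩ := Ideal.mem_span_pair.1 hs'
  set w := a1 * s + t * b1 * a2 with hw
  have hwm : w ∈ maximalIdeal A :=
    Ideal.add_mem _ (Ideal.mul_mem_left _ _ hs)
      (Ideal.mul_mem_right _ _ (Ideal.mul_mem_right _ _ ht))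
  have hu : IsUnit (1 - w) := by
    by_contra hnu
    have h3 : 1 - w ∈ maximalIdeal A := (mem_maximalIdeal _).2 hnu
    have h4 : (1 : A) ∈ maximalIdeal A := by
      have := Ideal.add_mem _ h3 hwm
      rwa [sub_add_cancel] at this
    exact (Ideal.ne_top_iff_one _).1 (maximalIdeal.isMaximal A).ne_top h4
  obtain ⟨v, hv⟩ := hu.exists_left_inv
  apply hm0t
  refine ⟨v * (t * b1 * b2), ?_⟩
  have h5 : m0 * (1 - w) = t * (t * b1 * b2) := by
    rw [hw]
    linear_combination hrs - s * h1 - b1 * t * h2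
  calc m0 = (v * (1 - w)) * m0 := by rw [hv, one_mul]
    _ = v * (m0 * (1 - w)) := by ring
    _ = t * (v * (t * b1 * b2)) := by rw [h5]; ring

end Irred

section Main

variable {A : Type*} [CommRing A] [IsDomain A] [IsLocalRing A] [IsIntegrallyClosed A]
  {E1 E2 : Type*} [Field E1] [Field E2] [Algebra A E1] [IsFractionRing A E1] [Algebra E1 E2]
  [Algebra A E2] [IsScalarTower A E1 E2] [FiniteDimensional E1 E2]

include E1 in
/-- **[C-CUSP-EIS] (B.3)**, in the shape of helper5's seam #2456. -/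
theorem s36cq_main [UniqueFactorizationMonoid A] {q : ℕ} (hq : q.Prime)
    (hfin : Module.finrank E1 E2 = q) {t a ε t1 : A} {g : A[X]}
    (hmaxq : maximalIdeal A = Ideal.span {((q : ℕ) : A), t}) (hqt : ¬ t ∣ ((q : ℕ) : A))
    (ht0 : t ≠ 0) (hε : IsUnit ε) (ht1 : t1 = ε * t ^ q) (hgdeg : g.natDegree < q)
    (hg0 : IsUnit (g.coeff 0))
    (hFt : t ^ (q + 1) - a * t ^ q - t1 * g.eval t = 0)
    {τ : E2} (hτ0 : τ ≠ 0) (hτ1 : τ ∉ (algebraMap E1 E2).range)
    (hFτ : τ ^ (q + 1) - algebraMap A E2 a * τ ^ q - algebraMap A E2 t1 * aeval τ g = 0) :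
    ∃ (p : A[X]) (m0 : A), p.Monic ∧ p.natDegree = q ∧ aeval (algebraMap A E2 t / τ) p = 0 ∧
      p.eval 1 = m0 ∧ (∀ Y : A[X], aeval (algebraMap A E2 t / τ) Y = 0 → m0 ∣ Y.eval 1) ∧
      Prime m0 ∧ maximalIdeal A = Ideal.span {m0, t} ∧ algebraMap A E2 t / τ ≠ 1 ∧
      (∀ e : E2, ∃ (Y : A[X]) (d : A), d ≠ 0 ∧
        e * algebraMap A E2 d = aeval (algebraMap A E2 t / τ) Y) ∧
      algebraMap A E2 t / τ ∉ (algebraMap E1 E2).range ∧ (∃ κ : A, m0 = ((q : ℕ) : A) + t * κ) ∧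
      minpoly A (algebraMap A E2 t / τ) = p := by
  obtain ⟨n, rfl⟩ : ∃ n, q = n + 1 := ⟨q - 1, (Nat.succ_pred_eq_of_pos hq.pos).symm⟩
  have hinj : Function.Injective (algebraMap A E2) := s36cq_algebraMap_injective (E1 := E1)
  set σ : E2 := algebraMap A E2 t / τ with hσdef
  have ht0' : algebraMap A E2 t ≠ 0 := fun h => ht0 (hinj (by rw [h, map_zero]))
  have hσ0 : σ ≠ 0 := div_ne_zero ht0' hτ0
  -- `σ ∉ E1`
  have hσ1 : σ ∉ (algebraMap E1 E2).range := by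
    rintro ⟨s, hs⟩
    apply hτ1
    have hs0 : s ≠ 0 := by
      rintro rfl
      rw [map_zero] at hs
      exact hσ0 hs.symm
    refine ⟨algebraMap A E1 t / s, ?_⟩
    rw [map_div₀, hs, ← IsScalarTower.algebraMap_apply, hσdef, div_div_cancel₀ ht0']
  have hσne1 : σ ≠ 1 := by
    intro h
    exact hσ1 ⟨1, by rw [map_one, h]⟩
  -- the coefficient form of the hypotheses
  have hFt' : t ^ (n + 2) - a * t ^ (n + 1) -
      ε * t ^ (n + 1) * ∑ k ∈ Finset.range (n + 1), g.coeff k * t ^ k = 0 := by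
    rw [← eval_eq_sum_range' hgdeg, ← ht1]
    exact hFt
  have hFτ' : τ ^ (n + 2) - algebraMap A E2 a * τ ^ (n + 1) -
      algebraMap A E2 ε * algebraMap A E2 t ^ (n + 1) *
        ∑ k ∈ Finset.range (n + 1), algebraMap A E2 (g.coeff k) * τ ^ k = 0 := by
    have h1 : aeval τ g = ∑ k ∈ Finset.range (n + 1), algebraMap A E2 (g.coeff k) * τ ^ k := by
      rw [aeval_eq_sum_range' hgdeg]
      exact Finset.sum_congr rfl (fun k _ => Algebra.smul_def _ _)
    rw [← h1, ← map_pow, ← map_mul, ← ht1]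
    exact hFτ
  -- the polynomial
  have hΨ1 : (s36cq_Psi n t a ε (fun k => g.coeff k)).eval 1 = 0 :=
    s36cq_Psi_eval_one n t a ε _ ht0 hFt'
  have hΨσ : aeval σ (s36cq_Psi n t a ε (fun k => g.coeff k)) = 0 :=
    s36cq_Psi_aeval_div n t a ε _ τ hτ0 hFτ'
  have hfac := s36cq_Psi_factor n t a ε (fun k => g.coeff k)
  rw [hΨ1, map_zero, sub_zero] at hfac
  have hP0σ : aeval σ (s36cq_P0 n t a ε (fun k => g.coeff k)) = 0 := by
    rw [hfac, map_mul, map_sub, aeval_X, map_one] at hΨσ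
    rcases mul_eq_zero.1 hΨσ with h | h
    · exact absurd (sub_eq_zero.1 h) hσne1
    · exact h
  obtain ⟨v, hv⟩ := (hε.mul hg0).exists_left_inv
  obtain ⟨hpm, hpd⟩ := s36cq_p_monic n t a ε (fun k => g.coeff k) v hv
  set p : A[X] := C v * s36cq_P0 n t a ε (fun k => g.coeff k) with hp
  have hpσ : aeval σ p = 0 := by rw [hp, map_mul, hP0σ, mul_zero]
  obtain ⟨κ0, hκ0⟩ := s36cq_P0_eval_one' n t a ε (fun k => g.coeff k) hΨ1
  have hp1 : p.eval 1 = ((n + 1 : ℕ) : A) + t * (v * κ0) := by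
    rw [hp, eval_mul, eval_C, hκ0]
    linear_combination ((n + 1 : ℕ) : A) * hv
  -- the maximal ideal
  have hmax : maximalIdeal A = Ideal.span {p.eval 1, t} := by
    have h1 : p.eval 1 = ((n + 1 : ℕ) : A) + (v * κ0) * t := by rw [hp1]; ring
    rw [h1, Ideal.span_pair_add_mul_right, hmaxq]
  have hndvd : ¬ t ∣ p.eval 1 := by
    intro h
    apply hqt
    have h2 : ((n + 1 : ℕ) : A) = p.eval 1 - t * (v * κ0) := by rw [hp1]; ring
    rw [h2]
    exact dvd_sub h (dvd_mul_right _ _)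
  have hirr : Irreducible (p.eval 1) := s36cq_irreducible hmax hndvd
  have hm0 : Prime (p.eval 1) := UniqueFactorizationMonoid.irreducible_iff_prime.1 hirr
  have hdeg : p.natDegree = Module.finrank E1 E2 := by rw [hpd, hfin]
  have hprime' : (Module.finrank E1 E2).Prime := by rw [hfin]; exact hq
  refine ⟨p, p.eval 1, hpm, hpd, hpσ, rfl, fun Y hY => ?_, hm0, hmax, hσne1,
    s36cq_exists_frac (E1 := E1) hprime' hσ1, hσ1, ⟨v * κ0, hp1⟩,
    s36cq_minpoly_eq (E1 := E1) hpm hdeg hprime' hpσ hσ1⟩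
  obtain ⟨r, hr⟩ := s36cq_dvd_of_aeval' (E1 := E1) hpm hdeg hprime' hpσ hσ1 Y hY
  exact ⟨r.eval 1, by rw [hr, eval_mul]⟩

include E1 in
/-- **[C-CUSP-EIS] (B.3)** for `F ∈ S[X]` given in the shape of (B.2):
`F = X^(q+1) - a X^q - t1 g`, with roots `t ∈ A` and `τ ∈ E2`. -/
theorem s36cq_main_of_F [UniqueFactorizationMonoid A] {S : Type*} [CommRing S] [Algebra S A]
    [Algebra S E2] [IsScalarTower S A E2] {q : ℕ} (hq : q.Prime)
    (hfin : Module.finrank E1 E2 = q) {t ε : A} {a t1 : S} {g F : S[X]}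
    (hmaxq : maximalIdeal A = Ideal.span {((q : ℕ) : A), t}) (hqt : ¬ t ∣ ((q : ℕ) : A))
    (ht0 : t ≠ 0) (hε : IsUnit ε) (ht1 : algebraMap S A t1 = ε * t ^ q)
    (hgdeg : g.natDegree < q) (hg0 : IsUnit (algebraMap S A (g.coeff 0)))
    (hF : F = X ^ (q + 1) - C a * X ^ q - C t1 * g) (hFt : aeval t F = 0)
    {τ : E2} (hτ0 : τ ≠ 0) (hτ1 : τ ∉ (algebraMap E1 E2).range) (hFτ : aeval τ F = 0) :
    ∃ (p : A[X]) (m0 : A), p.Monic ∧ p.natDegree = q ∧ aeval (algebraMap A E2 t / τ) p = 0 ∧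
      p.eval 1 = m0 ∧ (∀ Y : A[X], aeval (algebraMap A E2 t / τ) Y = 0 → m0 ∣ Y.eval 1) ∧
      Prime m0 ∧ maximalIdeal A = Ideal.span {m0, t} ∧ algebraMap A E2 t / τ ≠ 1 ∧
      (∀ e : E2, ∃ (Y : A[X]) (d : A), d ≠ 0 ∧
        e * algebraMap A E2 d = aeval (algebraMap A E2 t / τ) Y) ∧
      algebraMap A E2 t / τ ∉ (algebraMap E1 E2).range ∧ (∃ κ : A, m0 = ((q : ℕ) : A) + t * κ) ∧
      minpoly A (algebraMap A E2 t / τ) = p := by
  refine s36cq_main (E1 := E1) (a := algebraMap S A a) (g := g.map (algebraMap S A)) hq hfin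
    hmaxq hqt ht0 hε ht1 (lt_of_le_of_lt natDegree_map_le hgdeg)
    (by rw [coeff_map]; exact hg0) ?_ hτ0 hτ1 ?_
  · rw [eval_map_algebraMap]
    rw [hF] at hFt
    simpa using hFt
  · rw [aeval_map_algebraMap, ← IsScalarTower.algebraMap_apply, ← IsScalarTower.algebraMap_apply]
    rw [hF] at hFτ
    simpa using hFτ

include E1 in
/-- **[C-CUSP-EIS] (B.3)** with the regularity of `A` given as `𝔪_A = (π, u)`, `π` prime,
`¬ u ∣ π`, `q ~ π`, `t ~ u`. -/
theorem s36cq_main_reg [IsNoetherianRing A] {q : ℕ} (hq : q.Prime)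
    (hfin : Module.finrank E1 E2 = q) {π u t a ε t1 : A} {g : A[X]}
    (hπ : Prime π) (hmaxA : maximalIdeal A = Ideal.span {π, u}) (hπu : ¬ u ∣ π)
    (htu : Associated t u) (hqπ : Associated (((q : ℕ) : A)) π)
    (ht0 : t ≠ 0) (hε : IsUnit ε) (ht1 : t1 = ε * t ^ q) (hgdeg : g.natDegree < q)
    (hg0 : IsUnit (g.coeff 0))
    (hFt : t ^ (q + 1) - a * t ^ q - t1 * g.eval t = 0)
    {τ : E2} (hτ0 : τ ≠ 0) (hτ1 : τ ∉ (algebraMap E1 E2).range)
    (hFτ : τ ^ (q + 1) - algebraMap A E2 a * τ ^ q - algebraMap A E2 t1 * aeval τ g = 0) :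
    ∃ (p : A[X]) (m0 : A), p.Monic ∧ p.natDegree = q ∧ aeval (algebraMap A E2 t / τ) p = 0 ∧
      p.eval 1 = m0 ∧ (∀ Y : A[X], aeval (algebraMap A E2 t / τ) Y = 0 → m0 ∣ Y.eval 1) ∧
      Prime m0 ∧ maximalIdeal A = Ideal.span {m0, t} ∧ algebraMap A E2 t / τ ≠ 1 ∧
      (∀ e : E2, ∃ (Y : A[X]) (d : A), d ≠ 0 ∧
        e * algebraMap A E2 d = aeval (algebraMap A E2 t / τ) Y) ∧
      algebraMap A E2 t / τ ∉ (algebraMap E1 E2).range ∧ (∃ κ : A, m0 = ((q : ℕ) : A) + t * κ) ∧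
      minpoly A (algebraMap A E2 t / τ) = p := by
  haveI : UniqueFactorizationMonoid A := fc_ufd hπ hmaxA
  have hmaxq : maximalIdeal A = Ideal.span {((q : ℕ) : A), t} := by
    rw [hmaxA, Ideal.span_insert, Ideal.span_insert ((q : ℕ) : A),
      Ideal.span_singleton_eq_span_singleton.2 hqπ, Ideal.span_singleton_eq_span_singleton.2 htu]
  have hqt : ¬ t ∣ ((q : ℕ) : A) := fun h =>
    hπu ((htu.dvd_iff_dvd_left).1 ((hqπ.dvd_iff_dvd_right).1 h))
  exact s36cq_main (E1 := E1) hq hfin hmaxq hqt ht0 hε ht1 hgdeg hg0 hFt hτ0 hτ1 hFτ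

end Main

end Fermat.Agent.S36
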