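/-
Project S36 (Carayol), [M2] leaf [L3b] (helper16; prefix `s36ob_`): FROM THE OUTPUT OF
`s36cr_point_local` (`S36/CReg/Point.lean`) TO THE RING-LEVEL "ONE-BRANCH" CLAUSE consumed by
helper3's `s36g_hloc_one` (`S36/Glue/One.lean`), with `u := z`, `e := q - 1`.

`B ⊆ F0` a chart, `C` a localisation of `B` at a multiplicative set `M` (in the application
`C = integralClosure S E2`, `M = φ (B' ∖ y0)`, `Algebra B C := ι.toAlgebra`: `ssm_thc_isLocalization`),
`n` a prime of `C`, `𝔫 = n ∩ B`.  If `n = (z, u)` locally at `n` (`tq_GenBy z u n`), `z` is locally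
prime (`tq_Dom z n`) and `ϖ = w z ^ e` with `w ∉ n`, then `R := B_𝔫 = C_n` is factorial, `z` is a
prime element of `R`, `ϖ ~ z ^ e` and `R ⧸ (z)` is integrally closed (a principal ideal domain).

* `s36ob_isUnit_of_notMem`, `s36ob_algebra`, `s36ob_tower`, `s36ob_atPrime` : `B_𝔫 = C_n`;
* `s36ob_local` : the clause in any presentation `R` of `C_n`;
* `s36ob_oneBranch`, `s36ob_oneBranch_exists` : the clause on `ssl_locSub F0 𝔫`.
-/
import Mathlib
import Fermat.Agent.SS.Local.Height1
import Fermat.Agent.JT3.Model.TameBridge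
import Fermat.Agent.JT3.FCore.LocalUFD

set_option autoImplicit false
set_option linter.unusedSectionVars false
set_option linter.unusedVariables false
set_option linter.style.haveILetI false

namespace Fermat.Agent.S36

open Fermat.Agent.JT3 Fermat.Agent.SS IsLocalRing

section TwoStep

variable {B C R : Type*} [CommRing B] [CommRing C] [CommRing R] [Algebra B C] [Algebra B R]
  (M : Submonoid B) [IsLocalization M C] (n : Ideal C) [hn : n.IsPrime]
  [IsLocalization.AtPrime R (n.comap (algebraMap B C))]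

include hn in
/-- `M` misses `𝔫 = n ∩ B`. -/
theorem s36ob_le_primeCompl : M ≤ (n.comap (algebraMap B C)).primeCompl := by
  intro m hm hmem
  have hu : IsUnit (algebraMap B C m) := IsLocalization.map_units C (⟨m, hm⟩ : M)
  exact hn.ne_top (Ideal.eq_top_of_isUnit_mem _ hmem hu)

/-- the structure map `C → B_𝔫`. -/
@[reducible] noncomputable def s36ob_algebra : Algebra C R :=
  IsLocalization.localizationAlgebraOfSubmonoidLe C R M (n.comap (algebraMap B C)).primeCompl
    (s36ob_le_primeCompl M n)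

theorem s36ob_tower : @IsScalarTower B C R _ (s36ob_algebra (R := R) M n).toSMul _ :=
  IsLocalization.localization_isScalarTower_of_submonoid_le C R M
    (n.comap (algebraMap B C)).primeCompl (s36ob_le_primeCompl M n)

/-- **`B_𝔫 = C_n`.** -/
theorem s36ob_atPrime :
    @IsLocalization.AtPrime C _ R _ (s36ob_algebra (R := R) M n) n _ := by
  letI := s36ob_algebra (R := R) M n
  haveI := s36ob_tower (R := R) M n
  haveI h1 : IsLocalization ((n.comap (algebraMap B C)).primeCompl.map (algebraMap B C)) R :=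
    IsLocalization.isLocalization_of_submonoid_le C R M (n.comap (algebraMap B C)).primeCompl
      (s36ob_le_primeCompl M n)
  refine IsLocalization.of_le ((n.comap (algebraMap B C)).primeCompl.map (algebraMap B C))
    n.primeCompl ?_ ?_
  · rintro _ ⟨b, hb, rfl⟩
    exact hb
  · intro c hc
    obtain ⟨⟨b, m⟩, hbm⟩ := IsLocalization.surj M c
    simp only [] at hbm
    have hb : b ∉ n.comap (algebraMap B C) := by
      intro hmem
      have h2 : c * algebraMap B C m ∈ n := by rw [hbm]; exact hmem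
      rcases hn.mem_or_mem h2 with h3 | h3
      · exact hc h3
      · exact s36ob_le_primeCompl M n m.2 h3
    have hu : IsUnit (algebraMap B R b) :=
      IsLocalization.map_units R (⟨b, hb⟩ : (n.comap (algebraMap B C)).primeCompl)
    have h4 : algebraMap C R c * algebraMap C R (algebraMap B C m) = algebraMap B R b := by
      rw [← map_mul, hbm, ← IsScalarTower.algebraMap_apply]
    rw [← h4] at hu
    exact isUnit_of_mul_isUnit_left hu

end TwoStep

section Local

variable {C R : Type*} [CommRing C] [CommRing R] [IsDomain R] [IsNoetherianRing R] [Algebra C R]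
  (n : Ideal C) [hn : n.IsPrime] [IsLocalization.AtPrime R n]

/-- **The one-branch clause in `C_n`** (any presentation). -/
theorem s36ob_local {z u : C} (hgen : tq_GenBy z u n) (hdom : tq_Dom z n)
    (hz0 : algebraMap C R z ≠ 0) :
    UniqueFactorizationMonoid R ∧ Prime (algebraMap C R z) ∧
      IsIntegrallyClosed (R ⧸ (Ideal.span {algebraMap C R z} : Ideal R)) := by
  haveI : IsLocalRing R := IsLocalization.AtPrime.isLocalRing R n
  have hmax : maximalIdeal R = Ideal.span {algebraMap C R z, algebraMap C R u} := by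
    have := tqb_maximalIdeal_eq hgen R
    convert this
  have hpr : (Ideal.span {algebraMap C R z} : Ideal R).IsPrime :=
    tqb_span_isPrime_of_dom hgen.1 hdom R
  have hprime : Prime (algebraMap C R z) := (Ideal.span_singleton_prime hz0).1 hpr
  refine ⟨fc_ufd hprime hmax, hprime, ?_⟩
  haveI : IsPrincipalIdealRing (R ⧸ (Ideal.span {algebraMap C R z} : Ideal R)) :=
    nfr_isPrincipalIdealRing_quot hprime hmax
  haveI : IsDomain (R ⧸ (Ideal.span {algebraMap C R z} : Ideal R)) := Ideal.Quotient.isDomain _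
  infer_instance

end Local

section Chart

universe v

variable {A0 : Type*} [CommRing A0] {F0 : Type v} [Field F0] [Algebra A0 F0]
variable {B : Subalgebra A0 F0} [IsFractionRing B F0] [IsNoetherianRing B] [IsIntegrallyClosed B]
variable {C : Type*} [CommRing C] [Algebra B C]

/-- **[L3b]: the ONE-BRANCH clause at a point of the component `C`**, on `R := ssl_locSub F0 𝔫`,
from the output of `s36cr_point_local` in a localisation `C` of the chart `B`. -/
theorem s36ob_oneBranch (M : Submonoid B) [IsLocalization M C] (n : Ideal C) [hn : n.IsPrime] (𝔫 : Ideal B) [h𝔫 : 𝔫.IsPrime]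
    (hn𝔫 : n.comap (algebraMap B C) = 𝔫) (π : A0) (hϖ0 : algebraMap A0 F0 π ≠ 0)
    {z u : C} (hgen : tq_GenBy z u n) (hdom : tq_Dom z n) (e : ℕ) (he : e ≠ 0) (w : C)
    (hw : w ∉ n) (hπ : algebraMap B C (algebraMap A0 B π) = w * z ^ e) :
    UniqueFactorizationMonoid (ssl_locSub F0 𝔫) ∧
    ∃ u' : ssl_locSub F0 𝔫, Prime u' ∧
      Associated (algebraMap B (ssl_locSub F0 𝔫) (algebraMap A0 B π)) (u' ^ e) ∧
      IsIntegrallyClosed (ssl_locSub F0 𝔫 ⧸ (Ideal.span {u'} : Ideal (ssl_locSub F0 𝔫))) := by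
  subst hn𝔫
  haveI : IsNoetherianRing (ssl_locSub F0 (n.comap (algebraMap B C))) :=
    IsLocalization.isNoetherianRing (n.comap (algebraMap B C)).primeCompl _ inferInstance
  letI := s36ob_algebra (R := ssl_locSub F0 (n.comap (algebraMap B C))) M n
  haveI := s36ob_tower (R := ssl_locSub F0 (n.comap (algebraMap B C))) M n
  haveI := s36ob_atPrime (R := ssl_locSub F0 (n.comap (algebraMap B C))) M n
  -- the image of `ϖ`
  have hϖR : algebraMap B (ssl_locSub F0 (n.comap (algebraMap B C))) (algebraMap A0 B π) =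
      algebraMap C (ssl_locSub F0 (n.comap (algebraMap B C))) w *
        algebraMap C (ssl_locSub F0 (n.comap (algebraMap B C))) z ^ e := by
    rw [IsScalarTower.algebraMap_apply B C (ssl_locSub F0 (n.comap (algebraMap B C))), hπ,
      map_mul, map_pow]
  have hϖR0 : algebraMap B (ssl_locSub F0 (n.comap (algebraMap B C))) (algebraMap A0 B π) ≠ 0 := by
    intro h0
    apply hϖ0
    have := congrArg (fun t : ssl_locSub F0 (n.comap (algebraMap B C)) => (t : F0)) h0
    exact this
  have hz0 : algebraMap C (ssl_locSub F0 (n.comap (algebraMap B C))) z ≠ 0 := by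
    intro h0
    apply hϖR0
    rw [hϖR, h0, zero_pow he, mul_zero]
  obtain ⟨hufd, hprime, hic⟩ :=
    s36ob_local (R := ssl_locSub F0 (n.comap (algebraMap B C))) n hgen hdom hz0
  refine ⟨hufd, _, hprime, ?_, hic⟩
  have hwu : IsUnit (algebraMap C (ssl_locSub F0 (n.comap (algebraMap B C))) w) :=
    IsLocalization.map_units _ (⟨w, hw⟩ : n.primeCompl)
  rw [hϖR, mul_comm]
  exact associated_mul_unit_left _ _ hwu

/-- the existential packaging `∃ u e, …` of helper3's ONE-BRANCH clause (`e ≤ N`). -/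
theorem s36ob_oneBranch_exists (M : Submonoid B) [IsLocalization M C] (n : Ideal C)
    [hn : n.IsPrime] (𝔫 : Ideal B) [h𝔫 : 𝔫.IsPrime]
    (hn𝔫 : n.comap (algebraMap B C) = 𝔫) (π : A0) (hϖ0 : algebraMap A0 F0 π ≠ 0)
    {z u : C} (hgen : tq_GenBy z u n) (hdom : tq_Dom z n) (e : ℕ) (he : e ≠ 0) (w : C)
    (hw : w ∉ n) (hπ : algebraMap B C (algebraMap A0 B π) = w * z ^ e) (N : ℕ) (heN : e ≤ N) :
    UniqueFactorizationMonoid (ssl_locSub F0 𝔫) ∧
    ∃ (u' : ssl_locSub F0 𝔫) (e' : ℕ), e' ≠ 0 ∧ e' ≤ N ∧ Prime u' ∧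
      Associated (algebraMap B (ssl_locSub F0 𝔫) (algebraMap A0 B π)) (u' ^ e') ∧
      IsIntegrallyClosed (ssl_locSub F0 𝔫 ⧸ (Ideal.span {u'} : Ideal (ssl_locSub F0 𝔫))) := by
  obtain ⟨h1, u', h2, h3, h4⟩ := s36ob_oneBranch M n 𝔫 hn𝔫 π hϖ0 hgen hdom e he w hw hπ
  exact ⟨h1, u', e, he, heN, h2, h3, h4⟩

/-- the same, starting from a prime `𝔫` of the chart disjoint from `M` (`n := 𝔫 C`). -/
theorem s36ob_oneBranch_map (M : Submonoid B) [IsLocalization M C] (𝔫 : Ideal B)
    [h𝔫 : 𝔫.IsPrime] (hdisj : Disjoint (M : Set B) (𝔫 : Set B)) (π : A0)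
    (hϖ0 : algebraMap A0 F0 π ≠ 0) {z u : C}
    (hgen : tq_GenBy z u (𝔫.map (algebraMap B C))) (hdom : tq_Dom z (𝔫.map (algebraMap B C)))
    (e : ℕ) (he : e ≠ 0) (w : C) (hw : w ∉ 𝔫.map (algebraMap B C))
    (hπ : algebraMap B C (algebraMap A0 B π) = w * z ^ e) (N : ℕ) (heN : e ≤ N) :
    UniqueFactorizationMonoid (ssl_locSub F0 𝔫) ∧
    ∃ (u' : ssl_locSub F0 𝔫) (e' : ℕ), e' ≠ 0 ∧ e' ≤ N ∧ Prime u' ∧
      Associated (algebraMap B (ssl_locSub F0 𝔫) (algebraMap A0 B π)) (u' ^ e') ∧
      IsIntegrallyClosed (ssl_locSub F0 𝔫 ⧸ (Ideal.span {u'} : Ideal (ssl_locSub F0 𝔫))) := by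
  haveI : (𝔫.map (algebraMap B C)).IsPrime :=
    IsLocalization.isPrime_of_isPrime_disjoint M C 𝔫 h𝔫 hdisj
  exact s36ob_oneBranch_exists M (𝔫.map (algebraMap B C)) 𝔫
    (IsLocalization.under_map_of_isPrime_disjoint M C h𝔫 hdisj) π hϖ0 hgen hdom e he w hw hπ N heN

end Chart

end Fermat.Agent.S36

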