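/-
Project S36, model cell [M2], leaf **[C-CUSP-EIS]**, abstract part 3 (helper5).  Prefix `s36ce_`.

THE LOCAL RING OF THE COMPONENT `C` AT A CUSP IS `A[σ]` LOCALISED AT `(σ - 1, t)`.

`A` a noetherian local domain (the local ring of the level-`N' q` chart at the cusp point `y_F`),
`σ ∈ E` (`σ = t / W₂ t`) a root of `p ∈ A[X]` such that every polynomial killing `σ` has its value
at `1` divisible by `m₀ := p(1)`, `m₀` a prime element of `A` with `𝔪_A = (m₀, t)`.

* `s36ce_mem_span_Z_iff`, `s36ce_mem_M_iff` : membership in `(Z)`, `(Z, t)` of `A[σ]`, `Z := σ - 1`,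
  read off the value at `1` of a polynomial representative;
* `s36ce_span_Z_isPrime`, `s36ce_M_isMaximal` : `(Z)` is prime and `(Z, t)` is maximal in `A[σ]`;
* `s36ce_genBy`, `s36ce_dom` : helper16's input `tq_GenBy Z t 𝔐`, `tq_Dom Z 𝔐`.
-/
import Mathlib
import Fermat.Agent.S36.CReg.OneBranchC

set_option autoImplicit false
set_option linter.unusedSectionVars false
set_option linter.unusedVariables false
set_option linter.style.haveILetI false

namespace Fermat.Agent.S36

open Fermat.Agent.JT3 Fermat.Agent.SS IsLocalRing Polynomial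

section Adjoin

variable {A E : Type*} [CommRing A] [Field E] [Algebra A E]

/-- the generator `σ` of `A[σ]`. -/
noncomputable def s36ce_gen (σ : E) : Algebra.adjoin A ({σ} : Set E) :=
  ⟨σ, Algebra.self_mem_adjoin_singleton A σ⟩

theorem s36ce_coe_gen (σ : E) : ((s36ce_gen (A := A) σ : Algebra.adjoin A ({σ} : Set E)) : E) = σ :=
  rfl

/-- every element of `A[σ]` is a polynomial in `σ`. -/
theorem s36ce_exists_poly (σ : E) (y : Algebra.adjoin A ({σ} : Set E)) :
    ∃ Y : A[X], aeval (s36ce_gen (A := A) σ) Y = y := by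
  have hy : (y : E) ∈ (aeval σ : A[X] →ₐ[A] E).range := by
    rw [← Algebra.adjoin_singleton_eq_range_aeval]; exact y.2
  obtain ⟨Y, hY⟩ := hy
  refine ⟨Y, Subtype.ext ?_⟩
  rw [← Subalgebra.aeval_coe, s36ce_coe_gen]
  exact hY

/-- `Y(σ) = 0` in `A[σ]` iff in `E`. -/
theorem s36ce_aeval_eq_zero_iff (σ : E) (Y : A[X]) :
    aeval (s36ce_gen (A := A) σ) Y = 0 ↔ aeval σ Y = 0 := by
  rw [← Subalgebra.coe_eq_zero, ← Subalgebra.aeval_coe, s36ce_coe_gen]

/-- `Y(σ) = (σ - 1) Y₁(σ) + Y(1)`. -/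
theorem s36ce_aeval_split (σ : E) (Y : A[X]) :
    ∃ Y1 : A[X], aeval (s36ce_gen (A := A) σ) Y =
      (s36ce_gen (A := A) σ - 1) * aeval (s36ce_gen (A := A) σ) Y1 +
        algebraMap A _ (Y.eval 1) := by
  obtain ⟨Y1, hY1⟩ := X_sub_C_dvd_sub_C_eval (a := (1 : A)) (p := Y)
  refine ⟨Y1, ?_⟩
  have h : Y = (X - C 1) * Y1 + C (Y.eval 1) := by rw [← hY1]; ring
  conv_lhs => rw [h]
  simp only [map_add, map_mul, map_sub, aeval_X, aeval_C, map_one]

end Adjoin

section Ring

variable {A E : Type*} [CommRing A] [IsDomain A] [IsLocalRing A] [Field E] [Algebra A E]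

variable (σ : E) (p : A[X]) (m0 t : A)

/-- `m₀ ∈ (Z)`. -/
theorem s36ce_m0_mem (hpσ : aeval σ p = 0) (hp1 : p.eval 1 = m0) :
    algebraMap A (Algebra.adjoin A ({σ} : Set E)) m0 ∈
      Ideal.span {s36ce_gen (A := A) σ - 1} := by
  obtain ⟨P1, hP1⟩ := s36ce_aeval_split (A := A) σ p
  rw [(s36ce_aeval_eq_zero_iff σ p).2 hpσ, hp1] at hP1
  rw [Ideal.mem_span_singleton]
  refine ⟨- aeval (s36ce_gen (A := A) σ) P1, ?_⟩
  linear_combination (-1 : Algebra.adjoin A ({σ} : Set E)) * hP1

/-- **membership in `(Z)`**. -/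
theorem s36ce_mem_span_Z_iff (hpσ : aeval σ p = 0) (hp1 : p.eval 1 = m0)
    (hker : ∀ Y : A[X], aeval σ Y = 0 → m0 ∣ Y.eval 1) (Y : A[X]) :
    aeval (s36ce_gen (A := A) σ) Y ∈ Ideal.span {s36ce_gen (A := A) σ - 1} ↔
      m0 ∣ Y.eval 1 := by
  constructor
  · intro h
    rw [Ideal.mem_span_singleton] at h
    obtain ⟨w, hw⟩ := h
    obtain ⟨W, rfl⟩ := s36ce_exists_poly σ w
    have h0 : aeval (s36ce_gen (A := A) σ) (Y - (X - C 1) * W) = 0 := by
      simp only [map_sub, map_mul, aeval_X, map_one]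
      rw [hw]; ring
    have := hker _ ((s36ce_aeval_eq_zero_iff σ _).1 h0)
    simpa using this
  · rintro ⟨c, hc⟩
    obtain ⟨Y1, hY1⟩ := s36ce_aeval_split (A := A) σ Y
    rw [hY1, hc, map_mul]
    exact Ideal.add_mem _ (Ideal.mul_mem_right _ _ (Ideal.mem_span_singleton_self _))
      (Ideal.mul_mem_right _ _ (s36ce_m0_mem σ p m0 hpσ hp1))

/-- **`(Z)` is a prime ideal of `A[σ]`.** -/
theorem s36ce_span_Z_isPrime (hpσ : aeval σ p = 0) (hp1 : p.eval 1 = m0)
    (hker : ∀ Y : A[X], aeval σ Y = 0 → m0 ∣ Y.eval 1) (hm0 : Prime m0) :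
    (Ideal.span {s36ce_gen (A := A) σ - 1} :
      Ideal (Algebra.adjoin A ({σ} : Set E))).IsPrime := by
  refine ⟨?_, ?_⟩
  · intro h
    have h1 : (1 : Algebra.adjoin A ({σ} : Set E)) ∈
        Ideal.span {s36ce_gen (A := A) σ - 1} := by rw [h]; trivial
    have h2 : aeval (s36ce_gen (A := A) σ) (C 1 : A[X]) = 1 := by simp
    have h1' : aeval (s36ce_gen (A := A) σ) (C 1 : A[X]) ∈
        Ideal.span {s36ce_gen (A := A) σ - 1} := by rw [h2]; exact h1
    rw [s36ce_mem_span_Z_iff σ p m0 hpσ hp1 hker] at h1'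
    simp only [eval_C] at h1'
    exact hm0.not_isUnit (isUnit_of_dvd_one h1')
  · intro y1 y2 h
    obtain ⟨Y1, rfl⟩ := s36ce_exists_poly σ y1
    obtain ⟨Y2, rfl⟩ := s36ce_exists_poly σ y2
    rw [← map_mul, s36ce_mem_span_Z_iff σ p m0 hpσ hp1 hker, eval_mul] at h
    rcases hm0.dvd_or_dvd h with h | h
    · exact Or.inl ((s36ce_mem_span_Z_iff σ p m0 hpσ hp1 hker Y1).2 h)
    · exact Or.inr ((s36ce_mem_span_Z_iff σ p m0 hpσ hp1 hker Y2).2 h)

/-- **membership in `𝔐 = (Z, t)`**. -/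
theorem s36ce_mem_M_iff (hpσ : aeval σ p = 0) (hp1 : p.eval 1 = m0)
    (hker : ∀ Y : A[X], aeval σ Y = 0 → m0 ∣ Y.eval 1)
    (hmax : maximalIdeal A = Ideal.span {m0, t}) (Y : A[X]) :
    aeval (s36ce_gen (A := A) σ) Y ∈
      Ideal.span {s36ce_gen (A := A) σ - 1, algebraMap A _ t} ↔
      Y.eval 1 ∈ maximalIdeal A := by
  constructor
  · intro h
    obtain ⟨w1, w2, hw⟩ := Ideal.mem_span_pair.1 h
    obtain ⟨W1, rfl⟩ := s36ce_exists_poly σ w1
    obtain ⟨W2, rfl⟩ := s36ce_exists_poly σ w2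
    have h0 : aeval (s36ce_gen (A := A) σ) (Y - (X - C 1) * W1 - C t * W2) = 0 := by
      simp only [map_sub, map_mul, aeval_X, aeval_C, map_one]
      rw [← hw]; ring
    obtain ⟨c, hc⟩ := hker _ ((s36ce_aeval_eq_zero_iff σ _).1 h0)
    simp only [eval_sub, eval_mul, eval_X, eval_C, sub_self, zero_mul, sub_zero] at hc
    rw [hmax, Ideal.mem_span_pair]
    exact ⟨c, W2.eval 1, by linear_combination -hc⟩
  · intro h
    rw [hmax, Ideal.mem_span_pair] at h
    obtain ⟨c1, c2, hc⟩ := h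
    obtain ⟨Y1, hY1⟩ := s36ce_aeval_split (A := A) σ Y
    rw [hY1, ← hc, map_add, map_mul, map_mul]
    have hZ : s36ce_gen (A := A) σ - 1 ∈
        Ideal.span {s36ce_gen (A := A) σ - 1, algebraMap A (Algebra.adjoin A ({σ} : Set E)) t} :=
      Ideal.subset_span (by simp)
    have ht : algebraMap A (Algebra.adjoin A ({σ} : Set E)) t ∈
        Ideal.span {s36ce_gen (A := A) σ - 1, algebraMap A (Algebra.adjoin A ({σ} : Set E)) t} :=
      Ideal.subset_span (by simp)
    have hle : Ideal.span {s36ce_gen (A := A) σ - 1} ≤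
        Ideal.span {s36ce_gen (A := A) σ - 1, algebraMap A (Algebra.adjoin A ({σ} : Set E)) t} := by
      rw [Ideal.span_singleton_le_iff_mem]; exact hZ
    refine Ideal.add_mem _ (Ideal.mul_mem_right _ _ hZ) (Ideal.add_mem _ ?_ ?_)
    · exact Ideal.mul_mem_left _ _ (hle (s36ce_m0_mem σ p m0 hpσ hp1))
    · exact Ideal.mul_mem_left _ _ ht

/-- **`𝔐 = (Z, t)` is a maximal ideal of `A[σ]`.** -/
theorem s36ce_M_isMaximal (hpσ : aeval σ p = 0) (hp1 : p.eval 1 = m0)
    (hker : ∀ Y : A[X], aeval σ Y = 0 → m0 ∣ Y.eval 1)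
    (hmax : maximalIdeal A = Ideal.span {m0, t}) :
    (Ideal.span {s36ce_gen (A := A) σ - 1, algebraMap A _ t} :
      Ideal (Algebra.adjoin A ({σ} : Set E))).IsMaximal := by
  rw [Ideal.isMaximal_iff]
  refine ⟨?_, ?_⟩
  · intro h1
    have h2 : aeval (s36ce_gen (A := A) σ) (C 1 : A[X]) = 1 := by simp
    have h1' : aeval (s36ce_gen (A := A) σ) (C 1 : A[X]) ∈
        Ideal.span {s36ce_gen (A := A) σ - 1, algebraMap A _ t} := by rw [h2]; exact h1
    rw [s36ce_mem_M_iff σ p m0 t hpσ hp1 hker hmax] at h1'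
    simp only [eval_C] at h1'
    exact (maximalIdeal.isMaximal A).ne_top ((Ideal.eq_top_iff_one _).2 h1')
  · intro J x hJ hx hxJ
    obtain ⟨Y, rfl⟩ := s36ce_exists_poly σ x
    rw [s36ce_mem_M_iff σ p m0 t hpσ hp1 hker hmax] at hx
    have hu : IsUnit (Y.eval 1) := by
      by_contra hnu
      exact hx ((mem_maximalIdeal _).2 hnu)
    obtain ⟨u', hu'⟩ := hu.exists_right_inv
    obtain ⟨Y1, hY1⟩ := s36ce_aeval_split (A := A) σ Y
    have hZJ : s36ce_gen (A := A) σ - 1 ∈ J := hJ (Ideal.subset_span (by simp))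
    have h3 : algebraMap A (Algebra.adjoin A ({σ} : Set E)) (Y.eval 1) ∈ J := by
      have : algebraMap A (Algebra.adjoin A ({σ} : Set E)) (Y.eval 1) =
          aeval (s36ce_gen (A := A) σ) Y -
            (s36ce_gen (A := A) σ - 1) * aeval (s36ce_gen (A := A) σ) Y1 := by
        rw [hY1]; ring
      rw [this]
      exact Ideal.sub_mem _ hxJ (Ideal.mul_mem_right _ _ hZJ)
    have h4 : (1 : Algebra.adjoin A ({σ} : Set E)) =
        algebraMap A _ (Y.eval 1) * algebraMap A _ u' := by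
      rw [← map_mul, hu', map_one]
    rw [h4]
    exact Ideal.mul_mem_right _ _ h3

/-- helper16's input: `𝔐 = (Z, t)` locally (here: globally). -/
theorem s36ce_genBy
    (h1 : (1 : Algebra.adjoin A ({σ} : Set E)) ∉
      Ideal.span {s36ce_gen (A := A) σ - 1, algebraMap A (Algebra.adjoin A ({σ} : Set E)) t}) :
    tq_GenBy (s36ce_gen (A := A) σ - 1) (algebraMap A (Algebra.adjoin A ({σ} : Set E)) t)
      (Ideal.span {s36ce_gen (A := A) σ - 1, algebraMap A (Algebra.adjoin A ({σ} : Set E)) t}) :=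
  ⟨Ideal.subset_span (by simp), Ideal.subset_span (by simp),
    fun x hx => ⟨1, h1, by rwa [one_mul]⟩⟩

/-- helper16's input: `Z` is prime locally at `𝔐` (here: globally). -/
theorem s36ce_dom (hpσ : aeval σ p = 0) (hp1 : p.eval 1 = m0)
    (hker : ∀ Y : A[X], aeval σ Y = 0 → m0 ∣ Y.eval 1) (hm0 : Prime m0)
    (h1 : (1 : Algebra.adjoin A ({σ} : Set E)) ∉
      Ideal.span {s36ce_gen (A := A) σ - 1, algebraMap A (Algebra.adjoin A ({σ} : Set E)) t}) :
    tq_Dom (s36ce_gen (A := A) σ - 1)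
      (Ideal.span {s36ce_gen (A := A) σ - 1, algebraMap A (Algebra.adjoin A ({σ} : Set E)) t}) := by
  intro a b hab
  haveI := s36ce_span_Z_isPrime σ p m0 hpσ hp1 hker hm0
  rcases Ideal.IsPrime.mem_or_mem ‹_› hab with h | h
  · exact ⟨1, h1, Or.inl (by rwa [one_mul])⟩
  · exact ⟨1, h1, Or.inr (by rwa [one_mul])⟩

end Ring

section Main

variable {A E R : Type*} [CommRing A] [IsDomain A] [IsLocalRing A] [IsNoetherianRing A]
  [Field E] [Algebra A E] [CommRing R] [IsDomain R] [IsLocalRing R] [IsNoetherianRing R]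
  [Algebra A R] [Algebra R E] [IsScalarTower A R E]

set_option maxHeartbeats 800000 in
/-- **[C-CUSP-EIS], the ring**: a local ring `R` of the integral closure of `A` in `E = Frac(A)(σ)`
whose maximal ideal contains `σ - 1` and `t` IS `A[σ]` localised at `(σ - 1, t)`: it is factorial,
`σ - 1` is a prime element, `R / (σ - 1)` is integrally closed and `𝔪_R = (σ - 1, t)`. -/
theorem s36ce_ring (hAE : Function.Injective (algebraMap A E))
    (hRE : Function.Injective (algebraMap R E))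
    (σ : E) (p : A[X]) (m0 t : A) (hpσ : aeval σ p = 0) (hp1 : p.eval 1 = m0)
    (hker : ∀ Y : A[X], aeval σ Y = 0 → m0 ∣ Y.eval 1) (hm0 : Prime m0)
    (hmax : maximalIdeal A = Ideal.span {m0, t})
    (σR : R) (hσR : algebraMap R E σR = σ) (hZm : σR - 1 ∈ maximalIdeal R)
    (htm : algebraMap A R t ∈ maximalIdeal R) (hσ1 : σ ≠ 1)
    (hR : ∀ r : R, ∃ c s : R, IsIntegral A c ∧ IsIntegral A s ∧ IsUnit s ∧ r * s = c)
    (hfrac : ∀ e : E, ∃ (Y : A[X]) (d : A), d ≠ 0 ∧ e * algebraMap A E d = aeval σ Y) :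
    UniqueFactorizationMonoid R ∧ Prime (σR - 1) ∧
      IsIntegrallyClosed (R ⧸ (Ideal.span {σR - 1} : Ideal R)) ∧
      maximalIdeal R = Ideal.span {σR - 1, algebraMap A R t} := by
  classical
  -- the ring `T = A[σ]`
  set T := Algebra.adjoin A ({σ} : Set E) with hT
  set Z : T := s36ce_gen (A := A) σ - 1 with hZ
  set t' : T := algebraMap A T t with ht'
  haveI : IsNoetherianRing T :=
    isNoetherianRing_of_surjective A[X] T (aeval (s36ce_gen (A := A) σ)).toRingHom
      (fun y => s36ce_exists_poly σ y)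
  -- the map `T → R`
  let j : R →+* E := algebraMap R E
  have hjr : ∀ y : T, (T.val.toRingHom : T →+* E) y ∈ j.range := by
    intro y
    obtain ⟨Y, rfl⟩ := s36ce_exists_poly σ y
    refine ⟨aeval σR Y, ?_⟩
    show algebraMap R E (aeval σR Y) = ((aeval (s36ce_gen (A := A) σ) Y : T) : E)
    rw [← aeval_algebraMap_apply, hσR, ← Subalgebra.aeval_coe, s36ce_coe_gen]
  let e : R ≃+* j.range := RingEquiv.ofBijective j.rangeRestrict
    ⟨fun x y h => hRE (congrArg Subtype.val h), j.rangeRestrict_surjective⟩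
  let g : T →+* R := e.symm.toRingHom.comp ((T.val.toRingHom : T →+* E).codRestrict j.range hjr)
  have hg : ∀ y : T, algebraMap R E (g y) = (y : E) := by
    intro y
    have h1 : e (g y) = (T.val.toRingHom : T →+* E).codRestrict j.range hjr y := by
      show e (e.symm _) = _
      exact e.apply_symm_apply _
    have h2 := congrArg Subtype.val h1
    exact h2
  have hginj : Function.Injective g := by
    intro y1 y2 h
    apply Subtype.ext
    rw [← hg y1, ← hg y2, h]
  have hgZ : g Z = σR - 1 := by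
    apply hRE
    rw [hg, map_sub, map_one, hσR]
    rfl
  have hgt : g t' = algebraMap A R t := by
    apply hRE
    rw [hg, ← IsScalarTower.algebraMap_apply]
    rfl
  letI : Algebra T R := g.toAlgebra
  -- the maximal ideal `𝔐`
  set 𝔐 : Ideal T := Ideal.span {Z, t'} with h𝔐
  haveI hmaxM : 𝔐.IsMaximal := s36ce_M_isMaximal σ p m0 t hpσ hp1 hker hmax
  haveI hprM : 𝔐.IsPrime := hmaxM.isPrime
  have h1M : (1 : T) ∉ 𝔐 := fun h => hmaxM.ne_top ((Ideal.eq_top_iff_one _).2 h)
  have hcomap : (maximalIdeal R).comap g = 𝔐 := by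
    symm
    refine hmaxM.eq_of_le (Ideal.comap_ne_top _ (maximalIdeal.isMaximal R).ne_top) ?_
    rw [h𝔐, Ideal.span_le]
    rintro x (rfl | hx)
    · show g Z ∈ maximalIdeal R
      rw [hgZ]; exact hZm
    · rw [Set.mem_singleton_iff] at hx
      rw [hx]
      show g t' ∈ maximalIdeal R
      rw [hgt]; exact htm
  have hunit : ∀ y : T, y ∉ 𝔐 → IsUnit (g y) := by
    intro y hy
    by_contra hnu
    apply hy
    rw [← hcomap]
    exact (mem_maximalIdeal _).2 hnu
  have hgen := s36ce_genBy (A := A) σ t h1M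
  have hdom := s36ce_dom σ p m0 t hpσ hp1 hker hm0 h1M
  have hZne : Z ≠ 0 := by
    intro h0
    apply hσ1
    have := congrArg Subtype.val h0
    simp only [hZ, Subalgebra.coe_sub, Subalgebra.coe_one, s36ce_coe_gen, ZeroMemClass.coe_zero]
      at this
    exact sub_eq_zero.1 this
  -- the abstract localisation is factorial, hence integrally closed
  let Loc := Localization.AtPrime 𝔐
  haveI : IsDomain Loc := IsLocalization.isDomain_of_atPrime Loc 𝔐
  haveI : IsNoetherianRing Loc := IsLocalization.isNoetherianRing 𝔐.primeCompl Loc inferInstance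
  have hZLoc : algebraMap T Loc Z ≠ 0 := by
    intro h0
    apply hZne
    exact (IsLocalization.to_map_eq_zero_iff Loc 𝔐.primeCompl_le_nonZeroDivisors).1 h0
  obtain ⟨hufdLoc, -, -⟩ := s36ob_local (R := Loc) 𝔐 hgen hdom hZLoc
  haveI := hufdLoc
  haveI : IsIntegrallyClosed Loc := UniqueFactorizationMonoid.instIsIntegrallyClosed
  -- `Loc ⊆ E`
  have hunitE : ∀ y : 𝔐.primeCompl, IsUnit ((T.val.toRingHom : T →+* E) y) := by
    intro y
    apply IsUnit.mk0
    intro h0
    apply y.2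
    have : (y : T) = 0 := Subtype.ext h0
    rw [this]; exact 𝔐.zero_mem
  letI : Algebra Loc E := (IsLocalization.lift (M := 𝔐.primeCompl) (S := Loc) hunitE).toAlgebra
  haveI : IsScalarTower T Loc E := IsScalarTower.of_algebraMap_eq fun y => by
    show (y : E) = IsLocalization.lift hunitE (algebraMap T Loc y)
    rw [IsLocalization.lift_eq]; rfl
  haveI : FaithfulSMul T E := (faithfulSMul_iff_algebraMap_injective T E).2 Subtype.val_injective
  haveI : IsFractionRing T E := by
    refine IsFractionRing.of_field T E fun z => ?_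
    obtain ⟨Y, d, hd, hzd⟩ := hfrac z
    refine ⟨aeval (s36ce_gen (A := A) σ) Y, algebraMap A T d, ?_⟩
    have hd' : algebraMap A E d ≠ 0 := fun h => hd (hAE (by rw [h, map_zero]))
    rw [eq_div_iff (by exact hd')]
    show z * algebraMap A E d = ((aeval (s36ce_gen (A := A) σ) Y : T) : E)
    rw [hzd, ← Subalgebra.aeval_coe, s36ce_coe_gen]
  haveI : IsFractionRing Loc E :=
    IsFractionRing.isFractionRing_of_isDomain_of_isLocalization 𝔐.primeCompl Loc E
  -- integral elements come from `Loc`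
  have hint : ∀ c : R, IsIntegral A c → ∃ (y s : T), s ∉ 𝔐 ∧
      algebraMap R E c * (s : E) = (y : E) := by
    intro c hc
    have h1 : IsIntegral Loc (algebraMap R E c) := by
      obtain ⟨P, hP, hPc⟩ := hc
      refine ⟨P.map ((algebraMap T Loc).comp (algebraMap A T)), hP.map _, ?_⟩
      rw [eval₂_map]
      have hcomp : (algebraMap Loc E).comp ((algebraMap T Loc).comp (algebraMap A T)) =
          (algebraMap R E).comp (algebraMap A R) := by
        ext a
        show algebraMap Loc E (algebraMap T Loc (algebraMap A T a)) = algebraMap R E (algebraMap A R a)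
        rw [← IsScalarTower.algebraMap_apply T Loc E, ← IsScalarTower.algebraMap_apply A R E]
        rfl
      rw [hcomp, ← hom_eval₂, hPc, map_zero]
    obtain ⟨c', hc'⟩ := IsIntegrallyClosed.isIntegral_iff.1 h1
    obtain ⟨⟨y, s⟩, hys⟩ := IsLocalization.surj 𝔐.primeCompl c'
    refine ⟨y, s, s.2, ?_⟩
    have := congrArg (algebraMap Loc E) hys
    rw [map_mul, hc', ← IsScalarTower.algebraMap_apply, ← IsScalarTower.algebraMap_apply] at this
    exact this
  -- `R` is the localisation of `T` at `𝔐`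
  haveI hlocR : IsLocalization.AtPrime R 𝔐 := by
    refine (isLocalization_iff _ _).2 ⟨fun y => hunit y y.2, fun r => ?_, fun {x y} h => ?_⟩
    · obtain ⟨c, s, hc, hs, hsu, hrs⟩ := hR r
      obtain ⟨yc, sc, hsc, hyc⟩ := hint c hc
      obtain ⟨ys, ss, hss, hys⟩ := hint s hs
      have hysu : ys ∉ 𝔐 := by
        intro hmem
        have h1 : g ys = s * g ss := by
          apply hRE
          rw [map_mul, hg, hg, hys]
        have h2 : IsUnit (g ys) := by rw [h1]; exact hsu.mul (hunit ss hss)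
        rw [← hcomap] at hmem
        exact (mem_maximalIdeal _).1 hmem h2
      refine ⟨⟨yc * ss, ⟨sc * ys, fun hmem => ?_⟩⟩, ?_⟩
      · rcases hprM.mem_or_mem hmem with h | h
        · exact hsc h
        · exact hysu h
      · show r * g (sc * ys) = g (yc * ss)
        apply hRE
        rw [map_mul, hg, hg]
        simp only [Subalgebra.coe_mul]
        rw [← hyc, ← hys, ← hrs, map_mul]
        ring
    · exact ⟨1, by rw [hginj h]⟩
  have hZR : algebraMap T R Z ≠ 0 := by
    show g Z ≠ 0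
    intro h0
    exact hZne (hginj (by rw [h0, map_zero]))
  obtain ⟨hufd, hprime, hic⟩ := s36ob_local (R := R) 𝔐 hgen hdom hZR
  have hmaxR := tqb_maximalIdeal_eq hgen R
  have e1 : algebraMap T R Z = σR - 1 := hgZ
  have e2 : algebraMap T R t' = algebraMap A R t := hgt
  rw [e1] at hprime hic
  refine ⟨hufd, hprime, hic, ?_⟩
  rw [← e1, ← e2]
  convert hmaxR

end Main

end Fermat.Agent.S36
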