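/-
Project S36, model cell [M2], leaf **[C-CUSP-EIS]** = [L3c], THE ABSTRACT INSTANCE (helper5).
Prefix `s36cf_`.

THE ONE-BRANCH CLAUSE AT A CUSP OF THE COMPONENT `C`, COVER-RING CONTEXT (twin of helper2's
`s36cx_oneBranch`, `CReg/PointCover.lean`).

`K ⊆ E1 ⊆ E2` the function fields of the three levels (`K → E1` = the middle embedding `β`),
`B' ⊆ K`, `B1 ⊆ E1`, `B2 ⊆ E2` charts, `φ1 : B' → B1`, `ψ : B1 → B2` the chart maps, `y0` a CUSP of
`B'`, `S` the local ring of `B'` at `y0`, `H : s36oc_Hyp φ1 y0 S q P1 P2 π' t1 u` helper16's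
chart-level package at the cusp (`P1 ⊆ 𝔪(VV)`, `P2 ⊆ 𝔪(VF)`; `u` a local generator at the points of
`P2` over `y0`, `t1` the cusp parameter of `B'`), with the cusp data of helper23:
`(T2) : φ1 t1 = unit · u ^ q`, `(R1) : xc = unit · u ^ e`, `(R2) : xc0 = unit · t1 ^ e'`, and the
first-step ratio `e' = (φ1 xc0) ^ q / xc ∈ B1`, `e' ≡ 1 mod P1`.

Every prime `𝔫` of `B2` with `𝔫 ∩ B' = y0` through the component `C` only satisfies helper3's
ONE-BRANCH clause: `s36cf_oneBranch`.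
-/
import Mathlib
import Fermat.Agent.S36.CReg.OrdGCover
import Fermat.Agent.S36.CReg.OneBranchC
import Fermat.Agent.S36.CReg.CuspEisShape
import Fermat.Agent.S36.CReg.CuspEisInputs
import Fermat.Agent.S36.CReg.CuspEisPolyMain
import Fermat.Agent.S36.CReg.CuspEisRing
import Fermat.Agent.S36.CReg.CuspEisPi
import Fermat.Agent.S36.CReg.CuspEisLoc

set_option autoImplicit false
set_option linter.unusedSectionVars false
set_option linter.unusedVariables false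
set_option linter.style.haveILetI false

namespace Fermat.Agent.S36

open Fermat.Agent.SS Fermat.Agent.JT3 Polynomial Module IsLocalRing

section Aux

/-- the trace of a valuation ring on a subfield: nonunits. -/
theorem s36cf_nonunits_iff {E1 E2 : Type*} [Field E1] [Field E2] [Algebra E1 E2]
    {V1 : ValuationSubring E1} {V2 : ValuationSubring E2}
    (h : ∀ x : E1, algebraMap E1 E2 x ∈ V2 ↔ x ∈ V1) (x : E1) :
    algebraMap E1 E2 x ∈ V2.nonunits ↔ x ∈ V1.nonunits := by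
  rw [ValuationSubring.mem_nonunits_iff_or, ValuationSubring.mem_nonunits_iff_or, ← map_inv₀, h,
    map_eq_zero]

/-- `W₂`-stability of a valuation ring: nonunits. -/
theorem s36cf_comap_nonunits {E2 : Type*} [Field E2] (VC : ValuationSubring E2) (W2 : E2 ≃+* E2)
    (hVC : VC.comap (W2 : E2 →+* E2) = VC) :
    (∀ x ∈ VC, W2 x ∈ VC) ∧ (∀ x ∈ VC.nonunits, W2 x ∈ VC.nonunits) := by
  have h1 : ∀ x, x ∈ VC ↔ W2 x ∈ VC := by
    intro x
    conv_lhs => rw [← hVC]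
    rfl
  refine ⟨fun x hx => (h1 x).1 hx, fun x hx => ?_⟩
  rw [ValuationSubring.mem_nonunits_iff_or] at hx ⊢
  rcases hx with rfl | hx
  · left; exact map_zero _
  · right
    rw [← map_inv₀]
    exact fun h => hx ((h1 _).2 h)

/-- in a commutative ring: `s x = w y`, `s` a unit ⟹ `x = c y` with `c` a unit when `w` is. -/
theorem s36cf_unit_quot {A : Type*} [CommRing A] {s w x y : A} (hs : IsUnit s) (hw : IsUnit w)
    (h : s * x = w * y) : ∃ c : A, IsUnit c ∧ x = c * y := by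
  obtain ⟨si, hsi⟩ := hs.exists_left_inv
  refine ⟨si * w, ?_, ?_⟩
  · exact (IsUnit.of_mul_eq_one _ hsi).mul hw
  · calc x = si * s * x := by rw [hsi, one_mul]
      _ = si * (s * x) := by ring
      _ = si * w * y := by rw [h]; ring

end Aux

section LevelOne

variable {A0 : Type*} [CommRing A0] {E1 : Type*} [Field E1] [Algebra A0 E1]
  {B1 : Subalgebra A0 E1} [IsFractionRing B1 E1] [IsNoetherianRing B1]
  (𝔫1 : Ideal B1) [𝔫1.IsPrime]

/-- **the regular local ring `A = (B1)_{𝔫1}` of level one at the cusp**: factorial, `π` and `u` prime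
elements, `𝔪_A = (π, u)`, `u ∤ π`. -/
theorem s36cf_levelOne {π u : B1} (hgen : tq_GenBy π u 𝔫1) (hdomπ : tq_Dom π 𝔫1)
    (hdomu : tq_Dom u 𝔫1) (hπ0 : π ≠ 0) (hu0 : u ≠ 0)
    (P2 : Ideal B1) [hP2p : P2.IsPrime] (hP2 : P2 ≤ 𝔫1) (hπP2 : π ∈ P2) (huP2 : u ∉ P2) :
    haveI : IsLocalRing (ssl_locSub E1 𝔫1) := IsLocalization.AtPrime.isLocalRing _ 𝔫1
    UniqueFactorizationMonoid (ssl_locSub E1 𝔫1) ∧
      Prime (algebraMap B1 (ssl_locSub E1 𝔫1) π) ∧ Prime (algebraMap B1 (ssl_locSub E1 𝔫1) u) ∧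
      maximalIdeal (ssl_locSub E1 𝔫1) = Ideal.span {algebraMap B1 (ssl_locSub E1 𝔫1) π,
        algebraMap B1 (ssl_locSub E1 𝔫1) u} ∧
      ¬ algebraMap B1 (ssl_locSub E1 𝔫1) u ∣ algebraMap B1 (ssl_locSub E1 𝔫1) π := by
  haveI hloc : IsLocalRing (ssl_locSub E1 𝔫1) := IsLocalization.AtPrime.isLocalRing _ 𝔫1
  haveI : IsNoetherianRing (ssl_locSub E1 𝔫1) :=
    IsLocalization.isNoetherianRing 𝔫1.primeCompl _ inferInstance
  have hinj : Function.Injective (algebraMap B1 (ssl_locSub E1 𝔫1)) :=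
    IsLocalization.injective _ 𝔫1.primeCompl_le_nonZeroDivisors
  have hπA0 : algebraMap B1 (ssl_locSub E1 𝔫1) π ≠ 0 := fun h => hπ0 (hinj (by rw [h, map_zero]))
  have huA0 : algebraMap B1 (ssl_locSub E1 𝔫1) u ≠ 0 := fun h => hu0 (hinj (by rw [h, map_zero]))
  obtain ⟨hufd, hπp, -⟩ := s36ob_local (R := ssl_locSub E1 𝔫1) 𝔫1 hgen hdomπ hπA0
  have hmax := tqb_maximalIdeal_eq hgen (ssl_locSub E1 𝔫1)
  have hup : Prime (algebraMap B1 (ssl_locSub E1 𝔫1) u) :=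
    (Ideal.span_singleton_prime huA0).1 (tqb_span_isPrime_of_dom hgen.2.1 hdomu _)
  refine ⟨hufd, hπp, hup, hmax, ?_⟩
  -- `u ∤ π`
  have hdisj : Disjoint (𝔫1.primeCompl : Set B1) (P2 : Set B1) := by
    rw [Set.disjoint_left]
    intro x hx hxP
    exact hx (hP2 hxP)
  have hcomap : (P2.map (algebraMap B1 (ssl_locSub E1 𝔫1))).comap
      (algebraMap B1 (ssl_locSub E1 𝔫1)) = P2 :=
    IsLocalization.under_map_of_isPrime_disjoint 𝔫1.primeCompl _ hP2p hdisj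
  rintro ⟨c, hc⟩
  rcases hπp.dvd_or_dvd (show algebraMap B1 (ssl_locSub E1 𝔫1) π ∣
      algebraMap B1 (ssl_locSub E1 𝔫1) u * c from ⟨1, by rw [mul_one]; exact hc.symm⟩) with h | h
  · -- `π ∣ u`: `u ∈ P2`
    apply huP2
    rw [← hcomap]
    show algebraMap B1 (ssl_locSub E1 𝔫1) u ∈ P2.map (algebraMap B1 (ssl_locSub E1 𝔫1))
    obtain ⟨d, hd⟩ := h
    rw [hd]
    exact Ideal.mul_mem_right _ _ (Ideal.mem_map_of_mem _ hπP2)
  · -- `π ∣ c`: `u` a unit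
    obtain ⟨d, hd⟩ := h
    have h1 : algebraMap B1 (ssl_locSub E1 𝔫1) π *
        (algebraMap B1 (ssl_locSub E1 𝔫1) u * d) = algebraMap B1 (ssl_locSub E1 𝔫1) π * 1 := by
      rw [mul_one]
      conv_rhs => rw [hc, hd]
      ring
    have h2 := mul_left_cancel₀ hπA0 h1
    have h3 : algebraMap B1 (ssl_locSub E1 𝔫1) u ∈ maximalIdeal (ssl_locSub E1 𝔫1) := by
      rw [hmax]; exact Ideal.subset_span (Set.mem_insert_of_mem _ (Set.mem_singleton _))
    exact (mem_maximalIdeal _).1 h3 (IsUnit.of_mul_eq_one _ h2)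

end LevelOne

section Cover

variable {A0 : Type*} [CommRing A0] {K E1 E2 : Type*} [Field K] [CharZero K] [Field E1] [Field E2]
  [Algebra K E1] [Algebra E1 E2] [Algebra K E2] [IsScalarTower K E1 E2]
  [FiniteDimensional K E1] [FiniteDimensional E1 E2]
  [Algebra A0 K] [Algebra A0 E1] [Algebra A0 E2]
  {B' : Subalgebra A0 K} {B1 : Subalgebra A0 E1} {B2 : Subalgebra A0 E2}
  {φ1 : B' →+* B1} {ψ : B1 →+* B2} {y0 : Ideal B'} [y0.IsPrime]
  {S : Type*} [CommRing S] [IsDomain S] [IsLocalRing S] [IsNoetherianRing S]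
  [IsIntegrallyClosed S] [Algebra B' S] [IsLocalization.AtPrime S y0]
  [Algebra S K] [IsScalarTower B' S K] [IsFractionRing S K]
  [Algebra S E1] [IsScalarTower S K E1] [Algebra S E2] [IsScalarTower S K E2]
  [IsScalarTower S E1 E2]
  [IsFractionRing B1 E1] [IsNoetherianRing B1]
  [IsFractionRing B2 E2] [IsNoetherianRing B2] [IsIntegrallyClosed B2]
  {R3 : Type*} [CommRing R3] [IsDomain R3] [IsIntegrallyClosed R3] [Algebra R3 E2]
  [FaithfulSMul R3 E2] {ι : Type*} [Fintype ι]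

set_option maxHeartbeats 1600000 in
/-- **[L3c] = [C-CUSP-EIS], cover-ring context.** -/
theorem s36cf_oneBranch {q : ℕ} {P1 P2 : Ideal B1} [P1.IsPrime] [P2.IsPrime]
    {π' t1 : B'} {u : B1}
    (H : s36oc_Hyp φ1 y0 S q P1 P2 π' t1 u)
    (hrank : Module.finrank K E1 = q + 1) (hrank2 : Module.finrank E1 E2 = q)
    (hπq : Associated π' ((q : ℕ) : B'))
    (hψ : ∀ b : B1, ((ψ b : B2) : E2) = algebraMap E1 E2 (b : E1)) (hψint : ψ.IsIntegral)
    {VF VV : ValuationSubring E1} {VA VC : ValuationSubring E2}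
    (hSV : ∀ s : S, algebraMap S E1 s ∈ VV)
    (hP1 : ∀ b ∈ P1, (b : E1) ∈ VV.nonunits) (hP2 : ∀ b ∈ P2, (b : E1) ∈ VF.nonunits)
    (hP2' : ∀ b : B1, (b : E1) ∈ VF.nonunits → b ∈ P2) (hB1F : ∀ b : B1, (b : E1) ∈ VF)
    (oA : ∀ x : E1, algebraMap E1 E2 x ∈ VA ↔ x ∈ VF)
    (oC : ∀ x : E1, algebraMap E1 E2 x ∈ VC ↔ x ∈ VF)
    (W2 : E2 ≃+* E2) (W2S : ∀ s : S, W2 (algebraMap S E2 s) = algebraMap S E2 s)
    (W2VA : ∀ x : E1, x ∈ VV.nonunits → W2 (algebraMap E1 E2 x) ∈ VA.nonunits)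
    (hVC : VC.comap (W2 : E2 →+* E2) = VC)
    -- helper24's chart-level package at level two
    {π3 : R3} {V3 : ι → ValuationSubring E2} {e3 : ι → ℕ}
    (H3 : s36tp_Hyp π3 V3 e3) (hC3 : ssm_tp_Chart π3 B2) (ϖ : B2)
    (hϖ : (ϖ : E2) = algebraMap R3 E2 π3) (i : ι) (hVi : V3 i = VC)
    -- the point
    (𝔫 : Ideal B2) [h𝔫p : 𝔫.IsPrime] (h𝔫 : (𝔫.comap ψ).comap φ1 = y0)
    (hC𝔫 : ssm_tp_P B2 (V3 i) ≤ 𝔫) (hone : ∀ j, ssm_tp_P B2 (V3 j) ≤ 𝔫 → j = i)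
    (N : ℕ) (hN : e3 i ≤ N)
    -- the cusp data (helper23)
    (hdomπ : tq_Dom (φ1 π') (𝔫.comap ψ)) (hdomu : tq_Dom u (𝔫.comap ψ))
    (xc e' : B1) (xc0 : B') (hrel : e' * xc = (φ1 xc0) ^ q) (he'1 : e' - 1 ∈ P1)
    (he'n : e' ∈ 𝔫.comap ψ) (hxcP2 : xc ∉ P2)
    (hR1 : ∃ (e : ℕ) (s w : B1), 0 < e ∧ s ∉ 𝔫.comap ψ ∧ w ∉ 𝔫.comap ψ ∧ s * xc = w * u ^ e)
    (hR2 : ∃ (e : ℕ) (s w : B'), s ∉ y0 ∧ w ∉ y0 ∧ s * xc0 = w * t1 ^ e)
    (hT2 : ∃ s w : B1, s ∉ 𝔫.comap ψ ∧ w ∉ 𝔫.comap ψ ∧ s * φ1 t1 = w * u ^ q) :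
    UniqueFactorizationMonoid (ssl_locSub E2 𝔫) ∧
    ∃ (u' : ssl_locSub E2 𝔫) (k : ℕ), k ≠ 0 ∧ k ≤ N ∧ Prime u' ∧
      Associated (algebraMap B2 (ssl_locSub E2 𝔫) ϖ) (u' ^ k) ∧
      IsIntegrallyClosed (ssl_locSub E2 𝔫 ⧸ (Ideal.span {u'} : Ideal (ssl_locSub E2 𝔫))) := by
  classical
  have hq : q.Prime := H.hq₀
  -- the point of level one
  set 𝔫1 : Ideal B1 := 𝔫.comap ψ with h𝔫1
  haveI h𝔫1p : 𝔫1.IsPrime := Ideal.comap_isPrime ψ 𝔫
  haveI hy0max : y0.IsMaximal := H.hy0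
  haveI h𝔫1max : 𝔫1.IsMaximal :=
    Ideal.isMaximal_of_isIntegral_of_isMaximal_comap' φ1 H.hint 𝔫1 (by rw [h𝔫]; exact hy0max)
  -- valuation traces
  have oAn := s36cf_nonunits_iff oA
  have oCn := s36cf_nonunits_iff oC
  obtain ⟨hWC, hWCn⟩ := s36cf_comap_nonunits VC W2 hVC
  have hP2𝔫 : P2 ≤ 𝔫1 := by
    intro b hb
    show ψ b ∈ 𝔫
    apply hC𝔫
    rw [H3.mem_P hC3 i, hVi, hψ, oCn]
    exact hP2 b hb
  have hP2ne : ∀ b : B1, b ∈ 𝔫1 → b - 1 ∉ P2 := by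
    intro b hb hb1
    apply h𝔫1p.ne_top
    rw [Ideal.eq_top_iff_one]
    have : (1 : B1) = b - (b - 1) := by ring
    rw [this]
    exact 𝔫1.sub_mem hb (hP2𝔫 hb1)
  -- level one
  have hgen : tq_GenBy (φ1 π') u 𝔫1 := H.hsm 𝔫1 h𝔫1max h𝔫 hP2𝔫
  obtain ⟨e, s1, w1, he, hs1, hw1, hxc⟩ := hR1
  have hxc𝔫 : xc ∈ 𝔫1 := by
    have h1 : s1 * xc ∈ 𝔫1 := by
      rw [hxc]; exact Ideal.mul_mem_left _ _ (Ideal.pow_mem_of_mem _ hgen.2.1 e he)
    exact (h𝔫1p.mem_or_mem h1).resolve_left hs1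
  have huP2 : u ∉ P2 := by
    intro hu
    apply hxcP2
    obtain ⟨s, hs, hsx⟩ := hgen.2.2 xc hxc𝔫
    have h1 : s * xc ∈ P2 := by
      have hle : Ideal.span {φ1 π', u} ≤ P2 := by
        rw [Ideal.span_le]
        rintro x (rfl | hx)
        · exact H.pi_mem2
        · rw [Set.mem_singleton_iff] at hx; rw [hx]; exact hu
      exact hle hsx
    exact ((inferInstance : P2.IsPrime).mem_or_mem h1).resolve_left (fun h => hs (hP2𝔫 h))
  have hu0 : u ≠ 0 := fun h => huP2 (h ▸ P2.zero_mem)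
  have hinjφ : Function.Injective φ1 := by
    intro a b hab
    apply Subtype.ext
    have := congrArg (fun z : B1 => (z : E1)) hab
    simp only [H.hφ] at this
    exact (algebraMap K E1).injective this
  have hqK : ((q : ℕ) : B') ≠ 0 := by
    intro h0
    have := congrArg (fun z : B' => (z : K)) h0
    simp only [SubringClass.coe_natCast, ZeroMemClass.coe_zero] at this
    exact (Nat.cast_ne_zero.2 hq.ne_zero) this
  have hπ'0 : φ1 π' ≠ 0 := by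
    intro h0
    have h1 : π' = 0 := hinjφ (by rw [h0, map_zero])
    rw [h1] at hπq
    exact hqK (hπq.symm.eq_zero_iff.2 rfl) |>.elim
  -- the local ring `A` of level one
  haveI hlocA : IsLocalRing (ssl_locSub E1 𝔫1) := IsLocalization.AtPrime.isLocalRing _ 𝔫1
  haveI hnoeA : IsNoetherianRing (ssl_locSub E1 𝔫1) :=
    IsLocalization.isNoetherianRing 𝔫1.primeCompl _ inferInstance
  obtain ⟨hufdA, hπAp, huAp, hmaxA, hndvd⟩ :=
    s36cf_levelOne 𝔫1 hgen hdomπ hdomu hπ'0 hu0 P2 hP2𝔫 H.pi_mem2 huP2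
  haveI := hufdA
  haveI hicA : IsIntegrallyClosed (ssl_locSub E1 𝔫1) :=
    UniqueFactorizationMonoid.instIsIntegrallyClosed
  have hunitA : ∀ b : B1, b ∉ 𝔫1 → IsUnit (algebraMap B1 (ssl_locSub E1 𝔫1) b) := fun b hb =>
    IsLocalization.map_units _ (⟨b, hb⟩ : 𝔫1.primeCompl)
  have hmemA : ∀ b : B1, b ∈ 𝔫1 →
      algebraMap B1 (ssl_locSub E1 𝔫1) b ∈ maximalIdeal (ssl_locSub E1 𝔫1) := by
    intro b hb
    rw [← IsLocalization.AtPrime.map_eq_maximalIdeal 𝔫1 (ssl_locSub E1 𝔫1)]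
    exact Ideal.mem_map_of_mem _ hb
  -- abbreviations in `A`
  set uA := algebraMap B1 (ssl_locSub E1 𝔫1) u with huA
  set πA := algebraMap B1 (ssl_locSub E1 𝔫1) (φ1 π') with hπA
  have huA0 : uA ≠ 0 := huAp.ne_zero
  have huAm : uA ∈ maximalIdeal (ssl_locSub E1 𝔫1) := hmemA u hgen.2.1
  -- (R1), (R2), (T2) in `A`
  obtain ⟨vx, hvx, hxA⟩ : ∃ c, IsUnit c ∧ algebraMap B1 (ssl_locSub E1 𝔫1) xc = c * uA ^ e := by
    refine s36cf_unit_quot (hunitA s1 hs1) (hunitA w1 hw1) ?_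
    rw [huA, ← map_pow, ← map_mul, ← map_mul, hxc]
  obtain ⟨sT, wT, hsT, hwT, hT2'⟩ := hT2
  obtain ⟨ε0, hε0, ht1A⟩ : ∃ c, IsUnit c ∧
      algebraMap B1 (ssl_locSub E1 𝔫1) (φ1 t1) = c * uA ^ q := by
    refine s36cf_unit_quot (hunitA sT hsT) (hunitA wT hwT) ?_
    rw [huA, ← map_pow, ← map_mul, ← map_mul, hT2']
  obtain ⟨e0, s0, w0, hs0, hw0, hxc0⟩ := hR2
  have hφ1n : ∀ b' : B', b' ∉ y0 → φ1 b' ∉ 𝔫1 := by
    intro b' hb' hmem
    apply hb'
    rw [← h𝔫]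
    exact hmem
  obtain ⟨v1, hv1, hx1A⟩ : ∃ c, IsUnit c ∧
      algebraMap B1 (ssl_locSub E1 𝔫1) (φ1 xc0) = c * uA ^ (q * e0) := by
    obtain ⟨c, hc, hc'⟩ : ∃ c, IsUnit c ∧ algebraMap B1 (ssl_locSub E1 𝔫1) (φ1 xc0) =
        c * (algebraMap B1 (ssl_locSub E1 𝔫1) (φ1 t1)) ^ e0 := by
      refine s36cf_unit_quot (hunitA _ (hφ1n s0 hs0)) (hunitA _ (hφ1n w0 hw0)) ?_
      rw [← map_pow, ← map_mul, ← map_mul, ← map_pow, ← map_mul, ← map_mul, hxc0]
    refine ⟨c * ε0 ^ e0, hc.mul (hε0.pow _), ?_⟩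
    rw [hc', ht1A, mul_pow, pow_mul]
    ring
  -- `u ∣ e'` in `A`, the element `t`
  have he'A : algebraMap B1 (ssl_locSub E1 𝔫1) e' ∈ maximalIdeal (ssl_locSub E1 𝔫1) :=
    hmemA e' he'n
  have hrelA : algebraMap B1 (ssl_locSub E1 𝔫1) e' * algebraMap B1 (ssl_locSub E1 𝔫1) xc =
      (algebraMap B1 (ssl_locSub E1 𝔫1) (φ1 xc0)) ^ q := by
    rw [← map_mul, hrel, map_pow]
  have hdvd : uA ∣ algebraMap B1 (ssl_locSub E1 𝔫1) e' :=
    s36cei_dvd huA0 he'A hrelA hxA hx1A hvx hv1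
  obtain ⟨v, hv, htv⟩ := s36cei_t_unit (u := uA) he'A hdvd
  set t : B1 := u + e' ^ 2 * (1 - u) with ht
  set tA := algebraMap B1 (ssl_locSub E1 𝔫1) t with htA
  have htA' : tA = uA * v := by
    rw [← htv, htA, ht, huA]
    simp only [map_add, map_mul, map_pow, map_sub, map_one]
  have ht1P1 : t - 1 ∈ P1 := by
    have h1 : t - 1 = (u - 1) * (1 + e') * (-(e' - 1)) := by rw [ht]; ring
    rw [h1]
    exact Ideal.mul_mem_left _ _ (P1.neg_mem he'1)
  have ht𝔫 : t ∈ 𝔫1 := by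
    rw [ht]
    exact 𝔫1.add_mem hgen.2.1 (Ideal.mul_mem_right _ _ (Ideal.pow_mem_of_mem _ he'n 2 (by norm_num)))
  have htP2 : t ∉ P2 := by
    intro htP
    -- `tA ∈ P2 A`, hence `uA ∈ P2 A`
    have hdisj : Disjoint (𝔫1.primeCompl : Set B1) (P2 : Set B1) := by
      rw [Set.disjoint_left]
      intro x hx hxP
      exact hx (hP2𝔫 hxP)
    have hcomap : (P2.map (algebraMap B1 (ssl_locSub E1 𝔫1))).comap
        (algebraMap B1 (ssl_locSub E1 𝔫1)) = P2 :=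
      IsLocalization.under_map_of_isPrime_disjoint 𝔫1.primeCompl _ inferInstance hdisj
    haveI : (P2.map (algebraMap B1 (ssl_locSub E1 𝔫1))).IsPrime :=
      IsLocalization.isPrime_of_isPrime_disjoint 𝔫1.primeCompl _ _ inferInstance hdisj
    have h1 : tA ∈ P2.map (algebraMap B1 (ssl_locSub E1 𝔫1)) := Ideal.mem_map_of_mem _ htP
    rw [htA'] at h1
    have h2 : uA ∉ P2.map (algebraMap B1 (ssl_locSub E1 𝔫1)) := by
      intro h
      apply huP2
      rw [← hcomap]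
      exact h
    exact s36cei_t_not_mem hv _ h2 h1
  -- `S → A`
  letI algSA : Algebra S (ssl_locSub E1 𝔫1) :=
    (s36cf_baseMap φ1 H.hφ y0 S 𝔫1 h𝔫.le).toAlgebra
  have hSA : ∀ s : S, ((algebraMap S (ssl_locSub E1 𝔫1) s : ssl_locSub E1 𝔫1) : E1) =
      algebraMap S E1 s := fun s => rfl
  have hSAb : ∀ b' : B', algebraMap S (ssl_locSub E1 𝔫1) (algebraMap B' S b') =
      algebraMap B1 (ssl_locSub E1 𝔫1) (φ1 b') :=
    fun b' => s36cf_baseMap_algebraMap φ1 H.hφ y0 S 𝔫1 h𝔫.le b'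
  haveI : IsScalarTower S (ssl_locSub E1 𝔫1) E1 := IsScalarTower.of_algebraMap_eq fun s => rfl
  haveI hlocHom : IsLocalHom (algebraMap S (ssl_locSub E1 𝔫1)) := by
    refine ⟨fun s hs => ?_⟩
    by_contra hns
    have h1 := s36cf_baseMap_mem_maximalIdeal φ1 H.hφ y0 S 𝔫1 h𝔫 s ((mem_maximalIdeal _).2 hns)
    exact (mem_maximalIdeal _).1 h1 hs
  -- the cap
  set πS := algebraMap B' S π' with hπS
  set t1S := algebraMap B' S t1 with ht1S
  have hmS : maximalIdeal S = Ideal.span {πS, t1S} := H.hm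
  have ht1Sm : t1S ∈ maximalIdeal S := by
    rw [hmS]; exact Ideal.subset_span (Set.mem_insert_of_mem _ (Set.mem_singleton _))
  have ht1SA : algebraMap S (ssl_locSub E1 𝔫1) t1S = ε0 * uA ^ q := by
    rw [ht1S, hSAb, ht1A]
  have hcap : ∀ s : S, uA ∣ algebraMap S (ssl_locSub E1 𝔫1) s → t1S ∣ s := by
    refine s36cs_cap_of_prime hmS huAp ?_ ?_
    · rw [ht1SA]
      exact Dvd.dvd.mul_left (dvd_pow_self _ hq.ne_zero) _
    · rw [hπS, hSAb]
      exact hndvd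
  -- the equation of `t` over `S`
  have htint : IsIntegral S ((t : B1) : E1) := ssm_thc_int_chart φ1 S H.hφ H.hint t
  obtain ⟨hFm, hFt, hFdeg⟩ := s36cei_minpoly (S := S) (K := K) htint
  set F := minpoly S ((t : B1) : E1) with hF
  have hFtA : aeval tA F = 0 := by
    apply Subtype.val_injective
    have h1 : ((aeval tA F : ssl_locSub E1 𝔫1) : E1) = aeval ((tA : ssl_locSub E1 𝔫1) : E1) F :=
      (Polynomial.aeval_algebraMap_apply E1 tA F).symm
    rw [h1]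
    exact hFt
  have ht1VV : ((t : B1) : E1) - 1 ∈ VV.nonunits := by
    have := hP1 _ ht1P1
    simpa using this
  have hF1 : F.eval 1 ∈ maximalIdeal S := s36cei_eval_one VV hSV hFt ht1VV
  obtain ⟨a, g, hgdeg, hg0, -, hshape⟩ :=
    s36cs_shape (S := S) (A := ssl_locSub E1 𝔫1) (q := q) ht1Sm huA0 huAm hv hε0 htA' ht1SA hcap
      hFm (by rw [← hrank]; exact hFdeg) hFtA hF1
  -- `A → E2`
  haveI : IsScalarTower (ssl_locSub E1 𝔫1) E1 E2 := inferInstance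
  haveI : IsScalarTower S (ssl_locSub E1 𝔫1) E2 := IsScalarTower.of_algebraMap_eq fun s => by
    show algebraMap S E2 s = algebraMap E1 E2 (algebraMap S E1 s)
    exact IsScalarTower.algebraMap_apply S E1 E2 s
  have hAE2 : ∀ a : ssl_locSub E1 𝔫1, algebraMap (ssl_locSub E1 𝔫1) E2 a =
      algebraMap E1 E2 (a : E1) := fun a => rfl
  -- the data for (B.3)
  obtain ⟨vi, hvi⟩ := hv.exists_right_inv
  have hviU : IsUnit vi := IsUnit.of_mul_eq_one v (by rw [mul_comm]; exact hvi)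
  have huAt : uA = tA * vi := by rw [htA', mul_assoc, hvi, mul_one]
  have hqA : Associated πA (((q : ℕ) : ssl_locSub E1 𝔫1)) := by
    have h1 := hπq.map ((algebraMap B1 (ssl_locSub E1 𝔫1)).comp φ1)
    simp only [RingHom.comp_apply, map_natCast] at h1
    exact h1
  have hmaxq : maximalIdeal (ssl_locSub E1 𝔫1) =
      Ideal.span {((q : ℕ) : ssl_locSub E1 𝔫1), tA} := by
    rw [hmaxA]
    obtain ⟨c, hc⟩ := id hqA
    obtain ⟨c', hc'⟩ := hqA.symm
    apply le_antisymm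
    · rw [Ideal.span_le]
      rintro x (rfl | hx)
      · rw [← hc']
        exact Ideal.mul_mem_right _ _ (Ideal.subset_span (Set.mem_insert _ _))
      · rw [Set.mem_singleton_iff] at hx
        rw [hx, huAt]
        exact Ideal.mul_mem_right _ _
          (Ideal.subset_span (Set.mem_insert_of_mem _ (Set.mem_singleton _)))
    · rw [Ideal.span_le]
      rintro x (rfl | hx)
      · rw [← hc]
        exact Ideal.mul_mem_right _ _ (Ideal.subset_span (Set.mem_insert _ _))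
      · rw [Set.mem_singleton_iff] at hx
        rw [hx, htA']
        exact Ideal.mul_mem_right _ _
          (Ideal.subset_span (Set.mem_insert_of_mem _ (Set.mem_singleton _)))
  have hqt : ¬ tA ∣ ((q : ℕ) : ssl_locSub E1 𝔫1) := by
    intro h
    apply hndvd
    have h1 : uA ∣ tA := ⟨v, htA'⟩
    exact (h1.trans h).trans hqA.symm.dvd
  have htA0 : tA ≠ 0 := by
    rw [htA']
    exact mul_ne_zero huA0 hv.ne_zero
  have ht1tA : algebraMap S (ssl_locSub E1 𝔫1) t1S = (ε0 * vi ^ q) * tA ^ q := by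
    rw [ht1SA, huAt, mul_pow]; ring
  -- `τ := W₂ t`
  set tE : E1 := ((t : B1) : E1) with htE
  set τ : E2 := W2 (algebraMap E1 E2 tE) with hτ
  have htE0 : tE ≠ 0 := by
    intro h0
    apply htA0
    apply Subtype.val_injective
    exact h0
  have hτ0 : τ ≠ 0 := by
    rw [hτ]
    intro h0
    apply htE0
    have := W2.injective (h0.trans (map_zero W2).symm)
    exact (algebraMap E1 E2).injective (this.trans (map_zero _).symm)
  have hFτ : aeval τ F = 0 :=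
    s36cei_aeval_W (S := S) (E := E2) (E1 := E1) (W2 : E2 →+* E2) W2S hFt
  -- the vertical congruence `τ ≡ t` at `VC`
  have htEF : tE ∈ VF := hB1F t
  have htEC : algebraMap E1 E2 tE ∈ VC := (oC _).2 htEF
  have hqC : ((q : ℕ) : E2) ∈ VC.nonunits := by
    have h1 : ((φ1 ((q : ℕ) : B') : B1) : E1) ∈ VF.nonunits := by
      apply hP2
      obtain ⟨c, hc⟩ := hπq
      rw [← hc, map_mul]
      exact Ideal.mul_mem_right _ _ H.pi_mem2
    rw [map_natCast] at h1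
    have h2 := (oCn _).2 h1
    simpa using h2
  have hvert : τ - algebraMap E1 E2 tE ∈ VC.nonunits := by
    obtain ⟨b', hb'⟩ := H.hpow t
    have h1 : tE ^ q - ((φ1 b' : B1) : E1) ∈ VF.nonunits := by
      have := hP2 _ hb'
      simpa using this
    have h2 : (algebraMap E1 E2 tE) ^ q - algebraMap E1 E2 ((φ1 b' : B1) : E1) ∈ VC.nonunits := by
      have := (oCn _).2 h1
      simpa using this
    have h3 : W2 (algebraMap E1 E2 ((φ1 b' : B1) : E1)) = algebraMap E1 E2 ((φ1 b' : B1) : E1) := by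
      have e1 : algebraMap E1 E2 ((φ1 b' : B1) : E1) = algebraMap S E2 (algebraMap B' S b') := by
        rw [IsScalarTower.algebraMap_apply S E1 E2, s36cf_algebraMap_base φ1 H.hφ S]
      rw [e1, W2S]
    exact s36cf_vert VC W2 hWCn hWC hq hqC htEC h3 h2
  -- `τ ∉ E1`
  have hτ1A : τ - 1 ∈ VA.nonunits := by
    have := W2VA (tE - 1) ht1VV
    rwa [map_sub, map_one, map_sub, map_one] at this
  have hzA : τ - algebraMap E1 E2 tE ∉ VA.nonunits := by
    intro hz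
    -- `t - 1 = (τ - 1) - (τ - t) ∈ 𝔪(VA)`
    have h1 : algebraMap E1 E2 (tE - 1) ∈ VA.nonunits := by
      have h2 : algebraMap E1 E2 (tE - 1) = (τ - 1) + -(τ - algebraMap E1 E2 tE) := by
        rw [map_sub, map_one]; ring
      rw [h2]
      refine s36tp_nonunits_add VA hτ1A ?_
      rw [ValuationSubring.mem_nonunits_iff] at hz ⊢
      rwa [Valuation.map_neg]
    have h3 : tE - 1 ∈ VF.nonunits := (oAn _).1 h1
    have h4 : t - 1 ∈ P2 := hP2' (t - 1) (by simpa using h3)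
    exact hP2ne t ht𝔫 h4
  have hτ1 : τ ∉ (algebraMap E1 E2).range :=
    s36cei_not_mem_range VA VC (fun x => by rw [oA, oC]) hvert hzA
  -- (B.3)
  obtain ⟨p, m0, hpm, hpd, hpσ, hp1, hker, hm0, hmaxm0, hσ1, hfrac, -, -, -⟩ :=
    s36cq_main_of_F (A := ssl_locSub E1 𝔫1) (E1 := E1) (E2 := E2) (S := S) hq hrank2 hmaxq hqt htA0
      (hε0.mul (hviU.pow q)) ht1tA hgdeg (hg0.map (algebraMap S (ssl_locSub E1 𝔫1))) hshape hFtA
      hτ0 hτ1 hFτ
  set σ : E2 := algebraMap (ssl_locSub E1 𝔫1) E2 tA / τ with hσ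
  -- the local ring `R` of level two
  haveI hlocR : IsLocalRing (ssl_locSub E2 𝔫) := IsLocalization.AtPrime.isLocalRing _ 𝔫
  haveI hnoeR : IsNoetherianRing (ssl_locSub E2 𝔫) :=
    IsLocalization.isNoetherianRing 𝔫.primeCompl _ inferInstance
  haveI hicR : IsIntegrallyClosed (ssl_locSub E2 𝔫) :=
    isIntegrallyClosed_of_isLocalization _ 𝔫.primeCompl 𝔫.primeCompl_le_nonZeroDivisors
  letI algAR : Algebra (ssl_locSub E1 𝔫1) (ssl_locSub E2 𝔫) :=
    (s36cf_locMap ψ hψ 𝔫 𝔫1 le_rfl).toAlgebra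
  haveI : IsScalarTower (ssl_locSub E1 𝔫1) (ssl_locSub E2 𝔫) E2 :=
    IsScalarTower.of_algebraMap_eq fun a => rfl
  have hARb : ∀ b : B1, algebraMap (ssl_locSub E1 𝔫1) (ssl_locSub E2 𝔫)
      (algebraMap B1 (ssl_locSub E1 𝔫1) b) = algebraMap B2 (ssl_locSub E2 𝔫) (ψ b) :=
    fun b => s36cf_locMap_algebraMap ψ hψ 𝔫 𝔫1 le_rfl b
  have hmemR : ∀ b : B2, b ∈ 𝔫 →
      algebraMap B2 (ssl_locSub E2 𝔫) b ∈ maximalIdeal (ssl_locSub E2 𝔫) := by
    intro b hb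
    rw [← IsLocalization.AtPrime.map_eq_maximalIdeal 𝔫 (ssl_locSub E2 𝔫)]
    exact Ideal.mem_map_of_mem _ hb
  have hAE : Function.Injective (algebraMap (ssl_locSub E1 𝔫1) E2) := by
    intro a b hab
    apply Subtype.val_injective
    exact (algebraMap E1 E2).injective hab
  have hRE : Function.Injective (algebraMap (ssl_locSub E2 𝔫) E2) := Subtype.val_injective
  -- `σ ∈ R`
  have hσint : IsIntegral (ssl_locSub E1 𝔫1) σ := ⟨p, hpm, hpσ⟩
  have hσintR : IsIntegral (ssl_locSub E2 𝔫) σ := hσint.tower_top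
  obtain ⟨σR, hσR⟩ := IsIntegrallyClosed.isIntegral_iff.1 hσintR
  -- `σ - 1 ∈ 𝔪(VC)`
  have hτC : τ ∈ VC := hWC _ htEC
  have htEnC : algebraMap E1 E2 tE ∉ VC.nonunits := by
    intro h
    have h1 : tE ∈ VF.nonunits := (oCn _).1 h
    exact htP2 (hP2' t h1)
  have hτnC : τ ∉ VC.nonunits := by
    intro h
    apply htEnC
    have h1 : algebraMap E1 E2 tE = τ + -(τ - algebraMap E1 E2 tE) := by ring
    rw [h1]
    refine s36tp_nonunits_add VC h ?_
    rw [ValuationSubring.mem_nonunits_iff] at hvert ⊢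
    rwa [Valuation.map_neg]
  have hσC : σ - 1 ∈ VC.nonunits := by
    have htAE : algebraMap (ssl_locSub E1 𝔫1) E2 tA = algebraMap E1 E2 tE := rfl
    have h1 : σ - 1 = -(τ - algebraMap E1 E2 tE) * τ⁻¹ := by
      rw [hσ, htAE]
      field_simp
      ring
    rw [h1]
    refine s36tp_nonunits_mul VC ?_ (s36tp_inv_mem VC hτnC)
    rw [ValuationSubring.mem_nonunits_iff] at hvert ⊢
    rwa [Valuation.map_neg]
  have hZV : (((σR - 1 : ssl_locSub E2 𝔫) : ssl_locSub E2 𝔫) : E2) ∈ (V3 i).nonunits := by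
    rw [hVi]
    have : (((σR - 1 : ssl_locSub E2 𝔫) : ssl_locSub E2 𝔫) : E2) = σ - 1 := by
      rw [← hσR]; rfl
    rw [this]
    exact hσC
  have hZm : σR - 1 ∈ maximalIdeal (ssl_locSub E2 𝔫) := by
    obtain ⟨b, s, hb, hs, hzs⟩ := s36cep_exists_num H3 hC3 𝔫 i (σR - 1) hZV
    have h1 : algebraMap B2 (ssl_locSub E2 𝔫) b ∈ maximalIdeal (ssl_locSub E2 𝔫) :=
      hmemR b (hC𝔫 hb)
    rw [← hzs] at h1
    have hsu : IsUnit (algebraMap B2 (ssl_locSub E2 𝔫) s) :=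
      IsLocalization.map_units _ (⟨s, hs⟩ : 𝔫.primeCompl)
    exact (Ideal.mul_unit_mem_iff_mem _ hsu).1 h1
  have htm : algebraMap (ssl_locSub E1 𝔫1) (ssl_locSub E2 𝔫) tA ∈
      maximalIdeal (ssl_locSub E2 𝔫) := by
    rw [htA, hARb]
    exact hmemR _ ht𝔫
  have hR : ∀ r : ssl_locSub E2 𝔫, ∃ c s : ssl_locSub E2 𝔫,
      IsIntegral (ssl_locSub E1 𝔫1) c ∧ IsIntegral (ssl_locSub E1 𝔫1) s ∧ IsUnit s ∧ r * s = c :=
    fun r => s36cf_exists_frac ψ hψ 𝔫 𝔫1 hψint (s36cf_locMap ψ hψ 𝔫 𝔫1 le_rfl)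
      (fun a => rfl) r
  obtain ⟨hufdR, hZp, hicZ, -⟩ :=
    s36ce_ring (A := ssl_locSub E1 𝔫1) (E := E2) (R := ssl_locSub E2 𝔫) hAE hRE σ p m0 tA hpσ hp1
      hker hm0 hmaxm0 σR hσR hZm htm hσ1 hR hfrac
  exact s36cep_ptOne H3 hC3 ϖ hϖ 𝔫 i hC𝔫 hone N hN hufdR (σR - 1) hZp hZV hicZ

end Cover

end Fermat.Agent.S36
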