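/-
Project S36, model cell [M2], leaf **[C-CUSP-EIS]** = [L3c], THE ABSTRACT INSTANCE, `Fin 3` FORM
(helper5).  Prefix `s36cf_`.

`s36cf_oneBranch_fin3` = `s36cf_oneBranch'` (`CReg/CuspEisInst2.lean`) with the [TP3] package in the
spelling of the Legendre assembly: `ι = Fin 3`, `V3 = ![VA', VB', VC]`, `e3 = ![1, 1, q - 1]`, the
point `𝔫` on the component `C` ONLY in helper24's dispatch spelling (`hC hA hB`), bound `q ^ 2`.
-/
import Mathlib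
import Fermat.Agent.S36.CReg.CuspEisInst2

set_option autoImplicit false
set_option linter.unusedSectionVars false
set_option linter.unusedVariables false
set_option linter.style.haveILetI false

namespace Fermat.Agent.S36

open Fermat.Agent.SS Fermat.Agent.JT3 Polynomial Module IsLocalRing

section Fin3

variable {A0 : Type*} [CommRing A0] {K E1 E2 : Type*} [Field K] [CharZero K] [Field E1] [Field E2]
  [Algebra K E1] [Algebra E1 E2] [Algebra K E2] [IsScalarTower K E1 E2]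
  [FiniteDimensional K E1] [FiniteDimensional E1 E2]
  [Algebra A0 K] [Algebra A0 E1] [Algebra A0 E2]
  {B' : Subalgebra A0 K} {B1 : Subalgebra A0 E1} {B2 : Subalgebra A0 E2}
  {φ1 : B' →+* B1} {ψ : B1 →+* B2} {y0 : Ideal B'} [y0.IsPrime]
  {S : Type*} [CommRing S] [IsDomain S] [IsLocalRing S] [IsNoetherianRing S]
  [IsIntegrallyClosed S] [Algebra B' S] [IsLocalization.AtPrime S y0]
  [Algebra S K] [IsScalarTower B' S K] [IsFractionRing S K]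
  [Algebra S E1] [IsScalarTower S K E1] [Algebra S E2] [IsScalarTower S K E2]
  [IsScalarTower S E1 E2]
  [IsFractionRing B1 E1] [IsNoetherianRing B1]
  [IsFractionRing B2 E2] [IsNoetherianRing B2] [IsIntegrallyClosed B2]
  {R3 : Type*} [CommRing R3] [IsDomain R3] [IsIntegrallyClosed R3] [Algebra R3 E2]
  [FaithfulSMul R3 E2]

/-- **[L3c], `Fin 3` form.** -/
theorem s36cf_oneBranch_fin3 {q : ℕ} {P1 P2 : Ideal B1} [P1.IsPrime] [P2.IsPrime]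
    {π' t1 : B'} {u : B1}
    (hφ : ∀ b' : B', ((φ1 b' : B1) : E1) = algebraMap K E1 (b' : K)) (hint : φ1.IsIntegral)
    (hy0 : y0.IsMaximal) (hq : q.Prime) (hπP2 : φ1 π' ∈ P2)
    (hpow : ∀ b : B1, ∃ b' : B', b ^ q - φ1 b' ∈ P2)
    (hm : maximalIdeal S = Ideal.span {algebraMap B' S π', algebraMap B' S t1})
    (hrank : Module.finrank K E1 = q + 1) (hrank2 : Module.finrank E1 E2 = q)
    (hπq : Associated π' ((q : ℕ) : B'))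
    (hψ : ∀ b : B1, ((ψ b : B2) : E2) = algebraMap E1 E2 (b : E1)) (hψint : ψ.IsIntegral)
    {VF VV : ValuationSubring E1} {VA VC : ValuationSubring E2}
    (hSV : ∀ s : S, algebraMap S E1 s ∈ VV)
    (hP1 : ∀ b ∈ P1, (b : E1) ∈ VV.nonunits) (hP2 : ∀ b ∈ P2, (b : E1) ∈ VF.nonunits)
    (hP2' : ∀ b : B1, (b : E1) ∈ VF.nonunits → b ∈ P2) (hB1F : ∀ b : B1, (b : E1) ∈ VF)
    (oA : ∀ x : E1, algebraMap E1 E2 x ∈ VA ↔ x ∈ VF)
    (oC : ∀ x : E1, algebraMap E1 E2 x ∈ VC ↔ x ∈ VF)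
    (W2 : E2 ≃+* E2) (W2S : ∀ s : S, W2 (algebraMap S E2 s) = algebraMap S E2 s)
    (W2VA : ∀ x : E1, x ∈ VV.nonunits → W2 (algebraMap E1 E2 x) ∈ VA.nonunits)
    (hVC : VC.comap (W2 : E2 →+* E2) = VC)
    -- helper24's chart-level package at level two
    {π3 : R3} {VA' VB' : ValuationSubring E2}
    (H3 : s36tp_Hyp π3 ![VA', VB', VC] ![1, 1, q - 1]) (hC3 : ssm_tp_Chart π3 B2) (ϖ : B2)
    (hϖ : (ϖ : E2) = algebraMap R3 E2 π3)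
    -- the point
    (𝔫 : Ideal B2) [h𝔫p : 𝔫.IsPrime] (h𝔫 : (𝔫.comap ψ).comap φ1 = y0)
    (hC : ssm_tp_P B2 VC ≤ 𝔫) (hA : ¬ ssm_tp_P B2 VA' ≤ 𝔫) (hB : ¬ ssm_tp_P B2 VB' ≤ 𝔫)
    -- the cusp data (helper23)
    (hgen : tq_GenBy (φ1 π') u (𝔫.comap ψ))
    (hdomπ : tq_Dom (φ1 π') (𝔫.comap ψ)) (hdomu : tq_Dom u (𝔫.comap ψ))
    (xc e' : B1) (xc0 : B') (hrel : e' * xc = (φ1 xc0) ^ q) (he'1 : e' - 1 ∈ P1)
    (he'n : e' ∈ 𝔫.comap ψ) (hxcP2 : xc ∉ P2)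
    (hR1 : ∃ (e : ℕ) (s w : B1), 0 < e ∧ s ∉ 𝔫.comap ψ ∧ w ∉ 𝔫.comap ψ ∧ s * xc = w * u ^ e)
    (hR2 : ∃ (e : ℕ) (s w : B'), s ∉ y0 ∧ w ∉ y0 ∧ s * xc0 = w * t1 ^ e)
    (hT2 : ∃ s w : B1, s ∉ 𝔫.comap ψ ∧ w ∉ 𝔫.comap ψ ∧ s * φ1 t1 = w * u ^ q) :
    UniqueFactorizationMonoid (ssl_locSub E2 𝔫) ∧
    ∃ (u' : ssl_locSub E2 𝔫) (k : ℕ), k ≠ 0 ∧ k ≤ q ^ 2 ∧ Prime u' ∧
      Associated (algebraMap B2 (ssl_locSub E2 𝔫) ϖ) (u' ^ k) ∧
      IsIntegrallyClosed (ssl_locSub E2 𝔫 ⧸ (Ideal.span {u'} : Ideal (ssl_locSub E2 𝔫))) := by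
  have hone : ∀ j : Fin 3, ssm_tp_P B2 ((![VA', VB', VC] : Fin 3 → ValuationSubring E2) j) ≤ 𝔫 →
      j = 2 := by
    intro j hj
    fin_cases j
    · exact absurd hj hA
    · exact absurd hj hB
    · rfl
  have hN : (![1, 1, q - 1] : Fin 3 → ℕ) 2 ≤ q ^ 2 := by
    show q - 1 ≤ q ^ 2
    calc q - 1 ≤ q := Nat.sub_le _ _
      _ ≤ q ^ 2 := Nat.le_self_pow (by norm_num) q
  exact s36cf_oneBranch' hφ hint hy0 hq hπP2 hpow hm hrank hrank2 hπq hψ hψint hSV hP1 hP2 hP2' hB1F oA oC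
    W2 W2S W2VA hVC H3 hC3 ϖ hϖ (2 : Fin 3) rfl 𝔫 h𝔫 hC hone (q ^ 2) hN hgen hdomπ hdomu xc e' xc0
    hrel he'1 he'n hxcP2 hR1 hR2 hT2

end Fin3

end Fermat.Agent.S36
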