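/-
Project S36, model cell [M2], leaf **[C-CUSP-EIS]** = [L3c], THE ABSTRACT INSTANCE WITH `S` CONCRETE
(helper5).  Prefix `s36cf_`.

`s36cf_oneBranch_loc` = `s36cf_oneBranch_fin3` (`CReg/CuspEisFin3.lean`) with the local ring `S` of the
base chart `B'` at `y0` taken to be `ssl_locSub K y0 ⊆ K`: NO `S`-instance block is left to the
caller.  Instead of `hm`, `hSV`, `W2S`:

* `hgen0 : tq_GenBy π' t1 y0`  (the cusp parameter `t1` of `B'` at `y0`);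
* `hSV   : ∀ x ∈ (B')_{y0}, β x ∈ VV`  (`s36cf_loc_mem_val` derives it from `B' ⊆ V0`,
  `𝔪(V0) ∩ B' ⊆ y0` and `β V0 ⊆ VV`);
* `W2K   : W₂` fixes `β K` pointwise.
-/
import Mathlib
import Fermat.Agent.S36.CReg.CuspEisFin3

set_option autoImplicit false
set_option linter.unusedSectionVars false
set_option linter.unusedVariables false
set_option linter.style.haveILetI false

namespace Fermat.Agent.S36

open Fermat.Agent.SS Fermat.Agent.JT3 Polynomial Module IsLocalRing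

section Loc

variable {A0 : Type*} [CommRing A0] {K E1 E2 : Type*} [Field K] [CharZero K] [Field E1] [Field E2]
  [Algebra K E1] [Algebra E1 E2] [Algebra K E2] [IsScalarTower K E1 E2]
  [FiniteDimensional K E1] [FiniteDimensional E1 E2]
  [Algebra A0 K] [Algebra A0 E1] [Algebra A0 E2]
  {B' : Subalgebra A0 K} {B1 : Subalgebra A0 E1} {B2 : Subalgebra A0 E2}
  {φ1 : B' →+* B1} {ψ : B1 →+* B2} {y0 : Ideal B'} [y0.IsPrime]
  [IsFractionRing B' K] [IsNoetherianRing B'] [IsIntegrallyClosed B']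
  [IsFractionRing B1 E1] [IsNoetherianRing B1]
  [IsFractionRing B2 E2] [IsNoetherianRing B2] [IsIntegrallyClosed B2]
  {R3 : Type*} [CommRing R3] [IsDomain R3] [IsIntegrallyClosed R3] [Algebra R3 E2]
  [FaithfulSMul R3 E2]

/-- `(B')_{y0} ⊆ V0` when `B' ⊆ V0` and `𝔪(V0) ∩ B' ⊆ y0`; hence `β (B')_{y0} ⊆ VV` when
`β V0 ⊆ VV`. -/
theorem s36cf_loc_mem_val (V0 : ValuationSubring K) (VV : ValuationSubring E1)
    (hB'V : ∀ b' : B', (b' : K) ∈ V0) (hy0V : ∀ b' : B', (b' : K) ∈ V0.nonunits → b' ∈ y0)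
    (cV : ∀ x : K, x ∈ V0 → algebraMap K E1 x ∈ VV) :
    ∀ x : K, x ∈ ssl_locSub K y0 → algebraMap K E1 x ∈ VV := by
  intro x hx
  apply cV
  obtain ⟨a, s, hs, hxs⟩ := (ssl_mem_locSub y0 x).1 hx
  have hsn : ((s : B') : K) ∉ V0.nonunits := fun h => hs (hy0V s h)
  have hs0 : ((s : B') : K) ≠ 0 := s36tp_ne_zero V0 hsn
  have hx' : x = (a : K) * ((s : B') : K)⁻¹ := by
    have h1 : x * algebraMap B' K s = algebraMap B' K a := hxs
    have h2 : algebraMap B' K s = ((s : B') : K) := rfl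
    have h3 : algebraMap B' K a = ((a : B') : K) := rfl
    rw [h2, h3] at h1
    rw [← h1, mul_assoc, mul_inv_cancel₀ hs0, mul_one]
  rw [hx']
  exact V0.mul_mem _ _ (hB'V a) (s36tp_inv_mem V0 hsn)

set_option maxHeartbeats 800000 in
/-- **[L3c], `Fin 3` form, with `S := (B')_{y0} ⊆ K` concrete.** -/
theorem s36cf_oneBranch_loc {q : ℕ} {P1 P2 : Ideal B1} [P1.IsPrime] [P2.IsPrime]
    {π' t1 : B'} {u : B1}
    (hφ : ∀ b' : B', ((φ1 b' : B1) : E1) = algebraMap K E1 (b' : K)) (hint : φ1.IsIntegral)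
    (hy0 : y0.IsMaximal) (hq : q.Prime) (hπP2 : φ1 π' ∈ P2)
    (hpow : ∀ b : B1, ∃ b' : B', b ^ q - φ1 b' ∈ P2)
    (hgen0 : tq_GenBy π' t1 y0)
    (hrank : Module.finrank K E1 = q + 1) (hrank2 : Module.finrank E1 E2 = q)
    (hπq : Associated π' ((q : ℕ) : B'))
    (hψ : ∀ b : B1, ((ψ b : B2) : E2) = algebraMap E1 E2 (b : E1)) (hψint : ψ.IsIntegral)
    {VF VV : ValuationSubring E1} {VA VC : ValuationSubring E2}
    (hSV : ∀ x : K, x ∈ ssl_locSub K y0 → algebraMap K E1 x ∈ VV)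
    (hP1 : ∀ b ∈ P1, (b : E1) ∈ VV.nonunits) (hP2 : ∀ b ∈ P2, (b : E1) ∈ VF.nonunits)
    (hP2' : ∀ b : B1, (b : E1) ∈ VF.nonunits → b ∈ P2) (hB1F : ∀ b : B1, (b : E1) ∈ VF)
    (oA : ∀ x : E1, algebraMap E1 E2 x ∈ VA ↔ x ∈ VF)
    (oC : ∀ x : E1, algebraMap E1 E2 x ∈ VC ↔ x ∈ VF)
    (W2 : E2 ≃+* E2) (W2K : ∀ x : K, W2 (algebraMap K E2 x) = algebraMap K E2 x)
    (W2VA : ∀ x : E1, x ∈ VV.nonunits → W2 (algebraMap E1 E2 x) ∈ VA.nonunits)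
    (hVC : VC.comap (W2 : E2 →+* E2) = VC)
    -- helper24's chart-level package at level two
    {π3 : R3} {VA' VB' : ValuationSubring E2}
    (H3 : s36tp_Hyp π3 ![VA', VB', VC] ![1, 1, q - 1]) (hC3 : ssm_tp_Chart π3 B2) (ϖ : B2)
    (hϖ : (ϖ : E2) = algebraMap R3 E2 π3)
    -- the point
    (𝔫 : Ideal B2) [h𝔫p : 𝔫.IsPrime] (h𝔫 : (𝔫.comap ψ).comap φ1 = y0)
    (hC : ssm_tp_P B2 VC ≤ 𝔫) (hA : ¬ ssm_tp_P B2 VA' ≤ 𝔫) (hB : ¬ ssm_tp_P B2 VB' ≤ 𝔫)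
    -- the cusp data (helper23)
    (hgen : tq_GenBy (φ1 π') u (𝔫.comap ψ))
    (hdomπ : tq_Dom (φ1 π') (𝔫.comap ψ)) (hdomu : tq_Dom u (𝔫.comap ψ))
    (xc e' : B1) (xc0 : B') (hrel : e' * xc = (φ1 xc0) ^ q) (he'1 : e' - 1 ∈ P1)
    (he'n : e' ∈ 𝔫.comap ψ) (hxcP2 : xc ∉ P2)
    (hR1 : ∃ (e : ℕ) (s w : B1), 0 < e ∧ s ∉ 𝔫.comap ψ ∧ w ∉ 𝔫.comap ψ ∧ s * xc = w * u ^ e)
    (hR2 : ∃ (e : ℕ) (s w : B'), s ∉ y0 ∧ w ∉ y0 ∧ s * xc0 = w * t1 ^ e)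
    (hT2 : ∃ s w : B1, s ∉ 𝔫.comap ψ ∧ w ∉ 𝔫.comap ψ ∧ s * φ1 t1 = w * u ^ q) :
    UniqueFactorizationMonoid (ssl_locSub E2 𝔫) ∧
    ∃ (u' : ssl_locSub E2 𝔫) (k : ℕ), k ≠ 0 ∧ k ≤ q ^ 2 ∧ Prime u' ∧
      Associated (algebraMap B2 (ssl_locSub E2 𝔫) ϖ) (u' ^ k) ∧
      IsIntegrallyClosed (ssl_locSub E2 𝔫 ⧸ (Ideal.span {u'} : Ideal (ssl_locSub E2 𝔫))) := by
  haveI hlocS : IsLocalRing (ssl_locSub K y0) := IsLocalization.AtPrime.isLocalRing _ y0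
  haveI hnoeS : IsNoetherianRing (ssl_locSub K y0) :=
    IsLocalization.isNoetherianRing y0.primeCompl _ inferInstance
  haveI hicS : IsIntegrallyClosed (ssl_locSub K y0) :=
    isIntegrallyClosed_of_isLocalization _ y0.primeCompl y0.primeCompl_le_nonZeroDivisors
  haveI : IsScalarTower (ssl_locSub K y0) K E1 := inferInstance
  haveI : IsScalarTower (ssl_locSub K y0) K E2 := inferInstance
  haveI : IsScalarTower (ssl_locSub K y0) E1 E2 := IsScalarTower.of_algebraMap_eq fun s => by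
    show algebraMap K E2 (s : K) = algebraMap E1 E2 (algebraMap K E1 (s : K))
    exact IsScalarTower.algebraMap_apply K E1 E2 _
  have hm : maximalIdeal (ssl_locSub K y0) =
      Ideal.span {algebraMap B' (ssl_locSub K y0) π', algebraMap B' (ssl_locSub K y0) t1} :=
    tqb_maximalIdeal_eq hgen0 (ssl_locSub K y0)
  exact s36cf_oneBranch_fin3 (S := ssl_locSub K y0) hφ hint hy0 hq hπP2 hpow hm hrank hrank2 hπq hψ
    hψint (fun s => hSV (s : K) s.2) hP1 hP2 hP2' hB1F oA oC W2 (fun s => W2K (s : K)) W2VA hVC H3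
    hC3 ϖ hϖ 𝔫 h𝔫 hC hA hB hgen hdomπ hdomu xc e' xc0 hrel he'1 he'n hxcP2 hR1 hR2 hT2

end Loc

end Fermat.Agent.S36
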