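/-
Project S36 (Carayol), model cell [M2], leaf [L3b], INSTANCE HELPERS (helper2).  Prefix `s36cy_`.

Abstract lemmas used by the Legendre/Hesse instantiation of `s36cx_oneBranch`
(S36/CReg/PointCover.lean):

* `s36cy_V0_loc`, `s36cy_V0_unif` : for a noetherian normal domain `S` with fraction field `K`, a
  prime element `π` and a valuation ring `V0` of `K` over `(S, π)`: `V0 = S_(π)` (element form) and
  `𝔪(V0) = π V0`;
* `s36cy_prime_loc` : a prime element of a domain `B'` lying in a prime `y0` stays prime in the local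
  ring of `B'` at `y0`;
* `s36cy_beta_cases` : the two valuation rings `V1`, `W(V1)` of `E1` over `V0` through `α` are also
  the two valuation rings over `V0` through `β = W ∘ α` (`W` an involution);
* `s36cy_hBcl` : `hBcl` for a chart map `φ2 : B' → B2` into an integrally closed (in `E2`) chart.
-/
import Mathlib
import Fermat.Agent.SS.Model.TwoPrimesW
import Fermat.Agent.JT3.FCore.Charts

set_option autoImplicit false
set_option linter.unusedSectionVars false
set_option linter.unusedVariables false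
set_option linter.style.haveILetI false

namespace Fermat.Agent.S36

open Fermat.Agent.SS IsLocalRing

section V0

variable {S : Type*} [CommRing S] [IsDomain S] [IsNoetherianRing S] [IsIntegrallyClosed S]
  {K : Type*} [Field K] [Algebra S K] [IsFractionRing S K] {π : S} {V0 : ValuationSubring K}

/-- `V0 = S_(π)`, element form. -/
theorem s36cy_V0_loc (hπ : Prime π) (h0 : ssm_tp_Over π V0) (x : K) (hx : x ∈ V0) :
    ∃ s a : S, ¬ π ∣ s ∧ algebraMap S K s * x = algebraMap S K a := by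
  have hp : ssm_tpw_PrimeInt S K π := by
    rintro b c hb hc ⟨d, hd, hbcd⟩
    obtain ⟨b0, rfl⟩ := IsIntegrallyClosed.isIntegral_iff.1 hb
    obtain ⟨c0, rfl⟩ := IsIntegrallyClosed.isIntegral_iff.1 hc
    obtain ⟨d0, rfl⟩ := IsIntegrallyClosed.isIntegral_iff.1 hd
    have h1 : b0 * c0 = π * d0 :=
      IsFractionRing.injective S K (by rw [map_mul, map_mul]; exact hbcd)
    rcases hπ.dvd_or_dvd ⟨d0, h1⟩ with ⟨e, he⟩ | ⟨e, he⟩
    · exact Or.inl ⟨algebraMap S K e, isIntegral_algebraMap, by rw [he, map_mul]⟩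
    · exact Or.inr ⟨algebraMap S K e, isIntegral_algebraMap, by rw [he, map_mul]⟩
  have hfin : ∀ a : S, a ≠ 0 → ∃ (k : ℕ) (s : S), ¬ π ∣ s ∧ a = π ^ k * s := fun a ha =>
    WfDvdMonoid.max_power_factor ha hπ.irreducible
  have halg : ∀ z : K, IsAlgebraic S z := fun z =>
    (IsFractionRing.isAlgebraic_iff S K K).2 (isAlgebraic_algebraMap (R := K) (A := K) z)
  obtain ⟨b, s, hb, hs, hns, hxs⟩ := (ssm_tpw_mem_iff h0 hπ hfin halg hp).1 hx
  obtain ⟨b0, rfl⟩ := IsIntegrallyClosed.isIntegral_iff.1 hb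
  obtain ⟨s0, rfl⟩ := IsIntegrallyClosed.isIntegral_iff.1 hs
  refine ⟨s0, b0, ?_, by rw [mul_comm]; exact hxs⟩
  rintro ⟨d, rfl⟩
  exact hns ⟨algebraMap S K d, isIntegral_algebraMap, by rw [map_mul]⟩

/-- `𝔪(V0) = π V0`. -/
theorem s36cy_V0_unif (hπ : Prime π) (h0 : ssm_tp_Over π V0) (x : K) (hx : x ∈ V0.nonunits) :
    (algebraMap S K π)⁻¹ * x ∈ V0 := by
  have hxV : x ∈ V0 := by
    rw [ValuationSubring.mem_nonunits_iff_exists_mem_maximalIdeal] at hx
    exact hx.1
  obtain ⟨s, a, hs, hsa⟩ := s36cy_V0_loc hπ h0 x hxV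
  have hsn : algebraMap S K s ∉ V0.nonunits := h0.not_mem_nonunits hs
  have hs0 : algebraMap S K s ≠ 0 := ssm_tp_ne_zero V0 hsn
  have ha : algebraMap S K a ∈ V0.nonunits := by
    rw [← hsa, mul_comm]
    exact ssm_tp_nonunits_mul V0 hx (h0.le s)
  obtain ⟨a', rfl⟩ := (h0.cen a).1 ha
  have hπ0 : algebraMap S K π ≠ 0 :=
    (map_ne_zero_iff _ (IsFractionRing.injective S K)).2 hπ.ne_zero
  have e : (algebraMap S K π)⁻¹ * x = (algebraMap S K s)⁻¹ * algebraMap S K a' := by
    have h1 : x = (algebraMap S K s)⁻¹ * algebraMap S K (π * a') := by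
      rw [← hsa, ← mul_assoc, inv_mul_cancel₀ hs0, one_mul]
    rw [h1, map_mul]
    field_simp
  rw [e]
  exact V0.mul_mem _ _ (ssm_tp_inv_mem V0 hsn) (h0.le a')

end V0

section PrimeLoc

variable {B' : Type*} [CommRing B'] [IsDomain B'] (y0 : Ideal B') [y0.IsPrime]
  (S : Type*) [CommRing S] [IsDomain S] [Algebra B' S] [IsLocalization.AtPrime S y0]

/-- a prime element of `B'` lying in `y0` stays prime in the local ring at `y0`. -/
theorem s36cy_prime_loc {π' : B'} (hπ : Prime π') (hπy : π' ∈ y0) :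
    Prime (algebraMap B' S π') := by
  have hinj : Function.Injective (algebraMap B' S) :=
    IsLocalization.injective S y0.primeCompl_le_nonZeroDivisors
  have h0 : algebraMap B' S π' ≠ 0 := (map_ne_zero_iff _ hinj).2 hπ.ne_zero
  rw [← Ideal.span_singleton_prime h0]
  have hP : (Ideal.span {π'} : Ideal B').IsPrime := (Ideal.span_singleton_prime hπ.ne_zero).2 hπ
  have hdisj : Disjoint (y0.primeCompl : Set B') (Ideal.span {π'} : Ideal B') := by
    rw [Set.disjoint_left]
    intro m hm hmem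
    exact hm ((Ideal.span_singleton_le_iff_mem y0).2 hπy hmem)
  have := IsLocalization.isPrime_of_isPrime_disjoint y0.primeCompl S _ hP hdisj
  rwa [Ideal.map_span, Set.image_singleton] at this

end PrimeLoc

section Beta

variable {K E1 : Type*} [Field K] [Field E1]

/-- the valuation rings of `E1` over `V0` through `β = W ∘ α`. -/
theorem s36cy_beta_cases (α β : K →+* E1) (W : E1 ≃+* E1) (hWW : ∀ y, W (W y) = y)
    (hβ : ∀ x, β x = W (α x)) {V0 : ValuationSubring K} {V1 : ValuationSubring E1}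
    (over1 : ∀ z : K, α z ∈ V1 ↔ z ∈ V0) (over2 : ∀ z : K, W (α z) ∈ V1 ↔ z ∈ V0)
    (cases : ∀ V : ValuationSubring E1, (∀ z : K, α z ∈ V ↔ z ∈ V0) →
      V = V1 ∨ V = V1.comap (W : E1 →+* E1)) :
    (∀ x : K, β x ∈ V1 ↔ x ∈ V0) ∧ (∀ x : K, β x ∈ V1.comap (W : E1 →+* E1) ↔ x ∈ V0) ∧
    ∀ W1 : ValuationSubring E1, (∀ x : K, β x ∈ W1 ↔ x ∈ V0) →
      W1 = V1 ∨ W1 = V1.comap (W : E1 →+* E1) := by
  have hcc : ∀ V : ValuationSubring E1,
      (V.comap (W : E1 →+* E1)).comap (W : E1 →+* E1) = V := by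
    intro V
    ext y
    rw [ValuationSubring.mem_comap, ValuationSubring.mem_comap]
    show W (W y) ∈ V ↔ y ∈ V
    rw [hWW]
  refine ⟨fun x => by rw [hβ]; exact over2 x, fun x => ?_, fun W1 h => ?_⟩
  · rw [ValuationSubring.mem_comap, hβ]
    show W (W (α x)) ∈ V1 ↔ _
    rw [hWW]
    exact over1 x
  · have h1 : ∀ z : K, α z ∈ W1.comap (W : E1 →+* E1) ↔ z ∈ V0 := by
      intro z
      rw [ValuationSubring.mem_comap]
      show W (α z) ∈ W1 ↔ _
      rw [← hβ]
      exact h z
    rcases cases _ h1 with h2 | h2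
    · right
      rw [← h2, hcc]
    · left
      rw [← hcc W1, h2, hcc]

end Beta

section Unif

/-- a generator of the maximal ideal of a discrete valuation subring is irreducible. -/
theorem s36cy_irreducible_of_unif {F : Type*} [Field F] (V : ValuationSubring F)
    [IsDiscreteValuationRing ↥V] (ϖ : F) (hϖ0 : ϖ ≠ 0) (hϖ : ϖ ∈ V.nonunits)
    (hunif : ∀ z ∈ V.nonunits, ϖ⁻¹ * z ∈ V) :
    ∃ πV : ↥V, (πV : F) = ϖ ∧ Irreducible πV := by
  have hϖV : ϖ ∈ V := by
    rw [ValuationSubring.mem_nonunits_iff_exists_mem_maximalIdeal] at hϖ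
    exact hϖ.1
  refine ⟨⟨ϖ, hϖV⟩, rfl, ?_⟩
  rw [IsDiscreteValuationRing.irreducible_iff_uniformizer]
  apply le_antisymm
  · intro x hx
    have hxn : (x : F) ∈ V.nonunits := ValuationSubring.coe_mem_nonunits_iff.2 hx
    rw [Ideal.mem_span_singleton]
    refine ⟨⟨ϖ⁻¹ * (x : F), hunif _ hxn⟩, Subtype.ext ?_⟩
    show (x : F) = ϖ * (ϖ⁻¹ * (x : F))
    rw [← mul_assoc, mul_inv_cancel₀ hϖ0, one_mul]
  · rw [Ideal.span_singleton_le_iff_mem]
    exact ValuationSubring.coe_mem_nonunits_iff.1 hϖ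

end Unif

section HBcl

variable {A0 : Type*} [CommRing A0] {K E2 : Type*} [Field K] [Field E2] [Algebra K E2]
  [Algebra A0 K] [Algebra A0 E2] {B' : Subalgebra A0 K} {B2 : Subalgebra A0 E2}

/-- `hBcl` for a chart map into a chart that is integrally closed in `E2`. -/
theorem s36cy_hBcl (φ2 : B' →+* B2) (hφ2 : ∀ b' : B', (φ2 b' : E2) = algebraMap K E2 (b' : K))
    (hcl : ∀ z : E2, IsIntegral B2 z → z ∈ B2) (z : E2) (hz : IsIntegral B' z) : z ∈ B2 := by
  apply hcl
  have h := IsIntegral.map_of_comp_eq (R := B') (S := E2) (T := B2) (U := E2) φ2 (RingHom.id E2)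
    (by
      ext b'
      exact hφ2 b') hz
  exact h

/-- a chart `fc_chart A0 T` is integrally closed in its field. -/
theorem s36cy_chart_closed (T : Set E2) (z : E2) (hz : IsIntegral (Fermat.Agent.JT3.fc_chart A0 T) z) :
    z ∈ Fermat.Agent.JT3.fc_chart A0 T := by
  have h2 : IsIntegral (integralClosure (Algebra.adjoin A0 T) E2) z := hz
  rw [Fermat.Agent.JT3.fc_mem_chart]
  exact isIntegral_trans (A := integralClosure (Algebra.adjoin A0 T) E2) z h2

end HBcl

end Fermat.Agent.S36
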