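/-
Project S36 (Carayol), [M2] leaf [L3b] (helper16; prefix `s36ob_`): the ONE-BRANCH clause at a
point of the component `C`, in the COVER-RING CONTEXT of `SS/Model/ThickCover.lean`.

`K ⊆ E` fields, `B' ⊆ K`, `B ⊆ E` charts, `φ : B' →+* B` the (integral) chart map, `y0` a maximal
ideal of `B'`, `S` the local ring of `B'` at `y0`, `C := integralClosure S E` (the semilocal ring of
`B` over `y0`), `ι : B → C`.  For a prime `𝔫` of `B` over `y0`:

* `s36ob_cover_disjoint`   : `φ (B' ∖ y0)` misses `𝔫`;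
* `s36ob_cover_isMaximal`  : `𝔫 C` is a maximal ideal of `C`, `s36ob_cover_comap` : `𝔫 C ∩ B = 𝔫`;
* `s36ob_cover_oneBranch`  : helper3's ONE-BRANCH clause on `ssl_locSub E 𝔫` from the output of
  `s36cr_point_local` at `n := 𝔫 C`.
-/
import Mathlib
import Fermat.Agent.SS.Model.ThickCover
import Fermat.Agent.S36.CReg.OneBranchC

set_option autoImplicit false
set_option linter.unusedSectionVars false
set_option linter.unusedVariables false
set_option linter.style.haveILetI false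

namespace Fermat.Agent.S36

open Fermat.Agent.JT3 Fermat.Agent.SS IsLocalRing

section Cover

variable {A0 : Type*} [CommRing A0] {K E : Type*} [Field K] [Field E] [Algebra K E]
  [Algebra A0 K] [Algebra A0 E]
  {B' : Subalgebra A0 K} {B : Subalgebra A0 E} (φ : B' →+* B)
  (y0 : Ideal B') [hy0 : y0.IsPrime]
  (S : Type*) [CommRing S] [Algebra B' S] [IsLocalization.AtPrime S y0]
  [Algebra S K] [IsScalarTower B' S K] [Algebra S E] [IsScalarTower S K E]
  (hφ : ∀ b' : B', (φ b' : E) = algebraMap K E (b' : K))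
  (hint : φ.IsIntegral) (hBcl : ∀ z : E, IsIntegral B' z → z ∈ B)

/-- `φ (B' ∖ y0)` misses every prime of `B` lying over (a prime contained in) `y0`. -/
theorem s36ob_cover_disjoint (𝔫 : Ideal B) (h𝔫 : 𝔫.comap φ ≤ y0) :
    Disjoint ((Submonoid.map φ y0.primeCompl : Submonoid B) : Set B) (𝔫 : Set B) := by
  rw [Set.disjoint_left]
  rintro _ ⟨m, hm, rfl⟩ hmem
  exact hm (h𝔫 hmem)

include hBcl in
/-- `𝔫 C ∩ B = 𝔫`. -/
theorem s36ob_cover_comap (𝔫 : Ideal B) [h𝔫p : 𝔫.IsPrime] (h𝔫 : 𝔫.comap φ ≤ y0) :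
    (𝔫.map (ssm_thc_iota B S (ssm_thc_int_chart φ S hφ hint))).comap
      (ssm_thc_iota B S (ssm_thc_int_chart φ S hφ hint)) = 𝔫 := by
  letI := (ssm_thc_iota B S (ssm_thc_int_chart φ S hφ hint)).toAlgebra
  haveI := ssm_thc_isLocalization φ y0 S hφ hint hBcl
  exact IsLocalization.under_map_of_isPrime_disjoint (Submonoid.map φ y0.primeCompl)
    (integralClosure S E) h𝔫p (s36ob_cover_disjoint φ y0 𝔫 h𝔫)

include hBcl in
/-- `𝔫 C` is prime. -/
theorem s36ob_cover_isPrime (𝔫 : Ideal B) [h𝔫p : 𝔫.IsPrime] (h𝔫 : 𝔫.comap φ ≤ y0) :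
    (𝔫.map (ssm_thc_iota B S (ssm_thc_int_chart φ S hφ hint))).IsPrime := by
  letI := (ssm_thc_iota B S (ssm_thc_int_chart φ S hφ hint)).toAlgebra
  haveI := ssm_thc_isLocalization φ y0 S hφ hint hBcl
  exact IsLocalization.isPrime_of_isPrime_disjoint (Submonoid.map φ y0.primeCompl)
    (integralClosure S E) 𝔫 h𝔫p (s36ob_cover_disjoint φ y0 𝔫 h𝔫)

include hBcl in
/-- **`𝔫 C` is a maximal ideal of `C`** for every prime `𝔫` of `B` over `y0`. -/
theorem s36ob_cover_isMaximal (𝔫 : Ideal B) [h𝔫p : 𝔫.IsPrime] (h𝔫 : 𝔫.comap φ = y0) :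
    (𝔫.map (ssm_thc_iota B S (ssm_thc_int_chart φ S hφ hint))).IsMaximal := by
  haveI : IsLocalRing S := IsLocalization.AtPrime.isLocalRing S y0
  haveI hp := s36ob_cover_isPrime φ y0 S hφ hint hBcl 𝔫 h𝔫.le
  have hcm := s36ob_cover_comap φ y0 S hφ hint hBcl 𝔫 h𝔫.le
  -- the contraction to `S` is the maximal ideal
  have h1 : (𝔫.map (ssm_thc_iota B S (ssm_thc_int_chart φ S hφ hint))).comap
      (algebraMap S (integralClosure S E)) = maximalIdeal S := by
    rw [← IsLocalization.AtPrime.map_eq_maximalIdeal y0 S]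
    apply le_antisymm
    · -- a prime of `S` is the extension of its contraction
      rw [← IsLocalization.map_under y0.primeCompl S
        ((𝔫.map (ssm_thc_iota B S (ssm_thc_int_chart φ S hφ hint))).comap
          (algebraMap S (integralClosure S E)))]
      apply Ideal.map_mono
      intro b' hb'
      rw [← h𝔫]
      show φ b' ∈ 𝔫
      rw [← hcm]
      show ssm_thc_iota B S (ssm_thc_int_chart φ S hφ hint) (φ b') ∈
        𝔫.map (ssm_thc_iota B S (ssm_thc_int_chart φ S hφ hint))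
      rw [ssm_thc_iota_phi φ S hφ]
      exact hb'
    · rw [Ideal.map_le_iff_le_comap]
      intro b' hb'
      show algebraMap S (integralClosure S E) (algebraMap B' S b') ∈
        𝔫.map (ssm_thc_iota B S (ssm_thc_int_chart φ S hφ hint))
      rw [← ssm_thc_iota_phi φ S hφ (ssm_thc_int_chart φ S hφ hint)]
      apply Ideal.mem_map_of_mem
      rw [← h𝔫] at hb'
      exact hb'
  haveI : ((𝔫.map (ssm_thc_iota B S (ssm_thc_int_chart φ S hφ hint))).comap
      (algebraMap S (integralClosure S E))).IsMaximal := by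
    rw [h1]; infer_instance
  exact Ideal.isMaximal_of_isIntegral_of_isMaximal_comap _ this

variable [IsFractionRing B E] [IsNoetherianRing B] [IsIntegrallyClosed B]

include hBcl in
/-- **[L3b] in the cover-ring context**: the ONE-BRANCH clause on `ssl_locSub E 𝔫` from the output
of `s36cr_point_local` at the maximal ideal `n := 𝔫 C` of `C = integralClosure S E`. -/
theorem s36ob_cover_oneBranch (𝔫 : Ideal B) [h𝔫p : 𝔫.IsPrime] (h𝔫 : 𝔫.comap φ ≤ y0)
    (π : A0) (hϖ0 : algebraMap A0 E π ≠ 0) {z u : integralClosure S E}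
    (hgen : tq_GenBy z u (𝔫.map (ssm_thc_iota B S (ssm_thc_int_chart φ S hφ hint))))
    (hdom : tq_Dom z (𝔫.map (ssm_thc_iota B S (ssm_thc_int_chart φ S hφ hint))))
    (e : ℕ) (he : e ≠ 0) (w : integralClosure S E)
    (hw : w ∉ 𝔫.map (ssm_thc_iota B S (ssm_thc_int_chart φ S hφ hint)))
    (hπ : ssm_thc_iota B S (ssm_thc_int_chart φ S hφ hint) (algebraMap A0 B π) = w * z ^ e)
    (N : ℕ) (heN : e ≤ N) :
    UniqueFactorizationMonoid (ssl_locSub E 𝔫) ∧
    ∃ (u' : ssl_locSub E 𝔫) (e' : ℕ), e' ≠ 0 ∧ e' ≤ N ∧ Prime u' ∧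
      Associated (algebraMap B (ssl_locSub E 𝔫) (algebraMap A0 B π)) (u' ^ e') ∧
      IsIntegrallyClosed (ssl_locSub E 𝔫 ⧸ (Ideal.span {u'} : Ideal (ssl_locSub E 𝔫))) := by
  letI := (ssm_thc_iota B S (ssm_thc_int_chart φ S hφ hint)).toAlgebra
  haveI := ssm_thc_isLocalization φ y0 S hφ hint hBcl
  exact s36ob_oneBranch_map (Submonoid.map φ y0.primeCompl) 𝔫
    (s36ob_cover_disjoint φ y0 𝔫 h𝔫) π hϖ0 hgen hdom e he w hw hπ N heN

end Cover

end Fermat.Agent.S36

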