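/-
Project S36 (Carayol), model cell [M2], leaf **[C-REG-INST]** = [L3b], LAYER 3 (helper2).
Prefix `s36cx_`.

THE ONE-BRANCH CLAUSE AT AN ORDINARY NON-CUSP POINT OF THE COMPONENT `C`, COVER-RING CONTEXT.

`K ⊆ E1 ⊆ E2` the function fields of the three levels (`K → E1` = the middle embedding `β`),
`B' ⊆ K`, `B1 ⊆ E1`, `B2 ⊆ E2` charts, `φ1 : B' → B1`, `φ2 : B' → B2` the (integral) chart maps,
`y0` an ORDINARY maximal ideal of `B'`, `S` the local ring of `B'` at `y0`.  From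

* helper16's chart-level hypotheses `H : s36oc_Hyp φ1 y0 S q P1 P2 π' t' u` of level 1
  (`P1 ⊆ 𝔪(VV)`, `P2 ⊆ 𝔪(VF)`), with `u = Gp(lam)` a polynomial in `lam`,
* the valuation packages of layer 2 (`s36cw_hyp`),
* `hunr` (the horizontal discriminant, `s36ch_leg_hunr`),

every prime `𝔫` of `B2` over `y0` containing `P_C = ssm_tp_P B2 VC` satisfies helper3's ONE-BRANCH clause
(with `e = q - 1`): `s36cx_oneBranch`.
-/
import Mathlib
import Fermat.Agent.S36.CReg.PointHyp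
import Fermat.Agent.S36.CReg.OrdGCover
import Fermat.Agent.S36.CReg.OneBranchCover

set_option autoImplicit false
set_option linter.unusedSectionVars false
set_option linter.unusedVariables false
set_option linter.style.haveILetI false

namespace Fermat.Agent.S36

open Fermat.Agent.SS Fermat.Agent.JT3 Polynomial Module IsLocalRing

section Cover

variable {A0 : Type*} [CommRing A0] {K E1 E2 : Type*} [Field K] [CharZero K] [Field E1] [Field E2]
  [Algebra K E1] [Algebra E1 E2] [Algebra K E2] [IsScalarTower K E1 E2]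
  [FiniteDimensional K E1] [FiniteDimensional E1 E2]
  [Algebra A0 K] [Algebra A0 E1] [Algebra A0 E2] [IsScalarTower A0 K E2]
  {B' : Subalgebra A0 K} {B1 : Subalgebra A0 E1} {B2 : Subalgebra A0 E2}
  {φ1 : B' →+* B1} {φ2 : B' →+* B2} {y0 : Ideal B'} [y0.IsPrime]
  {S : Type*} [CommRing S] [IsDomain S] [IsLocalRing S] [IsNoetherianRing S]
  [IsIntegrallyClosed S] [Algebra B' S] [IsLocalization.AtPrime S y0]
  [Algebra S K] [IsScalarTower B' S K] [IsFractionRing S K]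
  [Algebra S E1] [IsScalarTower S K E1] [Algebra S E2] [IsScalarTower S K E2]
  [IsScalarTower S E1 E2]
  {RF : Type*} [CommRing RF] [IsDomain RF] [IsDiscreteValuationRing RF] [Algebra RF E1]
  [IsFractionRing RF E1] [Algebra RF E2] [IsScalarTower RF E1 E2]
  {RV : Type*} [CommRing RV] [IsDomain RV] [IsDiscreteValuationRing RV] [Algebra RV E1]
  [IsFractionRing RV E1] [Algebra RV E2] [IsScalarTower RV E1 E2]
  [IsFractionRing B2 E2] [IsNoetherianRing B2] [IsIntegrallyClosed B2]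

/-- **[L3b], cover-ring context.** -/
theorem s36cx_oneBranch {q : ℕ} (hq3 : 3 ≤ q) {P1 P2 : Ideal B1} [P1.IsPrime] [P2.IsPrime]
    {π' t' : B'} {u : B1}
    (H : s36oc_Hyp φ1 y0 S q P1 P2 π' t' u)
    (hrank : Module.finrank K E1 = q + 1)
    (hπS : Prime (algebraMap B' S π'))
    {V0 : ValuationSubring K} (h0 : ssm_tp_Over (algebraMap B' S π') V0)
    (h0unif : ∀ x ∈ V0.nonunits, (algebraMap S K (algebraMap B' S π'))⁻¹ * x ∈ V0)
    (h0loc : ∀ x ∈ V0, ∃ s a : S, ¬ algebraMap B' S π' ∣ s ∧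
      algebraMap S K s * x = algebraMap S K a)
    {VF VV : ValuationSubring E1}
    (hP1 : ∀ b ∈ P1, (b : E1) ∈ VV.nonunits) (hP2 : ∀ b ∈ P2, (b : E1) ∈ VF.nonunits)
    (hne : VF ≠ VV)
    (only1 : ∀ W1 : ValuationSubring E1, (∀ x : K, algebraMap K E1 x ∈ W1 ↔ x ∈ V0) →
      W1 = VF ∨ W1 = VV)
    (cF : ∀ x : K, algebraMap K E1 x ∈ VF ↔ x ∈ V0)
    (cV : ∀ x : K, algebraMap K E1 x ∈ VV ↔ x ∈ V0)
    (locF : ∀ x ∈ VF, ∃ y : B1, (y : E1) ∉ VF.nonunits ∧ (y : E1) * x ∈ B1)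
    (hRF : ∀ y : E1, y ∈ VF ↔ y ∈ (algebraMap RF E1).range)
    (hRV : ∀ y : E1, y ∈ VV ↔ y ∈ (algebraMap RV E1).range)
    (πF : RF) (hπF : algebraMap RF E1 πF = algebraMap S E1 (algebraMap B' S π'))
    (πV : RV) (hπV : Irreducible πV)
    (hπV' : algebraMap RV E1 πV = algebraMap S E1 (algebraMap B' S π'))
    {zl : E2} {VA VB VC : ValuationSubring E2}
    (T : s36t3_Third E1 RF q πF zl VA VC) {tB : E2} {r : RV} (DB : s36i_Data E1 RV q VB tB r)
    (W2 : E2 ≃+* E2) (hWW : ∀ y, W2 (W2 y) = y)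
    (W2S : ∀ s : S, W2 (algebraMap S E2 s) = algebraMap S E2 s)
    (hVB : VB = VA.comap (W2 : E2 →+* E2)) (hVC : VC.comap (W2 : E2 →+* E2) = VC)
    (lam : E1) (hlam : lam ∈ VF)
    (hW2lam : W2 (algebraMap E1 E2 lam) - algebraMap E1 E2 lam = zl)
    (Gp : S[X]) (huG : (u : E1) = aeval lam Gp)
    (hGp' : aeval lam (derivative Gp) ∉ VF.nonunits)
    (hunr : ∀ (n : ℕ) (b : Basis (Fin n) S (integralClosure S E1)) (𝔭 : Ideal S), 𝔭.IsPrime →
      𝔭.height = 1 → algebraMap B' S π' ∉ 𝔭 → Algebra.discr S b ∉ 𝔭)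
    (hφ2 : ∀ b' : B', (φ2 b' : E2) = algebraMap K E2 (b' : K))
    (hint2 : φ2.IsIntegral) (hBcl2 : ∀ z : E2, IsIntegral B' z → z ∈ B2)
    (π₀ : A0) (hπ₀ : π' = algebraMap A0 B' π₀) (hϖ0 : algebraMap A0 E2 π₀ ≠ 0)
    (𝔫 : Ideal B2) [h𝔫p : 𝔫.IsPrime] (h𝔫 : 𝔫.comap φ2 = y0)
    (hC𝔫 : ssm_tp_P B2 VC ≤ 𝔫) (N : ℕ) (hN : q - 1 ≤ N) :
    UniqueFactorizationMonoid (ssl_locSub E2 𝔫) ∧
    ∃ (u' : ssl_locSub E2 𝔫) (e' : ℕ), e' ≠ 0 ∧ e' ≤ N ∧ Prime u' ∧
      Associated (algebraMap B2 (ssl_locSub E2 𝔫) (algebraMap A0 B2 π₀)) (u' ^ e') ∧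
      IsIntegrallyClosed (ssl_locSub E2 𝔫 ⧸ (Ideal.span {u'} : Ideal (ssl_locSub E2 𝔫))) := by
  classical
  have hq : q.Prime := H.hq₀
  haveI : CharZero E1 := charZero_of_injective_algebraMap (algebraMap K E1).injective
  haveI : Algebra.IsSeparable K E1 := Algebra.IsSeparable.of_integral K E1
  haveI : Algebra.IsSeparable E1 E2 := Algebra.IsSeparable.of_integral E1 E2
  have hinjK : Function.Injective (algebraMap S K) := IsFractionRing.injective S K
  have hinj1 : Function.Injective (algebraMap S E1) := by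
    rw [IsScalarTower.algebraMap_eq S K E1]
    exact (algebraMap K E1).injective.comp hinjK
  have hinj2 : Function.Injective (algebraMap S E2) := by
    rw [IsScalarTower.algebraMap_eq S K E2]
    exact (algebraMap K E2).injective.comp hinjK
  haveI : FaithfulSMul S E1 := (faithfulSMul_iff_algebraMap_injective S E1).2 hinj1
  haveI : FaithfulSMul S E2 := (faithfulSMul_iff_algebraMap_injective S E2).2 hinj2
  -- the adapted generator
  obtain ⟨G, b, F, a, ha, hG1, hG2, hu, -, -, hadj, hb, hF, hdeg, hFG⟩ :=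
    s36oc_main H (q + 1) hrank (by omega)
  -- `C1 ⊆ VF, VV`
  have hFo : ssm_tp_Over (algebraMap B' S π') VF := s36cw_over_of_comap h0 VF cF
  have hVo : ssm_tp_Over (algebraMap B' S π') VV := s36cw_over_of_comap h0 VV cV
  have hC1F : ∀ c : integralClosure S E1, (c : E1) ∈ VF := fun c =>
    ssm_tp_mem_of_isIntegral VF hFo.le c.2
  have hC1V : ∀ c : integralClosure S E1, (c : E1) ∈ VV := fun c =>
    ssm_tp_mem_of_isIntegral VV hVo.le c.2
  have hmap1 : Ideal.map H.iota P1 ≤ ssm_tp_P (integralClosure S E1) VV := by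
    rw [Ideal.map_le_iff_le_comap]
    intro b hb
    exact (s36cv_mem_P _ VV hC1V _).2 (hP1 b hb)
  have hmap2 : Ideal.map H.iota P2 ≤ ssm_tp_P (integralClosure S E1) VF := by
    rw [Ideal.map_le_iff_le_comap]
    intro b hb
    exact (s36cv_mem_P _ VF hC1F _).2 (hP2 b hb)
  have hG1' : (G : E1) - 1 ∈ VV.nonunits := by
    have := (s36cv_mem_P _ VV hC1V _).1 (hmap1 hG1)
    simpa using this
  have hGu' : (G : E1) - ((H.iota u : integralClosure S E1) : E1) ∈ VF.nonunits := by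
    have := (s36cv_mem_P _ VF hC1F _).1 (hmap2 hG2)
    simpa using this
  have hua' : ((H.iota u : integralClosure S E1) : E1) ^ q -
      algebraMap S E1 (a * algebraMap B' S t') ∈ VF.nonunits := by
    have := (s36cv_mem_P _ VF hC1F _).1 (hmap2 hu)
    simpa using this
  have hlocF : ∀ x ∈ VF, ∃ y : integralClosure S E1, (y : E1) ∉ VF.nonunits ∧
      IsIntegral S ((y : E1) * x) := by
    intro x hx
    obtain ⟨y, hy, hyx⟩ := locF x hx
    exact ⟨H.iota y, hy, ssm_thc_int_chart φ1 S H.hφ H.hint ⟨_, hyx⟩⟩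
  have HH : s36cv_Hyp E1 E2 (algebraMap B' S π') (algebraMap B' S t') q VF VV VA VB VC W2 G
      (H.iota u) a zl :=
    s36cw_hyp hπS hq hq3 H.hm h0 h0unif h0loc hne only1 cF cV hlocF hRF hRV πF hπF πV hπV hπV'
      T DB W2 hWW W2S hVB hVC G (H.iota u) a ha hG1' hGu' hua' hadj lam hlam hW2lam Gp huG hGp'
  obtain ⟨z, hz, hQz, hpt⟩ := s36cv_point K HH (q + 1) b hb F hF hdeg hFG (hunr (q + 1) b)
  -- the maximal ideal `𝔫 C`
  set ι2 := ssm_thc_iota B2 S (ssm_thc_int_chart φ2 S hφ2 hint2) with hι2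
  have hmax : (𝔫.map ι2).IsMaximal := s36ob_cover_isMaximal φ2 y0 S hφ2 hint2 hBcl2 𝔫 h𝔫
  have hle : ssm_tp_P (integralClosure S E2) VC ≤ 𝔫.map ι2 := by
    intro c hc
    have hcC : (c : E2) ∈ VC.nonunits := (HH.mem_QC c).1 hc
    obtain ⟨m, hm, b2, hb2⟩ := ssm_thc_surj φ2 y0 S hφ2 hBcl2 (c : E2) c.2
    have hb2C : (b2 : E2) ∈ VC.nonunits := by
      rw [← hb2, mul_comm]
      exact ssm_tp_nonunits_mul VC hcC (HH.C_le_C (ι2 (φ2 m)))
    have hb2n : b2 ∈ 𝔫 :=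
      hC𝔫 ((s36cv_mem_P B2 VC (fun b => HH.C_le_C (ι2 b)) b2).2 hb2C)
    have hunit : IsUnit (ι2 (φ2 m)) := by
      rw [hι2, ssm_thc_iota_phi φ2 S hφ2]
      exact (IsLocalization.map_units S (⟨m, hm⟩ : y0.primeCompl)).map _
    have e : ι2 (φ2 m) * c = ι2 b2 := Subtype.ext hb2
    rw [← Ideal.unit_mul_mem_iff_mem _ hunit, e]
    exact Ideal.mem_map_of_mem _ hb2n
  obtain ⟨-, hgen, hdom, w, hw, hπw⟩ := hpt _ hmax hle
  have hπ2 : ι2 (algebraMap A0 B2 π₀) = w * z ^ (q - 1) := by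
    rw [← hπw]
    apply Subtype.ext
    show algebraMap A0 E2 π₀ = algebraMap S E2 (algebraMap B' S π')
    rw [hπ₀, IsScalarTower.algebraMap_apply S K E2, ← IsScalarTower.algebraMap_apply B' S K,
      IsScalarTower.algebraMap_apply A0 K E2]
    rfl
  exact s36ob_cover_oneBranch φ2 y0 S hφ2 hint2 hBcl2 𝔫 h𝔫.le π₀ hϖ0 hgen hdom (q - 1)
    (by omega) w hw hπ2 N hN

end Cover

end Fermat.Agent.S36
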