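import Mathlib
import Fermat.Agent.SS.Model.TwoPrimesInst
import Fermat.Agent.S36.CReg.PointAbs

set_option autoImplicit false
set_option linter.unusedSectionVars false
set_option linter.unusedVariables false
set_option linter.style.haveILetI false

noncomputable section

open ModularCurve IntermediateField IsLocalRing
open Fermat.Agent.JT3 Fermat.Agent.SS

namespace Fermat.Agent.S36

section Gauss

variable {L : Type*} [Field L] [CharZero L]
variable (E' E : IntermediateField L (LaurentSeries L)) (hle : E' ≤ E)

/-- the two valuation rings of `E` over a discrete valuation ring `V0` of `E'` (through the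
inclusion), in membership form, from the data of the two-valuations lemma. -/
theorem s36cy_alpha_cases (V0 : ValuationSubring ↥E') [IsDiscreteValuationRing ↥V0]
    {q : ℕ} {V1 : ValuationSubring ↥E} {W : ↥E ≃+* ↥E} {lam : ↥V0}
    (D :
      letI := ssm_gi_algebra hle
      letI := ssm_gi_algebraV hle V0
      haveI := ssm_gi_isScalarTower hle V0
      ssm_tw_Data ↥E' ↥V0 q V1 W lam) :
    (∀ z : ↥E', IntermediateField.inclusion hle z ∈ V1 ↔ z ∈ V0) ∧
    (∀ z : ↥E', W (IntermediateField.inclusion hle z) ∈ V1 ↔ z ∈ V0) ∧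
    V1 ≠ V1.comap (W : ↥E →+* ↥E) ∧
    ∀ V : ValuationSubring ↥E, (∀ z : ↥E', IntermediateField.inclusion hle z ∈ V ↔ z ∈ V0) →
      V = V1 ∨ V = V1.comap (W : ↥E →+* ↥E) := by
  letI := ssm_gi_algebra hle
  letI := ssm_gi_algebraV hle V0
  haveI := ssm_gi_isScalarTower hle V0
  haveI : FiniteDimensional ↥E' ↥E := ssm_gi_finiteDimensional D.finrank_eq
  haveI : Algebra.IsSeparable ↥E' ↥E := ssm_gi_isSeparable
  refine ⟨fun z => (D.over1 z).trans (ssm_gi_mem_range V0 z),
    fun z => (D.over2 z).trans (ssm_gi_mem_range V0 z), ssm_tw_ne D, fun V hV => ?_⟩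
  exact ssm_tw_cases D V (fun z => (hV z).trans (ssm_gi_mem_range V0 z).symm)

end Gauss

end Fermat.Agent.S36
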