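/-
Project S36 (Carayol), model cell [M2], leaf **[C-REG-INST]** = [L3b], LEGENDRE INSTANCE (helper2).
Prefix `s36cy_`.

`s36cy_leg_point` : the instantiation of `s36cx_oneBranch` (S36/CReg/PointCover.lean) on the
Legendre tower `K = lg_E L N' →(β) E₁ = lg_E L (N' q) ⊆ E₂ = lg_E L (N' q q)` over an UNRAMIFIED base
(`q` a uniformiser of `O`):  for `y0` a NON-CUSP prime of the level-`N'` chart `B'` (`λ, λ - 1 ∉ y0`),
`S` any presentation of the local ring of `B'` at `y0` (lying under the Gauss ring `V0` of level `N'`: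
`h0`), `φ1 : B' → B₁` the chart map through `β`, from

* helper16's chart-level package `H : s36oc_Hyp φ1 y0 S q P_VV P_VF q t' u` with `u = Gp(λ)`,
  `Gp'(λ)` a unit of `VF` ([ORD-G-INST], S36/CReg/OrdGLeg.lean),
* the third-valuation package `T : s36t3_Third E₁ VF q πF zl VA VC` ([V3-ASM]), `zl = λ(X^{q q}) - λ`,

every prime `𝔫` of the top chart `B₂ = fc_chart O {λ}` over `y0` (through `φ2 = ι ∘ φ1`) containing
`P_C = ssm_tp_P B₂ VC` satisfies the ONE-BRANCH clause `s36cp_PtOne q (q ^ 2) B₂ 𝔫`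
(`≡ s36g_PtOne q q B₂ 𝔫`).

Everything else is discharged from main: the valuation rings through `β` (`ssm_gl_data`, `β = W ∘ α`),
`locF`, `hP1`, `hP2` (`ssm_gl_hyp`), `DB` (`s36i_leg_dataB`), `W₂`-facts (`s36w_*`, `s36i_leg_W2_VC`),
`hunr` (`s36ch_leg_hunr`), the chart map `φ2` (`s36tn_leg_iota`).
-/
import Mathlib
import Fermat.Agent.S36.CReg.PointCover
import Fermat.Agent.S36.CReg.HorizInstLeg
import Fermat.Agent.S36.Ins1.MirrorLeg
import Fermat.Agent.S36.Tri.MapInst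
import Fermat.Agent.S36.Model.PtsAB
import Fermat.Agent.S36.Model.Val3HypLeg
import Fermat.Agent.S36.CReg.PointAbs
import Fermat.Agent.S36.CReg.PointGauss

set_option autoImplicit false
set_option linter.unusedSectionVars false
set_option linter.unusedVariables false
set_option linter.style.haveILetI false

noncomputable section

open ModularCurve IntermediateField IsLocalRing Polynomial
open Fermat.Agent.JT3 Fermat.Agent.SS

namespace Fermat.Agent.S36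

section Leg

variable {L : Type*} [Field L] [CharZero L] [Algebra L (AlgebraicClosure ℚ)]
  (O : ValuationSubring L) [IsDiscreteValuationRing O]
variable (N' q : ℕ) [NeZero N'] [NeZero q] [hq : Fact q.Prime] [CharP (ResidueField O) q]
  (hq2 : ¬ 2 ∣ q) (hqN' : ¬ q ∣ N') (hπ : Irreducible ((q : ℕ) : O))

set_option synthInstance.maxHeartbeats 200000 in
set_option maxHeartbeats 1600000 in
/-- **[L3b], Legendre tower.** -/
theorem s36cy_leg_point
    (hram : lg_RamHyp (N' * q) (lgh_lamK L))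
    (hp1 : Prime (algebraMap ↥O (fc_chart ↥O ({lg_lamE N'} : Set ↥(lg_E L N'))) ((q : ℕ) : O)))
    {y0 : Ideal (fc_chart ↥O ({lg_lamE N'} : Set ↥(lg_E L N')))} [y0.IsPrime]
    (φ1 : fc_chart ↥O ({lg_lamE N'} : Set ↥(lg_E L N')) →+*
      fc_chart ↥O ({lg_lamE (N' * q)} : Set ↥(lg_E L (N' * q))))
    {S : Type*} [CommRing S] [IsDomain S] [IsLocalRing S] [IsNoetherianRing S]
    [IsIntegrallyClosed S] [Algebra (fc_chart ↥O ({lg_lamE N'} : Set ↥(lg_E L N'))) S]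
    [IsLocalization.AtPrime S y0]
    [Algebra S ↥(lg_E L N')]
    [IsScalarTower (fc_chart ↥O ({lg_lamE N'} : Set ↥(lg_E L N'))) S ↥(lg_E L N')]
    [IsFractionRing S ↥(lg_E L N')]
    (lam' : fc_chart ↥O ({lg_lamE N'} : Set ↥(lg_E L N')))
    (hlam : (lam' : ↥(lg_E L N')) = lg_lamE N') (hy0 : lam' ∉ y0) (hy1 : lam' - 1 ∉ y0) :
    letI := s36ch_algBeta L N' q hq2
    ∀ [Algebra S ↥(lg_E L (N' * q))] [IsScalarTower S ↥(lg_E L N') ↥(lg_E L (N' * q))]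
      (h0 : ssm_tp_Over (algebraMap (fc_chart ↥O ({lg_lamE N'} : Set ↥(lg_E L N'))) S
          ((q : ℕ) : fc_chart ↥O ({lg_lamE N'} : Set ↥(lg_E L N'))))
        (gq_valSubOf ((q : ℕ) : O) hπ.ne_zero hπ.maximalIdeal_eq (lg_E L N')
          ((ssm_al_E_le L N' q).trans (ssm_ga_E_le_quotField O (N' * q)))))
      {t' : fc_chart ↥O ({lg_lamE N'} : Set ↥(lg_E L N'))}
      {u : fc_chart ↥O ({lg_lamE (N' * q)} : Set ↥(lg_E L (N' * q)))} (Gp : (↥O)[X])
      (H : s36oc_Hyp φ1 y0 S q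
        (ssm_tp_P (fc_chart ↥O ({lg_lamE (N' * q)} : Set ↥(lg_E L (N' * q))))
          (ssm_gl_V2 O hπ N' q hq2 hqN'))
        (ssm_tp_P (fc_chart ↥O ({lg_lamE (N' * q)} : Set ↥(lg_E L (N' * q))))
          (ssm_gl_V1 O hπ N' q))
        ((q : ℕ) : fc_chart ↥O ({lg_lamE N'} : Set ↥(lg_E L N'))) t' u)
      (huG : (u : ↥(lg_E L (N' * q))) = aeval (lg_lamE (N' * q)) Gp)
      (hGp' : aeval (lg_lamE (N' * q)) (derivative Gp) ∉ (ssm_gl_V1 O hπ N' q).nonunits)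
      {VC : ValuationSubring ↥(lg_E L (N' * q * q))} {πF : ↥(ssm_gl_V1 O hπ N' q)}
      {zl : ↥(lg_E L (N' * q * q))}
      (hπF : ((πF : ↥(lg_E L (N' * q))) : LaurentSeries L) = ((q : ℕ) : LaurentSeries L))
      (hzl : (zl : LaurentSeries L) = qExpand L q (qExpand L q (lg_lam L)) - lg_lam L)
      (T :
        letI := ssm_gi_algebra (ssm_al_E_le L (N' * q) q)
        letI := ssm_gi_algebraV (ssm_al_E_le L (N' * q) q) (ssm_gl_V1 O hπ N' q)
        haveI := ssm_gi_isScalarTower (ssm_al_E_le L (N' * q) q) (ssm_gl_V1 O hπ N' q)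
        ∀ [FiniteDimensional ↥(lg_E L (N' * q)) ↥(lg_E L (N' * q * q))]
          [Algebra.IsSeparable ↥(lg_E L (N' * q)) ↥(lg_E L (N' * q * q))],
          s36t3_Third ↥(lg_E L (N' * q)) ↥(ssm_gl_V1 O hπ N' q) q πF zl
            (s36i_VA O hπ (N' * q) q) VC)
      (𝔫 : Ideal (fc_chart ↥O ({lg_lamE (N' * q * q)} : Set ↥(lg_E L (N' * q * q)))))
      [𝔫.IsPrime] (h𝔫 : 𝔫.comap ((s36tn_leg_iota O N' q).comp φ1) = y0)
      (hC𝔫 : ssm_tp_P (fc_chart ↥O ({lg_lamE (N' * q * q)} : Set ↥(lg_E L (N' * q * q)))) VC ≤ 𝔫),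
      haveI := s36cp_chart_isFractionRing O (N' * q * q)
      s36cp_PtOne ((q : ℕ) : O) (q ^ 2)
        (fc_chart ↥O ({lg_lamE (N' * q * q)} : Set ↥(lg_E L (N' * q * q)))) 𝔫 := by
  letI aβ := s36ch_algBeta L N' q hq2
  intro _ _ h0 t' u Gp H huG hGp' VC πF zl hπF hzl T 𝔫 _ h𝔫 hC𝔫
  letI a12 := ssm_gi_algebra (ssm_al_E_le L (N' * q) q)
  letI aF := ssm_gi_algebraV (ssm_al_E_le L (N' * q) q) (ssm_gl_V1 O hπ N' q)
  haveI tF := ssm_gi_isScalarTower (ssm_al_E_le L (N' * q) q) (ssm_gl_V1 O hπ N' q)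
  letI aV := ssm_gi_algebraV (ssm_al_E_le L (N' * q) q) (s36i_VV O hπ N' q hq2 hqN')
  haveI tV := ssm_gi_isScalarTower (ssm_al_E_le L (N' * q) q) (s36i_VV O hπ N' q hq2 hqN')
  letI aK2 : Algebra ↥(lg_E L N') ↥(lg_E L (N' * q * q)) :=
    ((algebraMap ↥(lg_E L (N' * q)) ↥(lg_E L (N' * q * q))).comp
      (algebraMap ↥(lg_E L N') ↥(lg_E L (N' * q)))).toAlgebra
  haveI tK : IsScalarTower ↥(lg_E L N') ↥(lg_E L (N' * q)) ↥(lg_E L (N' * q * q)) :=
    IsScalarTower.of_algebraMap_eq fun _ => rfl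
  letI aS2 : Algebra S ↥(lg_E L (N' * q * q)) :=
    ((algebraMap ↥(lg_E L N') ↥(lg_E L (N' * q * q))).comp (algebraMap S ↥(lg_E L N'))).toAlgebra
  haveI tS2 : IsScalarTower S ↥(lg_E L N') ↥(lg_E L (N' * q * q)) :=
    IsScalarTower.of_algebraMap_eq fun _ => rfl
  haveI tS12 : IsScalarTower S ↥(lg_E L (N' * q)) ↥(lg_E L (N' * q * q)) :=
    IsScalarTower.of_algebraMap_eq fun s => by
      show algebraMap ↥(lg_E L (N' * q)) ↥(lg_E L (N' * q * q))
        (algebraMap ↥(lg_E L N') ↥(lg_E L (N' * q)) (algebraMap S ↥(lg_E L N') s)) = _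
      rw [← IsScalarTower.algebraMap_apply S ↥(lg_E L N') ↥(lg_E L (N' * q))]
  haveI fd1 : FiniteDimensional ↥(lg_E L N') ↥(lg_E L (N' * q)) :=
    s36ch_finiteDimensional_beta L N' q hq.out hq2 hqN'
  have hrank2 : Module.finrank ↥(lg_E L (N' * q)) ↥(lg_E L (N' * q * q)) = (q - 1) + 1 := by
    rw [s36vh_leg_finrank N' q hq2]
    have := hq.out.two_le
    omega
  haveI fd2 : FiniteDimensional ↥(lg_E L (N' * q)) ↥(lg_E L (N' * q * q)) :=
    ssm_gi_finiteDimensional hrank2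
  haveI cz : CharZero ↥(lg_E L N') :=
    charZero_of_injective_algebraMap (algebraMap L ↥(lg_E L N')).injective
  -- chart-level facts of level `N' q`
  haveI := ssm_go_isScalarTower O (lg_E L (N' * q))
  have hx1 : Transcendental L (lg_lamE (L := L) (N' * q)) :=
    lgf_lam_transcendental L (N' * q) two_ne_zero
  haveI : FiniteDimensional L⟮(lg_lamE (L := L) (N' * q))⟯ ↥(lg_E L (N' * q)) :=
    lgf_finite L (N' * q)
  have hx1A : Transcendental ↥O (lg_lamE (L := L) (N' * q)) :=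
    fc_ff_transcendental (L := L) hx1
  haveI : IsIntegrallyClosed (Algebra.adjoin ↥O ({lg_lamE (N' * q)} : Set ↥(lg_E L (N' * q)))) :=
    fc_ff_isIntegrallyClosed hx1A
  haveI : FaithfulSMul (Algebra.adjoin ↥O ({lg_lamE (N' * q)} : Set ↥(lg_E L (N' * q))))
      ↥(lg_E L (N' * q)) :=
    (faithfulSMul_iff_algebraMap_injective _ _).2 Subtype.val_injective
  have H1 := ssm_gl_hyp O hπ N' q hq2 hqN' hp1
  have hC1 := ssm_tp_ff_chart (A0 := ↥O) (L := L) (F0 := ↥(lg_E L (N' * q))) hπ hx1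
  have hP1 : ∀ b ∈ ssm_tp_P (fc_chart ↥O ({lg_lamE (N' * q)} : Set ↥(lg_E L (N' * q))))
      (ssm_gl_V2 O hπ N' q hq2 hqN'), (b : ↥(lg_E L (N' * q))) ∈
        (ssm_gl_V2 O hπ N' q hq2 hqN').nonunits := fun b hb => (H1.mem_P2 hC1).1 hb
  have hP2 : ∀ b ∈ ssm_tp_P (fc_chart ↥O ({lg_lamE (N' * q)} : Set ↥(lg_E L (N' * q))))
      (ssm_gl_V1 O hπ N' q), (b : ↥(lg_E L (N' * q))) ∈
        (ssm_gl_V1 O hπ N' q).nonunits := fun b hb => (H1.mem_P1 hC1).1 hb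
  have locF : ∀ x ∈ ssm_gl_V1 O hπ N' q,
      ∃ y : fc_chart ↥O ({lg_lamE (N' * q)} : Set ↥(lg_E L (N' * q))),
        (y : ↥(lg_E L (N' * q))) ∉ (ssm_gl_V1 O hπ N' q).nonunits ∧
        (y : ↥(lg_E L (N' * q))) * x ∈
          fc_chart ↥O ({lg_lamE (N' * q)} : Set ↥(lg_E L (N' * q))) := by
    intro x hx
    obtain ⟨t, ht, h1, h2⟩ := (H1.chart_loc1 hC1).1 hx
    exact ⟨⟨t, ht⟩, h1, h2⟩
  -- the two valuation rings of `E₁` over `V0` through `β`
  obtain ⟨hα1, hα2, hα3, hα4⟩ := s36cy_alpha_cases (lg_E L N') (lg_E L (N' * q))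
    (ssm_al_E_le L N' q)
    (gq_valSubOf ((q : ℕ) : O) hπ.ne_zero hπ.maximalIdeal_eq (lg_E L N')
      ((ssm_al_E_le L N' q).trans (ssm_ga_E_le_quotField O (N' * q))))
    (ssm_gl_data O hπ N' q hq2 hqN')
  have hβW : ∀ x : ↥(lg_E L N'), algebraMap ↥(lg_E L N') ↥(lg_E L (N' * q)) x =
      ssm_gl_W L N' q hq2 hqN' (IntermediateField.inclusion (ssm_al_E_le L N' q) x) := by
    intro x
    apply Subtype.ext
    rw [s36ch_algBeta_apply, s36mc_coe_beta]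
    exact (ssm_al_coe_WE_of_mem L N' q hq.out hq2 hqN' x.2 _).symm
  obtain ⟨cF, cV, only1⟩ := s36cy_beta_cases
    (IntermediateField.inclusion (ssm_al_E_le L N' q)).toRingHom
    (algebraMap ↥(lg_E L N') ↥(lg_E L (N' * q))) (ssm_gl_W L N' q hq2 hqN')
    (ssm_al_WE_WE L N' q hq.out hq2 hqN') hβW hα1 hα2 hα4
  -- `π`
  haveI hP1p := H1.P2_isPrime hC1
  haveI hP2p := H1.P1_isPrime hC1
  have hqB' : ((q : ℕ) : fc_chart ↥O ({lg_lamE N'} : Set ↥(lg_E L N'))) =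
      algebraMap ↥O (fc_chart ↥O ({lg_lamE N'} : Set ↥(lg_E L N'))) ((q : ℕ) : O) :=
    (map_natCast _ q).symm
  have hqy0 : ((q : ℕ) : fc_chart ↥O ({lg_lamE N'} : Set ↥(lg_E L N'))) ∈ y0 :=
    H.hc1 (Ideal.mem_comap.2 H.pi_mem1)
  have hπS : Prime (algebraMap (fc_chart ↥O ({lg_lamE N'} : Set ↥(lg_E L N'))) S
      ((q : ℕ) : fc_chart ↥O ({lg_lamE N'} : Set ↥(lg_E L N')))) :=
    s36cy_prime_loc y0 S (hqB' ▸ hp1) hqy0
  have hπE1 : algebraMap S ↥(lg_E L (N' * q))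
      (algebraMap (fc_chart ↥O ({lg_lamE N'} : Set ↥(lg_E L N'))) S
        ((q : ℕ) : fc_chart ↥O ({lg_lamE N'} : Set ↥(lg_E L N')))) =
      ((q : ℕ) : ↥(lg_E L (N' * q))) := by
    rw [map_natCast, map_natCast]
  -- the rings `RF = VF`, `RV = VV`
  have hRF : ∀ y : ↥(lg_E L (N' * q)), y ∈ ssm_gl_V1 O hπ N' q ↔
      y ∈ (algebraMap ↥(ssm_gl_V1 O hπ N' q) ↥(lg_E L (N' * q))).range := fun y =>
    (ssm_gi_mem_range _ y).symm
  have hRV : ∀ y : ↥(lg_E L (N' * q)), y ∈ s36i_VV O hπ N' q hq2 hqN' ↔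
      y ∈ (algebraMap ↥(s36i_VV O hπ N' q hq2 hqN') ↥(lg_E L (N' * q))).range := fun y =>
    (ssm_gi_mem_range _ y).symm
  have hπF' : algebraMap ↥(ssm_gl_V1 O hπ N' q) ↥(lg_E L (N' * q)) πF =
      algebraMap S ↥(lg_E L (N' * q))
        (algebraMap (fc_chart ↥O ({lg_lamE N'} : Set ↥(lg_E L N'))) S
          ((q : ℕ) : fc_chart ↥O ({lg_lamE N'} : Set ↥(lg_E L N')))) := by
    rw [hπE1]
    apply Subtype.ext
    exact hπF.trans rfl
  have hqE1 : ((q : ℕ) : ↥(lg_E L (N' * q))) ≠ 0 := by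
    haveI : CharZero ↥(lg_E L (N' * q)) :=
      charZero_of_injective_algebraMap (algebraMap L ↥(lg_E L (N' * q))).injective
    exact Nat.cast_ne_zero.2 (NeZero.ne q)
  have hπA : algebraMap (Algebra.adjoin ↥O ({lg_lamE (N' * q)} : Set ↥(lg_E L (N' * q))))
      ↥(lg_E L (N' * q))
      (algebraMap ↥O (Algebra.adjoin ↥O ({lg_lamE (N' * q)} : Set ↥(lg_E L (N' * q))))
        ((q : ℕ) : O)) = ((q : ℕ) : ↥(lg_E L (N' * q))) := by
    rw [map_natCast, map_natCast]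
  obtain ⟨πV, hπVc, hπV⟩ := s36cy_irreducible_of_unif (s36i_VV O hπ N' q hq2 hqN')
    ((q : ℕ) : ↥(lg_E L (N' * q))) hqE1 (hπA ▸ H1.over2.pi_mem)
    (fun z hz => by
      have h := H1.unif2 z hz
      rwa [hπA] at h)
  have hπV' : algebraMap ↥(s36i_VV O hπ N' q hq2 hqN') ↥(lg_E L (N' * q)) πV =
      algebraMap S ↥(lg_E L (N' * q))
        (algebraMap (fc_chart ↥O ({lg_lamE N'} : Set ↥(lg_E L N'))) S
          ((q : ℕ) : fc_chart ↥O ({lg_lamE N'} : Set ↥(lg_E L N')))) := by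
    rw [hπE1]
    exact hπVc
  -- the packages of level `N' q q`
  haveI sep2 : Algebra.IsSeparable ↥(lg_E L (N' * q)) ↥(lg_E L (N' * q * q)) := ssm_gi_isSeparable
  have T' : s36t3_Third ↥(lg_E L (N' * q)) ↥(ssm_gl_V1 O hπ N' q) q πF zl
      (s36i_VA O hπ (N' * q) q) VC := T
  have DB := s36i_leg_dataB O hπ N' q hq2 hqN'
  have hWW : ∀ y, s36i_W2 L N' q hq2 hqN' (s36i_W2 L N' q hq2 hqN' y) = y :=
    s36w_WE_WE L N' q hq.out hq2 hqN'
  have hVB : s36i_VB O hπ N' q hq2 hqN' = (s36i_VA O hπ (N' * q) q).comap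
      (s36i_W2 L N' q hq2 hqN' : ↥(lg_E L (N' * q * q)) →+* ↥(lg_E L (N' * q * q))) := rfl
  have hVC : VC.comap (s36i_W2 L N' q hq2 hqN' :
      ↥(lg_E L (N' * q * q)) →+* ↥(lg_E L (N' * q * q))) = VC :=
    s36i_leg_W2_VC O hπ N' q hq2 hqN' VC T'.overC T'.ne T'.only
  have W2S : ∀ s : S, s36i_W2 L N' q hq2 hqN' (algebraMap S ↥(lg_E L (N' * q * q)) s) =
      algebraMap S ↥(lg_E L (N' * q * q)) s := by
    intro s
    apply Subtype.ext
    exact s36w_coe_WE_mid_of_mem L N' q hq.out hq2 hqN' (algebraMap S ↥(lg_E L N') s).2 _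
  -- `λ`
  have hlamF : lg_lamE (L := L) (N' * q) ∈ ssm_gl_V1 O hπ N' q :=
    hC1.le H1.over1 (fc_x_mem_chart _)
  have hW2lam : s36i_W2 L N' q hq2 hqN'
      (algebraMap ↥(lg_E L (N' * q)) ↥(lg_E L (N' * q * q)) (lg_lamE (N' * q))) -
      algebraMap ↥(lg_E L (N' * q)) ↥(lg_E L (N' * q * q)) (lg_lamE (N' * q)) = zl := by
    apply Subtype.ext
    rw [hzl, AddSubgroupClass.coe_sub]
    congr 1
    exact s36w_coe_WE_lam L N' q hq.out hq2 hqN' _
  -- the polynomial `Gp` over `S`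
  set fOS : ↥O →+* S := (algebraMap (fc_chart ↥O ({lg_lamE N'} : Set ↥(lg_E L N'))) S).comp
    (algebraMap ↥O (fc_chart ↥O ({lg_lamE N'} : Set ↥(lg_E L N')))) with hfOS
  have hcomp : (algebraMap S ↥(lg_E L (N' * q))).comp fOS = algebraMap ↥O ↥(lg_E L (N' * q)) := by
    refine RingHom.ext fun o => ?_
    show algebraMap S ↥(lg_E L (N' * q))
      (algebraMap (fc_chart ↥O ({lg_lamE N'} : Set ↥(lg_E L N'))) S
        (algebraMap ↥O (fc_chart ↥O ({lg_lamE N'} : Set ↥(lg_E L N'))) o)) = _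
    rw [IsScalarTower.algebraMap_apply S ↥(lg_E L N') ↥(lg_E L (N' * q)),
      ← IsScalarTower.algebraMap_apply (fc_chart ↥O ({lg_lamE N'} : Set ↥(lg_E L N'))) S
        ↥(lg_E L N')]
    exact (s36mc_beta L N' q hq2).commutes (o : L)
  have haev : ∀ p : (↥O)[X], aeval (lg_lamE (L := L) (N' * q)) (p.map fOS) =
      aeval (lg_lamE (L := L) (N' * q)) p := by
    intro p
    rw [Polynomial.aeval_def, Polynomial.eval₂_map, hcomp, ← Polynomial.aeval_def]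
  have huG' : (u : ↥(lg_E L (N' * q))) = aeval (lg_lamE (L := L) (N' * q)) (Gp.map fOS) := by
    rw [haev]
    exact huG
  have hGp'' : aeval (lg_lamE (L := L) (N' * q)) (derivative (Gp.map fOS)) ∉
      (ssm_gl_V1 O hπ N' q).nonunits := by
    rw [Polynomial.derivative_map, haev]
    exact hGp'
  -- `hunr`
  have hunr := s36ch_leg_hunr L N' q O hq.out hq2 hqN' hπ hram (S := S) lam' hlam hy0 hy1
  have hunr' : ∀ (n : ℕ) (b : Module.Basis (Fin n) S (integralClosure S ↥(lg_E L (N' * q))))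
      (𝔭 : Ideal S), 𝔭.IsPrime → 𝔭.height = 1 →
      algebraMap (fc_chart ↥O ({lg_lamE N'} : Set ↥(lg_E L N'))) S
        ((q : ℕ) : fc_chart ↥O ({lg_lamE N'} : Set ↥(lg_E L N'))) ∉ 𝔭 →
      Algebra.discr S b ∉ 𝔭 := by
    intro n b 𝔭 h1 h2 h3
    refine hunr n b 𝔭 h1 h2 ?_
    rwa [map_natCast] at h3
  -- the chart map `φ2`
  have hφ2 : ∀ b' : fc_chart ↥O ({lg_lamE N'} : Set ↥(lg_E L N')),
      ((((s36tn_leg_iota O N' q).comp φ1) b' :
        fc_chart ↥O ({lg_lamE (N' * q * q)} : Set ↥(lg_E L (N' * q * q)))) :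
        ↥(lg_E L (N' * q * q))) =
      algebraMap ↥(lg_E L N') ↥(lg_E L (N' * q * q)) (b' : ↥(lg_E L N')) := by
    intro b'
    rw [RingHom.comp_apply, s36tn_leg_iota_coe, H.hφ]
    rfl
  have hint2 : ((s36tn_leg_iota O N' q).comp φ1).IsIntegral :=
    RingHom.IsIntegral.trans _ _ H.hint (s36tn_leg_iota_isIntegral O N' q)
  have hBcl2 : ∀ z : ↥(lg_E L (N' * q * q)),
      IsIntegral (fc_chart ↥O ({lg_lamE N'} : Set ↥(lg_E L N'))) z →
      z ∈ fc_chart ↥O ({lg_lamE (N' * q * q)} : Set ↥(lg_E L (N' * q * q))) :=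
    s36cy_hBcl _ hφ2 (s36cy_chart_closed _)
  -- the chart of level `N' q q`
  haveI := ssm_go_isScalarTower O (lg_E L (N' * q * q))
  have hx2 : Transcendental L (lg_lamE (L := L) (N' * q * q)) :=
    lgf_lam_transcendental L (N' * q * q) two_ne_zero
  haveI : FiniteDimensional L⟮(lg_lamE (L := L) (N' * q * q))⟯ ↥(lg_E L (N' * q * q)) :=
    lgf_finite L (N' * q * q)
  haveI hfr2 := s36cp_chart_isFractionRing O (L := L) (N' * q * q)
  haveI hno2 : IsNoetherianRing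
      ↥(fc_chart ↥O ({lg_lamE (N' * q * q)} : Set ↥(lg_E L (N' * q * q)))) :=
    ssm_ths_chart_isNoetherianRing (A0 := ↥O) (L := L) hx2
  haveI hic2 : IsIntegrallyClosed
      ↥(fc_chart ↥O ({lg_lamE (N' * q * q)} : Set ↥(lg_E L (N' * q * q)))) :=
    ssm_ths_chart_isIntegrallyClosed (A0 := ↥O) (L := L) _
  haveI tO : IsScalarTower ↥O ↥(lg_E L N') ↥(lg_E L (N' * q * q)) :=
    IsScalarTower.of_algebraMap_eq fun o => by
      show algebraMap ↥O ↥(lg_E L (N' * q * q)) o =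
        algebraMap ↥(lg_E L (N' * q)) ↥(lg_E L (N' * q * q))
          (s36mc_beta L N' q hq2 (algebraMap L ↥(lg_E L N') (o : L)))
      rw [(s36mc_beta L N' q hq2).commutes (o : L)]
      rfl
  have hϖ0 : algebraMap ↥O ↥(lg_E L (N' * q * q)) ((q : ℕ) : O) ≠ 0 := by
    rw [map_natCast]
    haveI : CharZero ↥(lg_E L (N' * q * q)) :=
      charZero_of_injective_algebraMap (algebraMap L ↥(lg_E L (N' * q * q))).injective
    exact Nat.cast_ne_zero.2 (NeZero.ne q)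
  have hq3 : 3 ≤ q := by
    have h2 := hq.out.two_le
    rcases Nat.lt_or_ge 2 q with h | h
    · exact h
    · exact absurd (by rw [le_antisymm h h2] : 2 ∣ q) hq2
  exact s36cx_oneBranch (K := ↥(lg_E L N')) (E1 := ↥(lg_E L (N' * q)))
    (E2 := ↥(lg_E L (N' * q * q))) hq3 H (s36ch_finrank_beta L N' q hq.out hq2 hqN') hπS h0
    (s36cy_V0_unif hπS h0) (s36cy_V0_loc hπS h0) hP1 hP2 hα3 only1 cF cV locF hRF hRV πF hπF'
    πV hπV hπV' T' DB (s36i_W2 L N' q hq2 hqN') hWW W2S hVB hVC (lg_lamE (N' * q)) hlamF hW2lam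
    (Gp.map fOS) huG' hGp'' hunr' hφ2 hint2 hBcl2 ((q : ℕ) : O) hqB' hϖ0 𝔫 h𝔫 hC𝔫 (q ^ 2)
    ((Nat.sub_le q 1).trans (Nat.le_self_pow two_ne_zero q))

end Leg

end Fermat.Agent.S36
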