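/-
Project S36 (Carayol), model cell [M2], leaf **[C-CUSP-EIS]** = [L3c], LEGENDRE INSTANCE, LAYER 1
(helper15; twin of helper2's `s36cy_leg_point`, S36/CReg/PointLeg.lean).  Prefix `s36cfl_`.

`s36cfl_leg_point` : the instantiation of helper5's `s36cf_oneBranch_loc`
(S36/CReg/CuspEisSLoc.lean) on the Legendre tower
`K = lg_E L N' →(β) E₁ = lg_E L (N' q) ⊆ E₂ = lg_E L (N' q q)` ([LEG-CTX], GENERAL uniformiser `π`
with `q = π u₀`, `u₀` a unit: unramified base), charts `B' = fc_chart O {λ}` (level `N'`), `B₁`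
(level `N' q`), `B₂` (level `N' q q`), `ψ = s36tn_leg_iota : B₁ → B₂`, `φ1 : B' → B₁` ANY chart map
through `β`, `y0` a maximal ideal of `B'` containing `π` (a CUSP).  From

* the Frobenius congruence through `β` (`hpow`) and the cusp parameter `t₁` of `B'` at `y0` (`hgen0`),
* the third-valuation package `T3 : s36asm_Third` ([V3-ASM]) and the [TP3] package `H3` at level
  `N' q q`,
* the cusp data of helper23 / helper6 / helper27 (`hgen hdomπ hdomu xc e' xc0 hrel he'1 he'n hxcP2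
  hR1 hR2 hT2`),

every prime `𝔫` of `B₂` over `y0` lying on the component `C` ONLY (`hC hA hB`, helper24's dispatch
spelling) satisfies the ONE-BRANCH clause `s36g_PtOne π q B₂ 𝔫`.

Everything else is discharged from main: `(B')_{y0} ⊆ V₀` (`s36cfl_ff_base`: `B' ⊆ V₀`,
`𝔪(V₀) ∩ B' = π B'`), the valuation rings through `β` (helper26's `s36i_leg_cV`), `hP1 hP2 hP2' hB1F`
(`ssm_gl_hyp`), `oA oC W2VA hVC W2K` (helper26's `Ins1/FactsCusp.lean`), the chart map `ψ`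
(`s36tn_leg_iota`), the chart instances, the [TP3] block (`ssm_tp_ff_chart`).
-/
import Mathlib
import Fermat.Agent.S36.CReg.CuspEisSLoc
import Fermat.Agent.S36.CReg.PointLeg
import Fermat.Agent.S36.Ins1.FactsCusp
import Fermat.Agent.S36.Model.AsmLegFinal
import Fermat.Agent.S36.Glue.Main

set_option autoImplicit false
set_option linter.unusedSectionVars false
set_option linter.unusedVariables false
set_option linter.style.haveILetI false

noncomputable section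

open ModularCurve IntermediateField IsLocalRing Polynomial
open Fermat.Agent.JT3 Fermat.Agent.SS

namespace Fermat.Agent.S36

section FunField

universe v

variable {A0 L : Type*} {F0 : Type v} [CommRing A0] [IsDomain A0] [IsDiscreteValuationRing A0]
  [Field L] [Field F0] [Algebra A0 L] [IsFractionRing A0 L] [CharZero L] [Algebra L F0]
  [Algebra A0 F0] [IsScalarTower A0 L F0]

/-- **the base chart under its Gauss valuation**: `B := fc_chart A0 {y}` with `π` prime on `B`, `V`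
over the Gauss ring of `A0[y]`.  Then `B ⊆ V` and `𝔪(V) ∩ B = π B`. -/
theorem s36cfl_ff_base {π : A0} {y : F0} (hy : Transcendental L y)
    (hπB : Prime (algebraMap A0 ↥(fc_chart A0 ({y} : Set F0)) π)) {V : ValuationSubring F0}
    (hV : ssm_tp_Over (algebraMap A0 (Algebra.adjoin A0 ({y} : Set F0)) π) V) :
    (∀ b : fc_chart A0 ({y} : Set F0), (b : F0) ∈ V) ∧
    (∀ b : fc_chart A0 ({y} : Set F0), (b : F0) ∈ V.nonunits →
      algebraMap A0 ↥(fc_chart A0 ({y} : Set F0)) π ∣ b) := by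
  have hyA : Transcendental A0 y := fc_ff_transcendental (L := L) hy
  haveI : IsIntegrallyClosed (Algebra.adjoin A0 ({y} : Set F0)) := fc_ff_isIntegrallyClosed hyA
  haveI : FaithfulSMul (Algebra.adjoin A0 ({y} : Set F0)) F0 :=
    (faithfulSMul_iff_algebraMap_injective _ _).2 Subtype.val_injective
  have hπ0 : algebraMap A0 ↥(fc_chart A0 ({y} : Set F0)) π ≠ 0 := hπB.ne_zero
  have hπ00 : algebraMap A0 (Algebra.adjoin A0 ({y} : Set F0)) π ≠ 0 := by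
    intro h0
    apply hπ0
    apply Subtype.ext
    have := congrArg Subtype.val h0
    exact this
  have hp : ssm_tpw_PrimeInt (Algebra.adjoin A0 ({y} : Set F0)) F0
      (algebraMap A0 (Algebra.adjoin A0 ({y} : Set F0)) π) :=
    ssm_tpw_primeInt_of_prime (fc_chart A0 ({y} : Set F0)) (fun _ => Iff.rfl)
      (algebraMap A0 ↥(fc_chart A0 ({y} : Set F0)) π) rfl hπB
  refine ⟨fun b => ssm_tp_mem_of_isIntegral V hV.le b.2, fun b hb => ?_⟩
  obtain ⟨d, hd, hbd⟩ := ssm_tpw_centre hV hπ00 hp b.2 hb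
  exact ⟨⟨d, hd⟩, Subtype.ext hbd⟩

end FunField

section Leg

variable {L : Type*} [Field L] [CharZero L] [Algebra L (AlgebraicClosure ℚ)]
  (O : ValuationSubring L) [IsDiscreteValuationRing O] {π : O} (hπ : Irreducible π)
variable (N' q : ℕ) [NeZero N'] [NeZero q] [hq : Fact q.Prime] [CharP (ResidueField O) q]
  (hq2 : ¬ 2 ∣ q) (hqN' : ¬ q ∣ N')

include hq2 in
/-- **the base chart of level `N'` under its Gauss valuation `V₀`.** -/
theorem s36cfl_leg_base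
    (hp1 : Prime (algebraMap ↥O (fc_chart ↥O ({lg_lamE N'} : Set ↥(lg_E L N'))) π)) :
    (∀ b : fc_chart ↥O ({lg_lamE N'} : Set ↥(lg_E L N')),
      (b : ↥(lg_E L N')) ∈ s36i_leg_V0 O hπ N') ∧
    (∀ b : fc_chart ↥O ({lg_lamE N'} : Set ↥(lg_E L N')),
      (b : ↥(lg_E L N')) ∈ (s36i_leg_V0 O hπ N').nonunits →
        algebraMap ↥O ↥(fc_chart ↥O ({lg_lamE N'} : Set ↥(lg_E L N'))) π ∣ b) := by
  haveI := ssm_go_isScalarTower O (lg_E L N')
  have hx0 : Transcendental L (lg_lamE (L := L) N') := lgf_lam_transcendental L N' two_ne_zero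
  have hover0 : ssm_tp_Over
      (algebraMap ↥O (Algebra.adjoin ↥O ({lg_lamE N'} : Set ↥(lg_E L N'))) π)
      (s36i_leg_V0 O hπ N') :=
    ssm_go_over O (lg_E L N') (hm_lam O) (lg_lamE N') (hm_coeffMap_lam _).symm hπ
      (ssm_ga_E_le_quotField O N') one_ne_zero
      (ssm_ga_lam_coeff_one O (ssm_gl_two_ne_zero O q hq2))
  exact s36cfl_ff_base (A0 := ↥O) (L := L) hx0 hp1 hover0

set_option synthInstance.maxHeartbeats 200000 in
set_option maxHeartbeats 1600000 in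
/-- **[L3c], Legendre tower, layer 1** (chart `{λ}`). -/
theorem s36cfl_leg_point (u0 : ↥O) (hu0 : IsUnit u0) (hqu : ((q : ℕ) : ↥O) = π * u0)
    (hp1 : Prime (algebraMap ↥O (fc_chart ↥O ({lg_lamE N'} : Set ↥(lg_E L N'))) π))
    {y0 : Ideal (fc_chart ↥O ({lg_lamE N'} : Set ↥(lg_E L N')))} [y0.IsPrime]
    (φ1 : fc_chart ↥O ({lg_lamE N'} : Set ↥(lg_E L N')) →+*
      fc_chart ↥O ({lg_lamE (N' * q)} : Set ↥(lg_E L (N' * q))))
    (hφ : ∀ b' : fc_chart ↥O ({lg_lamE N'} : Set ↥(lg_E L N')),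
      ((φ1 b' : fc_chart ↥O ({lg_lamE (N' * q)} : Set ↥(lg_E L (N' * q)))) :
        ↥(lg_E L (N' * q))) = s36mc_beta L N' q hq2 (b' : ↥(lg_E L N')))
    (hφπ : φ1 (algebraMap ↥O (fc_chart ↥O ({lg_lamE N'} : Set ↥(lg_E L N'))) π) =
      algebraMap ↥O (fc_chart ↥O ({lg_lamE (N' * q)} : Set ↥(lg_E L (N' * q)))) π)
    (hint : φ1.IsIntegral) (hy0 : y0.IsMaximal)
    (hπy0 : algebraMap ↥O (fc_chart ↥O ({lg_lamE N'} : Set ↥(lg_E L N'))) π ∈ y0)
    (hpow : ∀ b : fc_chart ↥O ({lg_lamE (N' * q)} : Set ↥(lg_E L (N' * q))),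
      ∃ b' : fc_chart ↥O ({lg_lamE N'} : Set ↥(lg_E L N')), b ^ q - φ1 b' ∈
        ssm_tp_P (fc_chart ↥O ({lg_lamE (N' * q)} : Set ↥(lg_E L (N' * q))))
          (ssm_gl_V1 O hπ N' q))
    {t1 : fc_chart ↥O ({lg_lamE N'} : Set ↥(lg_E L N'))}
    (hgen0 : tq_GenBy (algebraMap ↥O (fc_chart ↥O ({lg_lamE N'} : Set ↥(lg_E L N'))) π) t1 y0)
    {VC : ValuationSubring ↥(lg_E L (N' * q * q))}
    (T3 : s36asm_Third O hπ N' q hq2 hqN' VC)
    (H3 : s36tp_Hyp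
      (algebraMap ↥O
        (Algebra.adjoin ↥O ({lg_lamE (N' * q * q)} : Set ↥(lg_E L (N' * q * q)))) π)
      ![s36i_VA O hπ (N' * q) q, s36i_VB O hπ N' q hq2 hqN', VC] ![1, 1, q - 1])
    (𝔫 : Ideal (fc_chart ↥O ({lg_lamE (N' * q * q)} : Set ↥(lg_E L (N' * q * q)))))
    [𝔫.IsPrime] (h𝔫 : (𝔫.comap (s36tn_leg_iota O N' q)).comap φ1 = y0)
    (hC : ssm_tp_P (fc_chart ↥O ({lg_lamE (N' * q * q)} : Set ↥(lg_E L (N' * q * q)))) VC ≤ 𝔫)
    (hA : ¬ ssm_tp_P (fc_chart ↥O ({lg_lamE (N' * q * q)} : Set ↥(lg_E L (N' * q * q))))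
      (s36i_VA O hπ (N' * q) q) ≤ 𝔫)
    (hB : ¬ ssm_tp_P (fc_chart ↥O ({lg_lamE (N' * q * q)} : Set ↥(lg_E L (N' * q * q))))
      (s36i_VB O hπ N' q hq2 hqN') ≤ 𝔫)
    {u : fc_chart ↥O ({lg_lamE (N' * q)} : Set ↥(lg_E L (N' * q)))}
    (hgen : tq_GenBy (algebraMap ↥O (fc_chart ↥O ({lg_lamE (N' * q)} :
        Set ↥(lg_E L (N' * q)))) π) u (𝔫.comap (s36tn_leg_iota O N' q)))
    (hdomπ : tq_Dom (algebraMap ↥O (fc_chart ↥O ({lg_lamE (N' * q)} :
        Set ↥(lg_E L (N' * q)))) π) (𝔫.comap (s36tn_leg_iota O N' q)))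
    (hdomu : tq_Dom u (𝔫.comap (s36tn_leg_iota O N' q)))
    (xc e' : fc_chart ↥O ({lg_lamE (N' * q)} : Set ↥(lg_E L (N' * q))))
    (xc0 : fc_chart ↥O ({lg_lamE N'} : Set ↥(lg_E L N')))
    (hrel : e' * xc = (φ1 xc0) ^ q)
    (he'1 : e' - 1 ∈ ssm_tp_P (fc_chart ↥O ({lg_lamE (N' * q)} : Set ↥(lg_E L (N' * q))))
      (ssm_gl_V2 O hπ N' q hq2 hqN'))
    (he'n : e' ∈ 𝔫.comap (s36tn_leg_iota O N' q))
    (hxcP2 : xc ∉ ssm_tp_P (fc_chart ↥O ({lg_lamE (N' * q)} : Set ↥(lg_E L (N' * q))))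
      (ssm_gl_V1 O hπ N' q))
    (hR1 : ∃ (e : ℕ) (s w : fc_chart ↥O ({lg_lamE (N' * q)} : Set ↥(lg_E L (N' * q)))),
      0 < e ∧ s ∉ 𝔫.comap (s36tn_leg_iota O N' q) ∧ w ∉ 𝔫.comap (s36tn_leg_iota O N' q) ∧
        s * xc = w * u ^ e)
    (hR2 : ∃ (e : ℕ) (s w : fc_chart ↥O ({lg_lamE N'} : Set ↥(lg_E L N'))),
      s ∉ y0 ∧ w ∉ y0 ∧ s * xc0 = w * t1 ^ e)
    (hT2 : ∃ s w : fc_chart ↥O ({lg_lamE (N' * q)} : Set ↥(lg_E L (N' * q))),
      s ∉ 𝔫.comap (s36tn_leg_iota O N' q) ∧ w ∉ 𝔫.comap (s36tn_leg_iota O N' q) ∧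
        s * φ1 t1 = w * u ^ q) :
    haveI := s36cp_chart_isFractionRing O (N' * q * q)
    s36g_PtOne π q
      (fc_chart ↥O ({lg_lamE (N' * q * q)} : Set ↥(lg_E L (N' * q * q)))) 𝔫 := by
  letI aβ := s36ch_algBeta L N' q hq2
  letI a12 := ssm_gi_algebra (ssm_al_E_le L (N' * q) q)
  letI aF := ssm_gi_algebraV (ssm_al_E_le L (N' * q) q) (ssm_gl_V1 O hπ N' q)
  haveI tF := ssm_gi_isScalarTower (ssm_al_E_le L (N' * q) q) (ssm_gl_V1 O hπ N' q)
  letI aK2 : Algebra ↥(lg_E L N') ↥(lg_E L (N' * q * q)) :=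
    ((algebraMap ↥(lg_E L (N' * q)) ↥(lg_E L (N' * q * q))).comp
      (algebraMap ↥(lg_E L N') ↥(lg_E L (N' * q)))).toAlgebra
  haveI tK : IsScalarTower ↥(lg_E L N') ↥(lg_E L (N' * q)) ↥(lg_E L (N' * q * q)) :=
    IsScalarTower.of_algebraMap_eq fun _ => rfl
  haveI fd1 : FiniteDimensional ↥(lg_E L N') ↥(lg_E L (N' * q)) :=
    s36ch_finiteDimensional_beta L N' q hq.out hq2 hqN'
  have hq1 : q - 1 + 1 = q := Nat.sub_add_cancel hq.out.one_le
  have hrank2' : Module.finrank ↥(lg_E L (N' * q)) ↥(lg_E L (N' * q * q)) = q :=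
    s36vh_leg_finrank N' q hq2
  haveI fd2 : FiniteDimensional ↥(lg_E L (N' * q)) ↥(lg_E L (N' * q * q)) :=
    ssm_gi_finiteDimensional (n := q - 1) (by rw [hq1]; exact hrank2')
  haveI cz : CharZero ↥(lg_E L N') :=
    charZero_of_injective_algebraMap (algebraMap L ↥(lg_E L N')).injective
  -- the chart of level `N'`
  haveI := ssm_go_isScalarTower O (lg_E L N')
  have hx0 : Transcendental L (lg_lamE (L := L) N') := lgf_lam_transcendental L N' two_ne_zero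
  haveI : FiniteDimensional L⟮(lg_lamE (L := L) N')⟯ ↥(lg_E L N') := lgf_finite L N'
  haveI hfr0 := s36cp_chart_isFractionRing O (L := L) N'
  haveI hno0 : IsNoetherianRing ↥(fc_chart ↥O ({lg_lamE N'} : Set ↥(lg_E L N'))) :=
    ssm_ths_chart_isNoetherianRing (A0 := ↥O) (L := L) hx0
  haveI hic0 : IsIntegrallyClosed ↥(fc_chart ↥O ({lg_lamE N'} : Set ↥(lg_E L N'))) :=
    ssm_ths_chart_isIntegrallyClosed (A0 := ↥O) (L := L) _
  -- chart-level facts of level `N' q`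
  haveI := ssm_go_isScalarTower O (lg_E L (N' * q))
  have hx1 : Transcendental L (lg_lamE (L := L) (N' * q)) :=
    lgf_lam_transcendental L (N' * q) two_ne_zero
  haveI : FiniteDimensional L⟮(lg_lamE (L := L) (N' * q))⟯ ↥(lg_E L (N' * q)) :=
    lgf_finite L (N' * q)
  have hx1A : Transcendental ↥O (lg_lamE (L := L) (N' * q)) :=
    fc_ff_transcendental (L := L) hx1
  haveI : IsIntegrallyClosed (Algebra.adjoin ↥O ({lg_lamE (N' * q)} : Set ↥(lg_E L (N' * q)))) :=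
    fc_ff_isIntegrallyClosed hx1A
  haveI : FaithfulSMul (Algebra.adjoin ↥O ({lg_lamE (N' * q)} : Set ↥(lg_E L (N' * q))))
      ↥(lg_E L (N' * q)) :=
    (faithfulSMul_iff_algebraMap_injective _ _).2 Subtype.val_injective
  haveI hfr1 := s36cp_chart_isFractionRing O (L := L) (N' * q)
  haveI hno1 : IsNoetherianRing
      ↥(fc_chart ↥O ({lg_lamE (N' * q)} : Set ↥(lg_E L (N' * q)))) :=
    ssm_ths_chart_isNoetherianRing (A0 := ↥O) (L := L) hx1
  have H1 := ssm_gl_hyp O hπ N' q hq2 hqN' hp1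
  have hC1 := ssm_tp_ff_chart (A0 := ↥O) (L := L) (F0 := ↥(lg_E L (N' * q))) hπ hx1
  have hP1 : ∀ b ∈ ssm_tp_P (fc_chart ↥O ({lg_lamE (N' * q)} : Set ↥(lg_E L (N' * q))))
      (ssm_gl_V2 O hπ N' q hq2 hqN'), (b : ↥(lg_E L (N' * q))) ∈
        (ssm_gl_V2 O hπ N' q hq2 hqN').nonunits := fun b hb => (H1.mem_P2 hC1).1 hb
  have hP2 : ∀ b ∈ ssm_tp_P (fc_chart ↥O ({lg_lamE (N' * q)} : Set ↥(lg_E L (N' * q))))
      (ssm_gl_V1 O hπ N' q), (b : ↥(lg_E L (N' * q))) ∈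
        (ssm_gl_V1 O hπ N' q).nonunits := fun b hb => (H1.mem_P1 hC1).1 hb
  have hP2' : ∀ b : fc_chart ↥O ({lg_lamE (N' * q)} : Set ↥(lg_E L (N' * q))),
      (b : ↥(lg_E L (N' * q))) ∈ (ssm_gl_V1 O hπ N' q).nonunits →
      b ∈ ssm_tp_P (fc_chart ↥O ({lg_lamE (N' * q)} : Set ↥(lg_E L (N' * q))))
        (ssm_gl_V1 O hπ N' q) := fun b hb => (H1.mem_P1 hC1).2 hb
  have hB1F : ∀ b : fc_chart ↥O ({lg_lamE (N' * q)} : Set ↥(lg_E L (N' * q))),
      (b : ↥(lg_E L (N' * q))) ∈ ssm_gl_V1 O hπ N' q := fun b => hC1.le H1.over1 b.2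
  haveI hP1p := H1.P2_isPrime hC1
  haveI hP2p := H1.P1_isPrime hC1
  -- `(B')_{y0} ⊆ V₀ ⟹ β (B')_{y0} ⊆ VV`
  obtain ⟨hB'V, hy0V⟩ := s36cfl_leg_base O hπ N' q hq2 hp1
  have hSV : ∀ x : ↥(lg_E L N'), x ∈ ssl_locSub ↥(lg_E L N') y0 →
      algebraMap ↥(lg_E L N') ↥(lg_E L (N' * q)) x ∈ ssm_gl_V2 O hπ N' q hq2 hqN' :=
    s36cf_loc_mem_val (s36i_leg_V0 O hπ N') (ssm_gl_V2 O hπ N' q hq2 hqN') hB'V
      (fun b' hb' => by
        obtain ⟨d, rfl⟩ := hy0V b' hb'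
        exact y0.mul_mem_right _ hπy0)
      (fun x hx => (s36i_leg_cV O hπ N' q hq2 hqN' x).2 hx)
  -- `φ1 π ∈ P_VF`
  have hπP2 : φ1 (algebraMap ↥O (fc_chart ↥O ({lg_lamE N'} : Set ↥(lg_E L N'))) π) ∈
      ssm_tp_P (fc_chart ↥O ({lg_lamE (N' * q)} : Set ↥(lg_E L (N' * q))))
        (ssm_gl_V1 O hπ N' q) := by
    rw [hφπ]
    apply hP2'
    exact H1.over1.pi_mem
  -- `π' ~ q` on `B'`
  have hπq : Associated (algebraMap ↥O (fc_chart ↥O ({lg_lamE N'} : Set ↥(lg_E L N'))) π)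
      ((q : ℕ) : fc_chart ↥O ({lg_lamE N'} : Set ↥(lg_E L N'))) := by
    refine ⟨(hu0.map (algebraMap ↥O (fc_chart ↥O ({lg_lamE N'} : Set ↥(lg_E L N'))))).unit, ?_⟩
    rw [IsUnit.unit_spec, ← map_mul, ← hqu, map_natCast]
  -- the packages of level `N' q q`
  have T' : s36t3_Third ↥(lg_E L (N' * q)) ↥(ssm_gl_V1 O hπ N' q) q (s36at_leg_piF O hπ N' q)
      (s36asm_z (L := L) N' q hq2 hqN') (s36i_VA O hπ (N' * q) q) VC := T3
  have oA : ∀ x : ↥(lg_E L (N' * q)),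
      algebraMap ↥(lg_E L (N' * q)) ↥(lg_E L (N' * q * q)) x ∈ s36i_VA O hπ (N' * q) q ↔
        x ∈ ssm_gl_V1 O hπ N' q := fun x => s36i_leg_oA O hπ N' q x
  have oC : ∀ x : ↥(lg_E L (N' * q)),
      algebraMap ↥(lg_E L (N' * q)) ↥(lg_E L (N' * q * q)) x ∈ VC ↔
        x ∈ ssm_gl_V1 O hπ N' q := fun x => s36i_leg_oC O hπ N' q VC T'.overC x
  have hVC : VC.comap (s36i_W2 L N' q hq2 hqN' :
      ↥(lg_E L (N' * q * q)) →+* ↥(lg_E L (N' * q * q))) = VC :=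
    s36i_leg_hVC_of_third O hπ N' q hq2 hqN' T'
  have W2K : ∀ x : ↥(lg_E L N'), s36i_W2 L N' q hq2 hqN'
      (algebraMap ↥(lg_E L N') ↥(lg_E L (N' * q * q)) x) =
      algebraMap ↥(lg_E L N') ↥(lg_E L (N' * q * q)) x :=
    fun x => s36i_leg_W2_beta N' q hq2 hqN' x
  have W2VA : ∀ x : ↥(lg_E L (N' * q)), x ∈ (ssm_gl_V2 O hπ N' q hq2 hqN').nonunits →
      s36i_W2 L N' q hq2 hqN' (algebraMap ↥(lg_E L (N' * q)) ↥(lg_E L (N' * q * q)) x) ∈
        (s36i_VA O hπ (N' * q) q).nonunits :=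
    fun x hx => s36i_leg_W2VA O hπ N' q hq2 hqN' x hx
  -- the chart of level `N' q q`
  haveI := ssm_go_isScalarTower O (lg_E L (N' * q * q))
  have hx2 : Transcendental L (lg_lamE (L := L) (N' * q * q)) :=
    lgf_lam_transcendental L (N' * q * q) two_ne_zero
  haveI : FiniteDimensional L⟮(lg_lamE (L := L) (N' * q * q))⟯ ↥(lg_E L (N' * q * q)) :=
    lgf_finite L (N' * q * q)
  have hx2A : Transcendental ↥O (lg_lamE (L := L) (N' * q * q)) :=
    fc_ff_transcendental (L := L) hx2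
  haveI : IsIntegrallyClosed
      (Algebra.adjoin ↥O ({lg_lamE (N' * q * q)} : Set ↥(lg_E L (N' * q * q)))) :=
    fc_ff_isIntegrallyClosed hx2A
  haveI : FaithfulSMul (Algebra.adjoin ↥O ({lg_lamE (N' * q * q)} : Set ↥(lg_E L (N' * q * q))))
      ↥(lg_E L (N' * q * q)) :=
    (faithfulSMul_iff_algebraMap_injective _ _).2 Subtype.val_injective
  haveI hfr2 := s36cp_chart_isFractionRing O (L := L) (N' * q * q)
  haveI hno2 : IsNoetherianRing
      ↥(fc_chart ↥O ({lg_lamE (N' * q * q)} : Set ↥(lg_E L (N' * q * q)))) :=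
    ssm_ths_chart_isNoetherianRing (A0 := ↥O) (L := L) hx2
  haveI hic2 : IsIntegrallyClosed
      ↥(fc_chart ↥O ({lg_lamE (N' * q * q)} : Set ↥(lg_E L (N' * q * q)))) :=
    ssm_ths_chart_isIntegrallyClosed (A0 := ↥O) (L := L) _
  have hC3 := ssm_tp_ff_chart (A0 := ↥O) (L := L) (F0 := ↥(lg_E L (N' * q * q))) hπ hx2
  exact s36cf_oneBranch_loc (K := ↥(lg_E L N')) (E1 := ↥(lg_E L (N' * q)))
    (E2 := ↥(lg_E L (N' * q * q))) (ψ := s36tn_leg_iota O N' q)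
    (fun b' => (hφ b').trans (s36ch_algBeta_apply L N' q hq2 _).symm) hint hy0 hq.out hπP2 hpow
    hgen0 (s36ch_finrank_beta L N' q hq.out hq2 hqN') hrank2' hπq
    (fun b => s36tn_leg_iota_coe O N' q b) (s36tn_leg_iota_isIntegral O N' q)
    hSV hP1 hP2 hP2' hB1F oA oC (s36i_W2 L N' q hq2 hqN') W2K W2VA hVC H3 hC3
    (algebraMap ↥O (fc_chart ↥O ({lg_lamE (N' * q * q)} : Set ↥(lg_E L (N' * q * q)))) π) rfl
    𝔫 h𝔫 hC hA hB (by rw [hφπ]; exact hgen) (by rw [hφπ]; exact hdomπ) hdomu xc e' xc0 hrel he'1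
    he'n hxcP2 hR1 hR2 hT2

end Leg

end Fermat.Agent.S36
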