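/-
Project S36 (Carayol), cell [L3c] (helper24, for helper15's Legendre instance of helper5's
`s36cf_oneBranch`): THE [TP3] BLOCK of the cover-ring theorems `s36cf_oneBranch` / `s36cx_oneBranch`
as closed terms, for any chart `fc_chart A0 {y}` of a function field (so for both charts `{λ}`,
`{λ⁻¹}` of both towers).  Prefix `s36ctp_`.

`R3 := Algebra.adjoin A0 {y}`, `π3 := algebraMap A0 R3 π`, `ϖ := algebraMap A0 (fc_chart A0 {y}) π`,
`V3 := ![VA, VB, VC]`, `e3 := ![1, 1, q - 1]`, `i := 2`.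
-/
import Mathlib
import Fermat.Agent.S36.Glue.Dispatch

set_option autoImplicit false
set_option linter.unusedSectionVars false
set_option linter.unusedVariables false
set_option linter.style.haveILetI false

namespace Fermat.Agent.S36

open Fermat.Agent.SS Fermat.Agent.JT3 Fermat.Agent.S35 AlgebraicCurve

universe v

section FF

variable {A0 L : Type*} {F0 : Type v} [CommRing A0] [IsDomain A0] [IsDiscreteValuationRing A0]
  [Field L] [Field F0] [Algebra A0 L] [IsFractionRing A0 L] [CharZero L] [Algebra L F0]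
  [Algebra A0 F0] [IsScalarTower A0 L F0]

/-- `[IsIntegrallyClosed R3]` for `R3 := A0[y]`. -/
theorem s36ctp_isIntegrallyClosed {y : F0} (hy : Transcendental L y) :
    IsIntegrallyClosed (Algebra.adjoin A0 ({y} : Set F0)) :=
  fc_ff_isIntegrallyClosed (fc_ff_transcendental (L := L) hy)

/-- `[FaithfulSMul R3 F0]` for `R3 := A0[y]`. -/
theorem s36ctp_faithfulSMul (y : F0) : FaithfulSMul (Algebra.adjoin A0 ({y} : Set F0)) F0 :=
  (faithfulSMul_iff_algebraMap_injective _ _).2 Subtype.val_injective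

/-- `hC3`: the chart `fc_chart A0 {y}` is a chart over `A0[y]`. -/
theorem s36ctp_chart {π : A0} (hπ : Irreducible π) {y : F0} (hy : Transcendental L y) :
    ssm_tp_Chart (algebraMap A0 (Algebra.adjoin A0 ({y} : Set F0)) π)
      (fc_chart A0 ({y} : Set F0)) :=
  ssm_tp_ff_chart (L := L) hπ hy

/-- `hϖ` for `ϖ := algebraMap A0 (fc_chart A0 {y}) π`. -/
theorem s36ctp_varpi (π : A0) (y : F0) :
    ((algebraMap A0 (fc_chart A0 ({y} : Set F0)) π : fc_chart A0 ({y} : Set F0)) : F0) =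
      algebraMap (Algebra.adjoin A0 ({y} : Set F0)) F0
        (algebraMap A0 (Algebra.adjoin A0 ({y} : Set F0)) π) := rfl

/-- `hVi` at `i := 2`. -/
theorem s36ctp_hVi (VA VB VC : ValuationSubring F0) :
    (![VA, VB, VC] : Fin 3 → ValuationSubring F0) 2 = VC := rfl

/-- `hC𝔫` at `i := 2`. -/
theorem s36ctp_hC {B : Subalgebra A0 F0} {VA VB VC : ValuationSubring F0} {𝔫 : Ideal B}
    (hC : ssm_tp_P B VC ≤ 𝔫) :
    ssm_tp_P B ((![VA, VB, VC] : Fin 3 → ValuationSubring F0) 2) ≤ 𝔫 := hC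

/-- `hone` at a C-only point. -/
theorem s36ctp_hone {B : Subalgebra A0 F0} {VA VB VC : ValuationSubring F0} {𝔫 : Ideal B}
    (hA : ¬ ssm_tp_P B VA ≤ 𝔫) (hB : ¬ ssm_tp_P B VB ≤ 𝔫) :
    ∀ j : Fin 3, ssm_tp_P B ((![VA, VB, VC] : Fin 3 → ValuationSubring F0) j) ≤ 𝔫 → j = 2 := by
  intro j hj
  fin_cases j
  · exact absurd hj hA
  · exact absurd hj hB
  · rfl

/-- `hN` with `N := q ^ 2`. -/
theorem s36ctp_hN (q : ℕ) : (![1, 1, q - 1] : Fin 3 → ℕ) 2 ≤ q ^ 2 := by
  show q - 1 ≤ q ^ 2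
  calc q - 1 ≤ q := Nat.sub_le _ _
    _ ≤ q ^ 2 := Nat.le_self_pow two_ne_zero q

/-- **the [TP3] block in use**: the membership criterion `H3.mem_P hC3 2` of `s36cf_oneBranch`, with
all the instances supplied (template for the instance owner). -/
theorem s36ctp_mem_PC {π : A0} (hπ : Irreducible π) {y : F0} (hy : Transcendental L y)
    {VA VB VC : ValuationSubring F0} {e : Fin 3 → ℕ}
    (H : s36tp_Hyp (algebraMap A0 (Algebra.adjoin A0 ({y} : Set F0)) π) ![VA, VB, VC] e)
    (b : fc_chart A0 ({y} : Set F0)) :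
    b ∈ ssm_tp_P (fc_chart A0 ({y} : Set F0)) VC ↔ (b : F0) ∈ VC.nonunits := by
  haveI := s36ctp_isIntegrallyClosed (A0 := A0) (L := L) hy
  haveI := s36ctp_faithfulSMul (A0 := A0) y
  exact H.mem_P (s36ctp_chart (L := L) hπ hy) 2

end FF

end Fermat.Agent.S36
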