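/-
Project S36 (Carayol), model cell [M2], leaf **[C-CUSP-EIS]** = [L3c], LEGENDRE INSTANCE AT THE CUSP
`λ = ∞` (helper5).  Prefix `s36cfi_`.

`s36cfi_cuspInf_of` : the instantiation of `s36cf_oneBranch_loc` (S36/CReg/CuspEisSLoc.lean) on the
inverse charts `B' = fc_chart O {λ'⁻¹}`, `B₁ = fc_chart O {λ₁⁻¹}`, `B₂ = fc_chart O {λ₂⁻¹}` of the
Legendre tower `K = lg_E L N' →(β) E₁ = lg_E L (N' q) ⊆ E₂ = lg_E L (N' q q)` over an UNRAMIFIED base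
(`q` a uniformiser of `O`): the closed shape `s36asm_cCuspInf O hπ N' q hq2 hqN' VC 1` of helper24's
split (S36/Model/AsmLegPtsCSplit.lean) from the third-valuation package `T3` and

* `φ1`, `hφ`, `hint` : the chart map through `β` at infinity (helper27's `BetaChart.lean`);
* `hpow` : `B₁^q ⊆ φ1 B' + P_VF` (helper8's `CuspEisPow.lean`);
* `hcusp` : the cusp transversality data at the `VF`-only points of `B₁` over the cusp `∞`
  (helper23 + helper6: `CuspTrans/R1Leg.lean`, `CuspTrans/T2Leg.lean`).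

Everything else is discharged from main.
-/
import Mathlib
import Fermat.Agent.S36.CReg.CuspEisSLoc
import Fermat.Agent.S36.CReg.CuspEisInputsLeg
import Fermat.Agent.S36.CReg.CuspEisTP3
import Fermat.Agent.S36.CReg.HorizInstLeg
import Fermat.Agent.S36.Ins1.FactsCusp
import Fermat.Agent.S36.Model.AsmLegLast
import Fermat.Agent.S36.Model.Val3HypLeg

set_option autoImplicit false
set_option linter.unusedSectionVars false
set_option linter.unusedVariables false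
set_option linter.style.haveILetI false

noncomputable section

open ModularCurve IntermediateField IsLocalRing Polynomial
open Fermat.Agent.JT3 Fermat.Agent.SS

namespace Fermat.Agent.S36

section Leg

variable {L : Type*} [Field L] [CharZero L] [Algebra L (AlgebraicClosure ℚ)]
  (O : ValuationSubring L) [IsDiscreteValuationRing O]
variable (N' q : ℕ) [NeZero N'] [NeZero q] [hq : Fact q.Prime] [CharP (ResidueField O) q]
  (hq2 : ¬ 2 ∣ q) (hqN' : ¬ q ∣ N') (hπ : Irreducible ((q : ℕ) : O))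

/-- `β λ' = W λ₁` in `E₁`. -/
theorem s36cfi_beta_lam :
    s36mc_beta L N' q hq2 (lg_lamE N') = ssm_gl_W L N' q hq2 hqN' (lg_lamE (N' * q)) := by
  have h1 := s36i_leg_W1_beta (L := L) N' q hq2 hqN' (lg_lamE N')
  have h2 : IntermediateField.inclusion (ssm_al_E_le L N' q) (lg_lamE (L := L) N') =
      lg_lamE (N' * q) := Subtype.ext rfl
  rw [h2] at h1
  rw [← h1, ssm_gl_W_apply, ssm_gl_W_apply, ssm_al_WE_WE]

set_option synthInstance.maxHeartbeats 200000 in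
set_option maxHeartbeats 1600000 in
/-- **[L3c] at the cusp `∞`, Legendre tower.** -/
theorem s36cfi_cuspInf_of
    (hprime : Prime (algebraMap ↥O (fc_chart ↥O ({lg_lamE N'} : Set ↥(lg_E L N'))) ((q : ℕ) : O)))
    (φ1 : fc_chart ↥O ({(lg_lamE N')⁻¹} : Set ↥(lg_E L N')) →+*
      fc_chart ↥O ({(lg_lamE (N' * q))⁻¹} : Set ↥(lg_E L (N' * q))))
    (hφ : ∀ b' : fc_chart ↥O ({(lg_lamE N')⁻¹} : Set ↥(lg_E L N')),
      ((φ1 b' : fc_chart ↥O ({(lg_lamE (N' * q))⁻¹} : Set ↥(lg_E L (N' * q)))) :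
        ↥(lg_E L (N' * q))) = s36mc_beta L N' q hq2 (b' : ↥(lg_E L N')))
    (hint : φ1.IsIntegral)
    (hpow : ∀ b : fc_chart ↥O ({(lg_lamE (N' * q))⁻¹} : Set ↥(lg_E L (N' * q))),
      ∃ b' : fc_chart ↥O ({(lg_lamE N')⁻¹} : Set ↥(lg_E L N')),
        b ^ q - φ1 b' ∈ ssm_tp_P (fc_chart ↥O ({(lg_lamE (N' * q))⁻¹} : Set ↥(lg_E L (N' * q))))
          (ssm_gl_V1 O hπ N' q))
    (hcusp : ∀ 𝔫1 : Ideal (fc_chart ↥O ({(lg_lamE (N' * q))⁻¹} : Set ↥(lg_E L (N' * q)))),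
      𝔫1.IsMaximal →
      algebraMap ↥O (fc_chart ↥O ({(lg_lamE (N' * q))⁻¹} : Set ↥(lg_E L (N' * q))))
        ((q : ℕ) : O) ∈ 𝔫1 →
      ssm_tp_P (fc_chart ↥O ({(lg_lamE (N' * q))⁻¹} : Set ↥(lg_E L (N' * q))))
        (ssm_gl_V1 O hπ N' q) ≤ 𝔫1 →
      ¬ ssm_tp_P (fc_chart ↥O ({(lg_lamE (N' * q))⁻¹} : Set ↥(lg_E L (N' * q))))
        (ssm_gl_V2 O hπ N' q hq2 hqN') ≤ 𝔫1 →
      (⟨(lg_lamE (N' * q))⁻¹, fc_x_mem_chart _⟩ :
        fc_chart ↥O ({(lg_lamE (N' * q))⁻¹} : Set ↥(lg_E L (N' * q)))) ∈ 𝔫1 →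
      ∃ (t1 : fc_chart ↥O ({(lg_lamE N')⁻¹} : Set ↥(lg_E L N')))
        (u : fc_chart ↥O ({(lg_lamE (N' * q))⁻¹} : Set ↥(lg_E L (N' * q)))),
        tq_GenBy (algebraMap ↥O (fc_chart ↥O ({(lg_lamE N')⁻¹} : Set ↥(lg_E L N')))
          ((q : ℕ) : O)) t1 (𝔫1.comap φ1) ∧
        tq_GenBy (algebraMap ↥O (fc_chart ↥O ({(lg_lamE (N' * q))⁻¹} : Set ↥(lg_E L (N' * q))))
          ((q : ℕ) : O)) u 𝔫1 ∧
        tq_Dom (algebraMap ↥O (fc_chart ↥O ({(lg_lamE (N' * q))⁻¹} : Set ↥(lg_E L (N' * q))))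
          ((q : ℕ) : O)) 𝔫1 ∧
        tq_Dom u 𝔫1 ∧
        (∃ (e : ℕ) (s w : fc_chart ↥O ({(lg_lamE (N' * q))⁻¹} : Set ↥(lg_E L (N' * q)))),
          0 < e ∧ s ∉ 𝔫1 ∧ w ∉ 𝔫1 ∧
          s * (⟨(lg_lamE (N' * q))⁻¹, fc_x_mem_chart _⟩ :
            fc_chart ↥O ({(lg_lamE (N' * q))⁻¹} : Set ↥(lg_E L (N' * q)))) = w * u ^ e) ∧
        (∃ (e : ℕ) (s w : fc_chart ↥O ({(lg_lamE N')⁻¹} : Set ↥(lg_E L N'))),
          s ∉ 𝔫1.comap φ1 ∧ w ∉ 𝔫1.comap φ1 ∧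
          s * (⟨(lg_lamE N')⁻¹, fc_x_mem_chart _⟩ :
            fc_chart ↥O ({(lg_lamE N')⁻¹} : Set ↥(lg_E L N'))) = w * t1 ^ e) ∧
        ∃ s w : fc_chart ↥O ({(lg_lamE (N' * q))⁻¹} : Set ↥(lg_E L (N' * q))),
          s ∉ 𝔫1 ∧ w ∉ 𝔫1 ∧ s * φ1 t1 = w * u ^ q)
    {VC : ValuationSubring ↥(lg_E L (N' * q * q))}
    (T3 : s36asm_Third O hπ N' q hq2 hqN' VC) :
    s36asm_cCuspInf O hπ N' q hq2 hqN' VC 1 := by
  intro 𝔫 h𝔫 hπ𝔫 hμ hC hA hB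
  left
  haveI hfr2 := s36cp_chart_inv_isFractionRing O (L := L) (N' * q * q)
  haveI h𝔫p := h𝔫.isPrime
  -- the algebra structures
  letI aβ := s36ch_algBeta L N' q hq2
  letI a12 := ssm_gi_algebra (ssm_al_E_le L (N' * q) q)
  letI aF := ssm_gi_algebraV (ssm_al_E_le L (N' * q) q) (ssm_gl_V1 O hπ N' q)
  haveI tF := ssm_gi_isScalarTower (ssm_al_E_le L (N' * q) q) (ssm_gl_V1 O hπ N' q)
  letI aK2 : Algebra ↥(lg_E L N') ↥(lg_E L (N' * q * q)) :=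
    ((algebraMap ↥(lg_E L (N' * q)) ↥(lg_E L (N' * q * q))).comp
      (algebraMap ↥(lg_E L N') ↥(lg_E L (N' * q)))).toAlgebra
  haveI tK : IsScalarTower ↥(lg_E L N') ↥(lg_E L (N' * q)) ↥(lg_E L (N' * q * q)) :=
    IsScalarTower.of_algebraMap_eq fun _ => rfl
  haveI fd1 : FiniteDimensional ↥(lg_E L N') ↥(lg_E L (N' * q)) :=
    s36ch_finiteDimensional_beta L N' q hq.out hq2 hqN'
  have hrank2 : Module.finrank ↥(lg_E L (N' * q)) ↥(lg_E L (N' * q * q)) = q :=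
    s36vh_leg_finrank N' q hq2
  haveI fd2 : FiniteDimensional ↥(lg_E L (N' * q)) ↥(lg_E L (N' * q * q)) :=
    Module.finite_of_finrank_pos (by rw [hrank2]; exact hq.out.pos)
  haveI cz : CharZero ↥(lg_E L N') :=
    charZero_of_injective_algebraMap (algebraMap L ↥(lg_E L N')).injective
  -- the third-valuation package
  have T3' : s36t3_Third ↥(lg_E L (N' * q)) ↥(ssm_gl_V1 O hπ N' q) q (s36at_leg_piF O hπ N' q)
      (s36asm_z (L := L) N' q hq2 hqN') (s36i_VA O hπ (N' * q) q) VC := T3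
  have hoverC : ssm_tw_Over ↥(lg_E L (N' * q)) ↥(ssm_gl_V1 O hπ N' q) VC := T3'.overC
  -- the charts of level `N'`
  haveI := ssm_go_isScalarTower O (lg_E L N')
  haveI : FiniteDimensional L⟮(lg_lamE (L := L) N')⟯ ↥(lg_E L N') := lgf_finite L N'
  have hx0 : Transcendental L (lg_lamE (L := L) N') := lgf_lam_transcendental L N' two_ne_zero
  have hx0i : Transcendental L (lg_lamE (L := L) N')⁻¹ :=
    fun h => hx0 (IsAlgebraic.inv_iff.mp h)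
  haveI : FiniteDimensional L⟮(lg_lamE (L := L) N')⁻¹⟯ ↥(lg_E L N') := by
    rw [rt_adjoin_inv]; infer_instance
  haveI hfr0 := s36cp_chart_inv_isFractionRing O (L := L) N'
  haveI hno0 : IsNoetherianRing ↥(fc_chart ↥O ({(lg_lamE N')⁻¹} : Set ↥(lg_E L N'))) :=
    ssm_ths_chart_isNoetherianRing (A0 := ↥O) (L := L) hx0i
  haveI hic0 : IsIntegrallyClosed ↥(fc_chart ↥O ({(lg_lamE N')⁻¹} : Set ↥(lg_E L N'))) :=
    ssm_ths_chart_isIntegrallyClosed (A0 := ↥O) (L := L) _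
  -- the charts of level `N' q`
  haveI := ssm_go_isScalarTower O (lg_E L (N' * q))
  haveI : FiniteDimensional L⟮(lg_lamE (L := L) (N' * q))⟯ ↥(lg_E L (N' * q)) :=
    lgf_finite L (N' * q)
  have hx1 : Transcendental L (lg_lamE (L := L) (N' * q)) :=
    lgf_lam_transcendental L (N' * q) two_ne_zero
  have hx1i : Transcendental L (lg_lamE (L := L) (N' * q))⁻¹ :=
    fun h => hx1 (IsAlgebraic.inv_iff.mp h)
  haveI : FiniteDimensional L⟮(lg_lamE (L := L) (N' * q))⁻¹⟯ ↥(lg_E L (N' * q)) := by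
    rw [rt_adjoin_inv]; infer_instance
  haveI hfr1 := s36cp_chart_inv_isFractionRing O (L := L) (N' * q)
  haveI hno1 : IsNoetherianRing
      ↥(fc_chart ↥O ({(lg_lamE (N' * q))⁻¹} : Set ↥(lg_E L (N' * q)))) :=
    ssm_ths_chart_isNoetherianRing (A0 := ↥O) (L := L) hx1i
  have hx1A : Transcendental ↥O (lg_lamE (L := L) (N' * q)) :=
    fc_ff_transcendental (L := L) hx1
  haveI : IsIntegrallyClosed (Algebra.adjoin ↥O ({lg_lamE (N' * q)} : Set ↥(lg_E L (N' * q)))) :=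
    fc_ff_isIntegrallyClosed hx1A
  haveI : FaithfulSMul (Algebra.adjoin ↥O ({lg_lamE (N' * q)} : Set ↥(lg_E L (N' * q))))
      ↥(lg_E L (N' * q)) :=
    (faithfulSMul_iff_algebraMap_injective _ _).2 Subtype.val_injective
  have H1 := ssm_gl_hyp O hπ N' q hq2 hqN' hprime
  obtain ⟨le1, le2, hμ1⟩ := ssm_inf_ff_le (L := L) hπ hx1 H1
  haveI hP2p : (ssm_tp_P (fc_chart ↥O ({(lg_lamE (N' * q))⁻¹} : Set ↥(lg_E L (N' * q))))
      (ssm_gl_V1 O hπ N' q)).IsPrime := ssm_tp_P_isPrime le1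
  haveI hP1p : (ssm_tp_P (fc_chart ↥O ({(lg_lamE (N' * q))⁻¹} : Set ↥(lg_E L (N' * q))))
      (s36i_VV O hπ N' q hq2 hqN')).IsPrime := ssm_tp_P_isPrime le2
  -- the charts of level `N' q q`
  haveI := ssm_go_isScalarTower O (lg_E L (N' * q * q))
  haveI : FiniteDimensional L⟮(lg_lamE (L := L) (N' * q * q))⟯ ↥(lg_E L (N' * q * q)) :=
    lgf_finite L (N' * q * q)
  have hx2 : Transcendental L (lg_lamE (L := L) (N' * q * q)) :=
    lgf_lam_transcendental L (N' * q * q) two_ne_zero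
  have hx2i : Transcendental L (lg_lamE (L := L) (N' * q * q))⁻¹ :=
    fun h => hx2 (IsAlgebraic.inv_iff.mp h)
  haveI : FiniteDimensional L⟮(lg_lamE (L := L) (N' * q * q))⁻¹⟯ ↥(lg_E L (N' * q * q)) := by
    rw [rt_adjoin_inv]; infer_instance
  haveI hno2 : IsNoetherianRing
      ↥(fc_chart ↥O ({(lg_lamE (N' * q * q))⁻¹} : Set ↥(lg_E L (N' * q * q)))) :=
    ssm_ths_chart_isNoetherianRing (A0 := ↥O) (L := L) hx2i
  haveI hic2 : IsIntegrallyClosed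
      ↥(fc_chart ↥O ({(lg_lamE (N' * q * q))⁻¹} : Set ↥(lg_E L (N' * q * q)))) :=
    ssm_ths_chart_isIntegrallyClosed (A0 := ↥O) (L := L) _
  haveI hicR3 := s36ctp_isIntegrallyClosed (A0 := ↥O) (L := L) hx2i
  haveI hfsR3 := s36ctp_faithfulSMul (A0 := ↥O) (lg_lamE (L := L) (N' * q * q))⁻¹
  have hC3 := s36ctp_chart (A0 := ↥O) (L := L) hπ hx2i
  obtain ⟨-, H3, -, hVC, -, -⟩ := s36t3_leg_all_of O hπ N' q hq2 hqN' hprime
    (s36t3_leg_third_conv O hπ N' q hq2 hqN' T3)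
  -- the position of `𝔫 ∩ B₁`
  obtain ⟨h𝔫1max, hF𝔫1, hV𝔫1, hμ𝔫1⟩ :=
    s36cel_yFInf O hπ N' q hq2 hqN' hprime VC hoverC 𝔫 h𝔫 hC hμ
  have hπ𝔫1 : algebraMap ↥O (fc_chart ↥O ({(lg_lamE (N' * q))⁻¹} : Set ↥(lg_E L (N' * q))))
      ((q : ℕ) : O) ∈ 𝔫.comap (s36cel_iotaInv O N' q) := by
    rw [Ideal.mem_comap, s36cel_iotaInv_algebraMap]
    exact hπ𝔫
  obtain ⟨t1, u, hgen0, hgen, hdomπ, hdomu, hR1, hR2, hT2⟩ :=
    hcusp _ h𝔫1max hπ𝔫1 hF𝔫1 hV𝔫1 hμ𝔫1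
  obtain ⟨x1, e', hx1c, hrel, he'1, -, he'n⟩ := s36cel_eInf O hπ N' q hq2 hqN' hprime
  -- `φ1`
  have hφ' : ∀ b' : fc_chart ↥O ({(lg_lamE N')⁻¹} : Set ↥(lg_E L N')),
      ((φ1 b' : fc_chart ↥O ({(lg_lamE (N' * q))⁻¹} : Set ↥(lg_E L (N' * q)))) :
        ↥(lg_E L (N' * q))) = algebraMap ↥(lg_E L N') ↥(lg_E L (N' * q)) (b' : ↥(lg_E L N')) :=
    hφ
  have hφO : ∀ a : ↥O, φ1 (algebraMap ↥O (fc_chart ↥O ({(lg_lamE N')⁻¹} : Set ↥(lg_E L N'))) a) =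
      algebraMap ↥O (fc_chart ↥O ({(lg_lamE (N' * q))⁻¹} : Set ↥(lg_E L (N' * q)))) a := by
    intro a
    apply Subtype.ext
    rw [hφ]
    exact (s36mc_beta L N' q hq2).commutes (a : L)
  have hy0 : ((𝔫.comap (s36cel_iotaInv O N' q)).comap φ1).IsMaximal :=
    ssm_cp_comap_isMaximal φ1 hint _ h𝔫1max
  have hπP2 : φ1 (algebraMap ↥O (fc_chart ↥O ({(lg_lamE N')⁻¹} : Set ↥(lg_E L N')))
      ((q : ℕ) : O)) ∈ ssm_tp_P (fc_chart ↥O ({(lg_lamE (N' * q))⁻¹} : Set ↥(lg_E L (N' * q))))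
        (ssm_gl_V1 O hπ N' q) := by
    rw [hφO, ssm_tp_mem_P le1]
    exact H1.over1.pi_mem
  have hπq : Associated (algebraMap ↥O (fc_chart ↥O ({(lg_lamE N')⁻¹} : Set ↥(lg_E L N')))
      ((q : ℕ) : O)) ((q : ℕ) : fc_chart ↥O ({(lg_lamE N')⁻¹} : Set ↥(lg_E L N'))) := by
    rw [map_natCast]
  -- `S ⊆ VV`
  have hB'V : ∀ b' : fc_chart ↥O ({(lg_lamE N')⁻¹} : Set ↥(lg_E L N')),
      (b' : ↥(lg_E L N')) ∈ s36i_leg_V0 O hπ N' := by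
    intro b'
    refine (s36i_leg_cF O hπ N' q hq2 _).1 ?_
    rw [← hφ]
    exact le1 _ (φ1 b').2
  have hy0V : ∀ b' : fc_chart ↥O ({(lg_lamE N')⁻¹} : Set ↥(lg_E L N')),
      (b' : ↥(lg_E L N')) ∈ (s36i_leg_V0 O hπ N').nonunits →
        b' ∈ (𝔫.comap (s36cel_iotaInv O N' q)).comap φ1 := by
    intro b' hb'
    have h1 : s36mc_beta L N' q hq2 (b' : ↥(lg_E L N')) ∈ (ssm_gl_V1 O hπ N' q).nonunits :=
      (s36i_leg_cF_nonunits O hπ N' q hq2 (b' : ↥(lg_E L N'))).2 hb'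
    have h2 : φ1 b' ∈ ssm_tp_P (fc_chart ↥O ({(lg_lamE (N' * q))⁻¹} : Set ↥(lg_E L (N' * q))))
        (ssm_gl_V1 O hπ N' q) := by
      rw [ssm_tp_mem_P le1, hφ]
      exact h1
    have h3 : φ1 b' ∈ 𝔫.comap (s36cel_iotaInv O N' q) := hF𝔫1 h2
    exact Ideal.mem_comap.2 h3
  have hSV := s36cf_loc_mem_val (y0 := (𝔫.comap (s36cel_iotaInv O N' q)).comap φ1)
    (s36i_leg_V0 O hπ N') (s36i_VV O hπ N' q hq2 hqN') hB'V hy0V
    (fun x hx => (s36i_leg_cV O hπ N' q hq2 hqN' x).2 hx)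
  -- the relation `e' xc = (φ1 xc0)^q`
  have hx1φ : x1 = φ1 ⟨(lg_lamE N')⁻¹, fc_x_mem_chart _⟩ := by
    apply Subtype.ext
    rw [hx1c, hφ, map_inv₀, s36cfi_beta_lam N' q hq2 hqN']
  rw [hx1φ] at hrel
  have hxcP2 : (⟨(lg_lamE (N' * q))⁻¹, fc_x_mem_chart _⟩ :
      fc_chart ↥O ({(lg_lamE (N' * q))⁻¹} : Set ↥(lg_E L (N' * q)))) ∉
        ssm_tp_P (fc_chart ↥O ({(lg_lamE (N' * q))⁻¹} : Set ↥(lg_E L (N' * q))))
          (ssm_gl_V1 O hπ N' q) := by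
    rw [ssm_tp_mem_P le1]
    exact hμ1
  rw [← hφO] at hgen hdomπ
  exact s36cf_oneBranch_loc (K := ↥(lg_E L N')) (E1 := ↥(lg_E L (N' * q)))
    (E2 := ↥(lg_E L (N' * q * q))) (φ1 := φ1) (ψ := s36cel_iotaInv O N' q)
    (y0 := (𝔫.comap (s36cel_iotaInv O N' q)).comap φ1)
    hφ' hint hy0 hq.out hπP2 hpow hgen0 (s36ch_finrank_beta L N' q hq.out hq2 hqN') hrank2 hπq
    (fun b => s36cel_iotaInv_coe O N' q b) (s36cel_iotaInv_isIntegral O N' q)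
    hSV (fun b hb => (ssm_tp_mem_P le2).1 hb) (fun b hb => (ssm_tp_mem_P le1).1 hb)
    (fun b hb => (ssm_tp_mem_P le1).2 hb) (fun b => le1 _ b.2)
    (s36i_leg_oA O hπ N' q) (s36i_leg_oC O hπ N' q VC hoverC)
    (s36i_W2 L N' q hq2 hqN') (fun x => s36i_leg_W2_beta N' q hq2 hqN' x)
    (s36i_leg_W2VA O hπ N' q hq2 hqN') hVC H3 hC3
    (algebraMap ↥O (fc_chart ↥O ({(lg_lamE (N' * q * q))⁻¹} : Set ↥(lg_E L (N' * q * q))))
      ((q : ℕ) : O))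
    (s36ctp_varpi ((q : ℕ) : O) (lg_lamE (L := L) (N' * q * q))⁻¹) 𝔫 rfl hC hA hB
    hgen hdomπ hdomu ⟨(lg_lamE (N' * q))⁻¹, fc_x_mem_chart _⟩ e'
    ⟨(lg_lamE N')⁻¹, fc_x_mem_chart _⟩ hrel he'1 (he'n _ hF𝔫1 hμ𝔫1) hxcP2 hR1 hR2 hT2

end Leg

end Fermat.Agent.S36
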