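/-
Project S36, model cell [M2], leaf **[C-CUSP-EIS]** = [L3c], inputs (4) and (4)-∞ of helper5's
numbered list (helper8).  Prefix `s36cp12_`.

THE TWO VERTICAL PRIMES `P1 := ssm_tp_P B1 VV`, `P2 := ssm_tp_P B1 VF` OF THE LEVEL-`N' q` CHARTS OF THE
LEGENDRE TOWER, as closed facts in the binder shapes of `s36cf_oneBranch_fin3` / `s36cf_oneBranch_loc`
(`B1 = fc_chart O {λ₁}` resp. `fc_chart O {λ₁⁻¹}`, `VF = ssm_gl_V1`, `VV = ssm_gl_V2`):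

* `s36cp12_leg`, `s36cp12_legInv` ([LEG-CTX], general `π`, input `hprime` of level `N'`):
  `P1.IsPrime ∧ P2.IsPrime ∧ hP1 ∧ hP2 ∧ hP2' ∧ hB1F ∧ hB1V ∧ hP1' ∧ hπ`;
* `s36cp12_piP2`, `s36cp12_piP2Inv` : `hπP2 : φ1 π' ∈ P2` for `π' = algebraMap O B' π` and for
  `π' = (q : B')`, for ANY ring hom `φ1` of `O`-algebras;
* `s36cp12_nf`, `s36cp12_nfInv` : [NF2-CTX] closed terms.
-/
import Mathlib
import Fermat.Agent.SS.Model.FinalLeg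
import Fermat.Agent.SS.Model.LegLevel
import Fermat.Agent.SS.Model.FinalLegNF

set_option autoImplicit false
set_option linter.unusedSectionVars false
set_option linter.unusedVariables false
set_option linter.style.haveILetI false

noncomputable section

open ModularCurve IntermediateField IsLocalRing Polynomial
open Fermat.Agent.JT3 Fermat.Agent.SS

namespace Fermat.Agent.S36

section Abs

variable {R A E : Type*} [CommRing R] [IsDomain R] [Field E] [Algebra R E] [FaithfulSMul R E]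
  [IsIntegrallyClosed R] [CommRing A] [Algebra A E] {π : R} {V1 V2 : ValuationSubring E}
  {B : Subalgebra A E}

/-- the package of facts on the two vertical primes of a chart. -/
theorem s36cp12_abs (H : ssm_tp_Hyp π V1 V2) (hC : ssm_tp_Chart π B) :
    (ssm_tp_P B V2).IsPrime ∧ (ssm_tp_P B V1).IsPrime ∧
    (∀ b ∈ ssm_tp_P B V2, (b : E) ∈ V2.nonunits) ∧
    (∀ b ∈ ssm_tp_P B V1, (b : E) ∈ V1.nonunits) ∧
    (∀ b : B, (b : E) ∈ V1.nonunits → b ∈ ssm_tp_P B V1) ∧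
    (∀ b : B, (b : E) ∈ V1) ∧ (∀ b : B, (b : E) ∈ V2) ∧
    (∀ b : B, (b : E) ∈ V2.nonunits → b ∈ ssm_tp_P B V2) ∧
    (∀ ϖ : B, (ϖ : E) = algebraMap R E π → ϖ ∈ ssm_tp_P B V1 ∧ ϖ ∈ ssm_tp_P B V2) := by
  refine ⟨H.P2_isPrime hC, H.P1_isPrime hC, fun b hb => (H.mem_P2 hC).1 hb,
    fun b hb => (H.mem_P1 hC).1 hb, fun b hb => (H.mem_P1 hC).2 hb,
    fun b => hC.le H.over1 b.2, fun b => hC.le H.over2 b.2, fun b hb => (H.mem_P2 hC).2 hb, ?_⟩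
  intro ϖ hϖ
  refine ⟨(H.mem_P1 hC).2 ?_, (H.mem_P2 hC).2 ?_⟩
  · rw [hϖ]; exact H.over1.pi_mem
  · rw [hϖ]; exact H.over2.pi_mem

end Abs

section Leg

variable {L : Type*} [Field L] [CharZero L] [Algebra L (AlgebraicClosure ℚ)]
  (O : ValuationSubring L) [IsDiscreteValuationRing O] {π : O} (hπ : Irreducible π)
variable (N' q : ℕ) [NeZero N'] [NeZero q] [hq : Fact q.Prime] [CharP (ResidueField O) q]
  (hq2 : ¬ 2 ∣ q) (hqN' : ¬ q ∣ N')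

include hπ in
omit [CharZero L] [Algebra L (AlgebraicClosure ℚ)] [NeZero q] hq in
/-- `q ∈ π O`, pushed to any `O`-algebra. -/
theorem s36cp12_q_eq {B : Type*} [CommRing B] [Algebra ↥O B] :
    ∃ c : ↥O, ((q : ℕ) : B) = algebraMap ↥O B π * algebraMap ↥O B c := by
  have h1 : ((q : ℕ) : ↥O) ∈ maximalIdeal ↥O := by
    rw [← IsLocalRing.residue_eq_zero_iff, map_natCast]
    exact CharP.cast_eq_zero _ q
  rw [hπ.maximalIdeal_eq] at h1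
  obtain ⟨c, hc⟩ := Ideal.mem_span_singleton'.1 h1
  exact ⟨c, by rw [← map_mul, mul_comm, hc, map_natCast]⟩

set_option synthInstance.maxHeartbeats 200000 in
/-- **[L3c] (4), chart `{λ₁}`**: the two vertical primes of the level-`N' q` chart. -/
theorem s36cp12_leg
    (hprime : Prime (algebraMap ↥O (fc_chart ↥O ({lg_lamE N'} : Set ↥(lg_E L N'))) π)) :
    (ssm_tp_P (fc_chart ↥O ({lg_lamE (N' * q)} : Set ↥(lg_E L (N' * q)))) (ssm_gl_V2 O hπ N' q hq2 hqN')).IsPrime ∧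
    (ssm_tp_P (fc_chart ↥O ({lg_lamE (N' * q)} : Set ↥(lg_E L (N' * q)))) (ssm_gl_V1 O hπ N' q)).IsPrime ∧
    (∀ b ∈ ssm_tp_P (fc_chart ↥O ({lg_lamE (N' * q)} : Set ↥(lg_E L (N' * q)))) (ssm_gl_V2 O hπ N' q hq2 hqN'),
      (b : ↥(lg_E L (N' * q))) ∈ (ssm_gl_V2 O hπ N' q hq2 hqN').nonunits) ∧
    (∀ b ∈ ssm_tp_P (fc_chart ↥O ({lg_lamE (N' * q)} : Set ↥(lg_E L (N' * q)))) (ssm_gl_V1 O hπ N' q),
      (b : ↥(lg_E L (N' * q))) ∈ (ssm_gl_V1 O hπ N' q).nonunits) ∧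
    (∀ b : fc_chart ↥O ({lg_lamE (N' * q)} : Set ↥(lg_E L (N' * q))),
      (b : ↥(lg_E L (N' * q))) ∈ (ssm_gl_V1 O hπ N' q).nonunits →
        b ∈ ssm_tp_P (fc_chart ↥O ({lg_lamE (N' * q)} : Set ↥(lg_E L (N' * q)))) (ssm_gl_V1 O hπ N' q)) ∧
    (∀ b : fc_chart ↥O ({lg_lamE (N' * q)} : Set ↥(lg_E L (N' * q))), (b : ↥(lg_E L (N' * q))) ∈ ssm_gl_V1 O hπ N' q) ∧
    (∀ b : fc_chart ↥O ({lg_lamE (N' * q)} : Set ↥(lg_E L (N' * q))), (b : ↥(lg_E L (N' * q))) ∈ ssm_gl_V2 O hπ N' q hq2 hqN') ∧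
    (∀ b : fc_chart ↥O ({lg_lamE (N' * q)} : Set ↥(lg_E L (N' * q))),
      (b : ↥(lg_E L (N' * q))) ∈ (ssm_gl_V2 O hπ N' q hq2 hqN').nonunits →
        b ∈ ssm_tp_P (fc_chart ↥O ({lg_lamE (N' * q)} : Set ↥(lg_E L (N' * q)))) (ssm_gl_V2 O hπ N' q hq2 hqN')) ∧
    (algebraMap ↥O (fc_chart ↥O ({lg_lamE (N' * q)} : Set ↥(lg_E L (N' * q)))) π ∈ ssm_tp_P (fc_chart ↥O ({lg_lamE (N' * q)} : Set ↥(lg_E L (N' * q)))) (ssm_gl_V1 O hπ N' q) ∧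
      algebraMap ↥O (fc_chart ↥O ({lg_lamE (N' * q)} : Set ↥(lg_E L (N' * q)))) π ∈ ssm_tp_P (fc_chart ↥O ({lg_lamE (N' * q)} : Set ↥(lg_E L (N' * q)))) (ssm_gl_V2 O hπ N' q hq2 hqN')) ∧
    (((q : ℕ) : fc_chart ↥O ({lg_lamE (N' * q)} : Set ↥(lg_E L (N' * q)))) ∈ ssm_tp_P (fc_chart ↥O ({lg_lamE (N' * q)} : Set ↥(lg_E L (N' * q)))) (ssm_gl_V1 O hπ N' q) ∧
      ((q : ℕ) : fc_chart ↥O ({lg_lamE (N' * q)} : Set ↥(lg_E L (N' * q)))) ∈ ssm_tp_P (fc_chart ↥O ({lg_lamE (N' * q)} : Set ↥(lg_E L (N' * q)))) (ssm_gl_V2 O hπ N' q hq2 hqN')) := by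
  haveI := ssm_go_isScalarTower O (lg_E L (N' * q))
  have hx1 : Transcendental L (lg_lamE (L := L) (N' * q)) :=
    lgf_lam_transcendental L (N' * q) two_ne_zero
  haveI : FiniteDimensional L⟮(lg_lamE (L := L) (N' * q))⟯ ↥(lg_E L (N' * q)) :=
    lgf_finite L (N' * q)
  have hx1A : Transcendental ↥O (lg_lamE (L := L) (N' * q)) :=
    fc_ff_transcendental (L := L) hx1
  haveI : IsIntegrallyClosed (Algebra.adjoin ↥O ({lg_lamE (N' * q)} : Set ↥(lg_E L (N' * q)))) :=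
    fc_ff_isIntegrallyClosed hx1A
  haveI : FaithfulSMul (Algebra.adjoin ↥O ({lg_lamE (N' * q)} : Set ↥(lg_E L (N' * q))))
      ↥(lg_E L (N' * q)) :=
    (faithfulSMul_iff_algebraMap_injective _ _).2 Subtype.val_injective
  have H1 := ssm_gl_hyp O hπ N' q hq2 hqN' hprime
  have hC1 := ssm_tp_ff_chart (A0 := ↥O) (L := L) (F0 := ↥(lg_E L (N' * q))) hπ hx1
  obtain ⟨h1, h2, h3, h4, h5, h6, h7, h8, h9⟩ := s36cp12_abs H1 hC1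
  have hπP := h9 (algebraMap ↥O _ π) rfl
  refine ⟨h1, h2, h3, h4, h5, h6, h7, h8, hπP, ?_⟩
  obtain ⟨c, hc⟩ := s36cp12_q_eq O hπ q
    (B := fc_chart ↥O ({lg_lamE (N' * q)} : Set ↥(lg_E L (N' * q))))
  rw [hc]
  exact ⟨Ideal.mul_mem_right _ _ hπP.1, Ideal.mul_mem_right _ _ hπP.2⟩

set_option synthInstance.maxHeartbeats 200000 in
/-- **[L3c] (4)-∞, chart `{λ₁⁻¹}`**: the two vertical primes of the level-`N' q` chart at infinity. -/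
theorem s36cp12_legInv
    (hprime : Prime (algebraMap ↥O (fc_chart ↥O ({lg_lamE N'} : Set ↥(lg_E L N'))) π)) :
    (ssm_tp_P (fc_chart ↥O ({(lg_lamE (N' * q))⁻¹} : Set ↥(lg_E L (N' * q)))) (ssm_gl_V2 O hπ N' q hq2 hqN')).IsPrime ∧
    (ssm_tp_P (fc_chart ↥O ({(lg_lamE (N' * q))⁻¹} : Set ↥(lg_E L (N' * q)))) (ssm_gl_V1 O hπ N' q)).IsPrime ∧
    (∀ b ∈ ssm_tp_P (fc_chart ↥O ({(lg_lamE (N' * q))⁻¹} : Set ↥(lg_E L (N' * q)))) (ssm_gl_V2 O hπ N' q hq2 hqN'),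
      (b : ↥(lg_E L (N' * q))) ∈ (ssm_gl_V2 O hπ N' q hq2 hqN').nonunits) ∧
    (∀ b ∈ ssm_tp_P (fc_chart ↥O ({(lg_lamE (N' * q))⁻¹} : Set ↥(lg_E L (N' * q)))) (ssm_gl_V1 O hπ N' q),
      (b : ↥(lg_E L (N' * q))) ∈ (ssm_gl_V1 O hπ N' q).nonunits) ∧
    (∀ b : fc_chart ↥O ({(lg_lamE (N' * q))⁻¹} : Set ↥(lg_E L (N' * q))),
      (b : ↥(lg_E L (N' * q))) ∈ (ssm_gl_V1 O hπ N' q).nonunits →
        b ∈ ssm_tp_P (fc_chart ↥O ({(lg_lamE (N' * q))⁻¹} : Set ↥(lg_E L (N' * q)))) (ssm_gl_V1 O hπ N' q)) ∧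
    (∀ b : fc_chart ↥O ({(lg_lamE (N' * q))⁻¹} : Set ↥(lg_E L (N' * q))), (b : ↥(lg_E L (N' * q))) ∈ ssm_gl_V1 O hπ N' q) ∧
    (∀ b : fc_chart ↥O ({(lg_lamE (N' * q))⁻¹} : Set ↥(lg_E L (N' * q))), (b : ↥(lg_E L (N' * q))) ∈ ssm_gl_V2 O hπ N' q hq2 hqN') ∧
    (∀ b : fc_chart ↥O ({(lg_lamE (N' * q))⁻¹} : Set ↥(lg_E L (N' * q))),
      (b : ↥(lg_E L (N' * q))) ∈ (ssm_gl_V2 O hπ N' q hq2 hqN').nonunits →
        b ∈ ssm_tp_P (fc_chart ↥O ({(lg_lamE (N' * q))⁻¹} : Set ↥(lg_E L (N' * q)))) (ssm_gl_V2 O hπ N' q hq2 hqN')) ∧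
    (algebraMap ↥O (fc_chart ↥O ({(lg_lamE (N' * q))⁻¹} : Set ↥(lg_E L (N' * q)))) π ∈ ssm_tp_P (fc_chart ↥O ({(lg_lamE (N' * q))⁻¹} : Set ↥(lg_E L (N' * q)))) (ssm_gl_V1 O hπ N' q) ∧
      algebraMap ↥O (fc_chart ↥O ({(lg_lamE (N' * q))⁻¹} : Set ↥(lg_E L (N' * q)))) π ∈ ssm_tp_P (fc_chart ↥O ({(lg_lamE (N' * q))⁻¹} : Set ↥(lg_E L (N' * q)))) (ssm_gl_V2 O hπ N' q hq2 hqN')) ∧
    (((q : ℕ) : fc_chart ↥O ({(lg_lamE (N' * q))⁻¹} : Set ↥(lg_E L (N' * q)))) ∈ ssm_tp_P (fc_chart ↥O ({(lg_lamE (N' * q))⁻¹} : Set ↥(lg_E L (N' * q)))) (ssm_gl_V1 O hπ N' q) ∧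
      ((q : ℕ) : fc_chart ↥O ({(lg_lamE (N' * q))⁻¹} : Set ↥(lg_E L (N' * q)))) ∈ ssm_tp_P (fc_chart ↥O ({(lg_lamE (N' * q))⁻¹} : Set ↥(lg_E L (N' * q)))) (ssm_gl_V2 O hπ N' q hq2 hqN')) := by
  haveI := ssm_go_isScalarTower O (lg_E L (N' * q))
  have hx1 : Transcendental L (lg_lamE (L := L) (N' * q)) :=
    lgf_lam_transcendental L (N' * q) two_ne_zero
  have hx1i : Transcendental L (lg_lamE (L := L) (N' * q))⁻¹ :=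
    fun h => hx1 (IsAlgebraic.inv_iff.mp h)
  haveI : FiniteDimensional L⟮(lg_lamE (L := L) (N' * q))⟯ ↥(lg_E L (N' * q)) :=
    lgf_finite L (N' * q)
  haveI : FiniteDimensional L⟮(lg_lamE (L := L) (N' * q))⁻¹⟯ ↥(lg_E L (N' * q)) := by
    rw [rt_adjoin_inv]; infer_instance
  have hx1A : Transcendental ↥O (lg_lamE (L := L) (N' * q))⁻¹ :=
    fc_ff_transcendental (L := L) hx1i
  haveI : IsIntegrallyClosed
      (Algebra.adjoin ↥O ({(lg_lamE (N' * q))⁻¹} : Set ↥(lg_E L (N' * q)))) :=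
    fc_ff_isIntegrallyClosed hx1A
  haveI : FaithfulSMul (Algebra.adjoin ↥O ({(lg_lamE (N' * q))⁻¹} : Set ↥(lg_E L (N' * q))))
      ↥(lg_E L (N' * q)) :=
    (faithfulSMul_iff_algebraMap_injective _ _).2 Subtype.val_injective
  have H1 := ssm_tp_ff_hyp_inv (L := L) hπ hx1 (ssm_gl_hyp O hπ N' q hq2 hqN' hprime)
  have hC1 := ssm_tp_ff_chart (A0 := ↥O) (L := L) (F0 := ↥(lg_E L (N' * q))) hπ hx1i
  obtain ⟨h1, h2, h3, h4, h5, h6, h7, h8, h9⟩ := s36cp12_abs H1 hC1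
  have hπP := h9 (algebraMap ↥O _ π) rfl
  refine ⟨h1, h2, h3, h4, h5, h6, h7, h8, hπP, ?_⟩
  obtain ⟨c, hc⟩ := s36cp12_q_eq O hπ q
    (B := fc_chart ↥O ({(lg_lamE (N' * q))⁻¹} : Set ↥(lg_E L (N' * q))))
  rw [hc]
  exact ⟨Ideal.mul_mem_right _ _ hπP.1, Ideal.mul_mem_right _ _ hπP.2⟩

set_option synthInstance.maxHeartbeats 200000 in
/-- a chart map through `β = W ∘ α` fixes the constants (any pair of charts). -/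
theorem s36cp12_phi_algebraMap {s' : Set ↥(lg_E L N')} {s1 : Set ↥(lg_E L (N' * q))}
    (φ1 : fc_chart ↥O s' →+* fc_chart ↥O s1)
    (hφ : ∀ b' : fc_chart ↥O s', ((φ1 b' : fc_chart ↥O s1) : ↥(lg_E L (N' * q))) =
      ssm_gl_W L N' q hq2 hqN'
        (IntermediateField.inclusion (ssm_al_E_le L N' q) (b' : ↥(lg_E L N')))) (a : ↥O) :
    φ1 (algebraMap ↥O (fc_chart ↥O s') a) = algebraMap ↥O (fc_chart ↥O s1) a := by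
  apply Subtype.ext
  rw [hφ]
  exact (ssm_al_WE L N' q hq.out hq2 hqN').commutes (a : L)

/-- **`hπP2`, chart `{λ₁}`**, for `π' = (q : B')` (any ring hom `φ1`) and for
`π' = algebraMap O B' π` (`φ1` through `β`). -/
theorem s36cp12_piP2
    (hprime : Prime (algebraMap ↥O (fc_chart ↥O ({lg_lamE N'} : Set ↥(lg_E L N'))) π))
    {s' : Set ↥(lg_E L N')}
    (φ1 : fc_chart ↥O s' →+* fc_chart ↥O ({lg_lamE (N' * q)} : Set ↥(lg_E L (N' * q)))) :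
    φ1 ((q : ℕ) : fc_chart ↥O s') ∈
      ssm_tp_P (fc_chart ↥O ({lg_lamE (N' * q)} : Set ↥(lg_E L (N' * q)))) (ssm_gl_V1 O hπ N' q) ∧
    ((∀ b' : fc_chart ↥O s',
        ((φ1 b' : fc_chart ↥O ({lg_lamE (N' * q)} : Set ↥(lg_E L (N' * q)))) :
          ↥(lg_E L (N' * q))) =
        ssm_gl_W L N' q hq2 hqN'
          (IntermediateField.inclusion (ssm_al_E_le L N' q) (b' : ↥(lg_E L N')))) →
      φ1 (algebraMap ↥O (fc_chart ↥O s') π) ∈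
        ssm_tp_P (fc_chart ↥O ({lg_lamE (N' * q)} : Set ↥(lg_E L (N' * q))))
          (ssm_gl_V1 O hπ N' q)) := by
  obtain ⟨-, -, -, -, -, -, -, -, hπP, hqP⟩ := s36cp12_leg O hπ N' q hq2 hqN' hprime
  refine ⟨by rw [map_natCast]; exact hqP.1, fun hφ => ?_⟩
  rw [s36cp12_phi_algebraMap O N' q hq2 hqN' φ1 hφ]
  exact hπP.1

/-- **`hπP2`, chart `{λ₁⁻¹}`.** -/
theorem s36cp12_piP2Inv
    (hprime : Prime (algebraMap ↥O (fc_chart ↥O ({lg_lamE N'} : Set ↥(lg_E L N'))) π))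
    {s' : Set ↥(lg_E L N')}
    (φ1 : fc_chart ↥O s' →+* fc_chart ↥O ({(lg_lamE (N' * q))⁻¹} : Set ↥(lg_E L (N' * q)))) :
    φ1 ((q : ℕ) : fc_chart ↥O s') ∈
      ssm_tp_P (fc_chart ↥O ({(lg_lamE (N' * q))⁻¹} : Set ↥(lg_E L (N' * q))))
        (ssm_gl_V1 O hπ N' q) ∧
    ((∀ b' : fc_chart ↥O s',
        ((φ1 b' : fc_chart ↥O ({(lg_lamE (N' * q))⁻¹} : Set ↥(lg_E L (N' * q)))) :
          ↥(lg_E L (N' * q))) =
        ssm_gl_W L N' q hq2 hqN'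
          (IntermediateField.inclusion (ssm_al_E_le L N' q) (b' : ↥(lg_E L N')))) →
      φ1 (algebraMap ↥O (fc_chart ↥O s') π) ∈
        ssm_tp_P (fc_chart ↥O ({(lg_lamE (N' * q))⁻¹} : Set ↥(lg_E L (N' * q))))
          (ssm_gl_V1 O hπ N' q)) := by
  obtain ⟨-, -, -, -, -, -, -, -, hπP, hqP⟩ := s36cp12_legInv O hπ N' q hq2 hqN' hprime
  refine ⟨by rw [map_natCast]; exact hqP.1, fun hφ => ?_⟩
  rw [s36cp12_phi_algebraMap O N' q hq2 hqN' φ1 hφ]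
  exact hπP.1

end Leg

section NF

variable (L : Type) [Field L] [NumberField L] [Algebra L (AlgebraicClosure ℚ)]
  (O : ValuationSubring L) [IsDiscreteValuationRing O] {π : O} (hπ : Irreducible π)
variable (N' q : ℕ) [NeZero N'] [NeZero q] [hq : Fact q.Prime] [CharP (ResidueField O) q]
  (hq2 : ¬ 2 ∣ q) (hqN' : ¬ q ∣ N') (ζ : L) (hζ : IsPrimitiveRoot ζ N')

include hπ hq2 hqN' hζ in
/-- `hprime` (chart `{λ'}` of level `N'`) in [NF2-CTX]. -/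
theorem s36cp12_nf_hprime :
    Prime (algebraMap ↥O (fc_chart ↥O ({lg_lamE N'} : Set ↥(lg_E L N'))) π) :=
  (ssm_ll_prime L N' hπ q (ssm_fln_q_mem L O q) (ssm_fl_ne_two q hq2) hqN' ζ hζ).1

include hζ in
/-- **[L3c] (4), chart `{λ₁}`, [NF2-CTX] closed term.** -/
theorem s36cp12_nf :
    (ssm_tp_P (fc_chart ↥O ({lg_lamE (N' * q)} : Set ↥(lg_E L (N' * q)))) (ssm_gl_V2 O hπ N' q hq2 hqN')).IsPrime ∧
    (ssm_tp_P (fc_chart ↥O ({lg_lamE (N' * q)} : Set ↥(lg_E L (N' * q)))) (ssm_gl_V1 O hπ N' q)).IsPrime ∧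
    (∀ b ∈ ssm_tp_P (fc_chart ↥O ({lg_lamE (N' * q)} : Set ↥(lg_E L (N' * q)))) (ssm_gl_V2 O hπ N' q hq2 hqN'),
      (b : ↥(lg_E L (N' * q))) ∈ (ssm_gl_V2 O hπ N' q hq2 hqN').nonunits) ∧
    (∀ b ∈ ssm_tp_P (fc_chart ↥O ({lg_lamE (N' * q)} : Set ↥(lg_E L (N' * q)))) (ssm_gl_V1 O hπ N' q),
      (b : ↥(lg_E L (N' * q))) ∈ (ssm_gl_V1 O hπ N' q).nonunits) ∧
    (∀ b : fc_chart ↥O ({lg_lamE (N' * q)} : Set ↥(lg_E L (N' * q))),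
      (b : ↥(lg_E L (N' * q))) ∈ (ssm_gl_V1 O hπ N' q).nonunits →
        b ∈ ssm_tp_P (fc_chart ↥O ({lg_lamE (N' * q)} : Set ↥(lg_E L (N' * q)))) (ssm_gl_V1 O hπ N' q)) ∧
    (∀ b : fc_chart ↥O ({lg_lamE (N' * q)} : Set ↥(lg_E L (N' * q))), (b : ↥(lg_E L (N' * q))) ∈ ssm_gl_V1 O hπ N' q) ∧
    (∀ b : fc_chart ↥O ({lg_lamE (N' * q)} : Set ↥(lg_E L (N' * q))), (b : ↥(lg_E L (N' * q))) ∈ ssm_gl_V2 O hπ N' q hq2 hqN') ∧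
    (∀ b : fc_chart ↥O ({lg_lamE (N' * q)} : Set ↥(lg_E L (N' * q))),
      (b : ↥(lg_E L (N' * q))) ∈ (ssm_gl_V2 O hπ N' q hq2 hqN').nonunits →
        b ∈ ssm_tp_P (fc_chart ↥O ({lg_lamE (N' * q)} : Set ↥(lg_E L (N' * q)))) (ssm_gl_V2 O hπ N' q hq2 hqN')) ∧
    (algebraMap ↥O (fc_chart ↥O ({lg_lamE (N' * q)} : Set ↥(lg_E L (N' * q)))) π ∈ ssm_tp_P (fc_chart ↥O ({lg_lamE (N' * q)} : Set ↥(lg_E L (N' * q)))) (ssm_gl_V1 O hπ N' q) ∧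
      algebraMap ↥O (fc_chart ↥O ({lg_lamE (N' * q)} : Set ↥(lg_E L (N' * q)))) π ∈ ssm_tp_P (fc_chart ↥O ({lg_lamE (N' * q)} : Set ↥(lg_E L (N' * q)))) (ssm_gl_V2 O hπ N' q hq2 hqN')) ∧
    (((q : ℕ) : fc_chart ↥O ({lg_lamE (N' * q)} : Set ↥(lg_E L (N' * q)))) ∈ ssm_tp_P (fc_chart ↥O ({lg_lamE (N' * q)} : Set ↥(lg_E L (N' * q)))) (ssm_gl_V1 O hπ N' q) ∧
      ((q : ℕ) : fc_chart ↥O ({lg_lamE (N' * q)} : Set ↥(lg_E L (N' * q)))) ∈ ssm_tp_P (fc_chart ↥O ({lg_lamE (N' * q)} : Set ↥(lg_E L (N' * q)))) (ssm_gl_V2 O hπ N' q hq2 hqN')) :=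
  s36cp12_leg O hπ N' q hq2 hqN' (s36cp12_nf_hprime L O hπ N' q hq2 hqN' ζ hζ)

include hζ in
/-- **[L3c] (4)-∞, chart `{λ₁⁻¹}`, [NF2-CTX] closed term.** -/
theorem s36cp12_nfInv :
    (ssm_tp_P (fc_chart ↥O ({(lg_lamE (N' * q))⁻¹} : Set ↥(lg_E L (N' * q)))) (ssm_gl_V2 O hπ N' q hq2 hqN')).IsPrime ∧
    (ssm_tp_P (fc_chart ↥O ({(lg_lamE (N' * q))⁻¹} : Set ↥(lg_E L (N' * q)))) (ssm_gl_V1 O hπ N' q)).IsPrime ∧
    (∀ b ∈ ssm_tp_P (fc_chart ↥O ({(lg_lamE (N' * q))⁻¹} : Set ↥(lg_E L (N' * q)))) (ssm_gl_V2 O hπ N' q hq2 hqN'),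
      (b : ↥(lg_E L (N' * q))) ∈ (ssm_gl_V2 O hπ N' q hq2 hqN').nonunits) ∧
    (∀ b ∈ ssm_tp_P (fc_chart ↥O ({(lg_lamE (N' * q))⁻¹} : Set ↥(lg_E L (N' * q)))) (ssm_gl_V1 O hπ N' q),
      (b : ↥(lg_E L (N' * q))) ∈ (ssm_gl_V1 O hπ N' q).nonunits) ∧
    (∀ b : fc_chart ↥O ({(lg_lamE (N' * q))⁻¹} : Set ↥(lg_E L (N' * q))),
      (b : ↥(lg_E L (N' * q))) ∈ (ssm_gl_V1 O hπ N' q).nonunits →
        b ∈ ssm_tp_P (fc_chart ↥O ({(lg_lamE (N' * q))⁻¹} : Set ↥(lg_E L (N' * q)))) (ssm_gl_V1 O hπ N' q)) ∧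
    (∀ b : fc_chart ↥O ({(lg_lamE (N' * q))⁻¹} : Set ↥(lg_E L (N' * q))), (b : ↥(lg_E L (N' * q))) ∈ ssm_gl_V1 O hπ N' q) ∧
    (∀ b : fc_chart ↥O ({(lg_lamE (N' * q))⁻¹} : Set ↥(lg_E L (N' * q))), (b : ↥(lg_E L (N' * q))) ∈ ssm_gl_V2 O hπ N' q hq2 hqN') ∧
    (∀ b : fc_chart ↥O ({(lg_lamE (N' * q))⁻¹} : Set ↥(lg_E L (N' * q))),
      (b : ↥(lg_E L (N' * q))) ∈ (ssm_gl_V2 O hπ N' q hq2 hqN').nonunits →
        b ∈ ssm_tp_P (fc_chart ↥O ({(lg_lamE (N' * q))⁻¹} : Set ↥(lg_E L (N' * q)))) (ssm_gl_V2 O hπ N' q hq2 hqN')) ∧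
    (algebraMap ↥O (fc_chart ↥O ({(lg_lamE (N' * q))⁻¹} : Set ↥(lg_E L (N' * q)))) π ∈ ssm_tp_P (fc_chart ↥O ({(lg_lamE (N' * q))⁻¹} : Set ↥(lg_E L (N' * q)))) (ssm_gl_V1 O hπ N' q) ∧
      algebraMap ↥O (fc_chart ↥O ({(lg_lamE (N' * q))⁻¹} : Set ↥(lg_E L (N' * q)))) π ∈ ssm_tp_P (fc_chart ↥O ({(lg_lamE (N' * q))⁻¹} : Set ↥(lg_E L (N' * q)))) (ssm_gl_V2 O hπ N' q hq2 hqN')) ∧
    (((q : ℕ) : fc_chart ↥O ({(lg_lamE (N' * q))⁻¹} : Set ↥(lg_E L (N' * q)))) ∈ ssm_tp_P (fc_chart ↥O ({(lg_lamE (N' * q))⁻¹} : Set ↥(lg_E L (N' * q)))) (ssm_gl_V1 O hπ N' q) ∧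
      ((q : ℕ) : fc_chart ↥O ({(lg_lamE (N' * q))⁻¹} : Set ↥(lg_E L (N' * q)))) ∈ ssm_tp_P (fc_chart ↥O ({(lg_lamE (N' * q))⁻¹} : Set ↥(lg_E L (N' * q)))) (ssm_gl_V2 O hπ N' q hq2 hqN')) :=
  s36cp12_legInv O hπ N' q hq2 hqN' (s36cp12_nf_hprime L O hπ N' q hq2 hqN' ζ hζ)

include hq2 hqN' hζ in
/-- **`hπP2` for `π' = (q : B')`, chart `{λ₁}`, [NF2-CTX] closed term** (any ring hom `φ1`). -/
theorem s36cp12_nf_piP2 {s' : Set ↥(lg_E L N')}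
    (φ1 : fc_chart ↥O s' →+* fc_chart ↥O ({lg_lamE (N' * q)} : Set ↥(lg_E L (N' * q)))) :
    φ1 ((q : ℕ) : fc_chart ↥O s') ∈
      ssm_tp_P (fc_chart ↥O ({lg_lamE (N' * q)} : Set ↥(lg_E L (N' * q))))
        (ssm_gl_V1 O hπ N' q) :=
  (s36cp12_piP2 O hπ N' q hq2 hqN' (s36cp12_nf_hprime L O hπ N' q hq2 hqN' ζ hζ) φ1).1

include hq2 hqN' hζ in
/-- **`hπP2` for `π' = (q : B')`, chart `{λ₁⁻¹}`, [NF2-CTX] closed term** (any ring hom `φ1`). -/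
theorem s36cp12_nf_piP2Inv {s' : Set ↥(lg_E L N')}
    (φ1 : fc_chart ↥O s' →+* fc_chart ↥O ({(lg_lamE (N' * q))⁻¹} : Set ↥(lg_E L (N' * q)))) :
    φ1 ((q : ℕ) : fc_chart ↥O s') ∈
      ssm_tp_P (fc_chart ↥O ({(lg_lamE (N' * q))⁻¹} : Set ↥(lg_E L (N' * q))))
        (ssm_gl_V1 O hπ N' q) :=
  (s36cp12_piP2Inv O hπ N' q hq2 hqN' (s36cp12_nf_hprime L O hπ N' q hq2 hqN' ζ hζ) φ1).1

end NF

end Fermat.Agent.S36
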