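/-
S36 [L3c] = [C-CUSP-EIS] (helper5's route #2436), step (B.4), quotient form (helper24; a
FALLBACK twin of helper5's own `CuspEisRing.lean`, stated on `T := A[σ]` in `tq_` language).

`A` an integrally closed local domain with fraction field `E1`, `E2 / E1` of prime degree `q`,
`σ ∈ E2 ∖ E1` a root of a monic `p ∈ A[X]` of degree `q` such that `m0 := p(1)` is a prime element
of `A` and `𝔪_A = (m0, t)`.  Then in `T := A[σ]`, with `Z := σ - 1`:
`(Z)` is prime, `𝔐 := (Z, t)` is maximal, lies over `𝔪_A`, and `tq_GenBy Z t 𝔐`, `tq_Dom Z 𝔐`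
(so that `T_𝔐` is a regular local ring with `Z` a prime element: `s36ob_local`).
-/
import Mathlib
import Fermat.Agent.JT3.Model.TameQuotient
import Fermat.Agent.S36.CReg.CuspEisMin

set_option autoImplicit false
set_option linter.unusedSectionVars false
set_option linter.style.haveILetI false

namespace Fermat.Agent.S36

open Polynomial IsLocalRing Fermat.Agent.JT3

section Ring

variable {A : Type*} [CommRing A] [IsDomain A] [IsIntegrallyClosed A]
  {E1 E2 : Type*} [Field E1] [Field E2] [Algebra A E1] [IsFractionRing A E1] [Algebra E1 E2]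
  [Algebra A E2] [IsScalarTower A E1 E2] [FiniteDimensional E1 E2]

omit [IsDomain A] [IsIntegrallyClosed A] in
/-- `h(σ) = (σ - 1) k(σ) + h(1)`. -/
theorem s36cq_aeval_split (σ : E2) (h : A[X]) :
    ∃ k : A[X], aeval (s36cq_gen A σ) h =
      (s36cq_gen A σ - 1) * aeval (s36cq_gen A σ) k + algebraMap A _ (h.eval 1) := by
  obtain ⟨k, hk⟩ := X_sub_C_dvd_sub_C_eval (a := (1 : A)) (p := h)
  refine ⟨k, ?_⟩
  have h1 : h = (X - C 1) * k + C (h.eval 1) := by rw [← hk]; ring
  conv_lhs => rw [h1]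
  simp only [map_add, map_mul, map_sub, aeval_X, aeval_C, map_one]

include E1 in
/-- a polynomial vanishing at `σ` is a multiple of `p` -/
theorem s36cq_dvd_of_aeval {p : A[X]} (hp : p.Monic) (hdeg : p.natDegree = Module.finrank E1 E2)
    (hprime : (Module.finrank E1 E2).Prime) {σ : E2} (hσ : aeval σ p = 0)
    (hσ1 : σ ∉ (algebraMap E1 E2).range) (h : A[X]) (hh : aeval (s36cq_gen A σ) h = 0) :
    p ∣ h := by
  have hint : IsIntegral A σ := ⟨p, hp, by rwa [← aeval_def]⟩
  haveI : Module.IsTorsionFree A E2 :=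
    Module.isTorsionFree_iff_algebraMap_injective.2 (s36cq_algebraMap_injective (E1 := E1))
  have h0 : aeval σ h = 0 := by
    rw [← s36cq_aeval_coe, hh]; rfl
  have := minpoly.isIntegrallyClosed_dvd hint h0
  rwa [s36cq_minpoly_eq (E1 := E1) hp hdeg hprime hσ hσ1] at this

include E1 in
/-- **Criterion for `(Z)`**: `h(σ) ∈ (σ - 1) ↔ p(1) ∣ h(1)`. -/
theorem s36cq_mem_spanZ_iff {p : A[X]} (hp : p.Monic) (hdeg : p.natDegree = Module.finrank E1 E2)
    (hprime : (Module.finrank E1 E2).Prime) {σ : E2} (hσ : aeval σ p = 0)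
    (hσ1 : σ ∉ (algebraMap E1 E2).range) (h : A[X]) :
    aeval (s36cq_gen A σ) h ∈ Ideal.span {s36cq_gen A σ - 1} ↔ p.eval 1 ∣ h.eval 1 := by
  have hpT : aeval (s36cq_gen A σ) p = 0 := Subtype.ext (by rw [s36cq_aeval_coe, hσ]; rfl)
  constructor
  · intro hmem
    obtain ⟨y, hy⟩ := Ideal.mem_span_singleton'.1 hmem
    obtain ⟨k, rfl⟩ := s36cq_exists_aeval σ y
    have h0 : aeval (s36cq_gen A σ) (h - k * (X - C 1)) = 0 := by
      simp only [map_sub, map_mul, aeval_X, map_one]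
      rw [hy, sub_self]
    obtain ⟨r, hr⟩ := s36cq_dvd_of_aeval (E1 := E1) hp hdeg hprime hσ hσ1 _ h0
    refine ⟨r.eval 1, ?_⟩
    have := congrArg (Polynomial.eval 1) hr
    simpa using this
  · rintro ⟨r, hr⟩
    obtain ⟨k, hk⟩ := s36cq_aeval_split (A := A) σ h
    obtain ⟨k', hk'⟩ := s36cq_aeval_split (A := A) σ p
    rw [hpT] at hk'
    have h1 : algebraMap A (Algebra.adjoin A ({σ} : Set E2)) (p.eval 1) =
        -((s36cq_gen A σ - 1) * aeval (s36cq_gen A σ) k') := by
      linear_combination -hk'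
    rw [hk, hr, map_mul, h1]
    refine Ideal.add_mem _ (Ideal.mul_mem_right _ _ (Ideal.mem_span_singleton_self _)) ?_
    refine Ideal.mul_mem_right _ _ (Ideal.neg_mem_iff _ |>.2 ?_)
    exact Ideal.mul_mem_right _ _ (Ideal.mem_span_singleton_self _)

include E1 in
/-- **Criterion for `(Z, t)`**: `h(σ) ∈ (σ - 1, t) ↔ h(1) ∈ (p(1), t)`. -/
theorem s36cq_mem_spanZt_iff {p : A[X]} (hp : p.Monic) (hdeg : p.natDegree = Module.finrank E1 E2)
    (hprime : (Module.finrank E1 E2).Prime) {σ : E2} (hσ : aeval σ p = 0)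
    (hσ1 : σ ∉ (algebraMap E1 E2).range) (t : A) (h : A[X]) :
    aeval (s36cq_gen A σ) h ∈
        Ideal.span {s36cq_gen A σ - 1, algebraMap A (Algebra.adjoin A ({σ} : Set E2)) t} ↔
      h.eval 1 ∈ Ideal.span {p.eval 1, t} := by
  have hpT : aeval (s36cq_gen A σ) p = 0 := Subtype.ext (by rw [s36cq_aeval_coe, hσ]; rfl)
  constructor
  · intro hmem
    obtain ⟨y1, y2, hy⟩ := Ideal.mem_span_pair.1 hmem
    obtain ⟨k1, rfl⟩ := s36cq_exists_aeval σ y1
    obtain ⟨k2, rfl⟩ := s36cq_exists_aeval σ y2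
    have h0 : aeval (s36cq_gen A σ) (h - k1 * (X - C 1) - k2 * C t) = 0 := by
      simp only [map_sub, map_mul, aeval_X, aeval_C, map_one]
      rw [← hy]; ring
    obtain ⟨r, hr⟩ := s36cq_dvd_of_aeval (E1 := E1) hp hdeg hprime hσ hσ1 _ h0
    have h2 := congrArg (Polynomial.eval 1) hr
    simp only [eval_sub, eval_mul, eval_X, eval_C, sub_self, mul_zero, sub_zero] at h2
    rw [Ideal.mem_span_pair]
    exact ⟨r.eval 1, k2.eval 1, by linear_combination -h2⟩
  · intro hmem
    obtain ⟨r, r', hr⟩ := Ideal.mem_span_pair.1 hmem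
    obtain ⟨k, hk⟩ := s36cq_aeval_split (A := A) σ h
    obtain ⟨k', hk'⟩ := s36cq_aeval_split (A := A) σ p
    rw [hpT] at hk'
    have h1 : algebraMap A (Algebra.adjoin A ({σ} : Set E2)) (p.eval 1) =
        -((s36cq_gen A σ - 1) * aeval (s36cq_gen A σ) k') := by
      linear_combination -hk'
    rw [hk, ← hr, map_add, map_mul, map_mul, h1]
    have hZ : s36cq_gen A σ - 1 ∈
        Ideal.span {s36cq_gen A σ - 1, algebraMap A (Algebra.adjoin A ({σ} : Set E2)) t} :=
      Ideal.subset_span (by simp)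
    have ht : algebraMap A (Algebra.adjoin A ({σ} : Set E2)) t ∈
        Ideal.span {s36cq_gen A σ - 1, algebraMap A (Algebra.adjoin A ({σ} : Set E2)) t} :=
      Ideal.subset_span (by simp)
    refine Ideal.add_mem _ (Ideal.mul_mem_right _ _ hZ) (Ideal.add_mem _ ?_ ?_)
    · refine Ideal.mul_mem_left _ _ (Ideal.neg_mem_iff _ |>.2 ?_)
      exact Ideal.mul_mem_right _ _ hZ
    · exact Ideal.mul_mem_left _ _ ht

include E1 in
/-- **(B.4) The ring `T = A[σ]`**: `(Z)` is prime, `𝔐 = (Z, t)` is maximal over `𝔪_A`, and the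
`tq_` clauses hold at `𝔐`. -/
theorem s36cq_ring [IsLocalRing A] {p : A[X]} (hp : p.Monic)
    (hdeg : p.natDegree = Module.finrank E1 E2) (hprime : (Module.finrank E1 E2).Prime) {σ : E2}
    (hσ : aeval σ p = 0) (hσ1 : σ ∉ (algebraMap E1 E2).range) {t : A}
    (hm0 : Prime (p.eval 1)) (hmax : maximalIdeal A = Ideal.span {p.eval 1, t}) :
    (Ideal.span {s36cq_gen A σ - 1,
        algebraMap A (Algebra.adjoin A ({σ} : Set E2)) t}).IsMaximal ∧
      (Ideal.span {s36cq_gen A σ - 1} : Ideal (Algebra.adjoin A ({σ} : Set E2))).IsPrime ∧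
      tq_GenBy (s36cq_gen A σ - 1) (algebraMap A (Algebra.adjoin A ({σ} : Set E2)) t)
        (Ideal.span {s36cq_gen A σ - 1, algebraMap A (Algebra.adjoin A ({σ} : Set E2)) t}) ∧
      tq_Dom (s36cq_gen A σ - 1)
        (Ideal.span {s36cq_gen A σ - 1, algebraMap A (Algebra.adjoin A ({σ} : Set E2)) t}) ∧
      (Ideal.span {s36cq_gen A σ - 1,
        algebraMap A (Algebra.adjoin A ({σ} : Set E2)) t}).comap
          (algebraMap A (Algebra.adjoin A ({σ} : Set E2))) = maximalIdeal A := by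
  set T := Algebra.adjoin A ({σ} : Set E2) with hT
  set Z : T := s36cq_gen A σ - 1 with hZ
  set tT : T := algebraMap A T t with htT
  set 𝔐 : Ideal T := Ideal.span {Z, tT} with h𝔐
  have critZ := s36cq_mem_spanZ_iff (E1 := E1) hp hdeg hprime hσ hσ1
  have critM := s36cq_mem_spanZt_iff (E1 := E1) hp hdeg hprime hσ hσ1 t
  have hZM : Z ∈ 𝔐 := Ideal.subset_span (by simp)
  have htM : tT ∈ 𝔐 := Ideal.subset_span (by simp)
  have hone : (1 : T) ∉ 𝔐 := by
    intro h1
    have h2 : aeval (s36cq_gen A σ) (1 : A[X]) ∈ 𝔐 := by rw [map_one]; exact h1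
    rw [h𝔐, hZ, htT, critM, ← hmax, eval_one] at h2
    exact (Ideal.ne_top_iff_one _).1 (maximalIdeal.isMaximal A).ne_top h2
  -- `(Z)` is prime
  have hprimeZ : (Ideal.span {Z} : Ideal T).IsPrime := by
    refine ⟨?_, ?_⟩
    · intro htop
      have h1 : aeval (s36cq_gen A σ) (1 : A[X]) ∈ Ideal.span {Z} := by
        rw [htop]; exact Submodule.mem_top
      rw [hZ, critZ, eval_one] at h1
      exact hm0.not_isUnit (isUnit_of_dvd_one h1)
    · intro x y hxy
      obtain ⟨h1, rfl⟩ := s36cq_exists_aeval σ x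
      obtain ⟨h2, rfl⟩ := s36cq_exists_aeval σ y
      rw [← map_mul, hZ, critZ, eval_mul] at hxy
      rcases hm0.dvd_or_dvd hxy with h | h
      · left; rw [hZ, critZ]; exact h
      · right; rw [hZ, critZ]; exact h
  -- `𝔐` is maximal
  have hmaxM : 𝔐.IsMaximal := by
    rw [Ideal.isMaximal_iff]
    refine ⟨hone, fun J x hJ hx hxJ => ?_⟩
    obtain ⟨h, rfl⟩ := s36cq_exists_aeval σ x
    have h1 : h.eval 1 ∉ maximalIdeal A := by
      intro hmem
      apply hx
      rw [h𝔐, hZ, htT, critM, ← hmax]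
      exact hmem
    have hu : IsUnit (h.eval 1) := by
      by_contra hnu
      exact h1 ((mem_maximalIdeal _).2 hnu)
    obtain ⟨v, hv⟩ := hu.exists_left_inv
    have h2 : aeval (s36cq_gen A σ) (C v * h - 1) ∈ 𝔐 := by
      rw [h𝔐, hZ, htT, critM]
      simp only [eval_sub, eval_mul, eval_C, eval_one]
      rw [hv, sub_self]
      exact Ideal.zero_mem _
    have h3 : (1 : T) = aeval (s36cq_gen A σ) (C v) * aeval (s36cq_gen A σ) h -
        aeval (s36cq_gen A σ) (C v * h - 1) := by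
      simp only [map_sub, map_mul, map_one]; ring
    rw [h3]
    exact Ideal.sub_mem _ (Ideal.mul_mem_left _ _ hxJ) (hJ h2)
  refine ⟨hmaxM, hprimeZ, ⟨hZM, htM, fun x hx => ⟨1, hone, by rwa [one_mul]⟩⟩, ?_, ?_⟩
  · intro a b hab
    refine ⟨1, hone, ?_⟩
    rw [one_mul, one_mul]
    exact hprimeZ.mem_or_mem hab
  · ext a
    rw [Ideal.mem_comap]
    have h1 : algebraMap A T a = aeval (s36cq_gen A σ) (C a) := by rw [aeval_C]
    rw [h1, h𝔐, hZ, htT, critM, eval_C, ← hmax]

end Ring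

end Fermat.Agent.S36
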