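/-
Project S36, model cell [M2], leaf **[C-REG]**, abstract half (helper5).  Prefix `s36cr_`.

THE POINTS OF THE COMPONENT OF MULTIPLICITY `q - 1` ARE REGULAR: abstract criterion.

`C` a noetherian integrally closed domain (a chart of level `N' q²`, or a localisation of it),
`Q0` a prime of `C` (the component `C` of multiplicity `q - 1`), `z ∈ Q0`.

* `s36cr_principal` : if every prime of `C` containing `z` contains `Q0` and `z` generates `Q0`
  at the generic point of `Q0`, then `Q0 = (z)`;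
* `s36cr_principal_of_dvd_pow` : the same with the hypothesis in the form delivered by the
  discriminant computation: `z ∣ π ^ k` and the primes containing `π` and `z` contain `Q0`;
* `s36cr_max_eq` : if moreover `C = R1 + Q0` for a local ring `R1 → C` with maximal ideal `(π, s)`,
  `π ∈ Q0`, then the only maximal ideal of `C` containing `Q0` is `(z, s)`;
* `s36cr_pi_eq` : `π = w * z ^ e` with `w` outside the maximal ideal `n` as soon as this holds at
  the generic point of `Q0` and no other vertical prime passes through `n`;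
* `s36cr_genBy`, `s36cr_dom` : the `tq_` forms.
-/
import Mathlib
import Fermat.Agent.SS.Krull
import Fermat.Agent.JT3.Model.TameQuotient

set_option autoImplicit false
set_option linter.unusedSectionVars false
set_option linter.unusedVariables false
set_option linter.style.haveILetI false

namespace Fermat.Agent.S36

open Fermat.Agent.SS Fermat.Agent.JT3

section Principal

variable {C : Type*} [CommRing C] [IsDomain C] [IsNoetherianRing C] [IsIntegrallyClosed C]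

/-- a nonzero prime contained in a prime of height one is equal to it. -/
theorem s36cr_eq_of_le_height_one {Q0 𝔭 : Ideal C} [hQ : Q0.IsPrime] [h𝔭 : 𝔭.IsPrime]
    (hQ0 : Q0 ≠ ⊥) (hle : Q0 ≤ 𝔭) (hht : 𝔭.height = 1) : Q0 = 𝔭 := by
  by_contra hne
  have hlt : Q0 < 𝔭 := lt_of_le_of_ne hle hne
  have h1 : Q0.height < 𝔭.height := Ideal.height_strict_mono_of_isPrime_of_isPrime hlt
  rw [hht] at h1
  have h2 : Q0.height = 0 := by
    have := Order.lt_one_iff_nonpos.1 h1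
    exact le_antisymm this bot_le
  exact hQ0 ((Ideal.height_eq_zero_iff_eq_bot (I := Q0)).1 h2)

/-- **[C-REG-abs]** the prime `Q0` is generated by `z`. -/
theorem s36cr_principal {z : C} (hz : z ≠ 0) (Q0 : Ideal C) [hQ : Q0.IsPrime] (hzQ : z ∈ Q0)
    (h1 : ∀ 𝔮 : Ideal C, 𝔮.IsPrime → z ∈ 𝔮 → Q0 ≤ 𝔮)
    (h2 : ∃ s : C, s ∉ Q0 ∧ ∀ x ∈ Q0, z ∣ s * x) : Q0 = Ideal.span {z} := by
  have hQ0 : Q0 ≠ ⊥ := fun h => hz (by rw [h] at hzQ; exact hzQ)
  apply le_antisymm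
  · intro x hx
    rw [Ideal.mem_span_singleton]
    apply sskr_dvd hz
    intro 𝔭 h𝔭 hht
    by_cases hzp : z ∈ 𝔭
    · have hle := h1 𝔭 h𝔭 hzp
      haveI := h𝔭
      have heq : Q0 = 𝔭 := s36cr_eq_of_le_height_one hQ0 hle hht
      obtain ⟨s, hs, hsx⟩ := h2
      exact ⟨s, heq ▸ hs, hsx x hx⟩
    · exact ⟨z, hzp, Dvd.intro _ rfl⟩
  · rw [Ideal.span_singleton_le_iff_mem]
    exact hzQ

/-- the same, with the hypothesis in the form produced by the discriminant computation. -/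
theorem s36cr_principal_of_dvd_pow {z ϖ : C} (hz : z ≠ 0) (Q0 : Ideal C) [hQ : Q0.IsPrime]
    (hzQ : z ∈ Q0) (k : ℕ) (hk : z ∣ ϖ ^ k)
    (hvert : ∀ 𝔮 : Ideal C, 𝔮.IsPrime → ϖ ∈ 𝔮 → z ∈ 𝔮 → Q0 ≤ 𝔮)
    (h2 : ∃ s : C, s ∉ Q0 ∧ ∀ x ∈ Q0, z ∣ s * x) : Q0 = Ideal.span {z} := by
  refine s36cr_principal hz Q0 hzQ (fun 𝔮 h𝔮 hzq => ?_) h2
  have hπ : ϖ ^ k ∈ 𝔮 := by
    obtain ⟨c, hc⟩ := hk
    rw [hc]
    exact Ideal.mul_mem_right _ _ hzq
  exact hvert 𝔮 h𝔮 (h𝔮.mem_of_pow_mem k hπ) hzq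

end Principal

section Point

variable {R1 C : Type*} [CommRing R1] [IsLocalRing R1] [CommRing C] [IsDomain C] [Algebra R1 C]

/-- **the point of `Q0`**: if `C = R1 + Q0`, `𝔪_{R1} = (π, s)`, `π ∈ Q0 = (z)`, then every proper
ideal containing `Q0` lies in `(z, s)`. -/
theorem s36cr_le_span {z : C} {π s : R1} (Q0 : Ideal C)
    (hQz : Q0 = Ideal.span {z})
    (hm : IsLocalRing.maximalIdeal R1 = Ideal.span {π, s})
    (hπ : algebraMap R1 C π ∈ Q0)
    (hadd : ∀ c : C, ∃ r : R1, c - algebraMap R1 C r ∈ Q0)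
    (n : Ideal C) (hn : n ≠ ⊤) (hle : Q0 ≤ n) : n ≤ Ideal.span {z, algebraMap R1 C s} := by
  intro x hx
  obtain ⟨r, hr⟩ := hadd x
  have hrn : algebraMap R1 C r ∈ n := by
    have h1 : x - (x - algebraMap R1 C r) ∈ n := Ideal.sub_mem _ hx (hle hr)
    simpa using h1
  have hrm : r ∈ IsLocalRing.maximalIdeal R1 := by
    rw [IsLocalRing.mem_maximalIdeal, mem_nonunits_iff]
    intro hu
    exact hn (Ideal.eq_top_of_isUnit_mem _ hrn (hu.map (algebraMap R1 C)))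
  rw [hm] at hrm
  obtain ⟨a, b, hab⟩ := Ideal.mem_span_pair.1 hrm
  have hzmem : z ∈ Ideal.span {z, algebraMap R1 C s} := Ideal.subset_span (by simp)
  have hsmem : algebraMap R1 C s ∈ Ideal.span {z, algebraMap R1 C s} :=
    Ideal.subset_span (by simp)
  have hQle : Q0 ≤ Ideal.span {z, algebraMap R1 C s} := by
    rw [hQz, Ideal.span_singleton_le_iff_mem]
    exact hzmem
  have hx' : x = (x - algebraMap R1 C r) + algebraMap R1 C r := by ring
  rw [hx']
  refine Ideal.add_mem _ (hQle hr) ?_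
  rw [← hab, map_add, map_mul, map_mul]
  exact Ideal.add_mem _ (Ideal.mul_mem_left _ _ (hQle hπ)) (Ideal.mul_mem_left _ _ hsmem)

/-- **the point of `Q0` is unique and equal to `(z, s)`**. -/
theorem s36cr_max_eq {z : C} {π s : R1} (Q0 : Ideal C)
    (hQz : Q0 = Ideal.span {z})
    (hm : IsLocalRing.maximalIdeal R1 = Ideal.span {π, s})
    (hπ : algebraMap R1 C π ∈ Q0)
    (hadd : ∀ c : C, ∃ r : R1, c - algebraMap R1 C r ∈ Q0)
    (n : Ideal C) [hn : n.IsMaximal] (hle : Q0 ≤ n) (hsn : algebraMap R1 C s ∈ n) :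
    n = Ideal.span {z, algebraMap R1 C s} := by
  apply le_antisymm (s36cr_le_span Q0 hQz hm hπ hadd n hn.ne_top hle)
  rw [Ideal.span_le]
  intro y hy
  rcases hy with rfl | hy
  · exact hle (by rw [hQz]; exact Ideal.mem_span_singleton_self _)
  · rw [Set.mem_singleton_iff] at hy
    rw [hy]
    exact hsn

/-- a maximal ideal containing `Q0` contains the image of `𝔪_{R1}` as soon as `C` is integral
over `R1` (lying over). -/
theorem s36cr_s_mem [Algebra.IsIntegral R1 C] {s : R1} (hs : s ∈ IsLocalRing.maximalIdeal R1)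
    (n : Ideal C) [hn : n.IsMaximal] : algebraMap R1 C s ∈ n := by
  have hmax : (n.comap (algebraMap R1 C)).IsMaximal :=
    Ideal.isMaximal_comap_of_isIntegral_of_isMaximal (R := R1) n
  have heq : n.comap (algebraMap R1 C) = IsLocalRing.maximalIdeal R1 :=
    IsLocalRing.eq_maximalIdeal hmax
  have : s ∈ n.comap (algebraMap R1 C) := by rw [heq]; exact hs
  exact this

end Point

section Exponent

variable {C : Type*} [CommRing C] [IsDomain C] [IsNoetherianRing C] [IsIntegrallyClosed C]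

/-- **`π = w z^e` with `w` a unit at `n`.** -/
theorem s36cr_pi_eq {z ϖ : C} (hz : z ≠ 0) (Q0 : Ideal C) [hQ : Q0.IsPrime]
    (hQz : Q0 = Ideal.span {z}) (e : ℕ)
    (he : ∃ s w : C, s ∉ Q0 ∧ w ∉ Q0 ∧ s * ϖ = w * z ^ e)
    (n : Ideal C) [hn : n.IsPrime]
    (hvert : ∀ 𝔮 : Ideal C, 𝔮.IsPrime → ϖ ∈ 𝔮 → 𝔮 ≤ n → Q0 ≤ 𝔮) :
    ∃ w : C, w ∉ n ∧ ϖ = w * z ^ e := by
  obtain ⟨s, w0, hs, hw0, hsw⟩ := he
  have hze : z ^ e ≠ 0 := pow_ne_zero _ hz
  have hQ0 : Q0 ≠ ⊥ := fun h => hz (by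
    have : z ∈ Q0 := by rw [hQz]; exact Ideal.mem_span_singleton_self _
    rw [h] at this; exact this)
  -- `z ^ e ∣ ϖ`
  have hdvd : z ^ e ∣ ϖ := by
    apply sskr_dvd hze
    intro 𝔭 h𝔭 hht
    by_cases hzp : z ∈ 𝔭
    · haveI := h𝔭
      have hle : Q0 ≤ 𝔭 := by
        rw [hQz, Ideal.span_singleton_le_iff_mem]; exact hzp
      have heq : Q0 = 𝔭 := s36cr_eq_of_le_height_one hQ0 hle hht
      exact ⟨s, heq ▸ hs, ⟨w0, by rw [hsw]; ring⟩⟩
    · exact ⟨z ^ e, fun h => hzp (h𝔭.mem_of_pow_mem e h), Dvd.intro _ rfl⟩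
  obtain ⟨w, hw⟩ := hdvd
  refine ⟨w, ?_, by rw [hw]; ring⟩
  -- `w ∉ Q0`
  have hwQ : w ∉ Q0 := by
    intro hwQ
    have h1 : s * w * z ^ e = w0 * z ^ e := by
      rw [← hsw, hw]; ring
    have h2 : s * w = w0 := mul_right_cancel₀ hze h1
    exact hw0 (h2 ▸ Ideal.mul_mem_left _ _ hwQ)
  intro hwn
  -- a minimal prime over `w` inside `n`
  have hle : Ideal.span {w} ≤ n := by
    rw [Ideal.span_singleton_le_iff_mem]; exact hwn
  obtain ⟨𝔮, h𝔮min, h𝔮n⟩ := Ideal.exists_minimalPrimes_le hle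
  have h𝔮p : 𝔮.IsPrime := h𝔮min.1.1
  have hw𝔮 : w ∈ 𝔮 := h𝔮min.1.2 (Ideal.mem_span_singleton_self _)
  have hϖ𝔮 : ϖ ∈ 𝔮 := by rw [hw]; exact Ideal.mul_mem_left _ _ hw𝔮
  have hQ𝔮 : Q0 ≤ 𝔮 := hvert 𝔮 h𝔮p hϖ𝔮 h𝔮n
  have hht : 𝔮.height ≤ 1 :=
    Ideal.height_le_one_of_isPrincipal_of_mem_minimalPrimes (Ideal.span {w}) 𝔮 h𝔮min
  have hw0' : w ≠ 0 := fun h => hwQ (h ▸ Q0.zero_mem)
  have h𝔮0 : 𝔮 ≠ ⊥ := fun h => hw0' (by rw [h] at hw𝔮; exact hw𝔮)
  haveI := h𝔮p
  have hht1 : 𝔮.height = 1 := by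
    refine le_antisymm hht ?_
    rw [Order.one_le_iff_pos, pos_iff_ne_zero, Ne, Ideal.height_eq_zero_iff_eq_bot]
    exact h𝔮0
  have heq : Q0 = 𝔮 := s36cr_eq_of_le_height_one hQ0 hQ𝔮 hht1
  exact hwQ (heq ▸ hw𝔮)

end Exponent

section Tq

variable {C : Type*} [CommRing C]

/-- `tq_Dom z n` when `(z)` is prime. -/
theorem s36cr_dom {z : C} (hp : (Ideal.span {z} : Ideal C).IsPrime) (n : Ideal C) (hn : n ≠ ⊤) :
    tq_Dom z n := by
  intro a b hab
  refine ⟨1, fun h1 => hn ((Ideal.eq_top_iff_one _).2 h1), ?_⟩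
  rcases hp.mem_or_mem hab with h | h
  · exact Or.inl (by rw [one_mul]; exact h)
  · exact Or.inr (by rw [one_mul]; exact h)

/-- `tq_GenBy z s n` when `n = (z, s)`. -/
theorem s36cr_genBy {z s : C} (n : Ideal C) (hn : n ≠ ⊤) (h : n = Ideal.span {z, s}) :
    tq_GenBy z s n := by
  refine ⟨by rw [h]; exact Ideal.subset_span (by simp), by rw [h]; exact Ideal.subset_span (by simp),
    fun x hx => ⟨1, fun h1 => hn ((Ideal.eq_top_iff_one _).2 h1), by rw [one_mul, ← h]; exact hx⟩⟩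

end Tq

end Fermat.Agent.S36
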