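/-
Project S36, model cell [M2], leaf **[C-CUSP]**, abstract half, part 2 (helper5).  Prefix `s36cr_`.

THE POINT OF THE COMPONENT OF MULTIPLICITY `q - 1` AT A CUSP: the local equation is `z / τ`.

`R` a noetherian integrally closed domain (the local ring of the level-`N' q²` chart at the point
`n_C` of the component `C` over a cusp of the middle chart), `QC` its vertical prime, `z = W₂ G - G`
(`G` adapted, `[ORD-G]`), `τ = W₂ t` (`t` a generator of the wild cusp prime of level `N' q`).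

* `s36cr_cusp_point` : if every prime containing `z` contains `QC` or `τ`
  (`s36cr_dvd_pi_t_pow'`), `z` and `τ` are associated at every height-one prime containing `τ`
  (`s36cr_cusp_ratio`: the middle-cusp places), `τ ∉ QC` and `z` generates `QC` at its generic
  point, then `z = z'' τ` with `QC = (z'')`.
-/
import Mathlib
import Fermat.Agent.S36.CReg.Principal

set_option autoImplicit false
set_option linter.unusedSectionVars false
set_option linter.unusedVariables false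
set_option linter.style.haveILetI false

namespace Fermat.Agent.S36

open Fermat.Agent.SS

section CuspPoint

variable {R : Type*} [CommRing R] [IsDomain R] [IsNoetherianRing R] [IsIntegrallyClosed R]

/-- **[C-CUSP] the local equation at the cusp point of `C`.** -/
theorem s36cr_cusp_point {z τ : R} (hz : z ≠ 0) (hτ : τ ≠ 0) (QC : Ideal R) [hQ : QC.IsPrime]
    (hzQ : z ∈ QC) (hτQ : τ ∉ QC)
    (h1 : ∀ 𝔮 : Ideal R, 𝔮.IsPrime → z ∈ 𝔮 → QC ≤ 𝔮 ∨ τ ∈ 𝔮)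
    (hcusp : ∀ 𝔮 : Ideal R, 𝔮.IsPrime → 𝔮.height = 1 → τ ∈ 𝔮 →
      ∃ s s' : R, s ∉ 𝔮 ∧ s' ∉ 𝔮 ∧ s * z = s' * τ)
    (h2 : ∃ s : R, s ∉ QC ∧ ∀ x ∈ QC, z ∣ s * x) :
    ∃ z'' : R, z = z'' * τ ∧ QC = Ideal.span {z''} := by
  -- `τ ∣ z`
  have hdvd : τ ∣ z := by
    apply sskr_dvd hτ
    intro 𝔭 h𝔭 hht
    by_cases hτ𝔭 : τ ∈ 𝔭
    · obtain ⟨s, s', hs, hs', hss'⟩ := hcusp 𝔭 h𝔭 hht hτ𝔭
      exact ⟨s, hs, ⟨s', by rw [hss']; ring⟩⟩
    · exact ⟨τ, hτ𝔭, Dvd.intro _ rfl⟩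
  obtain ⟨z'', hz''⟩ := hdvd
  have hz''0 : z'' ≠ 0 := by
    rintro rfl
    exact hz (by rw [hz'', mul_zero])
  have hz''Q : z'' ∈ QC := by
    have : τ * z'' ∈ QC := hz'' ▸ hzQ
    exact (hQ.mem_or_mem this).resolve_left hτQ
  refine ⟨z'', by rw [hz'']; ring, ?_⟩
  refine s36cr_principal hz''0 QC hz''Q (fun 𝔮 h𝔮 hz''𝔮 => ?_) ?_
  · -- a minimal prime over `z''` inside `𝔮`
    have hle : Ideal.span {z''} ≤ 𝔮 := by
      rw [Ideal.span_singleton_le_iff_mem]; exact hz''𝔮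
    obtain ⟨𝔮', h𝔮'min, h𝔮'𝔮⟩ := Ideal.exists_minimalPrimes_le hle
    have h𝔮'p : 𝔮'.IsPrime := h𝔮'min.1.1
    have hz''𝔮' : z'' ∈ 𝔮' := h𝔮'min.1.2 (Ideal.mem_span_singleton_self _)
    have hz𝔮' : z ∈ 𝔮' := by rw [hz'']; exact Ideal.mul_mem_left _ _ hz''𝔮'
    have hht : 𝔮'.height ≤ 1 :=
      Ideal.height_le_one_of_isPrincipal_of_mem_minimalPrimes (Ideal.span {z''}) 𝔮' h𝔮'min
    have h𝔮'0 : 𝔮' ≠ ⊥ := fun h => hz''0 (by rw [h] at hz''𝔮'; exact hz''𝔮')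
    haveI := h𝔮'p
    have hht1 : 𝔮'.height = 1 := by
      refine le_antisymm hht ?_
      rw [Order.one_le_iff_pos, pos_iff_ne_zero, Ne, Ideal.height_eq_zero_iff_eq_bot]
      exact h𝔮'0
    rcases h1 𝔮' h𝔮'p hz𝔮' with h | h
    · exact h.trans h𝔮'𝔮
    · exfalso
      obtain ⟨s, s', hs, hs', hss'⟩ := hcusp 𝔮' h𝔮'p hht1 h
      -- `s z'' τ = s' τ`, so `s z'' = s'`
      have e : τ * (s * z'') = τ * s' := by
        rw [hz''] at hss'
        linear_combination hss'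
      have e' : s * z'' = s' := mul_left_cancel₀ hτ e
      exact hs' (e' ▸ Ideal.mul_mem_left _ _ hz''𝔮')
  · obtain ⟨s, hs, hsx⟩ := h2
    refine ⟨s, hs, fun x hx => ?_⟩
    obtain ⟨c, hc⟩ := hsx x hx
    exact ⟨τ * c, by rw [hc, hz'']; ring⟩

end CuspPoint

end Fermat.Agent.S36
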