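/-
Project S36, model cell [M2], leaf **[C-REG-INST] (H)**, Hesse tower (helper2).
Prefix `s36ch_` (Hesse names end in `H`).  Twin of `HorizInstLeg.lean`.

`β : hs_E L h3 N' → hs_E L h3 (N' q)`, `f(X) ↦ f(X^q)` (`q ≠ 3` prime), makes `E1 = hs_E L h3 (N' q)`
an algebra over `K = hs_E L h3 N'` and over `K0 = hs_K L h3 = L(μ)` in a second way; `β = W_q ∘ incl`
(`ssm_alh_coe_WE_of_mem`).

* `s36ch_betaH`, `s36ch_algBetaH`, `s36ch_algBetaKH`, `s36ch_towerBetaH`;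
* `s36ch_hes_hH` : `hH` for the `β`-structure from `hs_RamHyp3 h3 (N' q) (hsh_muK L h3) ω`
  (`T = ssm_thih_T h3 ω`, helper8);
* `s36ch_finrank_betaH`, `s36ch_finiteDimensional_betaH` : `[E1 : β K] = q + 1`;
* `s36ch_hes_hunr` : the `hunr` hypothesis of `s36cr_dvd_pi_pow` through `β` (coordinate
  `x = μ - 1`, cusp polynomial `x² + 3x + 3`).
-/
import Mathlib
import Fermat.Agent.S36.CReg.HorizInst
import Fermat.Agent.SS.Model.ThickInstHes
import Fermat.Agent.SS.Model.ALEHesse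

set_option autoImplicit false
set_option linter.unusedSectionVars false
set_option linter.unusedVariables false
set_option linter.style.haveILetI false

noncomputable section

namespace Fermat.Agent.S36

open Fermat.Agent.JT3 Fermat.Agent.SS IsLocalRing ModularCurve

section Hes

variable (L : Type*) [Field L] [CharZero L] [Algebra L (AlgebraicClosure ℚ)] (h3 : (3 : L) ≠ 0)
  (hF9 : ∀ (N : ℕ) [NeZero N], hs_E L h3 N = modularFunctionFieldFullC L (Nat.lcm 9 (3 * N)))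
  (N' q : ℕ) [NeZero N'] [NeZero q]

attribute [local instance] hsh_algKE

/-- `β : hs_E L h3 N' → hs_E L h3 (N' q)`, `f(X) ↦ f(X^q)` (`3 ∤ q`). -/
def s36ch_betaH (hq3 : ¬ 3 ∣ q) : ↥(hs_E L h3 N') →ₐ[L] ↥(hs_E L h3 (N' * q)) where
  toFun x := ⟨qExpand L q (x : LaurentSeries L),
    ssm_alh_E_beta_le L h3 hF9 N' q hq3 ⟨(x : LaurentSeries L), x.2, rfl⟩⟩
  map_one' := Subtype.ext (by simp)
  map_mul' x y := Subtype.ext (by simp)
  map_zero' := Subtype.ext (by simp)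
  map_add' x y := Subtype.ext (by simp)
  commutes' c := Subtype.ext ((qExpandAlgHomC L q).commutes c)

theorem s36ch_coe_betaH (hq3 : ¬ 3 ∣ q) (x : ↥(hs_E L h3 N')) :
    ((s36ch_betaH L h3 hF9 N' q hq3 x : ↥(hs_E L h3 (N' * q))) : LaurentSeries L) =
      qExpand L q (x : LaurentSeries L) := rfl

/-- `E1 = hs_E L h3 (N' q)` as an algebra over `K = hs_E L h3 N'` through `β`. -/
@[reducible] def s36ch_algBetaH (hq3 : ¬ 3 ∣ q) :
    Algebra ↥(hs_E L h3 N') ↥(hs_E L h3 (N' * q)) :=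
  (s36ch_betaH L h3 hF9 N' q hq3).toRingHom.toAlgebra

/-- `E1 = hs_E L h3 (N' q)` as an algebra over `K0 = L(μ)` through `β`. -/
@[reducible] def s36ch_algBetaKH (hq3 : ¬ 3 ∣ q) :
    Algebra ↥(hs_K L h3) ↥(hs_E L h3 (N' * q)) :=
  ((s36ch_betaH L h3 hF9 N' q hq3).toRingHom.comp
    (algebraMap ↥(hs_K L h3) ↥(hs_E L h3 N'))).toAlgebra

theorem s36ch_algBetaH_apply (hq3 : ¬ 3 ∣ q) (x : ↥(hs_E L h3 N')) :
    @algebraMap ↥(hs_E L h3 N') ↥(hs_E L h3 (N' * q)) _ _ (s36ch_algBetaH L h3 hF9 N' q hq3) x =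
      s36ch_betaH L h3 hF9 N' q hq3 x := rfl

theorem s36ch_algBetaKH_apply (hq3 : ¬ 3 ∣ q) (x : ↥(hs_K L h3)) :
    @algebraMap ↥(hs_K L h3) ↥(hs_E L h3 (N' * q)) _ _ (s36ch_algBetaKH L h3 hF9 N' q hq3) x =
      s36ch_betaH L h3 hF9 N' q hq3 (algebraMap ↥(hs_K L h3) ↥(hs_E L h3 N') x) := rfl

/-- the tower `L(μ) → hs_E L h3 N' → hs_E L h3 (N' q)` through `β`. -/
theorem s36ch_towerBetaH (hq3 : ¬ 3 ∣ q) :
    @IsScalarTower ↥(hs_K L h3) ↥(hs_E L h3 N') ↥(hs_E L h3 (N' * q)) _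
      (s36ch_algBetaH L h3 hF9 N' q hq3).toSMul (s36ch_algBetaKH L h3 hF9 N' q hq3).toSMul :=
  letI := s36ch_algBetaH L h3 hF9 N' q hq3
  letI := s36ch_algBetaKH L h3 hF9 N' q hq3
  IsScalarTower.of_algebraMap_eq fun _ => rfl

/-- **`hH` through `β`, Hesse**. -/
theorem s36ch_hes_hH (hq : q.Prime) (hq3 : ¬ 3 ∣ q) (hqN' : ¬ q ∣ N') (ω : L)
    (hram : hs_RamHyp3 h3 (N' * q) (hsh_muK L h3) ω)
    (V2 : Subring (hs_K L h3)) [IsDiscreteValuationRing V2] [IsFractionRing V2 (hs_K L h3)]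
    (h : ∀ z ∈ ssm_thih_T h3 ω, z ∈ V2) :
    @jt_UnramAt ↥(hs_K L h3) _ V2 ↥(hs_E L h3 (N' * q)) _
      (s36ch_algBetaKH L h3 hF9 N' q hq3) := by
  have h1 : jt_UnramAt V2 ↥(hs_E L h3 (N' * q)) := ssm_thih_hH h3 (N' * q) ω hram V2 h
  refine s36ch_unramAt_of_equiv (hsh_algKE L h3 (N' * q)) (s36ch_algBetaKH L h3 hF9 N' q hq3)
    (ssm_alh_WE L h3 hF9 N' q hq hq3 hqN').toRingEquiv ?_ V2 h1
  intro x
  apply Subtype.ext
  rw [s36ch_algBetaKH_apply, s36ch_coe_betaH]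
  exact ssm_alh_coe_WE_of_mem L h3 hF9 N' q hq hq3 hqN' (hs_K_le_E L h3 N' x.2) _

/-- `β (hs_E L h3 N')` as an intermediate field of `hs_E L h3 (N' q) / L`. -/
abbrev s36ch_subBetaH : IntermediateField L ↥(hs_E L h3 (N' * q)) :=
  ((hs_E L h3 N').map (qExpandAlgHomC L q)).comap (hs_E L h3 (N' * q)).val

/-- `β : hs_E L h3 N' ≃ β (hs_E L h3 N')`. -/
def s36ch_betaEquivH (hq3 : ¬ 3 ∣ q) : ↥(hs_E L h3 N') ≃+* ↥(s36ch_subBetaH L h3 N' q) :=
  RingEquiv.ofBijective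
    ((s36ch_betaH L h3 hF9 N' q hq3).toRingHom.codRestrict (s36ch_subBetaH L h3 N' q)
      (fun x => ⟨(x : LaurentSeries L), x.2, rfl⟩))
    ⟨fun x y hxy =>
        (s36ch_betaH L h3 hF9 N' q hq3).toRingHom.injective (congrArg Subtype.val hxy),
      fun y => by
        obtain ⟨z, hz, hzy⟩ := y.2
        exact ⟨⟨z, hz⟩, Subtype.ext (Subtype.ext hzy)⟩⟩

/-- `[hs_E L h3 (N' q) : hs_E L h3 N'] = q + 1` through `β`. -/
theorem s36ch_finrank_betaH (hq : q.Prime) (hq3 : ¬ 3 ∣ q) (hqN' : ¬ q ∣ N') :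
    @Module.finrank ↥(hs_E L h3 N') ↥(hs_E L h3 (N' * q)) _ _
      (s36ch_algBetaH L h3 hF9 N' q hq3).toModule = q + 1 := by
  letI := s36ch_algBetaH L h3 hF9 N' q hq3
  have h1 : Module.finrank ↥(hs_E L h3 N') ↥(hs_E L h3 (N' * q)) =
      Module.finrank ↥(s36ch_subBetaH L h3 N' q) ↥(hs_E L h3 (N' * q)) :=
    Algebra.finrank_eq_of_equiv_equiv (s36ch_betaEquivH L h3 hF9 N' q hq3) (RingEquiv.refl _)
      (by ext x; rfl)
  rw [h1, s36ch_subBetaH, IntermediateField.finrank_comap, IntermediateField.fieldRange_val,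
    ssm_alh_E_eq L h3 hF9 N' q hq3, ssm_alh_E_eq_level L h3 hF9 N']
  exact ssm_al_relfinrank_beta L (ssm_alh_level N') q hq
    (ssm_alh_not_dvd_level N' q hq hq3 hqN')

theorem s36ch_finiteDimensional_betaH (hq : q.Prime) (hq3 : ¬ 3 ∣ q) (hqN' : ¬ q ∣ N') :
    @Module.Finite ↥(hs_E L h3 N') ↥(hs_E L h3 (N' * q)) _ _
      (s36ch_algBetaH L h3 hF9 N' q hq3).toModule :=
  letI := s36ch_algBetaH L h3 hF9 N' q hq3
  Module.finite_of_finrank_pos (by rw [s36ch_finrank_betaH L h3 hF9 N' q hq hq3 hqN']; omega)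

/-- **`hunr` through `β`, Hesse tower** (coordinate `x = μ - 1`): `O` a discrete valuation ring of
`L` with uniformiser `q`, `ω ∈ O` a primitive cube root of unity, `B'` a chart of level `N'`
containing `x`, `y0` a prime of `B'` with `x, x² + 3x + 3 ∉ y0`, `S` any presentation of the local
ring of `B'` at `y0`; `E1 = hs_E L h3 (N' q)` is an `S`-algebra THROUGH `β`.  Then the discriminant
of any `S`-basis of `integralClosure S E1` lies in no height-one prime of `S` not containing `q`. -/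
theorem s36ch_hes_hunr (O : ValuationSubring L) [IsDiscreteValuationRing O] (hq : q.Prime)
    (hq3 : ¬ 3 ∣ q) (hqN' : ¬ q ∣ N') (hπ : Irreducible ((q : ℕ) : O))
    (ω : O) (hω : ω ^ 2 + ω + 1 = 0)
    (hram : hs_RamHyp3 h3 (N' * q) (hsh_muK L h3) (ω : L))
    {B' : Subalgebra ↥O ↥(hs_E L h3 N')} {y0 : Ideal B'} [y0.IsPrime]
    {S : Type*} [CommRing S] [IsDomain S] [IsNoetherianRing S] [IsIntegrallyClosed S]
    [Algebra B' S] [IsLocalization.AtPrime S y0]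
    [Algebra S ↥(hs_E L h3 N')] [IsScalarTower B' S ↥(hs_E L h3 N')]
    [IsFractionRing S ↥(hs_E L h3 N')]
    (x' : B') (hx : (x' : ↥(hs_E L h3 N')) = hs_muE h3 N' - 1) (h0 : x' ∉ y0)
    (hc : x' ^ 2 + 3 * x' + 3 ∉ y0) :
    letI := s36ch_algBetaH L h3 hF9 N' q hq3
    ∀ [Algebra S ↥(hs_E L h3 (N' * q))]
      [IsScalarTower S ↥(hs_E L h3 N') ↥(hs_E L h3 (N' * q))]
      (n : ℕ) (b : Module.Basis (Fin n) S (integralClosure S ↥(hs_E L h3 (N' * q)))),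
      ∀ 𝔭 : Ideal S, 𝔭.IsPrime → 𝔭.height = 1 → (q : S) ∉ 𝔭 → Algebra.discr S b ∉ 𝔭 := by
  letI := s36ch_algBetaH L h3 hF9 N' q hq3
  intro _ _ n b
  letI := s36ch_algBetaKH L h3 hF9 N' q hq3
  haveI := s36ch_towerBetaH L h3 hF9 N' q hq3
  haveI := ssm_thih_charZero (L := L) h3
  haveI : FiniteDimensional ↥(hs_K L h3) ↥(hs_E L h3 N') := hs_finiteDimensional_K_E L h3 N'
  haveI : FiniteDimensional ↥(hs_E L h3 N') ↥(hs_E L h3 (N' * q)) :=
    s36ch_finiteDimensional_betaH L h3 hF9 N' q hq hq3 hqN'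
  exact s36ch_discr_notMem_of_T ↥(hs_K L h3) ↥(hs_E L h3 N') ↥(hs_E L h3 (N' * q)) q
    (ssm_thih_T h3 (ω : L))
    (fun V2 _ _ h => s36ch_hes_hH L h3 hF9 N' q hq hq3 hqN' (ω : L) hram V2 h)
    (ssm_thih_hT h3 O q N' hπ ω hω x' hx h0 hc) n b

end Hes

end Fermat.Agent.S36
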