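/-
Project S36, [L3b] small aux (helper20; prefix `s36rq_`): at a closed point `y ∋ π` of a chart
`fc_chart A0 {x}` (finite residue field of `A0`, of characteristic `q`), there is a power `m` of
`q`, `m ≠ 1`, with `b ^ m - b ∈ y` for every `b` of the chart; in particular `(m : A0) ∈ 𝔪` and
`x ^ m - x ∈ y`: the inputs `m hm hyn` of `ssm_ec_lam_frob` at an ARBITRARY closed point.
-/
import Mathlib
import Fermat.Agent.S36.CReg.ResFinite

set_option autoImplicit false
set_option linter.unusedSectionVars false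
set_option linter.unusedVariables false
set_option linter.style.haveILetI false

namespace Fermat.Agent.S36

open Fermat.Agent.JT3 IsLocalRing

section Generic

variable {B : Type*} [CommRing B]

/-- in a finite quotient field `B / y` of characteristic `q` every element is fixed by the
`q^k`-Frobenius, `q^k = #(B / y)`. -/
theorem s36rq_frob_quot (q : ℕ) (hq : q.Prime) (y : Ideal B) [y.IsMaximal] [Finite (B ⧸ y)]
    (hqy : ((q : ℕ) : B) ∈ y) :
    ∃ k : ℕ, 0 < k ∧ ∀ b : B, b ^ (q ^ k) - b ∈ y := by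
  classical
  letI := Ideal.Quotient.field y
  haveI : Fintype (B ⧸ y) := Fintype.ofFinite _
  haveI : Fact q.Prime := ⟨hq⟩
  haveI : CharP (B ⧸ y) q := by
    rw [CharP.charP_iff_prime_eq_zero hq, ← map_natCast (Ideal.Quotient.mk y)]
    exact Ideal.Quotient.eq_zero_iff_mem.2 hqy
  obtain ⟨n, -, hn⟩ := FiniteField.card (B ⧸ y) q
  refine ⟨n, n.pos, fun b => ?_⟩
  rw [← Ideal.Quotient.eq_zero_iff_mem, map_sub, map_pow, ← hn, FiniteField.pow_card, sub_self]

end Generic

section Chart

universe v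

variable {A0 L : Type*} {F0 : Type v} [CommRing A0] [IsDomain A0] [IsDiscreteValuationRing A0]
  [Field L] [CharZero L] [Field F0] [Algebra A0 L] [IsFractionRing A0 L] [Algebra L F0]
  [Algebra A0 F0] [IsScalarTower A0 L F0]

open IntermediateField in
/-- **the Frobenius exponent of a closed point of the special fibre of a chart**: `m = q ^ k`,
`k > 0`, `(m : A0) ∈ 𝔪`, `b ^ m - b ∈ y` for all `b`. -/
theorem s36rq_chart_frob [Finite (ResidueField A0)] (q : ℕ) (hq : q.Prime)
    [CharP (ResidueField A0) q] {x : F0} (hx : Transcendental L x)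
    [FiniteDimensional L⟮x⟯ F0] {π : A0} (hπ : Irreducible π)
    (y : Ideal (fc_chart A0 ({x} : Set F0))) [y.IsMaximal]
    (hπy : algebraMap A0 (fc_chart A0 ({x} : Set F0)) π ∈ y) :
    ∃ k : ℕ, 0 < k ∧ (((q ^ k : ℕ) : ℕ) : A0) ∈ maximalIdeal A0 ∧
      ∀ b : fc_chart A0 ({x} : Set F0), b ^ (q ^ k) - b ∈ y := by
  haveI := s36rf_chart_finiteType (A0 := A0) (L := L) hx
  haveI : Finite (A0 ⧸ maximalIdeal A0) := ‹Finite (ResidueField A0)›
  have hle : maximalIdeal A0 ≤ y.comap (algebraMap A0 (fc_chart A0 ({x} : Set F0))) := by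
    rw [hπ.maximalIdeal_eq, Ideal.span_le]
    rintro a (rfl : a = π)
    exact hπy
  haveI : Finite (fc_chart A0 ({x} : Set F0) ⧸ y) := s36rf_finite_quot (maximalIdeal A0) y hle
  have h1 : ((q : ℕ) : A0) ∈ maximalIdeal A0 := by
    rw [← IsLocalRing.residue_eq_zero_iff, map_natCast]
    exact CharP.cast_eq_zero _ q
  have hqy : ((q : ℕ) : fc_chart A0 ({x} : Set F0)) ∈ y := by
    have h2 := hle h1
    rwa [Ideal.mem_comap, map_natCast] at h2
  obtain ⟨k, hk, hb⟩ := s36rq_frob_quot q hq y hqy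
  refine ⟨k, hk, ?_, hb⟩
  rw [Nat.cast_pow]
  exact Ideal.pow_mem_of_mem _ h1 k hk

end Chart

end Fermat.Agent.S36
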