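/-
Project S36, [L3b] aux (helper20; prefix `s36op_`): THE LOCAL PARAMETER `λ^m - λ` AT AN ARBITRARY
NON-CUSP CLOSED POINT of the special fibre of the good-reduction Legendre charts, number-field
context (general uniformiser `π`, level `N` prime to the residue characteristic `ℓ`).

`m = ℓ^k`, `k > 0`, is the Frobenius exponent of the point (`s36rq_chart_frob`), so `(m : O) ∈ 𝔪`,
`b^m - b ∈ y0` for every `b` of the chart, and `y0 = (π, λ^m - λ)` locally (`ssm_ec_lam_frob`).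
-/
import Mathlib
import Fermat.Agent.S36.CReg.ResFrob
import Fermat.Agent.S36.CuspTrans.T2Leg
import Fermat.Agent.SS.Model.LegLevel

set_option autoImplicit false
set_option linter.unusedSectionVars false
set_option linter.unusedVariables false
set_option linter.style.haveILetI false

noncomputable section

open ModularCurve IntermediateField IsLocalRing Polynomial
open Fermat.Agent.JT3 Fermat.Agent.SS

namespace Fermat.Agent.S36

section NF

variable (L : Type) [Field L] [NumberField L] [Algebra L (AlgebraicClosure ℚ)]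
  (O : ValuationSubring L) [IsDiscreteValuationRing O] (N : ℕ) [NeZero N]
variable {O}
variable {π : O} (hπ : Irreducible π) (ℓ : ℕ) [hℓp : Fact ℓ.Prime] [CharP (ResidueField O) ℓ]
  (hℓ2 : ℓ ≠ 2) (hℓN : ¬ ℓ ∣ N)

include hπ hℓ2 hℓN in
/-- **the étale coordinate at an arbitrary non-cusp closed point, chart `{λ}`.** -/
theorem s36op_leg_param
    (y0 : Ideal (fc_chart O ({lg_lamE N} : Set (lg_E L N)))) [hy0 : y0.IsMaximal]
    (hπy0 : algebraMap O (fc_chart O ({lg_lamE N} : Set (lg_E L N))) π ∈ y0)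
    (h0 : (⟨lg_lamE N, fc_x_mem_chart _⟩ : fc_chart O ({lg_lamE N} : Set (lg_E L N))) ∉ y0)
    (h1 : (⟨lg_lamE N, fc_x_mem_chart _⟩ : fc_chart O ({lg_lamE N} : Set (lg_E L N))) - 1 ∉ y0) :
    ∃ k : ℕ, 0 < k ∧ (((ℓ ^ k : ℕ) : ℕ) : O) ∈ maximalIdeal O ∧
      (∀ b : fc_chart O ({lg_lamE N} : Set (lg_E L N)), b ^ (ℓ ^ k) - b ∈ y0) ∧
      tq_GenBy (algebraMap O (fc_chart O ({lg_lamE N} : Set (lg_E L N))) π)
        ((⟨lg_lamE N, fc_x_mem_chart _⟩ : fc_chart O ({lg_lamE N} : Set (lg_E L N))) ^ (ℓ ^ k) -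
          ⟨lg_lamE N, fc_x_mem_chart _⟩) y0 := by
  haveI := ssm_ll_isScalarTower L O N
  haveI := ssm_ll_finite L N
  haveI : Finite (ResidueField ↥O) := s36rf_finite_residue_numberField L O (s36ct_ne_top L O hπ)
  have hℓ : ((ℓ : ℕ) : O) ∈ maximalIdeal O := by
    rw [← IsLocalRing.residue_eq_zero_iff, map_natCast]
    exact CharP.cast_eq_zero _ ℓ
  obtain ⟨k, hk, hm, hb⟩ := s36rq_chart_frob (A0 := ↥O) (L := L) ℓ hℓp.out
    (ssm_ll_transcendental L N) hπ y0 hπy0
  refine ⟨k, hk, hm, hb, ?_⟩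
  refine ssm_ec_lam_frob O N hπ ℓ hℓ hℓ2 hℓN (lgr_hram N L).1 y0 hπy0 ?_ ?_ (ℓ ^ k) hm _ rfl
    (hb _)
  · intro y hy hmem
    apply h0
    have : y = ⟨lg_lamE N, fc_x_mem_chart _⟩ := Subtype.ext hy
    rwa [← this]
  · intro y hy hmem
    apply h1
    have : y = ⟨lg_lamE N, fc_x_mem_chart _⟩ - 1 := Subtype.ext hy
    rwa [← this]

end NF

end Fermat.Agent.S36
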