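/-
Project S36, [L3b] aux (helper20; prefix `s36op_`), part 2: THE LOCAL PARAMETER `λ^m - λ` AT A
NON-CUSP CLOSED POINT OF THE GAUSS COMPONENT `VF` (off `VV`) of the chart `{λ}` of level `N' q`
([NF2-CTX], general `π`): with `yA := 𝔫1 ∩_α B'` (`α`-side chart map `s36cb_phiA`) and `m = q^k` the
Frobenius exponent of `yA`: `yA = (π, λ'^m - λ')` locally (`s36op_leg_param`), hence
`𝔫1 = (π, λ^m - λ)` locally and `π` is locally prime at `𝔫1` (`ssm_cp_smooth` + `s36cb_frobA`).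
This is the `u`-side (`hsm`, `u = Gp(λ)`, `Gp = X^m - X`) of helper16's [ORD-G-INST] package.
-/
import Mathlib
import Fermat.Agent.S36.CReg.OrdParamLeg
import Fermat.Agent.S36.CReg.BetaChartFrob

set_option autoImplicit false
set_option linter.unusedSectionVars false
set_option linter.unusedVariables false
set_option linter.style.haveILetI false

noncomputable section

open ModularCurve IntermediateField IsLocalRing Polynomial
open Fermat.Agent.JT3 Fermat.Agent.SS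

namespace Fermat.Agent.S36

section NF

variable (L : Type) [Field L] [NumberField L] [Algebra L (AlgebraicClosure ℚ)]
  (O : ValuationSubring L) [IsDiscreteValuationRing O] {π : O} (hπ : Irreducible π)
variable (N' q : ℕ) [NeZero N'] [NeZero q] [hq : Fact q.Prime] [CharP (ResidueField O) q]
  (hq2 : ¬ 2 ∣ q) (hqN' : ¬ q ∣ N') (ζ : L) (hζ : IsPrimitiveRoot ζ N')

include hζ in
set_option synthInstance.maxHeartbeats 200000 in
set_option maxHeartbeats 1600000 in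
/-- **the étale coordinate `λ^m - λ` at a non-cusp closed point of the Gauss component `VF` (off
`VV`) of the chart `{λ}` of level `N' q`**: `𝔫1 = (π, λ^m - λ)` locally, `π` locally prime. -/
theorem s36op_leg_param_up
    (𝔫1 : Ideal (fc_chart ↥O ({lg_lamE (N' * q)} : Set ↥(lg_E L (N' * q))))) [h𝔫 : 𝔫1.IsMaximal]
    (hπ𝔫 : algebraMap ↥O (fc_chart ↥O ({lg_lamE (N' * q)} : Set ↥(lg_E L (N' * q)))) π ∈ 𝔫1)
    (h2 : ¬ ssm_tp_P (fc_chart ↥O ({lg_lamE (N' * q)} : Set ↥(lg_E L (N' * q))))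
        (ssm_gl_V2 O hπ N' q hq2 hqN') ≤ 𝔫1)
    (h0 : (⟨lg_lamE (N' * q), fc_x_mem_chart _⟩ :
      fc_chart ↥O ({lg_lamE (N' * q)} : Set ↥(lg_E L (N' * q)))) ∉ 𝔫1)
    (h1 : (⟨lg_lamE (N' * q), fc_x_mem_chart _⟩ :
      fc_chart ↥O ({lg_lamE (N' * q)} : Set ↥(lg_E L (N' * q)))) - 1 ∉ 𝔫1) :
    ∃ k : ℕ, 0 < k ∧ (((q ^ k : ℕ) : ℕ) : ↥O) ∈ maximalIdeal ↥O ∧
      tq_GenBy (algebraMap ↥O (fc_chart ↥O ({lg_lamE (N' * q)} : Set ↥(lg_E L (N' * q)))) π)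
        ((⟨lg_lamE (N' * q), fc_x_mem_chart _⟩ :
          fc_chart ↥O ({lg_lamE (N' * q)} : Set ↥(lg_E L (N' * q)))) ^ (q ^ k) -
            ⟨lg_lamE (N' * q), fc_x_mem_chart _⟩) 𝔫1 ∧
      tq_Dom (algebraMap ↥O (fc_chart ↥O ({lg_lamE (N' * q)} : Set ↥(lg_E L (N' * q)))) π) 𝔫1 ∧
      tq_GenBy (algebraMap ↥O (fc_chart ↥O ({lg_lamE N'} : Set ↥(lg_E L N'))) π)
        ((⟨lg_lamE N', fc_x_mem_chart _⟩ : fc_chart ↥O ({lg_lamE N'} : Set ↥(lg_E L N'))) ^ (q ^ k) -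
          ⟨lg_lamE N', fc_x_mem_chart _⟩) (𝔫1.comap (s36cb_phiA O N' q)) := by
  have hqO := ssm_fln_q_mem L O q
  have hq2' : q ≠ 2 := ssm_fl_ne_two q hq2
  have hp := ssm_ll_prime L N' hπ q hqO hq2' hqN' ζ hζ
  have hic1 := ssm_ll_ic1 L N' hπ q hqO hq2' hqN' ζ hζ
  obtain ⟨hadd, -, -, -, hP⟩ := s36cb_frobA O hπ N' q hq2 hqN' hp.1 hic1
  haveI h𝔫p := h𝔫.isPrime
  have hAπ := s36cb_phiA_algebraMap O N' q π
  have hAlam := s36cb_phiA_lam (L := L) O N' q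
  haveI hmA : (𝔫1.comap (s36cb_phiA O N' q)).IsMaximal :=
    Ideal.isMaximal_comap_of_isIntegral_of_isMaximal' _ (s36cb_phiA_isIntegral O N' q) 𝔫1
  have h0' : (⟨lg_lamE N', fc_x_mem_chart _⟩ : fc_chart ↥O ({lg_lamE N'} : Set ↥(lg_E L N'))) ∉
      𝔫1.comap (s36cb_phiA O N' q) := by
    intro h
    apply h0
    have h3 := Ideal.mem_comap.1 h
    rwa [hAlam] at h3
  have h1' : (⟨lg_lamE N', fc_x_mem_chart _⟩ : fc_chart ↥O ({lg_lamE N'} : Set ↥(lg_E L N'))) - 1 ∉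
      𝔫1.comap (s36cb_phiA O N' q) := by
    intro h
    apply h1
    have h3 := Ideal.mem_comap.1 h
    rwa [map_sub, map_one, hAlam] at h3
  obtain ⟨k, hk, hm, hb, hgen⟩ := s36op_leg_param L N' hπ q hq2' hqN'
    (𝔫1.comap (s36cb_phiA O N' q)) (by rw [Ideal.mem_comap, hAπ]; exact hπ𝔫) h0' h1'
  have H := ssm_gl_hyp O hπ N' q hq2 hqN' hp.1
  have hxE : Transcendental L (lg_lamE (N' * q) : ↥(lg_E L (N' * q))) :=
    lgf_lam_transcendental L (N' * q) two_ne_zero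
  haveI := ssm_go_isScalarTower O (lg_E L (N' * q))
  have hC := ssm_tp_ff_chart (L := L) hπ hxE
  have hyEA : Transcendental ↥O (lg_lamE (N' * q) : ↥(lg_E L (N' * q))) :=
    fc_ff_transcendental (L := L) hxE
  haveI : IsIntegrallyClosed
      (Algebra.adjoin ↥O ({lg_lamE (N' * q)} : Set ↥(lg_E L (N' * q)))) :=
    fc_ff_isIntegrallyClosed hyEA
  haveI : FaithfulSMul (Algebra.adjoin ↥O ({lg_lamE (N' * q)} : Set ↥(lg_E L (N' * q))))
      ↥(lg_E L (N' * q)) :=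
    (faithfulSMul_iff_algebraMap_injective _ _).2 Subtype.val_injective
  haveI hP1p : (ssm_tp_P (fc_chart ↥O ({lg_lamE (N' * q)} : Set ↥(lg_E L (N' * q))))
      (ssm_gl_V1 O hπ N' q)).IsPrime := ssm_tp_P_isPrime (fun b hb => hC.le H.over1 hb)
  have key := ssm_cp_smooth (s36cb_phiA O N' q)
    (algebraMap ↥O (fc_chart ↥O ({lg_lamE N'} : Set ↥(lg_E L N'))) π) _ _
    (by rw [hAπ]; exact hP) hadd 𝔫1 (by rw [hAπ]; exact hπ𝔫) h2 _ hgen
    ((⟨lg_lamE (N' * q), fc_x_mem_chart _⟩ :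
          fc_chart ↥O ({lg_lamE (N' * q)} : Set ↥(lg_E L (N' * q)))) ^ (q ^ k) -
            ⟨lg_lamE (N' * q), fc_x_mem_chart _⟩)
    (by rw [map_sub, map_pow, hAlam, sub_self]; exact Ideal.zero_mem _)
  rw [hAπ] at key
  exact ⟨k, hk, hm, key.1, key.2, hgen⟩

end NF

end Fermat.Agent.S36
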