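/-
Project S36, model cell [M2], leaf **[C-REG]**, abstract ASSEMBLY (helper5).  Prefix `s36cr_`.

ONE theorem for the instance owner: the point of the component `C` (multiplicity `q - 1`) over an
ORDINARY point `y` of the middle chart.

`S` = local ring of the middle chart (level `N'`) at `y`; `C1 = S[G]` the integral closure of `S`
in the function field of level `N' q` (`[ORD-G]`: power basis `1, G, …, G^q`, `F` = char. poly.);
`C` = the integral closure of `S` in the function field of level `N' q²` (semilocal: the points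
`n_A, n_B, n_C` over `y`); `QA QB QC` its vertical primes; `z = W₂ G - G`.

Inputs: `z ∣ F'(G)` (norm, `s36cr_dvd_of_norm`), `hunr` (characteristic-zero unramifiedness,
helper2's `s36ch_`), `z` a unit modulo `QA` and modulo `QB`, `z` a uniformiser at `QC`
(`s36v_main`), `C = C1 + QC` and `C1 / (QC ∩ C1)` local with uniformiser `u`.

Output (`s36cr_point`): `QC = (z)`, and every maximal ideal `n ⊇ QC` of `C` equals `(z, u)`; with
`π = w z^e` generically: `π = w' z^e`, `w' ∉ n`.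
-/
import Mathlib
import Fermat.Agent.S36.CReg.Principal
import Fermat.Agent.S36.CReg.Horiz

set_option autoImplicit false
set_option linter.unusedSectionVars false
set_option linter.unusedVariables false
set_option linter.style.haveILetI false

namespace Fermat.Agent.S36

open Fermat.Agent.SS Fermat.Agent.JT3 Polynomial Module

section Max

variable {C1 C : Type*} [CommRing C1] [CommRing C] [Algebra C1 C]

/-- the point of `Q0 = (z)`, elementwise form: `C = C1 + Q0` and `C1 / (Q0 ∩ C1)` is local with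
maximal ideal generated by `u`. -/
theorem s36cr_max_eq' {z : C} {u : C1} (Q0 : Ideal C) (hQz : Q0 = Ideal.span {z})
    (hadd : ∀ c : C, ∃ c1 : C1, c - algebraMap C1 C c1 ∈ Q0)
    (hloc : ∀ c1 : C1, (∃ d : C1, algebraMap C1 C (c1 * d - 1) ∈ Q0) ∨
      (∃ d : C1, algebraMap C1 C (c1 - u * d) ∈ Q0))
    (hu : ∀ d : C, algebraMap C1 C u * d - 1 ∉ Q0)
    (n : Ideal C) [hn : n.IsMaximal] (hle : Q0 ≤ n) :
    n = Ideal.span {z, algebraMap C1 C u} := by
  have hzn : z ∈ n := hle (by rw [hQz]; exact Ideal.mem_span_singleton_self _)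
  have hzmem : z ∈ Ideal.span {z, algebraMap C1 C u} := Ideal.subset_span (by simp)
  have humem : algebraMap C1 C u ∈ Ideal.span {z, algebraMap C1 C u} :=
    Ideal.subset_span (by simp)
  have hQle : Q0 ≤ Ideal.span {z, algebraMap C1 C u} := by
    rw [hQz, Ideal.span_singleton_le_iff_mem]; exact hzmem
  -- `u ∈ n`
  have hun : algebraMap C1 C u ∈ n := by
    by_contra hun
    obtain ⟨d, hd⟩ := (Ideal.Quotient.maximal_ideal_iff_isField_quotient n).1 hn |>.mul_inv_cancel
      (a := Ideal.Quotient.mk n (algebraMap C1 C u))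
      (by rwa [Ne, Ideal.Quotient.eq_zero_iff_mem])
    obtain ⟨d, rfl⟩ := Ideal.Quotient.mk_surjective d
    rw [← map_mul, ← map_one (Ideal.Quotient.mk n), ← sub_eq_zero, ← map_sub,
      Ideal.Quotient.eq_zero_iff_mem] at hd
    -- `u d - 1 ∈ n`; write `d ≡ d1` modulo `Q0`
    obtain ⟨d1, hd1⟩ := hadd d
    have h1 : algebraMap C1 C (u * d1 - 1) ∈ n := by
      have : algebraMap C1 C (u * d1 - 1)
          = (algebraMap C1 C u * d - 1) - algebraMap C1 C u * (d - algebraMap C1 C d1) := by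
        simp only [map_sub, map_mul, map_one]; ring
      rw [this]
      exact Ideal.sub_mem _ hd (Ideal.mul_mem_left _ _ (hle hd1))
    -- `u d1 - 1` is a unit or a multiple of `u` modulo `Q0`
    rcases hloc (u * d1 - 1) with ⟨e', he'⟩ | ⟨e', he'⟩
    · -- unit modulo `Q0`, but in `n`: `1 ∈ n`
      apply hn.ne_top
      rw [Ideal.eq_top_iff_one]
      have h2 : algebraMap C1 C ((u * d1 - 1) * e' - 1) ∈ n := hle he'
      have h3 : algebraMap C1 C ((u * d1 - 1) * e') ∈ n := by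
        rw [map_mul]
        exact Ideal.mul_mem_right _ _ h1
      have : (1 : C) = algebraMap C1 C ((u * d1 - 1) * e')
          - algebraMap C1 C ((u * d1 - 1) * e' - 1) := by
        simp only [map_sub, map_mul, map_one]; ring
      rw [this]
      exact Ideal.sub_mem _ h3 h2
    · -- `u d1 - 1 ≡ u e'`: `u (d1 - e') ≡ 1` modulo `Q0`: contradiction with `hu`
      apply hu (algebraMap C1 C (d1 - e'))
      have : algebraMap C1 C u * algebraMap C1 C (d1 - e') - 1
          = algebraMap C1 C (u * d1 - 1 - u * e') := by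
        simp only [map_sub, map_mul, map_one]; ring
      rw [this]; exact he'
  apply le_antisymm
  · intro x hx
    obtain ⟨c1, hc1⟩ := hadd x
    have hc1n : algebraMap C1 C c1 ∈ n := by
      have : algebraMap C1 C c1 = x - (x - algebraMap C1 C c1) := by ring
      rw [this]; exact Ideal.sub_mem _ hx (hle hc1)
    have hx' : x = (x - algebraMap C1 C c1) + algebraMap C1 C c1 := by ring
    rw [hx']
    refine Ideal.add_mem _ (hQle hc1) ?_
    rcases hloc c1 with ⟨d, hd⟩ | ⟨d, hd⟩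
    · exfalso
      apply hn.ne_top
      rw [Ideal.eq_top_iff_one]
      have h2 : algebraMap C1 C (c1 * d - 1) ∈ n := hle hd
      have h3 : algebraMap C1 C (c1 * d) ∈ n := by
        rw [map_mul]; exact Ideal.mul_mem_right _ _ hc1n
      have : (1 : C) = algebraMap C1 C (c1 * d) - algebraMap C1 C (c1 * d - 1) := by
        simp only [map_sub, map_mul, map_one]; ring
      rw [this]
      exact Ideal.sub_mem _ h3 h2
    · have : algebraMap C1 C c1 = algebraMap C1 C (c1 - u * d) + algebraMap C1 C u *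
          algebraMap C1 C d := by
        rw [map_sub, map_mul]; ring
      rw [this]
      exact Ideal.add_mem _ (hQle hd) (Ideal.mul_mem_right _ _ humem)
  · rw [Ideal.span_le]
    intro y hy
    rcases hy with rfl | hy
    · exact hzn
    · rw [Set.mem_singleton_iff] at hy
      rw [hy]; exact hun

end Max

section Point

variable {S C1 C : Type*} [CommRing S] [IsDomain S] [CharZero S] [IsNoetherianRing S]
  [IsIntegrallyClosed S] [CommRing C1] [IsDomain C1] [Algebra S C1]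
  [CommRing C] [IsDomain C] [IsNoetherianRing C] [IsIntegrallyClosed C]
  [Algebra C1 C] [Algebra S C] [IsScalarTower S C1 C]

/-- **[C-REG] the point of `C` over an ordinary point of the middle chart.** -/
theorem s36cr_point (n : ℕ) (b : Basis (Fin n) S C1) (G : C1) (hb : ∀ i, b i = G ^ (i : ℕ))
    (F : S[X]) (hF : F.Monic) (hdeg : F.natDegree = n) (hFG : aeval G F = 0)
    (π : S) (hπ : Prime π)
    (hunr : ∀ 𝔭 : Ideal S, 𝔭.IsPrime → 𝔭.height = 1 → π ∉ 𝔭 → Algebra.discr S b ∉ 𝔭)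
    (z : C) (hz0 : z ≠ 0) (hz : z ∣ algebraMap C1 C (aeval G (derivative F)))
    (QA QB QC : Ideal C) [hQC : QC.IsPrime]
    (hvertical : ∀ 𝔮 : Ideal C, 𝔮.IsPrime → algebraMap S C π ∈ 𝔮 → QA ≤ 𝔮 ∨ QB ≤ 𝔮 ∨ QC ≤ 𝔮)
    (hA : ∃ c : C, c * z - 1 ∈ QA) (hB : ∃ c : C, c * z - 1 ∈ QB)
    (hzC : z ∈ QC) (h2 : ∃ s : C, s ∉ QC ∧ ∀ x ∈ QC, z ∣ s * x) :
    QC = Ideal.span {z} := by
  obtain ⟨k, hk⟩ := s36cr_dvd_pi_pow n b G hb F hF hdeg hFG π hπ hunr z hz
  refine s36cr_principal_of_dvd_pow hz0 QC hzC k hk (fun 𝔮 h𝔮 hπ𝔮 hz𝔮 => ?_) h2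
  have hunit : ∀ Q : Ideal C, (∃ c : C, c * z - 1 ∈ Q) → ¬ Q ≤ 𝔮 := by
    rintro Q ⟨c, hc⟩ hQ
    apply h𝔮.ne_top
    rw [Ideal.eq_top_iff_one]
    have h1 : c * z ∈ 𝔮 := Ideal.mul_mem_left _ _ hz𝔮
    have : (1 : C) = c * z - (c * z - 1) := by ring
    rw [this]
    exact Ideal.sub_mem _ h1 (hQ hc)
  rcases hvertical 𝔮 h𝔮 hπ𝔮 with h | h | h
  · exact absurd h (hunit QA hA)
  · exact absurd h (hunit QB hB)
  · exact h

/-- **[C-REG] the local structure at the point**: `n = (z, u)`, `π = w z^e` with `w ∉ n`. -/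
theorem s36cr_point_local {z : C} (hz0 : z ≠ 0) (QC : Ideal C) [hQC : QC.IsPrime]
    (hQz : QC = Ideal.span {z}) {u : C1}
    (hadd : ∀ c : C, ∃ c1 : C1, c - algebraMap C1 C c1 ∈ QC)
    (hloc : ∀ c1 : C1, (∃ d : C1, algebraMap C1 C (c1 * d - 1) ∈ QC) ∨
      (∃ d : C1, algebraMap C1 C (c1 - u * d) ∈ QC))
    (hu : ∀ d : C, algebraMap C1 C u * d - 1 ∉ QC)
    (π : S) (e : ℕ)
    (he : ∃ s w : C, s ∉ QC ∧ w ∉ QC ∧ s * algebraMap S C π = w * z ^ e)
    (QA QB : Ideal C)
    (hvertical : ∀ 𝔮 : Ideal C, 𝔮.IsPrime → algebraMap S C π ∈ 𝔮 → QA ≤ 𝔮 ∨ QB ≤ 𝔮 ∨ QC ≤ 𝔮)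
    (hA : ∃ c : C, c * z - 1 ∈ QA) (hB : ∃ c : C, c * z - 1 ∈ QB)
    (n : Ideal C) [hn : n.IsMaximal] (hle : QC ≤ n) :
    n = Ideal.span {z, algebraMap C1 C u} ∧ tq_GenBy z (algebraMap C1 C u) n ∧ tq_Dom z n ∧
      ∃ w : C, w ∉ n ∧ algebraMap S C π = w * z ^ e := by
  have hneq := s36cr_max_eq' QC hQz hadd hloc hu n hle
  have hzn : z ∈ n := hle (by rw [hQz]; exact Ideal.mem_span_singleton_self _)
  refine ⟨hneq, s36cr_genBy n hn.ne_top hneq, s36cr_dom (hQz ▸ hQC) n hn.ne_top, ?_⟩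
  haveI : n.IsPrime := hn.isPrime
  refine s36cr_pi_eq hz0 QC hQz e he n (fun 𝔮 h𝔮 hπ𝔮 h𝔮n => ?_)
  have hunit : ∀ Q : Ideal C, (∃ c : C, c * z - 1 ∈ Q) → ¬ Q ≤ 𝔮 := by
    rintro Q ⟨c, hc⟩ hQ
    apply hn.ne_top
    rw [Ideal.eq_top_iff_one]
    have h1 : c * z ∈ n := Ideal.mul_mem_left _ _ hzn
    have : (1 : C) = c * z - (c * z - 1) := by ring
    rw [this]
    exact Ideal.sub_mem _ h1 (h𝔮n (hQ hc))
  rcases hvertical 𝔮 h𝔮 hπ𝔮 with h | h | h
  · exact absurd h (hunit QA hA)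
  · exact absurd h (hunit QB hB)
  · exact h

end Point

end Fermat.Agent.S36
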