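/-
Project S36 (Carayol), model cell [M2], leaf **[C-REG-INST]**, LAYER 1 (helper2).  Prefix `s36cv_`.

THE VALUATION FORM of helper5's `s36cr_point` + `s36cr_point_local`.

`S` = local ring of the middle chart (level `N'`) at an ordinary point `y0` (`𝔪_S = (π, t)`),
`E1 ⊆ E2` the function fields of level `N' q`, `N' q²` (`S → E1` through `β`), `C1`, `C` the
integral closures of `S`; `VF VV` the two valuation rings of `E1` over `S_(π)`, `VA VB VC` the
three of `E2` (`e = 1, 1, q - 1`), `W2` the Atkin-Lehner involution of `E2` (fixing `S`),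
`G ∈ C1` the adapted generator of [ORD-G] (`G ≡ 1` at `VV`, `G ≡ u` at `VF`, `u^q ≡ a t`,
`S[G] = C1`), `zl` a uniformiser of `VC` with `W2 u - u = zl · unit`.

* `s36cv_Hyp`   : the hypotheses (all valuation-theoretic);
* `s36cv_point` : `z := W2 G - G` generates `QC = 𝔪(VC) ∩ C`, every maximal ideal `𝔫 ⊇ QC` of `C`
  is `(z, u)`, with the `tq_GenBy / tq_Dom` clauses and `π = w z^(q-1)`, `w ∉ 𝔫`
  (= the inputs of helper16's `s36ob_cover_oneBranch`).

`z ∣ F'(G)` is proved WITHOUT any norm: `F(G) = F(W2 G) = 0`, `W2 G ≠ G`.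
-/
import Mathlib
import Fermat.Agent.SS.Model.Components
import Fermat.Agent.S36.Model.Primes3Inst
import Fermat.Agent.S36.CReg.Point

set_option autoImplicit false
set_option linter.unusedSectionVars false
set_option linter.unusedVariables false
set_option linter.style.haveILetI false

namespace Fermat.Agent.S36

open Fermat.Agent.SS Fermat.Agent.JT3 Polynomial Module IsLocalRing

section General

variable {A E : Type*} [CommRing A] [Field E] [Algebra A E]

/-- on a subalgebra contained in `V`, `ssm_tp_P B V` is the contraction of `𝔪(V)`. -/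
theorem s36cv_mem_P (B : Subalgebra A E) (V : ValuationSubring E) (hBV : ∀ b : B, (b : E) ∈ V)
    (b : B) : b ∈ ssm_tp_P B V ↔ (b : E) ∈ V.nonunits := by
  constructor
  · intro h
    have := h 1
    simpa using this
  · intro h c
    rw [mul_comm]
    exact ssm_tp_nonunits_mul V h (hBV c)

end General

section Core

variable {B' B : Type*} [CommRing B'] [CommRing B]

/-- `ssm_cp_core` for an arbitrary prime `I` of `B'` (not necessarily principal). -/
theorem s36cv_core (φ : B' →+* B) (I : Ideal B') [hI : I.IsPrime] (P : Ideal B) [P.IsPrime]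
    (hic : IsIntegrallyClosed (B' ⧸ I)) (hcomap : P.comap φ = I)
    (c : B) (hc : φ.IsIntegralElem c) (x y : B') (hy : φ y ∉ P) (hxy : φ y * c - φ x ∈ P) :
    ∃ b' : B', c - φ b' ∈ P := by
  classical
  let ψ : (B' ⧸ I) →+* (B ⧸ P) := Ideal.quotientMap P φ hcomap.ge
  have hψ : Function.Injective ψ := Ideal.quotientMap_injective' hcomap.le
  have hψmk : ∀ a : B', ψ (Ideal.Quotient.mk I a) = Ideal.Quotient.mk P (φ a) := fun a =>
    Ideal.quotientMap_mk
  set KC := FractionRing (B ⧸ P) with hKC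
  let g : (B' ⧸ I) →+* KC := (algebraMap (B ⧸ P) KC).comp ψ
  have hg : Function.Injective g := (IsFractionRing.injective (B ⧸ P) KC).comp hψ
  have hgmk : ∀ a : B', g (Ideal.Quotient.mk I a)
      = algebraMap (B ⧸ P) KC (Ideal.Quotient.mk P (φ a)) := fun a => by
    change algebraMap (B ⧸ P) KC (ψ (Ideal.Quotient.mk I a)) = _
    rw [hψmk]
  set K := FractionRing (B' ⧸ I) with hK
  let L : K →+* KC := IsFractionRing.lift hg
  have hL : ∀ a : B' ⧸ I, L (algebraMap (B' ⧸ I) K a) = g a := fun a =>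
    IsFractionRing.lift_algebraMap hg a
  have hzint : g.IsIntegralElem (algebraMap (B ⧸ P) KC (Ideal.Quotient.mk P c)) := by
    obtain ⟨p, hp, hpc⟩ := hc
    refine ⟨p.map (Ideal.Quotient.mk I), hp.map _, ?_⟩
    rw [Polynomial.eval₂_map]
    have h1 : g.comp (Ideal.Quotient.mk I)
        = ((algebraMap (B ⧸ P) KC).comp (Ideal.Quotient.mk P)).comp φ := by
      ext a
      exact hgmk a
    rw [h1, ← RingHom.comp_apply, ← Polynomial.hom_eval₂, hpc, map_zero]
  have hy0 : Ideal.Quotient.mk P (φ y) ≠ 0 := by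
    rwa [Ne, Ideal.Quotient.eq_zero_iff_mem]
  have hyI : Ideal.Quotient.mk I y ≠ 0 := by
    intro h
    apply hy0
    rw [← hψmk, h, map_zero]
  have hrel : Ideal.Quotient.mk P (φ y) * Ideal.Quotient.mk P c = Ideal.Quotient.mk P (φ x) := by
    rw [← map_mul, ← sub_eq_zero, ← map_sub, Ideal.Quotient.eq_zero_iff_mem]
    exact hxy
  set κ : K := algebraMap (B' ⧸ I) K (Ideal.Quotient.mk I x)
    / algebraMap (B' ⧸ I) K (Ideal.Quotient.mk I y) with hκ
  have hyK : algebraMap (B' ⧸ I) K (Ideal.Quotient.mk I y) ≠ 0 := by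
    intro h
    exact hyI ((IsFractionRing.injective (B' ⧸ I) K) (by rw [h, map_zero]))
  have hκz : L κ = algebraMap (B ⧸ P) KC (Ideal.Quotient.mk P c) := by
    rw [hκ, map_div₀, hL, hL, hgmk, hgmk, div_eq_iff, ← map_mul, mul_comm, hrel]
    intro h
    exact hy0 ((IsFractionRing.injective (B ⧸ P) KC) (by rw [h, map_zero]))
  have hκint : IsIntegral (B' ⧸ I) κ := by
    obtain ⟨p, hp, hpz⟩ := hzint
    refine ⟨p, hp, ?_⟩
    apply L.injective
    rw [map_zero, Polynomial.hom_eval₂, hκz]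
    have h2 : L.comp (algebraMap (B' ⧸ I) K) = g := by
      ext a
      exact hL a
    rw [h2]
    exact hpz
  obtain ⟨a, ha⟩ := IsIntegrallyClosed.isIntegral_iff.mp hκint
  obtain ⟨b', rfl⟩ := Ideal.Quotient.mk_surjective a
  have hb' : Ideal.Quotient.mk I b' * Ideal.Quotient.mk I y = Ideal.Quotient.mk I x := by
    apply IsFractionRing.injective (B' ⧸ I) K
    rw [map_mul, ha, hκ, div_mul_cancel₀ _ hyK]
  refine ⟨b', ?_⟩
  rw [← Ideal.Quotient.eq_zero_iff_mem, map_sub, sub_eq_zero]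
  apply mul_left_cancel₀ hy0
  rw [hrel]
  calc Ideal.Quotient.mk P (φ x) = ψ (Ideal.Quotient.mk I x) := (hψmk x).symm
    _ = ψ (Ideal.Quotient.mk I b' * Ideal.Quotient.mk I y) := by rw [hb']
    _ = Ideal.Quotient.mk P (φ y) * Ideal.Quotient.mk P (φ b') := by
      rw [map_mul, hψmk, hψmk, mul_comm]

end Core

section DVR

variable {C1 : Type*} [CommRing C1] [IsNoetherianRing C1]

/-- a prime `P` such that `P ⊔ (g)` is the only maximal ideal above `P`: `C1 / P` is integrally
closed (a discrete valuation ring or a field). -/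
theorem s36cv_isIntegrallyClosed_quot (P : Ideal C1) [hP : P.IsPrime] (g : C1)
    (hmax : ∀ M : Ideal C1, M.IsMaximal → P ≤ M → M = P ⊔ Ideal.span {g}) :
    IsIntegrallyClosed (C1 ⧸ P) := by
  classical
  set mk := Ideal.Quotient.mk P with hmk
  have hsurj : Function.Surjective mk := Ideal.Quotient.mk_surjective
  -- every maximal ideal of the quotient is `(mk g)`
  have hmaxQ : ∀ M : Ideal (C1 ⧸ P), M.IsMaximal → M = Ideal.span {mk g} := by
    intro M hM
    have hcM : (M.comap mk).IsMaximal := Ideal.comap_isMaximal_of_surjective mk hsurj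
    have hle : P ≤ M.comap mk := by
      intro x hx
      rw [Ideal.mem_comap]
      have : mk x = 0 := Ideal.Quotient.eq_zero_iff_mem.2 hx
      rw [this]
      exact M.zero_mem
    have h1 := hmax _ hcM hle
    have h2 : M = (M.comap mk).map mk := (Ideal.map_comap_of_surjective mk hsurj M).symm
    rw [h2, h1, Ideal.map_sup, Ideal.map_span, Set.image_singleton]
    have : P.map mk = ⊥ := by
      rw [hmk, Ideal.map_quotient_self]
    rw [this, bot_sup_eq]
  haveI : Nontrivial (C1 ⧸ P) := Ideal.Quotient.nontrivial_iff.2 hP.ne_top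
  haveI : IsLocalRing (C1 ⧸ P) := by
    obtain ⟨M0, hM0⟩ := Ideal.exists_maximal (C1 ⧸ P)
    refine IsLocalRing.of_unique_max_ideal ⟨M0, hM0, fun M hM => ?_⟩
    rw [hmaxQ M hM, hmaxQ M0 hM0]
  haveI : IsDomain (C1 ⧸ P) := Ideal.Quotient.isDomain P
  have hprinc : (maximalIdeal (C1 ⧸ P)).IsPrincipal := by
    rw [hmaxQ _ (maximalIdeal.isMaximal _)]
    exact ⟨⟨mk g, rfl⟩⟩
  have h := (tfae_of_isNoetherianRing_of_isLocalRing_of_isDomain (C1 ⧸ P)).out 4 3
  exact (h.1 hprinc).1

end DVR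

section Uniform

variable {C : Type*} [CommRing C] [IsNoetherianRing C]

/-- a pointwise denominator bound on a finitely generated prime is uniform. -/
theorem s36cv_uniform (Q : Ideal C) [hQ : Q.IsPrime] (z : C)
    (h : ∀ x ∈ Q, ∃ s : C, s ∉ Q ∧ z ∣ s * x) : ∃ s : C, s ∉ Q ∧ ∀ x ∈ Q, z ∣ s * x := by
  classical
  obtain ⟨T, hT⟩ := (isNoetherianRing_iff_ideal_fg C).1 inferInstance Q
  have hTQ : ∀ t ∈ T, t ∈ Q := fun t ht => hT ▸ Ideal.subset_span ht
  choose! s hs hsz using h
  refine ⟨∏ t ∈ T, s t, ?_, ?_⟩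
  · intro hmem
    obtain ⟨t, ht, hst⟩ := (Ideal.IsPrime.prod_mem_iff).1 hmem
    exact hs t (hTQ t ht) hst
  · intro x hx
    rw [← hT] at hx
    refine Submodule.span_induction ?_ ?_ ?_ ?_ hx
    · intro t ht
      have h1 : s t ∣ ∏ t ∈ T, s t := Finset.dvd_prod_of_mem s ht
      obtain ⟨c, hc⟩ := h1
      rw [hc, mul_comm (s t) c, mul_assoc]
      exact Dvd.dvd.mul_left (hsz t (hTQ t ht)) c
    · rw [mul_zero]; exact dvd_zero z
    · intro a b _ _ ha hb
      rw [mul_add]; exact dvd_add ha hb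
    · intro a b _ hb
      rw [smul_eq_mul, mul_left_comm]; exact Dvd.dvd.mul_left hb a

end Uniform

section Deriv

variable {C : Type*} [CommRing C] [IsDomain C]

/-- two distinct roots `g, g'` of `F` in a domain: `g' - g ∣ F'(g)`. -/
theorem s36cv_sub_dvd_derivative (F : C[X]) (g g' : C) (hg : F.eval g = 0) (hg' : F.eval g' = 0)
    (hne : g' ≠ g) : g' - g ∣ F.derivative.eval g := by
  obtain ⟨Q, hQ⟩ := dvd_iff_isRoot.2 hg
  have h1 : F.derivative.eval g = Q.eval g := by
    rw [hQ, derivative_mul, derivative_sub, derivative_X, derivative_C, sub_zero, one_mul,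
      eval_add, eval_mul, eval_sub, eval_X, eval_C, sub_self, zero_mul, add_zero]
  have h2 : Q.eval g' = 0 := by
    have := hg'
    rw [hQ, eval_mul, eval_sub, eval_X, eval_C] at this
    exact (mul_eq_zero.1 this).resolve_left (sub_ne_zero.2 hne)
  rw [h1]
  have := Polynomial.sub_dvd_eval_sub g' g Q
  rw [h2, zero_sub] at this
  exact (dvd_neg).1 this

end Deriv

section Main

variable {S : Type*} [CommRing S] [IsDomain S] [IsLocalRing S] [IsNoetherianRing S]
  [IsIntegrallyClosed S]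
  (K E1 E2 : Type*) [Field K] [CharZero K] [Field E1] [Field E2]
  [Algebra K E1] [Algebra E1 E2] [Algebra K E2] [IsScalarTower K E1 E2]
  [FiniteDimensional K E1] [FiniteDimensional E1 E2]
  [Algebra S K] [IsFractionRing S K]
  [Algebra S E1] [IsScalarTower S K E1] [Algebra S E2] [IsScalarTower S K E2]
  [IsScalarTower S E1 E2] [FaithfulSMul S E1] [FaithfulSMul S E2]

/-- the map `integralClosure S E1 → integralClosure S E2`. -/
noncomputable def s36cv_iota : integralClosure S E1 →ₐ[S] integralClosure S E2 :=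
  (IsScalarTower.toAlgHom S E1 E2).mapIntegralClosure

theorem s36cv_iota_coe (x : integralClosure S E1) :
    ((s36cv_iota E1 E2 x : integralClosure S E2) : E2) = algebraMap E1 E2 (x : E1) := rfl

/-- the map `integralClosure S E1 → integralClosure S E2` as a ring homomorphism. -/
noncomputable def s36cv_iotaR : integralClosure S E1 →+* integralClosure S E2 :=
  ((IsScalarTower.toAlgHom S E1 E2).mapIntegralClosure).toRingHom

theorem s36cv_iotaR_apply (x : integralClosure S E1) :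
    s36cv_iotaR E1 E2 x = s36cv_iota E1 E2 x := rfl

/-- **Hypotheses of the valuation-theoretic form of [C-REG]** at an ordinary point (`q ≥ 3`). -/
structure s36cv_Hyp (π t : S) (q : ℕ) (VF VV : ValuationSubring E1)
    (VA VB VC : ValuationSubring E2) (W2 : E2 ≃+* E2) (G u : integralClosure S E1) (a : S)
    (zl : E2) : Prop where
  hq : q.Prime
  hq3 : 3 ≤ q
  hm : maximalIdeal S = Ideal.span {π, t}
  H3 : s36tp_Hyp π ![VA, VB, VC] ![1, 1, q - 1]
  hF : ssm_tp_Over π VF
  hV : ssm_tp_Over π VV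
  hFunif : ∀ x ∈ VF.nonunits, (algebraMap S E1 π)⁻¹ * x ∈ VF
  oA : ∀ x : E1, algebraMap E1 E2 x ∈ VA ↔ x ∈ VF
  oB : ∀ x : E1, algebraMap E1 E2 x ∈ VB ↔ x ∈ VV
  oC : ∀ x : E1, algebraMap E1 E2 x ∈ VC ↔ x ∈ VF
  locF : ∀ x ∈ VF, ∃ y : integralClosure S E1, (y : E1) ∉ VF.nonunits ∧
    IsIntegral S ((y : E1) * x)
  W2S : ∀ s : S, W2 (algebraMap S E2 s) = algebraMap S E2 s
  W2VA : ∀ x : E1, x ∈ VV.nonunits → W2 (algebraMap E1 E2 x) ∈ VA.nonunits
  W2FB : ∀ x : E1, x ∈ VF.nonunits → W2 (algebraMap E1 E2 x) ∈ VB.nonunits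
  W2FC : ∀ x : E1, x ∈ VF → W2 (algebraMap E1 E2 x) ∈ VC
  hG1 : (G : E1) - 1 ∈ VV.nonunits
  hGu : (G : E1) - (u : E1) ∈ VF.nonunits
  hua : (u : E1) ^ q - algebraMap S E1 (a * t) ∈ VF.nonunits
  ha : IsUnit a
  hadj : Algebra.adjoin S {G} = ⊤
  zl_mem : zl ∈ VC.nonunits
  zl_unif : ∀ x ∈ VC.nonunits, ∃ b ∈ VC, x = zl * b
  zl_ram : ∃ w, w ∈ VC ∧ w ∉ VC.nonunits ∧ algebraMap S E2 π = w * zl ^ (q - 1)
  resC : ∀ x ∈ VC, ∃ r : E1, r ∈ VF ∧ x - algebraMap E1 E2 r ∈ VC.nonunits
  hu_z : ∃ w, w ∈ VC ∧ w ∉ VC.nonunits ∧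
    W2 (algebraMap E1 E2 (u : E1)) - algebraMap E1 E2 (u : E1) = zl * w


variable {K E1 E2}
variable {π t : S} {q : ℕ} {VF VV : ValuationSubring E1} {VA VB VC : ValuationSubring E2}
  {W2 : E2 ≃+* E2} {G u : integralClosure S E1} {a : S} {zl : E2}

omit [IsLocalRing S] [IsNoetherianRing S] [IsIntegrallyClosed S] [IsDomain S] [FaithfulSMul S E1]
  [FaithfulSMul S E2] [IsScalarTower S E1 E2] [Algebra S E2] [Algebra S E1] [CommRing S] in
/-- restriction of valuation subrings: the maximal ideals correspond. -/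
theorem s36cv_nonunits_iff {V1 : ValuationSubring E1} {V2 : ValuationSubring E2}
    (h : ∀ x : E1, algebraMap E1 E2 x ∈ V2 ↔ x ∈ V1) (x : E1) :
    algebraMap E1 E2 x ∈ V2.nonunits ↔ x ∈ V1.nonunits := by
  rw [ValuationSubring.mem_nonunits_iff_or, ValuationSubring.mem_nonunits_iff_or, ← map_inv₀, h,
    map_eq_zero]

namespace s36cv_Hyp

variable (H : s36cv_Hyp E1 E2 π t q VF VV VA VB VC W2 G u a zl)
include H

theorem C_le_A (c : integralClosure S E2) : (c : E2) ∈ VA :=
  ssm_tp_mem_of_isIntegral VA (H.H3.ovr 0).le c.2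

theorem C_le_B (c : integralClosure S E2) : (c : E2) ∈ VB :=
  ssm_tp_mem_of_isIntegral VB (H.H3.ovr 1).le c.2

theorem C_le_C (c : integralClosure S E2) : (c : E2) ∈ VC :=
  ssm_tp_mem_of_isIntegral VC (H.H3.ovr 2).le c.2

theorem C1_le_F (c : integralClosure S E1) : (c : E1) ∈ VF :=
  ssm_tp_mem_of_isIntegral VF H.hF.le c.2

theorem C1_le_V (c : integralClosure S E1) : (c : E1) ∈ VV :=
  ssm_tp_mem_of_isIntegral VV H.hV.le c.2

theorem mem_QA (c : integralClosure S E2) :
    c ∈ ssm_tp_P (integralClosure S E2) VA ↔ (c : E2) ∈ VA.nonunits :=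
  s36cv_mem_P _ VA H.C_le_A c

theorem mem_QB (c : integralClosure S E2) :
    c ∈ ssm_tp_P (integralClosure S E2) VB ↔ (c : E2) ∈ VB.nonunits :=
  s36cv_mem_P _ VB H.C_le_B c

theorem mem_QC (c : integralClosure S E2) :
    c ∈ ssm_tp_P (integralClosure S E2) VC ↔ (c : E2) ∈ VC.nonunits :=
  s36cv_mem_P _ VC H.C_le_C c

theorem mem_P2 (c : integralClosure S E1) :
    c ∈ ssm_tp_P (integralClosure S E1) VF ↔ (c : E1) ∈ VF.nonunits :=
  s36cv_mem_P _ VF H.C1_le_F c

theorem mem_P1 (c : integralClosure S E1) :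
    c ∈ ssm_tp_P (integralClosure S E1) VV ↔ (c : E1) ∈ VV.nonunits :=
  s36cv_mem_P _ VV H.C1_le_V c

theorem prime_pi : Prime π := H.H3.prime

theorem t_mem : t ∈ maximalIdeal S := by
  rw [H.hm]; exact Ideal.subset_span (by simp)

theorem pi_mem : π ∈ maximalIdeal S := by
  rw [H.hm]; exact Ideal.subset_span (by simp)

/-- `π ∈ 𝔪(VF)` -/
theorem pi_mem_F : algebraMap S E1 π ∈ VF.nonunits := (H.hF.cen π).2 dvd_rfl

/-- the chart property of the integral closure -/
theorem chart : ssm_tp_Chart π (integralClosure S E2) :=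
  ssm_tp_chart_of_iff H.prime_pi (fun z => Iff.rfl)

/-- `P2` is a prime of `C1`. -/
theorem P2_isPrime : (ssm_tp_P (integralClosure S E1) VF).IsPrime := by
  refine ⟨?_, ?_⟩
  · intro h
    have h1 : (1 : integralClosure S E1) ∈ ssm_tp_P (integralClosure S E1) VF := by
      rw [h]; trivial
    rw [H.mem_P2] at h1
    exact ssm_tp_one_not_mem_nonunits VF h1
  · intro x y hxy
    rw [H.mem_P2] at hxy
    rw [H.mem_P2, H.mem_P2]
    by_contra hcon
    push Not at hcon
    exact ssm_tp_mul_not_mem VF hcon.1 hcon.2 hxy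

/-- `G ^ q - a t ∈ 𝔪(VF)`. -/
theorem Gq_mem : (G : E1) ^ q - algebraMap S E1 (a * t) ∈ VF.nonunits := by
  have h1 : (G : E1) ^ q - (u : E1) ^ q ∈ VF.nonunits := by
    have hc' : (G : E1) ^ q - (u : E1) ^ q = ((G : E1) - (u : E1)) *
        ∑ i ∈ Finset.range q, (G : E1) ^ i * (u : E1) ^ (q - 1 - i) := by
      rw [mul_comm, Commute.geom_sum₂_mul (Commute.all _ _)]
    rw [hc']
    exact ssm_tp_nonunits_mul VF H.hGu (VF.sum_mem fun i _ =>
      VF.mul_mem _ _ (VF.pow_mem (H.C1_le_F G) _) (VF.pow_mem (H.C1_le_F u) _))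
  have : (G : E1) ^ q - algebraMap S E1 (a * t) =
      ((G : E1) ^ q - (u : E1) ^ q) + ((u : E1) ^ q - algebraMap S E1 (a * t)) := by ring
  rw [this]
  exact ssm_tp_nonunits_add VF h1 H.hua

/-- a maximal ideal of an integral extension of the local ring `S` contains `𝔪_S`. -/
theorem max_mem {D : Type*} [CommRing D] [Algebra S D] [Algebra.IsIntegral S D] (M : Ideal D)
    [hM : M.IsMaximal] {s : S} (hs : s ∈ maximalIdeal S) : algebraMap S D s ∈ M := by
  haveI : (M.comap (algebraMap S D)).IsMaximal :=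
    Ideal.isMaximal_comap_of_isIntegral_of_isMaximal M
  have h1 : M.comap (algebraMap S D) = maximalIdeal S := IsLocalRing.eq_maximalIdeal inferInstance
  have : s ∈ M.comap (algebraMap S D) := h1 ▸ hs
  exact this

/-- `u ∈ M` for every maximal ideal `M ⊇ P2` of `C1`. -/
theorem u_mem_of_max (M : Ideal (integralClosure S E1)) [hM : M.IsMaximal]
    (hle : ssm_tp_P (integralClosure S E1) VF ≤ M) : u ∈ M := by
  have h1 : u ^ q - algebraMap S (integralClosure S E1) (a * t) ∈
      ssm_tp_P (integralClosure S E1) VF := by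
    rw [H.mem_P2]
    exact H.hua
  have h2 : algebraMap S (integralClosure S E1) (a * t) ∈ M :=
    H.max_mem M (Ideal.mul_mem_left _ _ H.t_mem)
  have h3 : u ^ q ∈ M := by
    have := Ideal.add_mem _ (hle h1) h2
    simpa using this
  exact hM.isPrime.mem_of_pow_mem _ h3

/-- `G ∈ M` for every maximal ideal `M ⊇ P2` of `C1`. -/
theorem G_mem_of_max (M : Ideal (integralClosure S E1)) [hM : M.IsMaximal]
    (hle : ssm_tp_P (integralClosure S E1) VF ≤ M) : G ∈ M := by
  have h1 : G - u ∈ ssm_tp_P (integralClosure S E1) VF := by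
    rw [H.mem_P2]
    exact H.hGu
  have := Ideal.add_mem _ (hle h1) (H.u_mem_of_max M hle)
  simpa using this

/-- every element of `C1` is congruent to a constant modulo `P2 ⊔ (u)`. -/
theorem exists_const (c : integralClosure S E1) : ∃ s : S,
    c - algebraMap S (integralClosure S E1) s ∈
      ssm_tp_P (integralClosure S E1) VF ⊔ Ideal.span {u} := by
  have hc : c ∈ Algebra.adjoin S {G} := by rw [H.hadj]; trivial
  rw [Algebra.adjoin_singleton_eq_range_aeval] at hc
  obtain ⟨f, rfl⟩ := hc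
  refine ⟨f.coeff 0, ?_⟩
  have h0 : aeval G f = aeval G f.divX * G + algebraMap S (integralClosure S E1) (f.coeff 0) := by
    conv_lhs => rw [← divX_mul_X_add f]
    rw [map_add, map_mul, aeval_X, aeval_C]
  have h1 : (aeval G) f - algebraMap S (integralClosure S E1) (f.coeff 0) = aeval G f.divX * G := by
    rw [h0]; ring
  have hG : G ∈ ssm_tp_P (integralClosure S E1) VF ⊔ Ideal.span {u} := by
    have h2 : G - u ∈ ssm_tp_P (integralClosure S E1) VF := by
      rw [H.mem_P2]
      exact H.hGu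
    have : G = (G - u) + u := by ring
    rw [this]
    exact Ideal.add_mem _ (Ideal.mem_sup_left h2)
      (Ideal.mem_sup_right (Ideal.mem_span_singleton_self u))
  change (aeval G) f - _ ∈ _
  rw [h1]
  exact Ideal.mul_mem_left _ _ hG

/-- `𝔪_S C1 ⊆ P2 ⊔ (u)`. -/
theorem max_le (s : S) (hs : s ∈ maximalIdeal S) :
    algebraMap S (integralClosure S E1) s ∈
      ssm_tp_P (integralClosure S E1) VF ⊔ Ideal.span {u} := by
  rw [H.hm, Ideal.mem_span_pair] at hs
  obtain ⟨x, y, rfl⟩ := hs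
  rw [map_add, map_mul, map_mul]
  refine Ideal.add_mem _ (Ideal.mul_mem_left _ _ (Ideal.mem_sup_left ?_))
    (Ideal.mul_mem_left _ _ ?_)
  · rw [H.mem_P2]
    exact H.pi_mem_F
  · -- `t = a⁻¹ (a t)`, `a t ≡ u ^ q`
    obtain ⟨a', rfl⟩ := H.ha
    have h1 : u ^ q - algebraMap S (integralClosure S E1) ((a' : S) * t) ∈
        ssm_tp_P (integralClosure S E1) VF := by
      rw [H.mem_P2]
      exact H.hua
    have h2 : algebraMap S (integralClosure S E1) ((a' : S) * t) ∈
        ssm_tp_P (integralClosure S E1) VF ⊔ Ideal.span {u} := by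
      have : algebraMap S (integralClosure S E1) ((a' : S) * t) =
          u ^ q - (u ^ q - algebraMap S (integralClosure S E1) ((a' : S) * t)) := by ring
      rw [this]
      refine Ideal.sub_mem _ (Ideal.mem_sup_right ?_) (Ideal.mem_sup_left h1)
      have hq0 : q ≠ 0 := H.hq.ne_zero
      obtain ⟨k, hk⟩ := Nat.exists_eq_succ_of_ne_zero hq0
      rw [hk, pow_succ]
      exact Ideal.mul_mem_left _ _ (Ideal.mem_span_singleton_self u)
    have h3 : algebraMap S (integralClosure S E1) t =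
        algebraMap S (integralClosure S E1) ((a'⁻¹ : Sˣ) : S) *
          algebraMap S (integralClosure S E1) ((a' : S) * t) := by
      rw [← map_mul, ← mul_assoc, Units.inv_mul, one_mul]
    rw [h3]
    exact Ideal.mul_mem_left _ _ h2

/-- **`P2 ⊔ (u)` is the only maximal ideal of `C1` above `P2`.** -/
theorem hmax (M : Ideal (integralClosure S E1)) (hM : M.IsMaximal)
    (hle : ssm_tp_P (integralClosure S E1) VF ≤ M) :
    M = ssm_tp_P (integralClosure S E1) VF ⊔ Ideal.span {u} := by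
  haveI := hM
  haveI : Algebra.IsIntegral S (integralClosure S E1) := inferInstance
  apply le_antisymm
  · intro c hc
    obtain ⟨s, hs⟩ := H.exists_const c
    have hle' : ssm_tp_P (integralClosure S E1) VF ⊔ Ideal.span {u} ≤ M :=
      sup_le hle ((Ideal.span_singleton_le_iff_mem M).2 (H.u_mem_of_max M hle))
    have hsM : algebraMap S (integralClosure S E1) s ∈ M := by
      have : algebraMap S (integralClosure S E1) s =
          c - (c - algebraMap S (integralClosure S E1) s) := by ring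
      rw [this]
      exact Ideal.sub_mem _ hc (hle' hs)
    have hs' : s ∈ maximalIdeal S := by
      by_contra hns
      have hu : IsUnit s := by
        by_contra h
        exact hns ((IsLocalRing.mem_maximalIdeal s).2 h)
      exact hM.ne_top (Ideal.eq_top_of_isUnit_mem _ hsM (hu.map _))
    have : c = (c - algebraMap S (integralClosure S E1) s) +
        algebraMap S (integralClosure S E1) s := by ring
    rw [this]
    exact Ideal.add_mem _ hs (H.max_le s hs')
  · exact sup_le hle ((Ideal.span_singleton_le_iff_mem M).2 (H.u_mem_of_max M hle))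


/-- `W2` preserves integrality over `S`. -/
theorem W2_isIntegral {c : E2} (hc : IsIntegral S c) : IsIntegral S (W2 c) := by
  obtain ⟨p, hp, hpc⟩ := hc
  refine ⟨p, hp, ?_⟩
  have h1 : (W2 : E2 →+* E2).comp (algebraMap S E2) = algebraMap S E2 := by
    ext s; exact H.W2S s
  have h2 := Polynomial.hom_eval₂ p (algebraMap S E2) (W2 : E2 →+* E2) c
  rw [h1, hpc, map_zero] at h2
  exact h2.symm

theorem pi_E2 : algebraMap E1 E2 (algebraMap S E1 π) = algebraMap S E2 π :=
  (IsScalarTower.algebraMap_apply S E1 E2 π).symm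

theorem pi_mem_C : algebraMap S E2 π ∈ VC.nonunits := ((H.H3.ovr 2).cen π).2 dvd_rfl

theorem pi_ne_zero1 : algebraMap S E1 π ≠ 0 :=
  (map_ne_zero_iff _ (FaithfulSMul.algebraMap_injective S E1)).2 H.prime_pi.ne_zero

/-- for `x ∈ 𝔪(VF)`: `W2 x - x ∈ π VC`. -/
theorem exists_pi_mul {x : E1} (hx : x ∈ VF.nonunits) :
    ∃ b ∈ VC, W2 (algebraMap E1 E2 x) - algebraMap E1 E2 x = algebraMap S E2 π * b := by
  have hy := H.hFunif x hx
  set y := (algebraMap S E1 π)⁻¹ * x with hydef
  have hxy : x = algebraMap S E1 π * y := by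
    rw [hydef, ← mul_assoc, mul_inv_cancel₀ H.pi_ne_zero1, one_mul]
  refine ⟨W2 (algebraMap E1 E2 y) - algebraMap E1 E2 y,
    VC.sub_mem (H.W2FC y hy) ((H.oC y).2 hy), ?_⟩
  rw [hxy, map_mul, map_mul, H.pi_E2, H.W2S]
  ring

/-- `W2` maps `𝔪(VF)` into `𝔪(VC)`. -/
theorem W2FC_nonunits {x : E1} (hx : x ∈ VF.nonunits) :
    W2 (algebraMap E1 E2 x) ∈ VC.nonunits := by
  obtain ⟨b, hb, hbx⟩ := H.exists_pi_mul hx
  have : W2 (algebraMap E1 E2 x) = algebraMap S E2 π * b + algebraMap E1 E2 x := by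
    rw [← hbx]; ring
  rw [this]
  exact ssm_tp_nonunits_add VC (ssm_tp_nonunits_mul VC H.pi_mem_C hb)
    ((s36cv_nonunits_iff H.oC x).2 hx)

theorem zl_ne_zero : zl ≠ 0 := by
  obtain ⟨w, -, -, hw⟩ := H.zl_ram
  intro h0
  have hq1 : q - 1 ≠ 0 := by have := H.hq3; omega
  rw [h0, zero_pow hq1, mul_zero] at hw
  exact H.H3.algebraMap_ne_zero hw

/-- **`W2 G - G = zl · unit` at `VC`.** -/
theorem z_eq : ∃ w', w' ∈ VC ∧ w' ∉ VC.nonunits ∧
    W2 (algebraMap E1 E2 (G : E1)) - algebraMap E1 E2 (G : E1) = zl * w' := by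
  obtain ⟨w, hw, hwn, huz⟩ := H.hu_z
  obtain ⟨b, hb, hbz⟩ := H.exists_pi_mul H.hGu
  obtain ⟨w0, hw0, -, hπ⟩ := H.zl_ram
  obtain ⟨k, hk⟩ : ∃ k, q - 1 = k + 2 := ⟨q - 3, by have := H.hq3; omega⟩
  have hzl : zl ∈ VC := VC.nonunits_le H.zl_mem
  have hmem : w0 * zl ^ k * b ∈ VC := VC.mul_mem _ _ (VC.mul_mem _ _ hw0 (VC.pow_mem hzl k)) hb
  refine ⟨w + zl * (w0 * zl ^ k * b), VC.add_mem _ _ hw (VC.mul_mem _ _ hzl hmem), ?_, ?_⟩
  · intro hcon
    apply hwn
    have : w = (w + zl * (w0 * zl ^ k * b)) + -(zl * (w0 * zl ^ k * b)) := by ring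
    rw [this]
    exact ssm_tp_nonunits_add VC hcon (ssm_tp_nonunits_neg VC (ssm_tp_nonunits_mul VC H.zl_mem hmem))
  · rw [hk] at hπ
    have h1 : W2 (algebraMap E1 E2 (G : E1)) - algebraMap E1 E2 (G : E1) =
        (W2 (algebraMap E1 E2 (u : E1)) - algebraMap E1 E2 (u : E1)) +
        (W2 (algebraMap E1 E2 ((G : E1) - (u : E1))) - algebraMap E1 E2 ((G : E1) - (u : E1))) := by
      rw [map_sub, map_sub]; ring
    rw [h1, huz, hbz, hπ]
    ring

/-- `1 - G` is a unit modulo `P2`. -/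
theorem exists_inv_one_sub_G : ∃ d : integralClosure S E1,
    d * (1 - G) - 1 ∈ ssm_tp_P (integralClosure S E1) VF := by
  have htop : ssm_tp_P (integralClosure S E1) VF ⊔ Ideal.span {1 - G} = ⊤ := by
    by_contra hne
    obtain ⟨M, hM, hle⟩ := Ideal.exists_le_maximal _ hne
    haveI := hM
    have h1 : ssm_tp_P (integralClosure S E1) VF ≤ M := le_sup_left.trans hle
    have h2 : 1 - G ∈ M := hle (Ideal.mem_sup_right (Ideal.mem_span_singleton_self _))
    have h3 : G ∈ M := H.G_mem_of_max M h1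
    apply hM.ne_top
    rw [Ideal.eq_top_iff_one]
    have : (1 : integralClosure S E1) = (1 - G) + G := by ring
    rw [this]; exact Ideal.add_mem _ h2 h3
  have h1 : (1 : integralClosure S E1) ∈
      ssm_tp_P (integralClosure S E1) VF ⊔ Ideal.span {1 - G} := by rw [htop]; trivial
  obtain ⟨p, hp, r, hr, hpr⟩ := Submodule.mem_sup.1 h1
  obtain ⟨d, rfl⟩ := Ideal.mem_span_singleton'.1 hr
  refine ⟨d, ?_⟩
  have : d * (1 - G) - 1 = -p := by linear_combination hpr
  rw [this]; exact (Ideal.neg_mem_iff _).2 hp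


/-- the element `W2 c` of `C`. -/
noncomputable def W2C (c : integralClosure S E2) : integralClosure S E2 :=
  ⟨W2 (c : E2), H.W2_isIntegral c.2⟩

theorem W2C_coe (c : integralClosure S E2) : ((H.W2C c : integralClosure S E2) : E2) = W2 (c : E2) :=
  rfl

theorem QC_isPrime : (ssm_tp_P (integralClosure S E2) VC).IsPrime := H.H3.P_isPrime H.chart 2

section Z

variable (z : integralClosure S E2)
  (hz : (z : E2) = W2 (algebraMap E1 E2 (G : E1)) - algebraMap E1 E2 (G : E1))
include hz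

theorem z_ne_zero : z ≠ 0 := by
  obtain ⟨w', hw', hw'n, hzw⟩ := H.z_eq
  intro h0
  have h1 : (z : E2) = 0 := by rw [h0]; rfl
  rw [hz, hzw] at h1
  rcases mul_eq_zero.1 h1 with h | h
  · exact H.zl_ne_zero h
  · exact ssm_tp_ne_zero VC hw'n h

/-- `z` is a unit modulo `QA`. -/
theorem hA : ∃ c : integralClosure S E2, c * z - 1 ∈ ssm_tp_P (integralClosure S E2) VA := by
  obtain ⟨d, hd⟩ := H.exists_inv_one_sub_G
  rw [H.mem_P2] at hd
  refine ⟨s36cv_iota E1 E2 d, ?_⟩
  rw [H.mem_QA]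
  have h1 : ((s36cv_iota E1 E2 d * z - 1 : integralClosure S E2) : E2) =
      algebraMap E1 E2 (((d * (1 - G) - 1 : integralClosure S E1)) : E1) +
        W2 (algebraMap E1 E2 ((G : E1) - 1)) * algebraMap E1 E2 (d : E1) := by
    push_cast
    rw [s36cv_iota_coe, hz]
    simp only [map_sub, map_one]
    ring
  rw [h1]
  exact ssm_tp_nonunits_add VA ((s36cv_nonunits_iff H.oA _).2 hd)
    (ssm_tp_nonunits_mul VA (H.W2VA _ H.hG1) (H.C_le_A (s36cv_iota E1 E2 d)))

/-- `z` is a unit modulo `QB`. -/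
theorem hB : ∃ c : integralClosure S E2, c * z - 1 ∈ ssm_tp_P (integralClosure S E2) VB := by
  obtain ⟨d, hd⟩ := H.exists_inv_one_sub_G
  rw [H.mem_P2] at hd
  refine ⟨- H.W2C (s36cv_iota E1 E2 d), ?_⟩
  rw [H.mem_QB]
  have h1 : ((- H.W2C (s36cv_iota E1 E2 d) * z - 1 : integralClosure S E2) : E2) =
      W2 (algebraMap E1 E2 (((d * (1 - G) - 1 : integralClosure S E1)) : E1)) +
        algebraMap E1 E2 ((G : E1) - 1) * W2 (algebraMap E1 E2 (d : E1)) := by
    push_cast
    rw [H.W2C_coe, s36cv_iota_coe, hz]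
    simp only [map_sub, map_mul, map_one]
    ring
  rw [h1]
  exact ssm_tp_nonunits_add VB (H.W2FB _ hd)
    (ssm_tp_nonunits_mul VB ((s36cv_nonunits_iff H.oB _).2 H.hG1)
      (H.C_le_B (H.W2C (s36cv_iota E1 E2 d))))

/-- `z ∈ QC`. -/
theorem hzC : z ∈ ssm_tp_P (integralClosure S E2) VC := by
  obtain ⟨w', hw', hw'n, hzw⟩ := H.z_eq
  rw [H.mem_QC, hz, hzw]
  exact ssm_tp_nonunits_mul VC H.zl_mem hw'

/-- `z` generates `QC` at the generic point of `QC`, pointwise form. -/
theorem h2' (x : integralClosure S E2) (hx : x ∈ ssm_tp_P (integralClosure S E2) VC) :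
    ∃ s : integralClosure S E2, s ∉ ssm_tp_P (integralClosure S E2) VC ∧ z ∣ s * x := by
  rw [H.mem_QC] at hx
  obtain ⟨b, hb, hxb⟩ := H.zl_unif _ hx
  obtain ⟨w', hw', hw'n, hzw⟩ := H.z_eq
  have hz0 : (z : E2) ≠ 0 := fun h => H.z_ne_zero z hz (Subtype.ext h)
  refine H.H3.exists_dvd H.chart 2 hz0 ?_
  rw [hxb, hz, hzw]
  have hw0 : w' ≠ 0 := ssm_tp_ne_zero VC hw'n
  have : (zl * w')⁻¹ * (zl * b) = w'⁻¹ * b := by
    field_simp [H.zl_ne_zero]
  rw [this]
  exact VC.mul_mem _ _ (ssm_tp_inv_mem VC hw'n) hb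

/-- `π = unit · z ^ (q - 1)` at the generic point of `QC`. -/
theorem he : ∃ s w : integralClosure S E2, s ∉ ssm_tp_P (integralClosure S E2) VC ∧
    w ∉ ssm_tp_P (integralClosure S E2) VC ∧
    s * algebraMap S (integralClosure S E2) π = w * z ^ (q - 1) := by
  obtain ⟨w', hw', hw'n, hzw⟩ := H.z_eq
  obtain ⟨w0, hw0, hw0n, hπ⟩ := H.zl_ram
  have hw'0 : w' ≠ 0 := ssm_tp_ne_zero VC hw'n
  -- the unit `v = w0 w'⁻¹ ^ (q - 1)`
  set v := w0 * (w'⁻¹) ^ (q - 1) with hv
  have hvC : v ∈ VC := VC.mul_mem _ _ hw0 (VC.pow_mem (ssm_tp_inv_mem VC hw'n) _)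
  have hw'inv : w'⁻¹ ∉ VC.nonunits := by
    intro h
    have := ssm_tp_nonunits_mul VC h hw'
    rw [inv_mul_cancel₀ hw'0] at this
    exact ssm_tp_one_not_mem_nonunits VC this
  have hvn : v ∉ VC.nonunits := ssm_tp_mul_not_mem VC hw0n (ssm_tp_pow_not_mem VC hw'inv _)
  have hπv : algebraMap S E2 π = v * (z : E2) ^ (q - 1) := by
    have h3 : (w'⁻¹) ^ (q - 1) * w' ^ (q - 1) = 1 := by
      rw [← mul_pow, inv_mul_cancel₀ hw'0, one_pow]
    rw [hz, hzw, hπ, hv, mul_pow]
    linear_combination (-(w0 * zl ^ (q - 1))) * h3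
  obtain ⟨t, ht, htv⟩ := (H.H3.mem_V_iff H.chart 2).1 hvC
  refine ⟨t, ⟨_, htv⟩, ht, ?_, ?_⟩
  · rw [H.mem_QC]
    have htn : (t : E2) ∉ VC.nonunits := fun h => ht ((H.mem_QC t).2 h)
    exact ssm_tp_mul_not_mem VC htn hvn
  · apply Subtype.ext
    push_cast
    change (t : E2) * algebraMap S E2 π = (t : E2) * v * (z : E2) ^ (q - 1)
    rw [hπv]; ring

end Z


/-- `ι` maps `P2` into `QC`, and conversely. -/
theorem iota_mem_QC_iff (x : integralClosure S E1) :
    s36cv_iota E1 E2 x ∈ ssm_tp_P (integralClosure S E2) VC ↔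
      x ∈ ssm_tp_P (integralClosure S E1) VF := by
  rw [H.mem_QC, H.mem_P2, s36cv_iota_coe]
  exact s36cv_nonunits_iff H.oC _

theorem comap_QC : (ssm_tp_P (integralClosure S E2) VC).comap
    (s36cv_iotaR E1 E2) =
      ssm_tp_P (integralClosure S E1) VF := by
  ext x
  rw [Ideal.mem_comap]
  exact H.iota_mem_QC_iff x

/-- `W2` as an `S`-algebra map. -/
noncomputable def W2a : E2 →ₐ[S] E2 :=
  { (W2 : E2 →+* E2) with commutes' := H.W2S }

theorem W2a_apply (x : E2) : H.W2a x = W2 x := rfl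

/-- **`z ∣ F'(G)`** for every polynomial `F` over `S` killing `G`. -/
theorem hz_dvd (z : integralClosure S E2)
    (hz : (z : E2) = W2 (algebraMap E1 E2 (G : E1)) - algebraMap E1 E2 (G : E1))
    (F : S[X]) (hFG : aeval G F = 0) :
    z ∣ s36cv_iota E1 E2 (aeval G (derivative F)) := by
  set g : integralClosure S E2 := s36cv_iota E1 E2 G with hg
  set g' : integralClosure S E2 := H.W2C g with hg'
  have hzg : z = g' - g := by
    apply Subtype.ext
    push_cast
    rw [hz, hg', H.W2C_coe, hg, s36cv_iota_coe]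
  have h1 : (F.map (algebraMap S (integralClosure S E2))).eval g = 0 := by
    rw [eval_map_algebraMap, hg, aeval_algHom_apply, hFG, map_zero]
  have h2 : (F.map (algebraMap S (integralClosure S E2))).eval g' = 0 := by
    rw [eval_map_algebraMap]
    apply Subtype.ext
    rw [← Subalgebra.aeval_coe, hg', H.W2C_coe, ← H.W2a_apply, aeval_algHom_apply,
      Subalgebra.aeval_coe, ← eval_map_algebraMap, h1]
    simp
  have hne : g' ≠ g := by
    intro h
    apply H.z_ne_zero z hz
    rw [hzg, h, sub_self]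
  have h3 := s36cv_sub_dvd_derivative _ g g' h1 h2 hne
  rw [derivative_map, eval_map_algebraMap, hg, aeval_algHom_apply, ← hg, ← hzg] at h3
  exact h3

section Quot

variable [IsNoetherianRing (integralClosure S E1)]

/-- `C = C1 + QC`. -/
theorem hadd (c : integralClosure S E2) : ∃ c1 : integralClosure S E1,
    c - s36cv_iota E1 E2 c1 ∈ ssm_tp_P (integralClosure S E2) VC := by
  haveI := H.P2_isPrime
  haveI := H.QC_isPrime
  have hic : IsIntegrallyClosed (integralClosure S E1 ⧸ ssm_tp_P (integralClosure S E1) VF) :=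
    s36cv_isIntegrallyClosed_quot _ u H.hmax
  have hc : (s36cv_iotaR E1 E2).IsIntegralElem c := by
    obtain ⟨p, hp, hpc⟩ := (Algebra.IsIntegral.isIntegral (R := S) c)
    refine ⟨p.map (algebraMap S (integralClosure S E1)), hp.map _, ?_⟩
    rw [eval₂_map]
    have : (s36cv_iotaR E1 E2).comp
        (algebraMap S (integralClosure S E1)) = algebraMap S (integralClosure S E2) :=
      (s36cv_iota E1 E2).comp_algebraMap
    rw [this]
    exact hpc
  obtain ⟨r, hr, hcr⟩ := H.resC c (H.C_le_C c)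
  obtain ⟨y, hy, hyr⟩ := H.locF r hr
  refine s36cv_core (s36cv_iotaR E1 E2)
    (ssm_tp_P (integralClosure S E1) VF) (ssm_tp_P (integralClosure S E2) VC) hic H.comap_QC
    c hc ⟨(y : E1) * r, hyr⟩ y ?_ ?_
  · intro h
    apply hy
    exact (H.mem_P2 y).1 ((H.iota_mem_QC_iff y).1 h)
  · rw [H.mem_QC]
    have h1 : (((s36cv_iotaR E1 E2) y * c -
        (s36cv_iotaR E1 E2) ⟨(y : E1) * r, hyr⟩ :
          integralClosure S E2) : E2) =
        ((c : E2) - algebraMap E1 E2 r) * algebraMap E1 E2 (y : E1) := by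
      push_cast
      change algebraMap E1 E2 (y : E1) * (c : E2) - algebraMap E1 E2 ((y : E1) * r) = _
      rw [map_mul]; ring
    rw [h1]
    exact ssm_tp_nonunits_mul VC hcr ((H.oC _).2 (H.C1_le_F y))

/-- `C1 / P2` is local with maximal ideal generated by `u`. -/
theorem hloc (c1 : integralClosure S E1) :
    (∃ d : integralClosure S E1, s36cv_iota E1 E2 (c1 * d - 1) ∈
      ssm_tp_P (integralClosure S E2) VC) ∨
    (∃ d : integralClosure S E1, s36cv_iota E1 E2 (c1 - u * d) ∈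
      ssm_tp_P (integralClosure S E2) VC) := by
  by_cases hc : c1 ∈ ssm_tp_P (integralClosure S E1) VF ⊔ Ideal.span {u}
  · right
    obtain ⟨p, hp, r, hr, hpr⟩ := Submodule.mem_sup.1 hc
    obtain ⟨d, rfl⟩ := Ideal.mem_span_singleton'.1 hr
    refine ⟨d, (H.iota_mem_QC_iff _).2 ?_⟩
    have : c1 - u * d = p := by linear_combination -hpr
    rw [this]; exact hp
  · left
    have htop : ssm_tp_P (integralClosure S E1) VF ⊔ Ideal.span {c1} = ⊤ := by
      by_contra hne
      obtain ⟨M, hM, hle⟩ := Ideal.exists_le_maximal _ hne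
      have h1 : ssm_tp_P (integralClosure S E1) VF ≤ M := le_sup_left.trans hle
      have h2 : c1 ∈ M := hle (Ideal.mem_sup_right (Ideal.mem_span_singleton_self _))
      rw [H.hmax M hM h1] at h2
      exact hc h2
    have h1 : (1 : integralClosure S E1) ∈
        ssm_tp_P (integralClosure S E1) VF ⊔ Ideal.span {c1} := by rw [htop]; trivial
    obtain ⟨p, hp, r, hr, hpr⟩ := Submodule.mem_sup.1 h1
    obtain ⟨d, rfl⟩ := Ideal.mem_span_singleton'.1 hr
    refine ⟨d, (H.iota_mem_QC_iff _).2 ?_⟩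
    have : c1 * d - 1 = -p := by linear_combination hpr
    rw [this]; exact (Ideal.neg_mem_iff _).2 hp

/-- `u` is not a unit modulo `QC`. -/
theorem hu (d : integralClosure S E2) :
    s36cv_iota E1 E2 u * d - 1 ∉ ssm_tp_P (integralClosure S E2) VC := by
  intro hd
  obtain ⟨d1, hd1⟩ := H.hadd d
  have h1 : s36cv_iota E1 E2 (u * d1 - 1) ∈ ssm_tp_P (integralClosure S E2) VC := by
    have : s36cv_iota E1 E2 (u * d1 - 1) = (s36cv_iota E1 E2 u * d - 1) -
        s36cv_iota E1 E2 u * (d - s36cv_iota E1 E2 d1) := by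
      simp only [map_sub, map_mul, map_one]; ring
    rw [this]
    exact Ideal.sub_mem _ hd (Ideal.mul_mem_left _ _ hd1)
  rw [H.iota_mem_QC_iff] at h1
  haveI := H.P2_isPrime
  obtain ⟨M, hM, hle⟩ := Ideal.exists_le_maximal _ (H.P2_isPrime).ne_top
  haveI := hM
  apply hM.ne_top
  rw [Ideal.eq_top_iff_one]
  have h2 : u ∈ M := H.u_mem_of_max M hle
  have : (1 : integralClosure S E1) = u * d1 - (u * d1 - 1) := by ring
  rw [this]
  exact Ideal.sub_mem _ (Ideal.mul_mem_right _ _ h2) (hle h1)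

end Quot

/-- every prime of `C` containing `π` contains one of `QA, QB, QC`. -/
theorem hvertical (𝔮 : Ideal (integralClosure S E2)) (h𝔮 : 𝔮.IsPrime)
    (hπ : algebraMap S (integralClosure S E2) π ∈ 𝔮) :
    ssm_tp_P (integralClosure S E2) VA ≤ 𝔮 ∨ ssm_tp_P (integralClosure S E2) VB ≤ 𝔮 ∨
      ssm_tp_P (integralClosure S E2) VC ≤ 𝔮 :=
  s36tp_three_P_le_of_mem H.H3 H.chart (algebraMap S (integralClosure S E2) π) rfl 𝔮 hπ

end s36cv_Hyp


/-- **[C-REG-INST], valuation form**: the point of the component `C` (multiplicity `q - 1`)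
over an ordinary point of the middle chart. -/
theorem s36cv_point (K : Type*) [Field K] [CharZero K] [Algebra K E1] [Algebra K E2]
    [IsScalarTower K E1 E2] [FiniteDimensional K E1] [Algebra S K] [IsFractionRing S K]
    [IsScalarTower S K E1] [IsScalarTower S K E2]
    (H : s36cv_Hyp E1 E2 π t q VF VV VA VB VC W2 G u a zl)
    (n : ℕ) (b : Basis (Fin n) S (integralClosure S E1)) (hb : ∀ i, b i = G ^ (i : ℕ))
    (F : S[X]) (hF : F.Monic) (hdeg : F.natDegree = n) (hFG : aeval G F = 0)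
    (hunr : ∀ 𝔭 : Ideal S, 𝔭.IsPrime → 𝔭.height = 1 → π ∉ 𝔭 → Algebra.discr S b ∉ 𝔭) :
    ∃ z : integralClosure S E2,
      (z : E2) = W2 (algebraMap E1 E2 (G : E1)) - algebraMap E1 E2 (G : E1) ∧
      ssm_tp_P (integralClosure S E2) VC = Ideal.span {z} ∧
      ∀ 𝔫 : Ideal (integralClosure S E2), 𝔫.IsMaximal →
        ssm_tp_P (integralClosure S E2) VC ≤ 𝔫 →
        𝔫 = Ideal.span {z, s36cv_iota E1 E2 u} ∧ tq_GenBy z (s36cv_iota E1 E2 u) 𝔫 ∧
        tq_Dom z 𝔫 ∧
        ∃ w : integralClosure S E2, w ∉ 𝔫 ∧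
          algebraMap S (integralClosure S E2) π = w * z ^ (q - 1) := by
  classical
  haveI : FiniteDimensional K E2 := FiniteDimensional.trans K E1 E2
  haveI : CharZero S := (algebraMap S K).charZero
  haveI : IsNoetherianRing (integralClosure S E1) :=
    integralClosure.isNoetherianRing (A := S) (K := K) (L := E1)
  haveI : IsNoetherianRing (integralClosure S E2) :=
    integralClosure.isNoetherianRing (A := S) (K := K) (L := E2)
  haveI : IsIntegrallyClosed (integralClosure S E2) :=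
    integralClosure.isIntegrallyClosedOfFiniteExtension K
  letI : Algebra (integralClosure S E1) (integralClosure S E2) := (s36cv_iotaR E1 E2).toAlgebra
  haveI : IsScalarTower S (integralClosure S E1) (integralClosure S E2) :=
    IsScalarTower.of_algebraMap_eq fun s => ((s36cv_iota E1 E2).commutes s).symm
  set z : integralClosure S E2 := H.W2C (s36cv_iota E1 E2 G) - s36cv_iota E1 E2 G with hzdef
  have hz : (z : E2) = W2 (algebraMap E1 E2 (G : E1)) - algebraMap E1 E2 (G : E1) := rfl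
  haveI := H.QC_isPrime
  have hz0 := H.z_ne_zero z hz
  have hQz : ssm_tp_P (integralClosure S E2) VC = Ideal.span {z} :=
    s36cr_point n b G hb F hF hdeg hFG π H.prime_pi hunr z hz0 (H.hz_dvd z hz F hFG)
      (ssm_tp_P (integralClosure S E2) VA) (ssm_tp_P (integralClosure S E2) VB)
      (ssm_tp_P (integralClosure S E2) VC) H.hvertical (H.hA z hz) (H.hB z hz) (H.hzC z hz)
      (s36cv_uniform _ z (H.h2' z hz))
  refine ⟨z, hz, hQz, fun 𝔫 h𝔫 hle => ?_⟩
  haveI := h𝔫
  exact s36cr_point_local hz0 (ssm_tp_P (integralClosure S E2) VC) hQz (u := u) H.hadd H.hloc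
    H.hu π (q - 1) (H.he z hz) (ssm_tp_P (integralClosure S E2) VA)
    (ssm_tp_P (integralClosure S E2) VB) H.hvertical (H.hA z hz) (H.hB z hz) 𝔫 hle

end Main

end Fermat.Agent.S36
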