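/-
Project S36, model cell [M2], leaf **[C-REG]**, vertical input (helper5).  Prefix `s36cr_`.

`z_G = W₂ G - G` IS A UNIFORMISER OF `VC` AS SOON AS `z_λ = λ₂ - λ` IS ONE (`[THETA]` + `s36v_main`),
for `G = h(λ) + ε` with `h'(λ)` a unit and `W₂ ε - ε ∈ z_λ 𝔪` (e.g. `ε ∈ π · O(VF)`, `q ≥ 3`:
`v_C(π) = q - 1 ≥ 2`).

* `s36cr_unif_of_poly` : in a local ring `R` (`= VC`): `(h(x₂) + ε₂) - (h(x) + ε) = (x₂ - x) w`,
  `w` a unit.
-/
import Mathlib

set_option autoImplicit false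
set_option linter.unusedSectionVars false

namespace Fermat.Agent.S36

open Polynomial IsLocalRing

/-- **the derivative trick**: `h(x₂) - h(x) = (x₂ - x)(h'(x) + (x₂ - x) k)`. -/
theorem s36cr_eval_sub {R : Type*} [CommRing R] (h : R[X]) (x x2 : R) :
    ∃ k : R, h.eval x2 - h.eval x = (x2 - x) * (h.derivative.eval x + (x2 - x) * k) := by
  obtain ⟨k, hk⟩ := Polynomial.binomExpansion h x (x2 - x)
  refine ⟨k, ?_⟩
  have e : x + (x2 - x) = x2 := by ring
  rw [e] at hk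
  rw [hk]; ring

/-- **`z_G` is associated to `z_λ`** in the local ring `VC`. -/
theorem s36cr_unif_of_poly {R : Type*} [CommRing R] [IsLocalRing R] (h : R[X])
    (x x2 ε ε2 : R) (hx : x2 - x ∈ maximalIdeal R)
    (hε : ∃ μ ∈ maximalIdeal R, ε2 - ε = (x2 - x) * μ)
    (hh : IsUnit (h.derivative.eval x)) :
    ∃ w : R, IsUnit w ∧ (h.eval x2 + ε2) - (h.eval x + ε) = (x2 - x) * w := by
  obtain ⟨k, hk⟩ := s36cr_eval_sub h x x2
  obtain ⟨μ, hμ, hμe⟩ := hε
  refine ⟨h.derivative.eval x + ((x2 - x) * k + μ), ?_, ?_⟩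
  · have hm : (x2 - x) * k + μ ∈ maximalIdeal R :=
      Ideal.add_mem _ (Ideal.mul_mem_right _ _ hx) hμ
    by_contra hnu
    have h1 : h.derivative.eval x + ((x2 - x) * k + μ) ∈ maximalIdeal R := by
      rwa [mem_maximalIdeal, mem_nonunits_iff]
    have h2 : h.derivative.eval x ∈ maximalIdeal R := by
      have := Ideal.sub_mem _ h1 hm
      simpa using this
    rw [mem_maximalIdeal, mem_nonunits_iff] at h2
    exact h2 hh
  · have : (h.eval x2 + ε2) - (h.eval x + ε) = (h.eval x2 - h.eval x) + (ε2 - ε) := by ring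
    rw [this, hk, hμe]; ring

end Fermat.Agent.S36
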