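/-
Project S36 (Carayol), model cell [M2], leaf **[C-REG-INST]**, LAYER 2 (helper2).  Prefix `s36cw_`.

THE HYPOTHESES `s36cv_Hyp` OF LAYER 1 (S36/CReg/PointVal.lean) FROM THE VALUATION PACKAGES.

`S` = local ring of the middle chart at an ordinary point (`K = Frac S`), `V0` the Gauss valuation
ring of `K` (`V0 = S_(π)`), `K ⊆ E1 ⊆ E2`; `VF, VV` the two valuation rings of `E1` over `V0`;
`T : s36t3_Third E1 RF q πF zl VA VC` helper29's third-valuation package over (the ring `RF` of)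
`VF`, `DB : s36i_Data E1 RV q VB tB r` helper26's one-valuation data over `VV`; `W2` an involution
of `E2` fixing `S` with `VB = W2(VA)`, `W2(VC) = VC`; `u = Gp(lam)` a polynomial in `lam ∈ E1` with
`Gp'(lam)` a unit of `VF` and `W2 lam - lam = zl`.

* `s36cw_over_of_comap` / `s36cw_comap_of_over` : for a valuation ring `W` of `E ⊇ K`:
  "`W` lies over `(S, π)`" (`ssm_tp_Over`) iff `W ∩ K = V0`;
* `s36cw_hyp3` : the `S`-relative `s36tp_Hyp π ![VA, VB, VC] ![1, 1, q - 1]`;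
* `s36cw_hu_z` : `W2 u - u = zl · (unit of VC)`;
* `s36cw_hyp`  : `s36cv_Hyp`.
-/
import Mathlib
import Fermat.Agent.S36.CReg.PointVal
import Fermat.Agent.S36.Model.ThreeAbs
import Fermat.Agent.S36.CReg.Unif

set_option autoImplicit false
set_option linter.unusedSectionVars false
set_option linter.unusedVariables false
set_option linter.style.haveILetI false

namespace Fermat.Agent.S36

open Fermat.Agent.SS Fermat.Agent.JT3 Polynomial Module IsLocalRing

section Over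

variable {S : Type*} [CommRing S] [IsDomain S] [IsIntegrallyClosed S]
  {K E : Type*} [Field K] [Field E] [Algebra S K] [Algebra K E]
  [Algebra S E] [IsScalarTower S K E] [FaithfulSMul S K] [FaithfulSMul S E]
  {π : S} {V0 : ValuationSubring K}

/-- restriction of valuation subrings: the maximal ideals correspond. -/
theorem s36cw_nonunits_iff {F1 F2 : Type*} [Field F1] [Field F2] [Algebra F1 F2]
    {V1 : ValuationSubring F1} {V2 : ValuationSubring F2}
    (h : ∀ x : F1, algebraMap F1 F2 x ∈ V2 ↔ x ∈ V1) (x : F1) :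
    algebraMap F1 F2 x ∈ V2.nonunits ↔ x ∈ V1.nonunits := by
  rw [ValuationSubring.mem_nonunits_iff_or, ValuationSubring.mem_nonunits_iff_or, ← map_inv₀, h,
    map_eq_zero]

/-- a valuation ring of `E` restricting to `V0` on `K` lies over `(S, π)`. -/
theorem s36cw_over_of_comap (h0 : ssm_tp_Over π V0) (W : ValuationSubring E)
    (c : ∀ x : K, algebraMap K E x ∈ W ↔ x ∈ V0) : ssm_tp_Over π W := by
  refine ⟨fun a => ?_, fun a => ?_⟩
  · rw [IsScalarTower.algebraMap_apply S K E, c]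
    exact h0.le a
  · rw [IsScalarTower.algebraMap_apply S K E, s36cw_nonunits_iff c]
    exact h0.cen a

/-- a valuation ring of `E` over `(S, π)` restricts to `V0 = S_(π)` on `K`. -/
theorem s36cw_comap_of_over (h0 : ssm_tp_Over π V0)
    (h0unif : ∀ x ∈ V0.nonunits, (algebraMap S K π)⁻¹ * x ∈ V0)
    (h0loc : ∀ x ∈ V0, ∃ s a : S, ¬ π ∣ s ∧ algebraMap S K s * x = algebraMap S K a)
    (W : ValuationSubring E) (hW : ssm_tp_Over π W) (hπ0 : algebraMap S E π ≠ 0) (x : K) :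
    algebraMap K E x ∈ W ↔ x ∈ V0 := by
  have key : ∀ y : K, y ∈ V0 → algebraMap K E y ∈ W := by
    intro y hy
    obtain ⟨s, a, hs, hsa⟩ := h0loc y hy
    have hsW : algebraMap S E s ∉ W.nonunits := hW.not_mem_nonunits hs
    have hs0 : algebraMap S E s ≠ 0 := ssm_tp_ne_zero W hsW
    have e : algebraMap K E y = (algebraMap S E s)⁻¹ * algebraMap S E a := by
      rw [IsScalarTower.algebraMap_apply S K E s, IsScalarTower.algebraMap_apply S K E a, ← hsa,
        map_mul, ← mul_assoc, inv_mul_cancel₀, one_mul]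
      rwa [← IsScalarTower.algebraMap_apply S K E]
    rw [e]
    exact W.mul_mem _ _ (hW.inv_mem hs) (hW.le a)
  refine ⟨fun hx => ?_, key x⟩
  by_contra hx0
  have hxinv : x⁻¹ ∈ V0 := (V0.mem_or_inv_mem x).resolve_left hx0
  have hxn : x⁻¹ ∈ V0.nonunits := by
    rw [ValuationSubring.mem_nonunits_iff_or]
    refine Or.inr ?_
    rwa [inv_inv]
  have h1 := key _ (h0unif _ hxn)
  have hπW : algebraMap S E π ∈ W.nonunits := hW.pi_mem
  have hx00 : x ≠ 0 := fun h => hx0 (h ▸ V0.zero_mem)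
  have h2 : algebraMap K E ((algebraMap S K π)⁻¹ * x⁻¹) * algebraMap K E x =
      (algebraMap S E π)⁻¹ := by
    rw [← map_mul, mul_assoc, inv_mul_cancel₀ hx00, mul_one, map_inv₀,
      ← IsScalarTower.algebraMap_apply S K E]
  have h3 : (algebraMap S E π)⁻¹ ∈ W := h2 ▸ W.mul_mem _ _ h1 hx
  have h4 : (algebraMap S E π)⁻¹ * algebraMap S E π ∈ W.nonunits :=
    mul_comm (algebraMap S E π) _ ▸ ssm_tp_nonunits_mul W hπW h3
  rw [inv_mul_cancel₀ hπ0] at h4
  exact ssm_tp_one_not_mem_nonunits W h4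

end Over

section Hyp

variable {S : Type*} [CommRing S] [IsDomain S] [IsLocalRing S] [IsNoetherianRing S]
  [IsIntegrallyClosed S]
  {K E1 E2 : Type*} [Field K] [CharZero K] [Field E1] [Field E2]
  [Algebra K E1] [Algebra E1 E2] [Algebra K E2] [IsScalarTower K E1 E2]
  [FiniteDimensional K E1] [FiniteDimensional E1 E2]
  [Algebra S K] [IsFractionRing S K]
  [Algebra S E1] [IsScalarTower S K E1] [Algebra S E2] [IsScalarTower S K E2]
  [IsScalarTower S E1 E2] [FaithfulSMul S E1] [FaithfulSMul S E2]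
  [Algebra.IsSeparable E1 E2]
  {RF : Type*} [CommRing RF] [IsDomain RF] [IsDiscreteValuationRing RF] [Algebra RF E1]
  [IsFractionRing RF E1] [Algebra RF E2] [IsScalarTower RF E1 E2]
  {RV : Type*} [CommRing RV] [IsDomain RV] [IsDiscreteValuationRing RV] [Algebra RV E1]
  [IsFractionRing RV E1] [Algebra RV E2] [IsScalarTower RV E1 E2]

/-- finite `π`-multiplicity in a noetherian domain. -/
theorem s36cw_fin {π : S} (hπ : Prime π) (a : S) (ha : a ≠ 0) :
    ∃ (k : ℕ) (s : S), ¬ π ∣ s ∧ a = π ^ k * s :=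
  WfDvdMonoid.max_power_factor ha hπ.irreducible

/-- **the `S`-relative [TP3] hypotheses** for `VA, VB, VC`. -/
theorem s36cw_hyp3 {π : S} (hπ : Prime π) {V0 : ValuationSubring K} (h0 : ssm_tp_Over π V0)
    (h0unif : ∀ x ∈ V0.nonunits, (algebraMap S K π)⁻¹ * x ∈ V0)
    (h0loc : ∀ x ∈ V0, ∃ s a : S, ¬ π ∣ s ∧ algebraMap S K s * x = algebraMap S K a)
    {VF VV : ValuationSubring E1}
    (hne : VF ≠ VV)
    (only1 : ∀ W1 : ValuationSubring E1, (∀ x : K, algebraMap K E1 x ∈ W1 ↔ x ∈ V0) →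
      W1 = VF ∨ W1 = VV)
    (cF : ∀ x : K, algebraMap K E1 x ∈ VF ↔ x ∈ V0)
    (cV : ∀ x : K, algebraMap K E1 x ∈ VV ↔ x ∈ V0)
    (hRF : ∀ y : E1, y ∈ VF ↔ y ∈ (algebraMap RF E1).range)
    (hRV : ∀ y : E1, y ∈ VV ↔ y ∈ (algebraMap RV E1).range)
    (πF : RF) (hπF : algebraMap RF E1 πF = algebraMap S E1 π)
    (πV : RV) (hπV : Irreducible πV) (hπV' : algebraMap RV E1 πV = algebraMap S E1 π)
    {q : ℕ} (hq : 2 ≤ q) {zl : E2} {VA VB VC : ValuationSubring E2}
    (T : s36t3_Third E1 RF q πF zl VA VC) {tB : E2} {r : RV} (DB : s36i_Data E1 RV q VB tB r) :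
    s36tp_Hyp π ![VA, VB, VC] ![1, 1, q - 1] := by
  have hπFE : algebraMap RF E2 πF = algebraMap S E2 π := by
    rw [IsScalarTower.algebraMap_apply RF E1 E2, hπF, ← IsScalarTower.algebraMap_apply]
  have hπVE : algebraMap RV E2 πV = algebraMap S E2 π := by
    rw [IsScalarTower.algebraMap_apply RV E1 E2, hπV', ← IsScalarTower.algebraMap_apply]
  have hϖ0 : algebraMap S E2 π ≠ 0 :=
    (map_ne_zero_iff _ (FaithfulSMul.algebraMap_injective S E2)).2 hπ.ne_zero
  have oA : ∀ x : E1, algebraMap E1 E2 x ∈ VA ↔ x ∈ VF := fun x => by rw [T.overA x, hRF]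
  have oC : ∀ x : E1, algebraMap E1 E2 x ∈ VC ↔ x ∈ VF := fun x => by rw [T.overC x, hRF]
  have oB : ∀ x : E1, algebraMap E1 E2 x ∈ VB ↔ x ∈ VV := fun x => by rw [DB.overR x, hRV]
  have c2 : ∀ {W : ValuationSubring E2} {W1 : ValuationSubring E1},
      (∀ x : E1, algebraMap E1 E2 x ∈ W ↔ x ∈ W1) →
      (∀ x : K, algebraMap K E1 x ∈ W1 ↔ x ∈ V0) → ∀ x : K, algebraMap K E2 x ∈ W ↔ x ∈ V0 := by
    intro W W1 h1 h2 x
    rw [IsScalarTower.algebraMap_apply K E1 E2, h1, h2]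
  have hAB : VA ≠ VB := by
    intro h
    apply hne
    ext x
    rw [← oA, ← oB, h]
  have hBC : VB ≠ VC := by
    intro h
    apply hne
    ext x
    rw [← oC, ← oB, h]
  have halg : ∀ z : E2, IsAlgebraic S z := by
    intro z
    haveI : FiniteDimensional K E2 := FiniteDimensional.trans K E1 E2
    exact (IsFractionRing.isAlgebraic_iff S K E2).2 (Algebra.IsAlgebraic.isAlgebraic z)
  refine ⟨hπ, s36cw_fin hπ, halg, s36tp_forall_fin3.2 ⟨?_, ?_, ?_⟩,
    s36tp_forall_fin3.2 ⟨Nat.one_pos, Nat.one_pos, Nat.sub_pos_of_lt hq⟩,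
    s36tp_forall_fin3.2 ⟨?_, ?_, ?_⟩, ?_, ?_⟩
  · exact s36cw_over_of_comap h0 VA (c2 oA cF)
  · exact s36cw_over_of_comap h0 VB (c2 oB cV)
  · exact s36cw_over_of_comap h0 VC (c2 oC cF)
  · intro a ha
    obtain ⟨b, hb, rfl⟩ := (T.unifA a).1 ha
    change (algebraMap S E2 π)⁻¹ * (algebraMap RF E2 πF * b) ^ 1 ∈ VA
    rw [pow_one, hπFE, ← mul_assoc, inv_mul_cancel₀ hϖ0, one_mul]
    exact hb
  · intro a ha
    obtain ⟨b, hb, rfl⟩ := (s36i_unif DB πV hπV a).1 ha
    change (algebraMap S E2 π)⁻¹ * (algebraMap RV E2 πV * b) ^ 1 ∈ VB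
    rw [pow_one, hπVE, ← mul_assoc, inv_mul_cancel₀ hϖ0, one_mul]
    exact hb
  · intro a ha
    have h1 := T.ram_mem a ha
    rw [hπFE] at h1
    exact h1
  · intro i j hij
    fin_cases i <;> fin_cases j
    · rfl
    · exact absurd hij hAB
    · exact absurd hij T.ne.symm
    · exact absurd hij.symm hAB
    · rfl
    · exact absurd hij hBC
    · exact absurd hij.symm T.ne.symm
    · exact absurd hij.symm hBC
    · rfl
  · intro W hW
    have h1 : ∀ x : K, algebraMap K E2 x ∈ W ↔ x ∈ V0 :=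
      s36cw_comap_of_over h0 h0unif h0loc W hW hϖ0
    have h2 : ∀ x : K, algebraMap K E1 x ∈ W.comap (algebraMap E1 E2) ↔ x ∈ V0 := by
      intro x
      rw [ValuationSubring.mem_comap, ← IsScalarTower.algebraMap_apply K E1 E2]
      exact h1 x
    rcases only1 _ h2 with h | h
    · rcases T.only W (s36t3_tw_of_comap hRF h) with h3 | h3
      · exact ⟨0, h3⟩
      · exact ⟨2, h3⟩
    · exact ⟨1, s36i_unique DB W (s36t3_tw_of_comap hRV h)⟩

omit [IsLocalRing S] [IsNoetherianRing S] [CharZero K] [FiniteDimensional K E1]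
  [FiniteDimensional E1 E2] [IsFractionRing S K] [IsScalarTower S K E1] [IsScalarTower S K E2]
  [Algebra.IsSeparable E1 E2] [Algebra K E1] [Algebra K E2] [IsScalarTower K E1 E2] [Algebra S K]
  [FaithfulSMul S E1] [FaithfulSMul S E2] [IsDomain S] [IsIntegrallyClosed S] in
/-- **`W2 u - u = zl · unit`** for `u = Gp(lam)` a polynomial (over `S`) in `lam` with `Gp'(lam)` a
unit, `W2 lam - lam = zl ∈ 𝔪(VC)`. -/
theorem s36cw_hu_z {VC : ValuationSubring E2} (hSC : ∀ s : S, algebraMap S E2 s ∈ VC)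
    (W2 : E2 ≃+* E2) (W2S : ∀ s : S, W2 (algebraMap S E2 s) = algebraMap S E2 s)
    {VF : ValuationSubring E1} (oC : ∀ x : E1, algebraMap E1 E2 x ∈ VC ↔ x ∈ VF)
    (lam : E1) (hlam : lam ∈ VF) (zl : E2) (hzl : zl ∈ VC.nonunits)
    (hW2lam : W2 (algebraMap E1 E2 lam) - algebraMap E1 E2 lam = zl)
    (Gp : S[X]) (hGp' : aeval lam (derivative Gp) ∉ VF.nonunits) :
    ∃ w, w ∈ VC ∧ w ∉ VC.nonunits ∧
      W2 (algebraMap E1 E2 (aeval lam Gp)) - algebraMap E1 E2 (aeval lam Gp) = zl * w := by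
  set x : E2 := algebraMap E1 E2 lam with hx
  have hxC : x ∈ VC := (oC lam).2 hlam
  have hx2 : W2 x = x + zl := by rw [← hW2lam]; ring
  have hx2C : W2 x ∈ VC := by
    rw [hx2]
    exact VC.add_mem _ _ hxC (ssm_tw_nonunits_le VC hzl)
  have hmap : ∀ p : S[X], algebraMap E1 E2 (aeval lam p) = aeval x p := fun p =>
    (Polynomial.aeval_algHom_apply (IsScalarTower.toAlgHom S E1 E2) lam p).symm
  let Walg : E2 →ₐ[S] E2 := { (W2 : E2 →+* E2) with commutes' := W2S }
  have hWp : ∀ p : S[X], W2 (aeval x p) = aeval (W2 x) p := fun p =>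
    (Polynomial.aeval_algHom_apply Walg x p).symm
  let g : S →+* ↥VC := (algebraMap S E2).codRestrict VC.toSubring hSC
  have key : ∀ (p : S[X]) (y : E2) (hy : y ∈ VC),
      (((p.map g).eval ⟨y, hy⟩ : ↥VC) : E2) = aeval y p := by
    intro p y hy
    rw [Polynomial.eval_map, Polynomial.aeval_def]
    exact Polynomial.hom_eval₂ p g VC.subtype ⟨y, hy⟩
  obtain ⟨k, hk⟩ := s36cr_eval_sub (Gp.map g) (⟨x, hxC⟩ : ↥VC) ⟨W2 x, hx2C⟩
  have hk' := congrArg (fun t : ↥VC => (t : E2)) hk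
  push_cast at hk'
  rw [key Gp _ hx2C, key Gp _ hxC, Polynomial.derivative_map, key (derivative Gp) _ hxC] at hk'
  have hzz : W2 x - x = zl := hW2lam
  rw [hzz] at hk'
  refine ⟨aeval x (derivative Gp) + zl * (k : E2), ?_, ?_, ?_⟩
  · rw [← key (derivative Gp) _ hxC]
    exact VC.add_mem _ _ (Subtype.mem _) (VC.mul_mem _ _ (ssm_tw_nonunits_le VC hzl) k.2)
  · intro hw
    have h1 : zl * (k : E2) ∈ VC.nonunits := ssm_tp_nonunits_mul VC hzl k.2
    have h2 : aeval x (derivative Gp) ∈ VC.nonunits := by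
      have e : aeval x (derivative Gp) =
          (aeval x (derivative Gp) + zl * (k : E2)) + -(zl * (k : E2)) := by ring
      rw [e]
      exact ssm_tp_nonunits_add VC hw (ssm_tp_nonunits_neg VC h1)
    rw [← hmap, s36cw_nonunits_iff oC] at h2
    exact hGp' h2
  · rw [hmap, hWp]
    exact hk'

/-- **[C-REG-INST], layer 2**: the hypotheses `s36cv_Hyp` of `s36cv_point` from the valuation
packages of the two levels. -/
theorem s36cw_hyp {π t : S} (hπ : Prime π) {q : ℕ} (hq : q.Prime) (hq3 : 3 ≤ q)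
    (hm : maximalIdeal S = Ideal.span {π, t})
    {V0 : ValuationSubring K} (h0 : ssm_tp_Over π V0)
    (h0unif : ∀ x ∈ V0.nonunits, (algebraMap S K π)⁻¹ * x ∈ V0)
    (h0loc : ∀ x ∈ V0, ∃ s a : S, ¬ π ∣ s ∧ algebraMap S K s * x = algebraMap S K a)
    {VF VV : ValuationSubring E1}
    (hne : VF ≠ VV)
    (only1 : ∀ W1 : ValuationSubring E1, (∀ x : K, algebraMap K E1 x ∈ W1 ↔ x ∈ V0) →
      W1 = VF ∨ W1 = VV)
    (cF : ∀ x : K, algebraMap K E1 x ∈ VF ↔ x ∈ V0)
    (cV : ∀ x : K, algebraMap K E1 x ∈ VV ↔ x ∈ V0)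
    (locF : ∀ x ∈ VF, ∃ y : integralClosure S E1, (y : E1) ∉ VF.nonunits ∧
      IsIntegral S ((y : E1) * x))
    (hRF : ∀ y : E1, y ∈ VF ↔ y ∈ (algebraMap RF E1).range)
    (hRV : ∀ y : E1, y ∈ VV ↔ y ∈ (algebraMap RV E1).range)
    (πF : RF) (hπF : algebraMap RF E1 πF = algebraMap S E1 π)
    (πV : RV) (hπV : Irreducible πV) (hπV' : algebraMap RV E1 πV = algebraMap S E1 π)
    {zl : E2} {VA VB VC : ValuationSubring E2}
    (T : s36t3_Third E1 RF q πF zl VA VC) {tB : E2} {r : RV} (DB : s36i_Data E1 RV q VB tB r)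
    (W2 : E2 ≃+* E2) (hWW : ∀ y, W2 (W2 y) = y)
    (W2S : ∀ s : S, W2 (algebraMap S E2 s) = algebraMap S E2 s)
    (hVB : VB = VA.comap (W2 : E2 →+* E2)) (hVC : VC.comap (W2 : E2 →+* E2) = VC)
    (G u : integralClosure S E1) (a : S) (ha : IsUnit a)
    (hG1 : (G : E1) - 1 ∈ VV.nonunits) (hGu : (G : E1) - (u : E1) ∈ VF.nonunits)
    (hua : (u : E1) ^ q - algebraMap S E1 (a * t) ∈ VF.nonunits)
    (hadj : Algebra.adjoin S {G} = ⊤)
    (lam : E1) (hlam : lam ∈ VF)
    (hW2lam : W2 (algebraMap E1 E2 lam) - algebraMap E1 E2 lam = zl)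
    (Gp : S[X]) (huG : (u : E1) = aeval lam Gp)
    (hGp' : aeval lam (derivative Gp) ∉ VF.nonunits) :
    s36cv_Hyp E1 E2 π t q VF VV VA VB VC W2 G u a zl := by
  have H3 : s36tp_Hyp π ![VA, VB, VC] ![1, 1, q - 1] :=
    s36cw_hyp3 hπ h0 h0unif h0loc hne only1 cF cV hRF hRV πF hπF πV hπV hπV' (by omega) T DB
  have hπFE : algebraMap RF E2 πF = algebraMap S E2 π := by
    rw [IsScalarTower.algebraMap_apply RF E1 E2, hπF, ← IsScalarTower.algebraMap_apply]
  have hϖ0 : algebraMap S E2 π ≠ 0 :=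
    (map_ne_zero_iff _ (FaithfulSMul.algebraMap_injective S E2)).2 hπ.ne_zero
  have oA : ∀ x : E1, algebraMap E1 E2 x ∈ VA ↔ x ∈ VF := fun x => by rw [T.overA x, hRF]
  have oC : ∀ x : E1, algebraMap E1 E2 x ∈ VC ↔ x ∈ VF := fun x => by rw [T.overC x, hRF]
  have oB : ∀ x : E1, algebraMap E1 E2 x ∈ VB ↔ x ∈ VV := fun x => by rw [DB.overR x, hRV]
  have hBn : ∀ y : E2, y ∈ VB.nonunits ↔ W2 y ∈ VA.nonunits := by
    intro y
    rw [hVB, ssm_tw_nonunits_comap]
  have hCm : ∀ y : E2, y ∈ VC ↔ W2 y ∈ VC := by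
    intro y
    conv_lhs => rw [← hVC, ValuationSubring.mem_comap]
    rfl
  refine
    { hq := hq
      hq3 := hq3
      hm := hm
      H3 := H3
      hF := s36cw_over_of_comap h0 VF cF
      hV := s36cw_over_of_comap h0 VV cV
      hFunif := ?_
      oA := oA
      oB := oB
      oC := oC
      locF := locF
      W2S := W2S
      W2VA := ?_
      W2FB := ?_
      W2FC := ?_
      hG1 := hG1
      hGu := hGu
      hua := hua
      ha := ha
      hadj := hadj
      zl_mem := T.z_mem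
      zl_unif := fun x hx => (T.unifC x).1 hx
      zl_ram := ?_
      resC := ?_
      hu_z := ?_ }
  · -- `𝔪(VF) = π VF`
    intro x hx
    have h1 : algebraMap E1 E2 x ∈ VA.nonunits := (s36cw_nonunits_iff oA x).2 hx
    obtain ⟨b, hb, hxb⟩ := (T.unifA _).1 h1
    rw [← oA, map_mul, map_inv₀, ← IsScalarTower.algebraMap_apply S E1 E2, hxb, hπFE,
      ← mul_assoc, inv_mul_cancel₀ hϖ0, one_mul]
    exact hb
  · intro x hx
    exact (hBn _).1 ((s36cw_nonunits_iff oB x).2 hx)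
  · intro x hx
    rw [hBn, hWW]
    exact (s36cw_nonunits_iff oA x).2 hx
  · intro x hx
    exact (hCm _).1 ((oC x).2 hx)
  · obtain ⟨w, hw, hw', hπw⟩ := T.ramC
    refine ⟨w, hw, fun hwn => ?_, by rw [← hπFE]; exact hπw⟩
    have hw0 : w ≠ 0 := by
      rintro rfl
      rw [zero_mul, hπFE] at hπw
      exact hϖ0 hπw
    have h1 : w * w⁻¹ ∈ VC.nonunits := ssm_tp_nonunits_mul VC hwn hw'
    rw [mul_inv_cancel₀ hw0] at h1
    exact ssm_tp_one_not_mem_nonunits VC h1
  · intro x hx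
    obtain ⟨r0, hr0⟩ := T.resC x hx
    refine ⟨algebraMap RF E1 r0, (hRF _).2 ⟨r0, rfl⟩, ?_⟩
    rwa [← IsScalarTower.algebraMap_apply RF E1 E2]
  · rw [huG]
    exact s36cw_hu_z (H3.ovr 2).le W2 W2S oC lam hlam zl T.z_mem hW2lam Gp hGp'

end Hyp

end Fermat.Agent.S36
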