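/-
Project S36 (Carayol), cell [M2], leaf [L3b], LEGENDRE tower, THE WRAPPER (helper29, second seat of
helper2's chain; prefix `s36cz_`).  Target: helper24's `s36asm_cOrd O hπ N' q hq2 hqN' VC 1`
(Model/AsmLegPtsCSplit.lean) = the one-branch clause at the NON-CUSP C-only closed points of the
chart `B₂ = fc_chart O {λ}` of level `N' q q`, from helper2's `s36cy_leg_point`.

* `s36cz_bridge`   : at a C-point `𝔫` of `B₂`: `λ₁ ∈ 𝔫 → λ ∈ 𝔫`, `λ₁ - 1 ∈ 𝔫 → λ - 1 ∈ 𝔫`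
                     (from the Frobenius congruences `bC1`, `cC1` of [I2]);
* `s36cz_legData`  : helper10's `s36tri_LegData` from the third-valuation package `T3`;
* `s36cz_below`    : a C-only closed point of `B₂` lies over a closed point of `B₁` on `VF` only;
* `s36cz_h0`       : the Gauss ring of level `N'` lies over `S_(q)`, `S := fc_locAt E₀ y0`;
* `s36cz_cOrd_of`  : the wrapper.
-/
import Mathlib
import Fermat.Agent.S36.CReg.PointLeg
import Fermat.Agent.S36.Model.AsmLegPtsCSplit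
import Fermat.Agent.S36.Model.BelowInst
import Fermat.Agent.S36.Model.ThreeLegB
import Fermat.Agent.S36.Tri.InstLeg

set_option autoImplicit false
set_option linter.unusedSectionVars false
set_option linter.unusedVariables false
set_option linter.style.haveILetI false

noncomputable section

open ModularCurve IntermediateField IsLocalRing Polynomial
open Fermat.Agent.JT3 Fermat.Agent.SS

namespace Fermat.Agent.S36

section Bridge

variable {A0 : Type*} {F0 : Type*} [CommRing A0] [Field F0] [Algebra A0 F0]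

/-- **the cusp bridge at a C-point**: for a prime `𝔫 ⊇ P_C` of the chart `{x}`:
`x₁ ∈ 𝔫 → x ∈ 𝔫` and `x₁ - 1 ∈ 𝔫 → x - 1 ∈ 𝔫`. -/
theorem s36cz_bridge {q : ℕ} {x x1 x2 : F0} {VA VB VC : ValuationSubring F0}
    (F : s36ig_Facts A0 q x x1 x2 (X - 1) VA VB VC)
    (hle : ∀ b ∈ fc_chart A0 ({x} : Set F0), b ∈ VC)
    (𝔫 : Ideal (fc_chart A0 ({x} : Set F0))) [h𝔫 : 𝔫.IsPrime]
    (hC : ssm_tp_P (fc_chart A0 ({x} : Set F0)) VC ≤ 𝔫) :
    ((⟨x1, F.x1_mem⟩ : fc_chart A0 ({x} : Set F0)) ∈ 𝔫 →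
      (⟨x, fc_x_mem_chart x⟩ : fc_chart A0 ({x} : Set F0)) ∈ 𝔫) ∧
    ((⟨x1, F.x1_mem⟩ : fc_chart A0 ({x} : Set F0)) - 1 ∈ 𝔫 →
      (⟨x, fc_x_mem_chart x⟩ : fc_chart A0 ({x} : Set F0)) - 1 ∈ 𝔫) := by
  constructor
  · intro h1
    have hd : (⟨x1, F.x1_mem⟩ : fc_chart A0 ({x} : Set F0)) -
        (⟨x, fc_x_mem_chart x⟩ : fc_chart A0 ({x} : Set F0)) ^ q ∈ 𝔫 := by
      apply hC
      rw [ssm_tp_mem_P hle]
      exact F.bC1
    have h2 : (⟨x, fc_x_mem_chart x⟩ : fc_chart A0 ({x} : Set F0)) ^ q ∈ 𝔫 := by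
      have := 𝔫.sub_mem h1 hd
      rwa [sub_sub_cancel] at this
    exact h𝔫.mem_of_pow_mem q h2
  · intro h1
    have hd : ((⟨x1, F.x1_mem⟩ : fc_chart A0 ({x} : Set F0)) - 1) -
        ((⟨x, fc_x_mem_chart x⟩ : fc_chart A0 ({x} : Set F0)) - 1) ^ q ∈ 𝔫 := by
      apply hC
      rw [ssm_tp_mem_P hle]
      have h := F.cC1
      simp only [map_sub, aeval_X, map_one] at h
      exact h
    have h2 : ((⟨x, fc_x_mem_chart x⟩ : fc_chart A0 ({x} : Set F0)) - 1) ^ q ∈ 𝔫 := by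
      have := 𝔫.sub_mem h1 hd
      rwa [sub_sub_cancel] at this
    exact h𝔫.mem_of_pow_mem q h2

end Bridge

section Conv

universe v

variable {A0 : Type*} [CommRing A0] {F0 : Type v} [Field F0] [Algebra A0 F0]

/-- helper17's `s36cp_PtOne π (q ^ 2)` is helper3's `s36g_PtOne π q`. -/
theorem s36cz_ptOne_conv {π : A0} {q : ℕ} {B : Subalgebra A0 F0} [IsFractionRing B F0]
    {𝔫 : Ideal B} [𝔫.IsPrime] (h : s36cp_PtOne π (q ^ 2) B 𝔫) : s36g_PtOne π q B 𝔫 := h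

end Conv

section Data

variable (L : Type) [Field L] [NumberField L] [Algebra L (AlgebraicClosure ℚ)]
  (O : ValuationSubring L) [IsDiscreteValuationRing O] {π : O} (hπ : Irreducible π)
variable (N' q : ℕ) [NeZero N'] [NeZero q] [hq : Fact q.Prime] [CharP (ResidueField O) q]
  (hq2 : ¬ 2 ∣ q) (hqN' : ¬ q ∣ N') (ζ : L) (hζ : IsPrimitiveRoot ζ N')

include hζ in
set_option synthInstance.maxHeartbeats 200000 in
set_option maxHeartbeats 1600000 in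
/-- **helper10's `s36tri_LegData` from the third-valuation package**, [NF2-CTX], general `π`;
`z = λ₂ - λ` as an element of the chart `B₂`. -/
theorem s36cz_legData {VC : ValuationSubring ↥(lg_E L (N' * q * q))}
    (T :
      letI := ssm_gi_algebra (ssm_al_E_le L (N' * q) q)
      letI := ssm_gi_algebraV (ssm_al_E_le L (N' * q) q) (ssm_gl_V1 O hπ N' q)
      letI : IsScalarTower ↥(ssm_gl_V1 O hπ N' q) ↥(lg_E L (N' * q)) ↥(lg_E L (N' * q * q)) :=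
        ssm_gi_isScalarTower (ssm_al_E_le L (N' * q) q) (ssm_gl_V1 O hπ N' q)
      s36t3_Third ↥(lg_E L (N' * q)) ↥(ssm_gl_V1 O hπ N' q) q
        (gq_unif π hπ.ne_zero hπ.maximalIdeal_eq (lg_E L (N' * q))
          (ssm_ga_E_le_quotField O (N' * q)))
        (s36i_lam2 L N' q hq2 - lg_lamE (N' * q * q)) (s36i_VA O hπ (N' * q) q) VC) :
    ∃ z : fc_chart ↥O ({lg_lamE (N' * q * q)} : Set ↥(lg_E L (N' * q * q))),
      (z : ↥(lg_E L (N' * q * q))) = s36i_lam2 L N' q hq2 - lg_lamE (N' * q * q) ∧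
      s36tri_LegData O hπ N' q hq2 hqN' VC z := by
  letI := ssm_gi_algebra (ssm_al_E_le L (N' * q) q)
  letI := ssm_gi_algebraV (ssm_al_E_le L (N' * q) q) (ssm_gl_V1 O hπ N' q)
  letI : IsScalarTower ↥(ssm_gl_V1 O hπ N' q) ↥(lg_E L (N' * q)) ↥(lg_E L (N' * q * q)) :=
    ssm_gi_isScalarTower (ssm_al_E_le L (N' * q) q) (ssm_gl_V1 O hπ N' q)
  haveI := ssm_go_isScalarTower O (lg_E L (N' * q * q))
  have hqO : ((q : ℕ) : O) ∈ maximalIdeal O := ssm_fln_q_mem L O q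
  have hq2' : q ≠ 2 := ssm_fl_ne_two q hq2
  have hp := ssm_ll_prime L N' hπ q hqO hq2' hqN' ζ hζ
  obtain ⟨H, -, F, hW, hWB1, hWB2⟩ := s36t3_leg_all_of O hπ N' q hq2 hqN' hp.1 T
  obtain ⟨hsA, hsB, -, -⟩ := s36cp_nf_comp L O hπ N' q hq2 hqN' ζ hζ hWB1 hWB2
  refine ⟨⟨s36i_lam2 L N' q hq2 - lg_lamE (N' * q * q),
    sub_mem F.x2_mem (fc_x_mem_chart _)⟩, rfl, ?_⟩
  refine
    { H := H
      rC := fun y => s36cp_bl_leg_rC O hπ N' q VC T.overC y
      hWC := fun x => ?_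
      hz := (T.unifC _).2 ⟨1, VC.one_mem, (mul_one _).symm⟩
      hzC := fun x hx => (T.unifC x).1 hx
      hram := ?_
      hsmA := hsA
      hsmB := hsB
      hWB := hWB1 }
  · conv_rhs => rw [← hW]
    rw [ValuationSubring.mem_comap]
    rfl
  · obtain ⟨w, hw, hw', hπw⟩ := T.ramC
    refine ⟨w, hw, hw', ?_⟩
    rw [← hπw, s36vh_gauss_pi O hπ (lg_E L (N' * q)) (lg_E L (N' * q * q))
      (ssm_al_E_le L (N' * q) q) (ssm_ga_E_le_quotField O (N' * q * q)),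
      ← IsScalarTower.algebraMap_apply]

end Data

section Main

variable (L : Type) [Field L] [NumberField L] [Algebra L (AlgebraicClosure ℚ)]
  (O : ValuationSubring L) [IsDiscreteValuationRing O]
variable (N' q : ℕ) [NeZero N'] [NeZero q] [hq : Fact q.Prime] [CharP (ResidueField O) q]
  (hq2 : ¬ 2 ∣ q) (hqN' : ¬ q ∣ N') (hπ : Irreducible ((q : ℕ) : ↥O))
  (ζ : L) (hζ : IsPrimitiveRoot ζ N')

include hζ in
set_option synthInstance.maxHeartbeats 400000 in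
set_option maxHeartbeats 3200000 in
/-- **THE POINT BELOW a C-only closed point** of `B₂`: it lies over a closed point of the level-`N' q`
chart on `VF` only. -/
theorem s36cz_below {VC : ValuationSubring ↥(lg_E L (N' * q * q))}
    (T :
      letI := ssm_gi_algebra (ssm_al_E_le L (N' * q) q)
      letI := ssm_gi_algebraV (ssm_al_E_le L (N' * q) q) (ssm_gl_V1 O hπ N' q)
      letI : IsScalarTower ↥(ssm_gl_V1 O hπ N' q) ↥(lg_E L (N' * q)) ↥(lg_E L (N' * q * q)) :=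
        ssm_gi_isScalarTower (ssm_al_E_le L (N' * q) q) (ssm_gl_V1 O hπ N' q)
      s36t3_Third ↥(lg_E L (N' * q)) ↥(ssm_gl_V1 O hπ N' q) q
        (gq_unif ((q : ℕ) : ↥O) hπ.ne_zero hπ.maximalIdeal_eq (lg_E L (N' * q))
          (ssm_ga_E_le_quotField O (N' * q)))
        (s36i_lam2 L N' q hq2 - lg_lamE (N' * q * q)) (s36i_VA O hπ (N' * q) q) VC)
    (𝔫 : Ideal (fc_chart ↥O ({lg_lamE (N' * q * q)} : Set ↥(lg_E L (N' * q * q)))))
    (h𝔫 : 𝔫.IsMaximal)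
    (hC : ssm_tp_P (fc_chart ↥O ({lg_lamE (N' * q * q)} : Set ↥(lg_E L (N' * q * q)))) VC ≤ 𝔫)
    (hB : ¬ ssm_tp_P (fc_chart ↥O ({lg_lamE (N' * q * q)} : Set ↥(lg_E L (N' * q * q))))
      (s36i_VB O hπ N' q hq2 hqN') ≤ 𝔫) :
    (𝔫.comap (s36tn_leg_iota O N' q)).IsMaximal ∧
      ssm_tp_P (fc_chart ↥O ({lg_lamE (N' * q)} : Set ↥(lg_E L (N' * q))))
        (ssm_gl_V1 O hπ N' q) ≤ 𝔫.comap (s36tn_leg_iota O N' q) ∧
      ¬ ssm_tp_P (fc_chart ↥O ({lg_lamE (N' * q)} : Set ↥(lg_E L (N' * q))))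
        (ssm_gl_V2 O hπ N' q hq2 hqN') ≤ 𝔫.comap (s36tn_leg_iota O N' q) := by
  letI := ssm_gi_algebra (ssm_al_E_le L (N' * q) q)
  letI := ssm_gi_algebraV (ssm_al_E_le L (N' * q) q) (ssm_gl_V1 O hπ N' q)
  letI : IsScalarTower ↥(ssm_gl_V1 O hπ N' q) ↥(lg_E L (N' * q)) ↥(lg_E L (N' * q * q)) :=
    ssm_gi_isScalarTower (ssm_al_E_le L (N' * q) q) (ssm_gl_V1 O hπ N' q)
  obtain ⟨z, hz, D⟩ := s36cz_legData L O hπ N' q hq2 hqN' ζ hζ T
  exact (s36cp_bl_leg_below L O hπ N' q hq2 hqN' ζ hζ D.H T.overC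
    (fun 𝔪 𝔪' h h' h1 h2 hc => s36tri_leg_unique L O N' q hq2 hqN' hπ ζ hζ D 𝔪 𝔪' h h' h1 h2 hc)
    𝔫 h𝔫).2.1 hC hB

include hζ in
set_option synthInstance.maxHeartbeats 400000 in
set_option maxHeartbeats 3200000 in
/-- **[L3b], reduction to the point below**: `s36asm_cOrd` from a per-point producer `HPT` which
receives, for a C-only non-cusp closed point `𝔫` of `B₂`: the closed point `y0 = 𝔫 ∩ B'` of the
level-`N'` chart (through `φ2 = ι ∘ φ1`, `φ1` the chart map through `β`), `q ∈ y0`, `λ, λ - 1 ∉ y0`,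
and the closed point `𝔫 ∩ B₁` of the level-`N' q` chart, which lies on `VF` only. -/
theorem s36cz_cOrd_of_point
    (φ1 : fc_chart ↥O ({lg_lamE N'} : Set ↥(lg_E L N')) →+*
      fc_chart ↥O ({lg_lamE (N' * q)} : Set ↥(lg_E L (N' * q))))
    (hφ1 : ∀ b' : fc_chart ↥O ({lg_lamE N'} : Set ↥(lg_E L N')),
      ((φ1 b' : fc_chart ↥O ({lg_lamE (N' * q)} : Set ↥(lg_E L (N' * q)))) : ↥(lg_E L (N' * q))) =
        s36mc_beta L N' q hq2 (b' : ↥(lg_E L N')))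
    (hint1 : φ1.IsIntegral)
    {VC : ValuationSubring ↥(lg_E L (N' * q * q))}
    (T :
      letI := ssm_gi_algebra (ssm_al_E_le L (N' * q) q)
      letI := ssm_gi_algebraV (ssm_al_E_le L (N' * q) q) (ssm_gl_V1 O hπ N' q)
      letI : IsScalarTower ↥(ssm_gl_V1 O hπ N' q) ↥(lg_E L (N' * q)) ↥(lg_E L (N' * q * q)) :=
        ssm_gi_isScalarTower (ssm_al_E_le L (N' * q) q) (ssm_gl_V1 O hπ N' q)
      s36t3_Third ↥(lg_E L (N' * q)) ↥(ssm_gl_V1 O hπ N' q) q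
        (gq_unif ((q : ℕ) : ↥O) hπ.ne_zero hπ.maximalIdeal_eq (lg_E L (N' * q))
          (ssm_ga_E_le_quotField O (N' * q)))
        (s36i_lam2 L N' q hq2 - lg_lamE (N' * q * q)) (s36i_VA O hπ (N' * q) q) VC)
    (HPT : ∀ (𝔫 : Ideal (fc_chart ↥O ({lg_lamE (N' * q * q)} : Set ↥(lg_E L (N' * q * q)))))
      (h𝔫 : 𝔫.IsMaximal),
      ssm_tp_P (fc_chart ↥O ({lg_lamE (N' * q * q)} : Set ↥(lg_E L (N' * q * q)))) VC ≤ 𝔫 →
      (𝔫.comap ((s36tn_leg_iota O N' q).comp φ1)).IsMaximal →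
      ((q : ℕ) : fc_chart ↥O ({lg_lamE N'} : Set ↥(lg_E L N'))) ∈
        𝔫.comap ((s36tn_leg_iota O N' q).comp φ1) →
      (⟨lg_lamE N', fc_x_mem_chart _⟩ : fc_chart ↥O ({lg_lamE N'} : Set ↥(lg_E L N'))) ∉
        𝔫.comap ((s36tn_leg_iota O N' q).comp φ1) →
      (⟨lg_lamE N', fc_x_mem_chart _⟩ : fc_chart ↥O ({lg_lamE N'} : Set ↥(lg_E L N'))) - 1 ∉
        𝔫.comap ((s36tn_leg_iota O N' q).comp φ1) →
      (𝔫.comap (s36tn_leg_iota O N' q)).IsMaximal →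
      ssm_tp_P (fc_chart ↥O ({lg_lamE (N' * q)} : Set ↥(lg_E L (N' * q))))
        (ssm_gl_V1 O hπ N' q) ≤ 𝔫.comap (s36tn_leg_iota O N' q) →
      ¬ ssm_tp_P (fc_chart ↥O ({lg_lamE (N' * q)} : Set ↥(lg_E L (N' * q))))
        (ssm_gl_V2 O hπ N' q hq2 hqN') ≤ 𝔫.comap (s36tn_leg_iota O N' q) →
      (haveI := s36cp_chart_isFractionRing O (N' * q * q)
       haveI := h𝔫.isPrime
       s36cp_PtOne ((q : ℕ) : ↥O) (q ^ 2)
        (fc_chart ↥O ({lg_lamE (N' * q * q)} : Set ↥(lg_E L (N' * q * q)))) 𝔫)) :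
    s36asm_cOrd O hπ N' q hq2 hqN' VC 1 := by
  intro 𝔫 h𝔫 hπ𝔫 hC hA hB hx0 hx1
  haveI h𝔫p : 𝔫.IsPrime := h𝔫.isPrime
  haveI := ssm_go_isScalarTower O (lg_E L (N' * q * q))
  have hx2 : Transcendental L (lg_lamE (L := L) (N' * q * q)) :=
    lgf_lam_transcendental L (N' * q * q) two_ne_zero
  haveI : FiniteDimensional L⟮(lg_lamE (L := L) (N' * q * q))⟯ ↥(lg_E L (N' * q * q)) :=
    lgf_finite L (N' * q * q)
  have hqO : ((q : ℕ) : O) ∈ maximalIdeal O := ssm_fln_q_mem L O q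
  have hq2' : q ≠ 2 := ssm_fl_ne_two q hq2
  have hp := ssm_ll_prime L N' hπ q hqO hq2' hqN' ζ hζ
  obtain ⟨H, -, F, -, -, -⟩ := s36t3_leg_all_of O hπ N' q hq2 hqN' hp.1 T
  have hxA2 : Transcendental ↥O (lg_lamE (L := L) (N' * q * q)) :=
    fc_ff_transcendental (L := L) hx2
  haveI : IsIntegrallyClosed
      (Algebra.adjoin ↥O ({lg_lamE (N' * q * q)} : Set ↥(lg_E L (N' * q * q)))) :=
    fc_ff_isIntegrallyClosed hxA2
  haveI : FaithfulSMul
      (Algebra.adjoin ↥O ({lg_lamE (N' * q * q)} : Set ↥(lg_E L (N' * q * q))))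
      ↥(lg_E L (N' * q * q)) :=
    (faithfulSMul_iff_algebraMap_injective _ _).2 Subtype.val_injective
  have hC2 := ssm_tp_ff_chart (A0 := ↥O) (L := L) (F0 := ↥(lg_E L (N' * q * q))) hπ hx2
  have oC : ssm_tp_Over (algebraMap ↥O (Algebra.adjoin ↥O
      ({lg_lamE (N' * q * q)} : Set ↥(lg_E L (N' * q * q)))) ((q : ℕ) : ↥O)) VC := H.ovr 2
  have hle : ∀ b ∈ fc_chart ↥O ({lg_lamE (N' * q * q)} : Set ↥(lg_E L (N' * q * q))), b ∈ VC :=
    fun b hb => hC2.le oC hb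
  obtain ⟨b0, b1⟩ := s36cz_bridge F hle 𝔫 hC
  have hφ2 : ((s36tn_leg_iota O N' q).comp φ1)
      (⟨lg_lamE N', fc_x_mem_chart _⟩ : fc_chart ↥O ({lg_lamE N'} : Set ↥(lg_E L N'))) =
      ⟨s36t3_lam1 L N' q hq2, F.x1_mem⟩ := by
    apply Subtype.ext
    rw [RingHom.comp_apply, s36tn_leg_iota_coe, hφ1]
    rfl
  obtain ⟨m1, m2, m3⟩ := s36cz_below L O N' q hq2 hqN' hπ ζ hζ T 𝔫 h𝔫 hC hB
  haveI hfr2 := s36cp_chart_isFractionRing O (L := L) (N' * q * q)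
  have key : s36cp_PtOne ((q : ℕ) : ↥O) (q ^ 2)
      (fc_chart ↥O ({lg_lamE (N' * q * q)} : Set ↥(lg_E L (N' * q * q)))) 𝔫 := by
    refine HPT 𝔫 h𝔫 hC ?_ ?_ ?_ ?_ m1 m2 m3
    · exact ssm_cp_comap_isMaximal _
        (RingHom.IsIntegral.trans _ _ hint1 (s36tn_leg_iota_isIntegral O N' q)) 𝔫 h𝔫
    · rw [Ideal.mem_comap, map_natCast]
      have h := hπ𝔫
      rwa [map_natCast] at h
    · intro h
      have h' := Ideal.mem_comap.1 h
      rw [hφ2] at h'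
      exact hx0 (b0 h')
    · intro h
      have h' := Ideal.mem_comap.1 h
      rw [map_sub, map_one, hφ2] at h'
      exact hx1 (b1 h')
  exact Or.inl (s36cz_ptOne_conv key)

end Main

end Fermat.Agent.S36
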