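/-
Project S36 (Carayol), cell [M2], leaf [L3b], LEGENDRE tower (helper29; prefix `s36czs_`):
`s36cy_leg_point` (helper2, CReg/PointLeg.lean) INSTANTIATED at the concrete presentation
`S := fc_locAt (lg_E L N') y0` of the local ring of the level-`N'` chart at a prime `y0 ∋ q`
(the instance block is discharged by `s36czs_isNoetherianRing` …, `h0` by `s36czs_h0`, `hram` by
`lgr_hram`, `hp1` by `ssm_ll_prime`):

* `s36czs_algS1`   : the `E₁`-algebra structure of `S` through `β` (reducible def);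
* `s36czs_towerS1` : the tower `S → E₀ → E₁`;
* `s36czs_leg_point` : the remaining inputs are `φ1`, `λ'` with `λ', λ' - 1 ∉ y0`, helper16's
  chart-level package `H : s36oc_Hyp φ1 y0 S q P_VV P_VF q t' u` + `Gp huG hGp'`, the third-valuation
  package `T`, and the point `𝔫` over `y0` containing `P_C`.
-/
import Mathlib
import Fermat.Agent.S36.CReg.PointLeg
import Fermat.Agent.S36.CReg.PointLegS

set_option autoImplicit false
set_option linter.unusedSectionVars false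
set_option linter.unusedVariables false
set_option linter.style.haveILetI false

noncomputable section

open ModularCurve IntermediateField IsLocalRing Polynomial
open Fermat.Agent.JT3 Fermat.Agent.SS

namespace Fermat.Agent.S36

section NF

variable (L : Type) [Field L] [NumberField L] [Algebra L (AlgebraicClosure ℚ)]
  (O : ValuationSubring L) [IsDiscreteValuationRing O]
variable (N' q : ℕ) [NeZero N'] [NeZero q] [hq : Fact q.Prime] [CharP (ResidueField O) q]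
  (hq2 : ¬ 2 ∣ q) (hqN' : ¬ q ∣ N') (hπ : Irreducible ((q : ℕ) : ↥O))
  (ζ : L) (hζ : IsPrimitiveRoot ζ N')

/-- the `E₁`-algebra structure of `S = fc_locAt (lg_E L N') y0` through `β`. -/
@[reducible] def s36czs_algS1
    (y0 : Ideal ↥(fc_chart ↥O ({lg_lamE N'} : Set ↥(lg_E L N')))) [y0.IsPrime] :
    haveI := s36cp_chart_isFractionRing O N'
    Algebra ↥(fc_locAt ↥(lg_E L N') y0) ↥(lg_E L (N' * q)) :=
  haveI := s36cp_chart_isFractionRing O N'
  letI := s36ch_algBeta L N' q hq2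
  ((algebraMap ↥(lg_E L N') ↥(lg_E L (N' * q))).comp
    (algebraMap ↥(fc_locAt ↥(lg_E L N') y0) ↥(lg_E L N'))).toAlgebra

/-- the tower `S → E₀ → E₁`. -/
theorem s36czs_towerS1
    (y0 : Ideal ↥(fc_chart ↥O ({lg_lamE N'} : Set ↥(lg_E L N')))) [y0.IsPrime] :
    haveI := s36cp_chart_isFractionRing O N'
    letI := s36ch_algBeta L N' q hq2
    letI := s36czs_algS1 L O N' q hq2 y0
    IsScalarTower ↥(fc_locAt ↥(lg_E L N') y0) ↥(lg_E L N') ↥(lg_E L (N' * q)) := by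
  haveI := s36cp_chart_isFractionRing O N'
  letI := s36ch_algBeta L N' q hq2
  letI := s36czs_algS1 L O N' q hq2 y0
  exact IsScalarTower.of_algebraMap_eq fun _ => rfl

include hq2 hqN' hζ in
set_option synthInstance.maxHeartbeats 200000 in
set_option maxHeartbeats 1600000 in
/-- **`s36cy_leg_point` with `S := fc_locAt (lg_E L N') y0`.** -/
theorem s36czs_leg_point
    {y0 : Ideal ↥(fc_chart ↥O ({lg_lamE N'} : Set ↥(lg_E L N')))} [y0.IsPrime]
    (hqy0 : ((q : ℕ) : ↥(fc_chart ↥O ({lg_lamE N'} : Set ↥(lg_E L N')))) ∈ y0)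
    (φ1 : fc_chart ↥O ({lg_lamE N'} : Set ↥(lg_E L N')) →+*
      fc_chart ↥O ({lg_lamE (N' * q)} : Set ↥(lg_E L (N' * q))))
    (lam' : fc_chart ↥O ({lg_lamE N'} : Set ↥(lg_E L N')))
    (hlam : (lam' : ↥(lg_E L N')) = lg_lamE N') (hy0 : lam' ∉ y0) (hy1 : lam' - 1 ∉ y0)
    {t' : fc_chart ↥O ({lg_lamE N'} : Set ↥(lg_E L N'))}
    {u : fc_chart ↥O ({lg_lamE (N' * q)} : Set ↥(lg_E L (N' * q)))} (Gp : (↥O)[X])
    (H :
      haveI := s36cp_chart_isFractionRing O N'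
      letI := s36ch_algBeta L N' q hq2
      s36oc_Hyp φ1 y0 ↥(fc_locAt ↥(lg_E L N') y0) q
        (ssm_tp_P (fc_chart ↥O ({lg_lamE (N' * q)} : Set ↥(lg_E L (N' * q))))
          (ssm_gl_V2 O hπ N' q hq2 hqN'))
        (ssm_tp_P (fc_chart ↥O ({lg_lamE (N' * q)} : Set ↥(lg_E L (N' * q))))
          (ssm_gl_V1 O hπ N' q))
        ((q : ℕ) : fc_chart ↥O ({lg_lamE N'} : Set ↥(lg_E L N'))) t' u)
    (huG : (u : ↥(lg_E L (N' * q))) = aeval (lg_lamE (N' * q)) Gp)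
    (hGp' : aeval (lg_lamE (N' * q)) (derivative Gp) ∉ (ssm_gl_V1 O hπ N' q).nonunits)
    {VC : ValuationSubring ↥(lg_E L (N' * q * q))} {πF : ↥(ssm_gl_V1 O hπ N' q)}
    {zl : ↥(lg_E L (N' * q * q))}
    (hπF : ((πF : ↥(lg_E L (N' * q))) : LaurentSeries L) = ((q : ℕ) : LaurentSeries L))
    (hzl : (zl : LaurentSeries L) = qExpand L q (qExpand L q (lg_lam L)) - lg_lam L)
    (T :
      letI := ssm_gi_algebra (ssm_al_E_le L (N' * q) q)
      letI := ssm_gi_algebraV (ssm_al_E_le L (N' * q) q) (ssm_gl_V1 O hπ N' q)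
      haveI := ssm_gi_isScalarTower (ssm_al_E_le L (N' * q) q) (ssm_gl_V1 O hπ N' q)
      ∀ [FiniteDimensional ↥(lg_E L (N' * q)) ↥(lg_E L (N' * q * q))]
        [Algebra.IsSeparable ↥(lg_E L (N' * q)) ↥(lg_E L (N' * q * q))],
        s36t3_Third ↥(lg_E L (N' * q)) ↥(ssm_gl_V1 O hπ N' q) q πF zl
          (s36i_VA O hπ (N' * q) q) VC)
    (𝔫 : Ideal (fc_chart ↥O ({lg_lamE (N' * q * q)} : Set ↥(lg_E L (N' * q * q)))))
    [𝔫.IsPrime] (h𝔫 : 𝔫.comap ((s36tn_leg_iota O N' q).comp φ1) = y0)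
    (hC𝔫 : ssm_tp_P (fc_chart ↥O ({lg_lamE (N' * q * q)} : Set ↥(lg_E L (N' * q * q)))) VC ≤ 𝔫) :
    haveI := s36cp_chart_isFractionRing O (N' * q * q)
    s36cp_PtOne ((q : ℕ) : O) (q ^ 2)
      (fc_chart ↥O ({lg_lamE (N' * q * q)} : Set ↥(lg_E L (N' * q * q)))) 𝔫 := by
  haveI hfr := s36cp_chart_isFractionRing O N'
  haveI hS1 := s36czs_isNoetherianRing O N' y0
  haveI hS2 := s36czs_isIntegrallyClosed O N' y0
  haveI hS3 := s36czs_isFractionRing O N' y0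
  have hqO : ((q : ℕ) : O) ∈ maximalIdeal O := ssm_fln_q_mem L O q
  have hq2' : q ≠ 2 := ssm_fl_ne_two q hq2
  have hp := ssm_ll_prime L N' hπ q hqO hq2' hqN' ζ hζ
  exact @s36cy_leg_point L _ _ _ O _ N' q _ _ _ _ hq2 hqN' hπ (lgr_hram (N' * q) L).1 hp.1 y0 _ φ1
    ↥(fc_locAt ↥(lg_E L N') y0) _ _ _ _ _ _ _ _ _ _ lam' hlam hy0 hy1
    (s36czs_algS1 L O N' q hq2 y0) (s36czs_towerS1 L O N' q hq2 y0)
    (s36czs_h0 L O N' q hq2 hqN' hπ ζ hζ y0 hqy0) t' u Gp H huG hGp' VC πF zl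
    hπF hzl T 𝔫 _ h𝔫 hC𝔫

end NF

end Fermat.Agent.S36
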