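/-
Project S36 (Carayol), [M2] leaf [L3b] (C-only ordinary points), abstract piece (helper16; prefix
`s36pv_`; Mathlib only): the VERTICAL inputs `hA`, `hB`, `hzC` of `s36cr_point`
(S36/CReg/Point.lean) for `z := W2 G - G`, from the normalisations of the adapted generator `G`
of [ORD-G] (`s36oc_main`: `G ≡ 1 mod P1`, `G ^ q ≡ a t mod P2`, `G` in every maximal ideal over
`P2`) and the `W2`-symmetry of the three vertical primes (`W2 QA = QB`, `W2 QC = QC`,
`W2` fixes the base `S`).

`C1 ⊆ C` (integral), `P1`, `P2` the two vertical primes of `C1` (`P1` = the `β`-isomorphic one,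
under `QB`; `P2` = the inseparable one, under `QA` and `QC`).
-/
import Mathlib

set_option autoImplicit false
set_option linter.unusedSectionVars false
set_option linter.unusedVariables false
set_option linter.style.haveILetI false

namespace Fermat.Agent.S36

section PointVert

variable {C : Type*} [CommRing C]

/-- an element lying in every maximal ideal over `Q` is such that `1 - g` is a unit modulo `Q`. -/
theorem s36pv_unit_mod (Q : Ideal C) (g : C)
    (hg : ∀ M : Ideal C, M.IsMaximal → Q ≤ M → g ∈ M) : ∃ c : C, c * (1 - g) - 1 ∈ Q := by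
  have htop : Ideal.span {1 - g} ⊔ Q = ⊤ := by
    by_contra hne
    obtain ⟨M, hM, hle⟩ := Ideal.exists_le_maximal _ hne
    have h1 : 1 - g ∈ M := hle (Ideal.mem_sup_left (Ideal.subset_span rfl))
    have h2 : g ∈ M := hg M hM (le_trans le_sup_right hle)
    apply hM.ne_top
    rw [Ideal.eq_top_iff_one]
    have : (1 : C) = (1 - g) + g := by ring
    rw [this]
    exact M.add_mem h1 h2
  have h1 : (1 : C) ∈ Ideal.span {1 - g} ⊔ Q := by rw [htop]; trivial
  obtain ⟨y, hy, p, hp, hyp⟩ := Submodule.mem_sup.1 h1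
  obtain ⟨c, rfl⟩ := Ideal.mem_span_singleton'.1 hy
  refine ⟨c, ?_⟩
  have : c * (1 - g) - 1 = -p := by linear_combination hyp
  rw [this]
  exact Q.neg_mem hp

variable {S C1 : Type*} [CommRing S] [CommRing C1] [Algebra S C1] [Algebra C1 C] [Algebra S C]
  [IsScalarTower S C1 C] [Algebra.IsIntegral C1 C]

/-- **The vertical inputs `hA`, `hB`, `hzC` of `s36cr_point`** for `z = W2 G - G`. -/
theorem s36pv_vert (W2 : C ≃+* C) (QA QB QC : Ideal C) [QC.IsPrime]
    (hAB : ∀ x ∈ QB, W2 x ∈ QA) (hBA : ∀ x ∈ QA, W2 x ∈ QB) (hCC : ∀ x ∈ QC, W2 x ∈ QC)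
    (P1 P2 : Ideal C1) (h1B : ∀ x ∈ P1, algebraMap C1 C x ∈ QB)
    (h2A : ∀ x ∈ P2, algebraMap C1 C x ∈ QA) (h2C : ∀ x ∈ P2, algebraMap C1 C x ∈ QC)
    (q : ℕ) (hq : q.Prime) (hqC : (q : C) ∈ QC)
    (G : C1) (s : S) (hW2s : W2 (algebraMap S C s) = algebraMap S C s)
    (hG1 : G - 1 ∈ P1) (hGq : G ^ q - algebraMap S C1 s ∈ P2)
    (hGM : ∀ M : Ideal C1, M.IsMaximal → P2 ≤ M → G ∈ M) :
    (∃ c : C, c * (W2 (algebraMap C1 C G) - algebraMap C1 C G) - 1 ∈ QA) ∧
    (∃ c : C, c * (W2 (algebraMap C1 C G) - algebraMap C1 C G) - 1 ∈ QB) ∧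
    W2 (algebraMap C1 C G) - algebraMap C1 C G ∈ QC := by
  set g : C := algebraMap C1 C G with hg
  -- `g - 1 ∈ QB`, `W2 g - 1 ∈ QA`
  have hg1B : g - 1 ∈ QB := by
    have := h1B _ hG1
    rwa [map_sub, map_one] at this
  have hWg1A : W2 g - 1 ∈ QA := by
    have := hAB _ hg1B
    rwa [map_sub, map_one] at this
  -- `g` lies in every maximal ideal over `QA`
  have hgA : ∀ M : Ideal C, M.IsMaximal → QA ≤ M → g ∈ M := by
    intro M hM hle
    haveI := hM
    have hmax : (M.comap (algebraMap C1 C)).IsMaximal :=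
      Ideal.isMaximal_comap_of_isIntegral_of_isMaximal M
    have hP2 : P2 ≤ M.comap (algebraMap C1 C) := fun x hx => hle (h2A x hx)
    exact hGM _ hmax hP2
  -- `W2 g` lies in every maximal ideal over `QB`
  have hWgB : ∀ M : Ideal C, M.IsMaximal → QB ≤ M → W2 g ∈ M := by
    intro M hM hle
    haveI := hM
    have hmax : (M.comap (W2 : C →+* C)).IsMaximal :=
      Ideal.comap_isMaximal_of_surjective (W2 : C →+* C) W2.surjective
    have hQA : QA ≤ M.comap (W2 : C →+* C) := fun x hx => hle (hBA x hx)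
    exact hgA _ hmax hQA
  refine ⟨?_, ?_, ?_⟩
  · obtain ⟨c, hc⟩ := s36pv_unit_mod QA g hgA
    refine ⟨c, ?_⟩
    have : c * (W2 g - g) - 1 = (c * (1 - g) - 1) + c * (W2 g - 1) := by ring
    rw [this]
    exact QA.add_mem hc (QA.mul_mem_left _ hWg1A)
  · obtain ⟨c, hc⟩ := s36pv_unit_mod QB (W2 g) hWgB
    refine ⟨-c, ?_⟩
    have : -c * (W2 g - g) - 1 = (c * (1 - W2 g) - 1) + c * (g - 1) := by ring
    rw [this]
    exact QB.add_mem hc (QB.mul_mem_left _ hg1B)
  · -- `z ^ q ∈ QC`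
    have hgq : g ^ q - algebraMap S C s ∈ QC := by
      have := h2C _ hGq
      rwa [map_sub, map_pow, ← IsScalarTower.algebraMap_apply] at this
    have hWgq : W2 g ^ q - algebraMap S C s ∈ QC := by
      have := hCC _ hgq
      rwa [map_sub, map_pow, hW2s] at this
    obtain ⟨r, hr⟩ := exists_add_pow_prime_eq hq (W2 g - g) g
    rw [sub_add_cancel] at hr
    have hz : (W2 g - g) ^ q = (W2 g ^ q - algebraMap S C s) - (g ^ q - algebraMap S C s)
        - (q : C) * ((W2 g - g) * g * r) := by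
      linear_combination (-1 : C) * hr
    have hzq : (W2 g - g) ^ q ∈ QC := by
      rw [hz]
      exact QC.sub_mem (QC.sub_mem hWgq hgq) (QC.mul_mem_right _ hqC)
    exact Ideal.IsPrime.mem_of_pow_mem inferInstance q hzq

end PointVert

end Fermat.Agent.S36
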